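import Mathlib
import Fermat.Agent.Geo.PrimeVal

/-!
A noetherian local domain with a prime element `a` such that `R/(a)` is a valuation ring is
factorial.  Powers in a factorial domain.
-/

set_option autoImplicit false

open IsLocalRing

namespace Fermat.Agent.CA

open Fermat.Agent.Geo

/-- Kaplansky + Nakayama. -/
theorem ufd_of_prime {R : Type*} [CommRing R] [IsDomain R] [IsNoetherianRing R] [IsLocalRing R]
    {a : R} (ha : a ∈ maximalIdeal R) (hap : Prime a)
    (hval : ∀ x y : R, ∃ c, a ∣ x - c * y ∨ a ∣ y - c * x) : UniqueFactorizationMonoid R := by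
  classical
  refine UniqueFactorizationMonoid.iff_exists_prime_mem_of_isPrime.mpr fun I hI0 hI => ?_
  by_cases haI : a ∈ I
  · exact ⟨a, haI, hap⟩
  -- a generator modulo `a`
  have hgen : ∀ S : Finset R, ∃ f ∈ insert (0 : R) S, ∀ s ∈ S, ∃ c, a ∣ s - c * f := by
    intro S
    induction S using Finset.induction_on with
    | empty => exact ⟨0, by simp, by simp⟩
    | insert x S hx ih =>
      obtain ⟨f, hf, hfS⟩ := ih
      obtain ⟨c, hc | hc⟩ := hval x f
      · refine ⟨f, ?_, ?_⟩
        · rw [Finset.mem_insert] at hf ⊢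
          rcases hf with h | h
          · exact Or.inl h
          · exact Or.inr (Finset.mem_insert_of_mem h)
        · intro s hs
          rcases Finset.mem_insert.mp hs with rfl | hs
          · exact ⟨c, hc⟩
          · exact hfS s hs
      · refine ⟨x, by simp, ?_⟩
        intro s hs
        rcases Finset.mem_insert.mp hs with rfl | hs
        · exact ⟨1, by simp⟩
        · obtain ⟨d, hd⟩ := hfS s hs
          refine ⟨d * c, ?_⟩
          have : s - d * c * x = (s - d * f) + d * (f - c * x) := by ring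
          rw [this]
          exact dvd_add hd (dvd_mul_of_dvd_right hc _)
  obtain ⟨S, hS⟩ := (isNoetherianRing_iff_ideal_fg R).mp inferInstance I
  obtain ⟨f, hf, hfS⟩ := hgen S
  have hSI : ∀ s ∈ S, s ∈ I := fun s hs => hS ▸ Ideal.subset_span hs
  have hfI : f ∈ I := by
    rcases Finset.mem_insert.mp hf with rfl | h
    · exact I.zero_mem
    · exact hSI f h
  have hle : I ≤ Ideal.span {f} ⊔ maximalIdeal R • I := by
    conv_lhs => rw [← hS]
    rw [Ideal.span_le]
    intro s hs
    obtain ⟨c, d, hd⟩ := hfS s hs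
    have h1 : a * d ∈ I := by
      rw [← hd]
      exact I.sub_mem (hSI s hs) (I.mul_mem_left _ hfI)
    have h2 : d ∈ I := (hI.mem_or_mem h1).resolve_left haI
    have h3 : s = c * f + a * d := by rw [← hd]; ring
    rw [h3]
    refine Submodule.add_mem_sup ?_ ?_
    · exact Ideal.mul_mem_left _ _ (Ideal.mem_span_singleton_self f)
    · exact Submodule.smul_mem_smul ha h2
  have hfg : I.FG := ⟨S, hS⟩
  have h4 : I ≤ Ideal.span {f} := by
    apply Submodule.le_of_le_smul_of_le_jacobson_bot hfg _ hle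
    rw [IsLocalRing.jacobson_eq_maximalIdeal ⊥ bot_ne_top]
  have h5 : I = Ideal.span {f} := le_antisymm h4 (by
    rw [Ideal.span_le, Set.singleton_subset_iff]; exact hfI)
  refine ⟨f, hfI, ?_⟩
  have hf0 : f ≠ 0 := by
    rintro rfl
    apply hI0
    rw [h5, Ideal.span_singleton_eq_bot]
  rw [← Ideal.span_singleton_prime hf0, ← h5]
  exact hI

section Pow

variable {R F : Type*} [CommRing R] [IsDomain R] [UniqueFactorizationMonoid R] [Field F]
  [Algebra R F] [IsFractionRing R F]

theorem pow_dvd_of_primeVal {m : ℕ} {p : R} (hp : Prime p) {a : R} (ha0 : a ≠ 0)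
    (hpa : p ∣ a) {g : F} (hg0 : g ≠ 0)
    (h1 : g ^ m * algebraMap R F a ∈ primeVal F hp)
    (h2 : (g ^ m * algebraMap R F a)⁻¹ ∈ primeVal F hp) : p ^ m ∣ a := by
  have hinj : Function.Injective (algebraMap R F) := IsFractionRing.injective R F
  obtain ⟨r, s, hs, hrs⟩ := IsFractionRing.div_surjective (A := R) g
  have hs0 : s ≠ 0 := nonZeroDivisors.ne_zero hs
  have hsF : algebraMap R F s ≠ 0 := by rwa [Ne, map_eq_zero_iff _ hinj]
  have hr0 : r ≠ 0 := by
    rintro rfl
    rw [map_zero, zero_div] at hrs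
    exact hg0 hrs.symm
  have hrF : algebraMap R F r ≠ 0 := by rwa [Ne, map_eq_zero_iff _ hinj]
  have haF : algebraMap R F a ≠ 0 := by rwa [Ne, map_eq_zero_iff _ hinj]
  obtain ⟨s1, c1, hs1, e1⟩ := (mem_primeVal_iff hp).mp h1
  obtain ⟨s2, c2, hs2, e2⟩ := (mem_primeVal_iff hp).mp h2
  have E1 : s1 * (r ^ m * a) = c1 * s ^ m := by
    apply hinj
    rw [map_mul, map_mul, map_mul, map_pow, map_pow, ← e1, ← hrs, div_pow]
    field_simp
  have E2 : s2 * s ^ m = c2 * (r ^ m * a) := by
    apply hinj
    rw [map_mul, map_mul, map_mul, map_pow, map_pow, ← e2, ← hrs, div_pow]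
    field_simp
  -- valuations
  have hfr : FiniteMultiplicity p r := FiniteMultiplicity.of_prime_left hp hr0
  have hfs : FiniteMultiplicity p s := FiniteMultiplicity.of_prime_left hp hs0
  have hfa : FiniteMultiplicity p a := FiniteMultiplicity.of_prime_left hp ha0
  have hs10 : s1 ≠ 0 := by rintro rfl; exact hs1 (dvd_zero _)
  have hs20 : s2 ≠ 0 := by rintro rfl; exact hs2 (dvd_zero _)
  have hc10 : c1 ≠ 0 := by
    rintro rfl
    rw [zero_mul] at E1
    exact mul_ne_zero hs10 (mul_ne_zero (pow_ne_zero _ hr0) ha0) E1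
  have hc20 : c2 ≠ 0 := by
    rintro rfl
    rw [zero_mul] at E2
    exact mul_ne_zero hs20 (pow_ne_zero _ hs0) E2
  have M1 := congrArg (emultiplicity p) E1
  have M2 := congrArg (emultiplicity p) E2
  rw [emultiplicity_mul hp, emultiplicity_mul hp, emultiplicity_mul hp, emultiplicity_pow hp,
    emultiplicity_pow hp, emultiplicity_eq_zero.mpr hs1, zero_add] at M1
  rw [emultiplicity_mul hp, emultiplicity_mul hp, emultiplicity_mul hp, emultiplicity_pow hp,
    emultiplicity_pow hp, emultiplicity_eq_zero.mpr hs2, zero_add] at M2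
  rw [hfr.emultiplicity_eq_multiplicity, hfs.emultiplicity_eq_multiplicity,
    hfa.emultiplicity_eq_multiplicity,
    (FiniteMultiplicity.of_prime_left hp hc10).emultiplicity_eq_multiplicity] at M1
  rw [hfr.emultiplicity_eq_multiplicity, hfs.emultiplicity_eq_multiplicity,
    hfa.emultiplicity_eq_multiplicity,
    (FiniteMultiplicity.of_prime_left hp hc20).emultiplicity_eq_multiplicity] at M2
  have M1' : m * multiplicity p r + multiplicity p a = multiplicity p c1 + m * multiplicity p s := by
    exact_mod_cast M1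
  have M2' : m * multiplicity p s = multiplicity p c2 + (m * multiplicity p r + multiplicity p a) := by
    exact_mod_cast M2
  have hpos : 1 ≤ multiplicity p a := by
    have := hfa.le_multiplicity_of_pow_dvd (k := 1) (by simpa using hpa)
    exact this
  have hEq : m * multiplicity p s = m * multiplicity p r + multiplicity p a := by omega
  have hle : m ≤ multiplicity p a := by
    have hlt : multiplicity p r < multiplicity p s := by
      by_contra hcon
      push Not at hcon
      have := Nat.mul_le_mul_left m hcon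
      omega
    have := Nat.mul_le_mul_left m hlt
    rw [Nat.succ_eq_add_one, mul_add, mul_one] at this
    omega
  exact pow_dvd_of_le_emultiplicity (by
    rw [hfa.emultiplicity_eq_multiplicity]
    exact_mod_cast hle)

theorem exists_unit_mul_pow_aux {m : ℕ} (hm : 0 < m) (a : R) (ha0 : a ≠ 0)
    (h : ∀ (p : R) (hp : Prime p), ∃ g : F, g ≠ 0 ∧ g ^ m * algebraMap R F a ∈ primeVal F hp ∧
      (g ^ m * algebraMap R F a)⁻¹ ∈ primeVal F hp) :
    ∃ (u : Rˣ) (g : R), g ≠ 0 ∧ a = u * g ^ m := by
  revert ha0 h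
  refine (wellFounded_dvdNotUnit (α := R)).induction
    (C := fun a => a ≠ 0 → (∀ (p : R) (hp : Prime p), ∃ g : F, g ≠ 0 ∧
      g ^ m * algebraMap R F a ∈ primeVal F hp ∧
      (g ^ m * algebraMap R F a)⁻¹ ∈ primeVal F hp) → ∃ (u : Rˣ) (g : R), g ≠ 0 ∧ a = u * g ^ m) a ?_
  intro a ih ha0 h
  by_cases hau : IsUnit a
  · exact ⟨hau.unit, 1, one_ne_zero, by simp⟩
  · · obtain ⟨p, hpi, hpa⟩ := WfDvdMonoid.exists_irreducible_factor hau ha0
      have hp : Prime p := hpi.prime
      obtain ⟨g, hg0, h1, h2⟩ := h p hp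
      obtain ⟨b, hb⟩ := pow_dvd_of_primeVal hp ha0 hpa hg0 h1 h2
      have hb0 : b ≠ 0 := by rintro rfl; rw [mul_zero] at hb; exact ha0 hb
      have hpF : algebraMap R F p ≠ 0 := by
        rw [Ne, map_eq_zero_iff _ (IsFractionRing.injective R F)]
        exact hp.ne_zero
      have hpm : ¬ IsUnit (p ^ m) := by
        rw [isUnit_pow_iff hm.ne']
        exact hp.not_isUnit
      obtain ⟨u, c, hc0, hc⟩ := ih b ⟨hb0, p ^ m, hpm, by rw [hb, mul_comm]⟩ hb0 (by
        intro p' hp'
        obtain ⟨g', hg'0, h1', h2'⟩ := h p' hp'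
        have e : (g' * algebraMap R F p) ^ m * algebraMap R F b =
            g' ^ m * algebraMap R F a := by
          rw [hb, map_mul, map_pow, mul_pow]
          ring
        exact ⟨g' * algebraMap R F p, mul_ne_zero hg'0 hpF, by rw [e]; exact h1',
          by rw [e]; exact h2'⟩)
      exact ⟨u, p * c, mul_ne_zero hp.ne_zero hc0, by rw [hb, hc, mul_pow]; ring⟩

/-- An element all of whose `p`-adic valuations are divisible by `m` is a unit times an `m`-th
power. -/
theorem exists_unit_mul_pow {m : ℕ} (hm : 0 < m) (x : F) (hx0 : x ≠ 0)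
    (h : ∀ (p : R) (hp : Prime p), ∃ g : F, g ≠ 0 ∧ g ^ m * x ∈ primeVal F hp ∧
      (g ^ m * x)⁻¹ ∈ primeVal F hp) :
    ∃ (u : Rˣ) (g : F), g ≠ 0 ∧ x = algebraMap R F u * g ^ m := by
  have hinj : Function.Injective (algebraMap R F) := IsFractionRing.injective R F
  obtain ⟨r, s, hs, hrs⟩ := IsFractionRing.div_surjective (A := R) x
  have hs0 : s ≠ 0 := nonZeroDivisors.ne_zero hs
  have hsF : algebraMap R F s ≠ 0 := by rwa [Ne, map_eq_zero_iff _ hinj]
  have hr0 : r ≠ 0 := by
    rintro rfl
    rw [map_zero, zero_div] at hrs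
    exact hx0 hrs.symm
  have e : algebraMap R F (r * s ^ (m - 1)) = algebraMap R F s ^ m * x := by
    rw [map_mul, map_pow, ← hrs]
    obtain ⟨n, rfl⟩ : ∃ n, m = n + 1 := ⟨m - 1, by omega⟩
    rw [Nat.add_sub_cancel, pow_succ]
    field_simp
  obtain ⟨u, g, hg0, hg⟩ := exists_unit_mul_pow_aux (F := F) hm (r * s ^ (m - 1))
    (mul_ne_zero hr0 (pow_ne_zero _ hs0)) (by
      intro p hp
      obtain ⟨g, hg0, h1, h2⟩ := h p hp
      have e2 : (g / algebraMap R F s) ^ m * algebraMap R F (r * s ^ (m - 1)) = g ^ m * x := by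
        rw [e, div_pow]
        field_simp
      exact ⟨g / algebraMap R F s, div_ne_zero hg0 hsF, by rw [e2]; exact h1,
        by rw [e2]; exact h2⟩)
  have hgF : algebraMap R F g ≠ 0 := by rwa [Ne, map_eq_zero_iff _ hinj]
  refine ⟨u, algebraMap R F g / algebraMap R F s, div_ne_zero hgF hsF, ?_⟩
  rw [hg, map_mul, map_pow] at e
  rw [div_pow]
  field_simp
  rw [e]
  ring

end Pow

end Fermat.Agent.CA
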