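import Mathlib
import Fermat.Agent.CA.Ufd
import Fermat.Agent.LG.Core

/-!
Local rings at the closed points of a normal model.
-/

set_option autoImplicit false
set_option linter.unusedSectionVars false
set_option linter.style.haveILetI false
set_option linter.unusedVariables false

open IsLocalRing Polynomial

universe u

namespace Fermat.Agent.CA

open Fermat.Agent.Geo Fermat.Agent.LG

section Basic

variable {O F : Type u} [CommRing O] [Field F] [Algebra O F] {C : Subalgebra O F}

/-- The local ring at `y`, as a subring of `F`. -/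
def locS (y : Ideal C) [hy : y.IsPrime] : Subring F where
  carrier := {x | ∃ d : C, d ∉ y ∧ (d : F) * x ∈ C}
  mul_mem' := by
    rintro a b ⟨d, hd, h1⟩ ⟨e, he, h2⟩
    refine ⟨d * e, fun h => (hy.mem_or_mem h).elim hd he, ?_⟩
    have : ((d * e : C) : F) * (a * b) = (d * a) * (e * b) := by
      push_cast; ring
    rw [this]
    exact mul_mem h1 h2
  one_mem' := ⟨1, fun h => hy.ne_top ((Ideal.eq_top_iff_one _).mpr h), by simp⟩
  add_mem' := by
    rintro a b ⟨d, hd, h1⟩ ⟨e, he, h2⟩
    refine ⟨d * e, fun h => (hy.mem_or_mem h).elim hd he, ?_⟩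
    have : ((d * e : C) : F) * (a + b) = e * (d * a) + d * (e * b) := by
      push_cast; ring
    rw [this]
    exact add_mem (mul_mem e.2 h1) (mul_mem d.2 h2)
  zero_mem' := ⟨1, fun h => hy.ne_top ((Ideal.eq_top_iff_one _).mpr h), by simp⟩
  neg_mem' := by
    rintro a ⟨d, hd, h1⟩
    exact ⟨d, hd, by rw [mul_neg]; exact neg_mem h1⟩

variable {y : Ideal C} [hy : y.IsPrime]

theorem mem_locS {x : F} : x ∈ locS y ↔ ∃ d : C, d ∉ y ∧ (d : F) * x ∈ C := Iff.rfl

theorem one_notMem_y : (1 : C) ∉ y := fun h => hy.ne_top ((Ideal.eq_top_iff_one _).mpr h)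

theorem ne_zero_of_notMem {d : C} (hd : d ∉ y) : (d : F) ≠ 0 := by
  intro h
  apply hd
  have : d = 0 := Subtype.ext h
  rw [this]; exact y.zero_mem

theorem mem_locS_of_mem {x : F} (hx : x ∈ C) : x ∈ locS y :=
  ⟨1, one_notMem_y, by simpa using hx⟩

theorem inv_mem_locS {d : C} (hd : d ∉ y) : (d : F)⁻¹ ∈ locS y :=
  ⟨d, hd, by rw [mul_inv_cancel₀ (ne_zero_of_notMem hd)]; exact one_mem _⟩

/-- `x` vanishes at `y`. -/
def locM (y : Ideal C) (x : F) : Prop := ∃ d : C, d ∉ y ∧ ∃ c ∈ y, (d : F) * x = (c : C)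

theorem locM.mem {x : F} (h : locM y x) : x ∈ locS y := by
  obtain ⟨d, hd, c, hc, h⟩ := h
  exact ⟨d, hd, by rw [h]; exact c.2⟩

theorem locM_of_mem {c : C} (hc : c ∈ y) : locM y (c : F) := ⟨1, one_notMem_y, c, hc, by simp⟩

theorem locM_coe_iff {c : C} : locM y (c : F) ↔ c ∈ y := by
  refine ⟨?_, locM_of_mem⟩
  rintro ⟨d, hd, c', hc', h⟩
  have : d * c = c' := Subtype.ext h
  rw [← this] at hc'
  exact (hy.mem_or_mem hc').resolve_left hd

theorem locM_iff {x : F} {d : C} (hd : d ∉ y) {c : C} (h : (d : F) * x = c) :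
    locM y x ↔ c ∈ y := by
  refine ⟨?_, fun hc => ⟨d, hd, c, hc, h⟩⟩
  rintro ⟨d', hd', c', hc', h'⟩
  have e : d' * c = d * c' := by
    apply Subtype.ext
    push_cast
    rw [← h, ← h']; ring
  have : d' * c ∈ y := by rw [e]; exact y.mul_mem_left _ hc'
  exact (hy.mem_or_mem this).resolve_left hd'

theorem locM.add {a b : F} (ha : locM y a) (hb : locM y b) : locM y (a + b) := by
  obtain ⟨d, hd, c, hc, h⟩ := ha
  obtain ⟨e, he, c', hc', h'⟩ := hb
  refine ⟨d * e, fun h => (hy.mem_or_mem h).elim hd he, e * c + d * c', y.add_mem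
    (y.mul_mem_left _ hc) (y.mul_mem_left _ hc'), ?_⟩
  push_cast
  rw [← h, ← h']; ring

theorem locM.neg {a : F} (ha : locM y a) : locM y (-a) := by
  obtain ⟨d, hd, c, hc, h⟩ := ha
  exact ⟨d, hd, -c, y.neg_mem hc, by push_cast; rw [← h]; ring⟩

theorem locM.sub {a b : F} (ha : locM y a) (hb : locM y b) : locM y (a - b) := by
  rw [sub_eq_add_neg]; exact ha.add hb.neg

theorem locM_zero : locM y (0 : F) := ⟨1, one_notMem_y, 0, y.zero_mem, by simp⟩

theorem locM.mul_left {a b : F} (ha : a ∈ locS y) (hb : locM y b) : locM y (a * b) := by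
  obtain ⟨d, hd, h⟩ := ha
  obtain ⟨e, he, c', hc', h'⟩ := hb
  refine ⟨d * e, fun h => (hy.mem_or_mem h).elim hd he, ⟨_, h⟩ * c', y.mul_mem_left _ hc', ?_⟩
  push_cast
  rw [← h']; ring

theorem locM.mul_right {a b : F} (ha : locM y a) (hb : b ∈ locS y) : locM y (a * b) := by
  rw [mul_comm]; exact locM.mul_left hb ha

theorem not_locM_one : ¬ locM y (1 : F) := by
  intro h
  exact one_notMem_y (locM_coe_iff.mp (show locM y ((1 : C) : F) by simpa using h))

theorem inv_mem_of_not_locM {x : F} (hx : x ∈ locS y) (h : ¬ locM y x) : x⁻¹ ∈ locS y := by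
  obtain ⟨d, hd, h1⟩ := hx
  have h2 : (⟨_, h1⟩ : C) ∉ y := fun h3 => h ⟨d, hd, _, h3, rfl⟩
  refine ⟨⟨_, h1⟩, h2, ?_⟩
  have h0 := ne_zero_of_notMem h2
  have hx0 : x ≠ 0 := by rintro rfl; simp at h0
  change (d : F) * x * x⁻¹ ∈ C
  rw [mul_assoc, mul_inv_cancel₀ hx0, mul_one]
  exact d.2

theorem not_locM_inv {x : F} (h : ¬ locM y x) (hx : x ∈ locS y) : ¬ locM y x⁻¹ := by
  intro h1
  have hx0 : x ≠ 0 := by rintro rfl; exact h locM_zero
  have := h1.mul_left hx
  rw [mul_inv_cancel₀ hx0] at this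
  exact not_locM_one this

theorem locM.of_mul {a b : F} (ha : a ∈ locS y) (h : locM y (a * b)) (hb : b ∈ locS y) :
    locM y a ∨ locM y b := by
  by_contra hcon
  push Not at hcon
  have h1 := inv_mem_of_not_locM ha hcon.1
  have ha0 : a ≠ 0 := by rintro rfl; exact hcon.1 locM_zero
  have := h.mul_left h1
  rw [← mul_assoc, inv_mul_cancel₀ ha0, one_mul] at this
  exact hcon.2 this

theorem locM.of_pow {a : F} (ha : a ∈ locS y) {n : ℕ} (h : locM y (a ^ n)) : locM y a := by
  induction n with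
  | zero => rw [pow_zero] at h; exact absurd h not_locM_one
  | succ n ih =>
    rw [pow_succ] at h
    rcases locM.of_mul (pow_mem ha n) h ha with h | h
    · exact ih h
    · exact h

/-- `y` is determined by congruences: units. -/
theorem not_locM_of_sub {a b : F} (h : locM y (a - b)) (ha : ¬ locM y a) : ¬ locM y b := fun hb =>
  ha (by have := h.add hb; rwa [sub_add_cancel] at this)

instance : Algebra C (locS y) :=
  RingHom.toAlgebra
    { toFun := fun c => ⟨c, mem_locS_of_mem c.2⟩
      map_one' := rfl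
      map_mul' := fun _ _ => rfl
      map_zero' := rfl
      map_add' := fun _ _ => rfl }

theorem coe_algebraMap_locS (c : C) : ((algebraMap C (locS y) c : locS y) : F) = c := rfl

instance : IsLocalization.AtPrime (locS y) y where
  map_units := by
    rintro ⟨d, hd⟩
    have hd' : d ∉ y := hd
    refine ⟨⟨⟨d, mem_locS_of_mem d.2⟩, ⟨_, inv_mem_locS hd'⟩, ?_, ?_⟩, rfl⟩
    · apply Subtype.ext
      exact mul_inv_cancel₀ (ne_zero_of_notMem hd')
    · apply Subtype.ext
      exact inv_mul_cancel₀ (ne_zero_of_notMem hd')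
  surj := by
    rintro ⟨x, d, hd, h⟩
    exact ⟨(⟨_, h⟩, ⟨d, hd⟩), Subtype.ext (mul_comm _ _)⟩
  exists_of_eq := by
    intro a b h
    have h1 : a = b := Subtype.ext (congrArg (fun z : locS y => (z : F)) h)
    exact ⟨1, by rw [h1]⟩

theorem isLocalRing_locS : IsLocalRing (locS y) := IsLocalization.AtPrime.isLocalRing (locS y) y

theorem isNoetherianRing_locS [IsNoetherianRing C] : IsNoetherianRing (locS y) :=
  IsLocalization.isNoetherianRing y.primeCompl (locS y) inferInstance

theorem mem_maximalIdeal_locS [IsLocalRing (locS y)] {x : locS y} :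
    x ∈ maximalIdeal (locS y) ↔ locM y (x : F) := by
  constructor
  · intro h
    by_contra hcon
    have h1 := inv_mem_of_not_locM x.2 hcon
    have hx0 : (x : F) ≠ 0 := fun h0 => hcon (by rw [h0]; exact locM_zero)
    rw [mem_maximalIdeal, mem_nonunits_iff] at h
    exact h ⟨⟨x, ⟨_, h1⟩, Subtype.ext (mul_inv_cancel₀ hx0),
      Subtype.ext (inv_mul_cancel₀ hx0)⟩, rfl⟩
  · intro h
    rw [mem_maximalIdeal, mem_nonunits_iff]
    rintro ⟨v, hv⟩
    have h1 : ((x : F)) * (v⁻¹ : (locS y)ˣ).val.val = 1 := by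
      have := congrArg Subtype.val (Units.mul_inv v)
      rw [hv] at this
      exact this
    have h2 := h.mul_right (v⁻¹ : (locS y)ˣ).val.2
    rw [h1] at h2
    exact not_locM_one h2

end Basic

section Noeth

variable {O K F : Type u} [CommRing O] [IsDomain O] [IsDiscreteValuationRing O]
  [Field K] [Field F] [Algebra O K] [Algebra O F] [Algebra K F] [IsScalarTower O K F]
  {t : K} {π : O} [FiniteDimensional K F] [Algebra.IsSeparable K F]

theorem isNoetherianRing_chart (ht : IsParam O t) :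
    IsNoetherianRing (chart O (algebraMap K F t)) := by
  letI := polyAlg O t
  haveI := ht.isFractionRing
  letI : Algebra O[X] F := polyAlg O (algebraMap K F t)
  haveI t1 : IsScalarTower O[X] K F := IsScalarTower.of_algebraMap_eq fun a =>
    aeval_algebraMap_apply F t a
  have h1 : IsNoetherian O[X] (integralClosure O[X] F) :=
    IsIntegralClosure.isNoetherian O[X] K F (integralClosure O[X] F)
  have h2 : IsNoetherianRing (integralClosure O[X] F) :=
    isNoetherian_of_tower O[X] h1
  let j : integralClosure O[X] F →+* chart O (algebraMap K F t) :=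
    { toFun := fun e => ⟨e, e.2⟩
      map_one' := rfl
      map_mul' := fun _ _ => rfl
      map_zero' := rfl
      map_add' := fun _ _ => rfl }
  exact isNoetherianRing_of_surjective _ _ j fun e => ⟨⟨e, e.2⟩, rfl⟩

theorem exists_chart_div (ht : IsParam O t) (x : F) :
    ∃ a ∈ chart O (algebraMap K F t), ∃ b ∈ chart O (algebraMap K F t), b ≠ 0 ∧ b * x = a := by
  letI := polyAlg O t
  haveI := ht.isFractionRing
  letI : Algebra O[X] F := polyAlg O (algebraMap K F t)
  haveI t1 : IsScalarTower O[X] K F := IsScalarTower.of_algebraMap_eq fun a =>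
    aeval_algebraMap_apply F t a
  obtain ⟨a, ha0, ha⟩ := exists_smul_isIntegral (A := O[X]) K x
  refine ⟨a • x, ha, algebraMap O[X] F a, aeval_mem_chart _ a, ?_, ?_⟩
  · rw [IsScalarTower.algebraMap_apply O[X] K F, Ne, map_eq_zero_iff _ (algebraMap K F).injective,
      map_eq_zero_iff _ (IsFractionRing.injective O[X] K)]
    exact ha0
  · rw [Algebra.smul_def]

theorem isFractionRing_locS (ht : IsParam O t) {y : Ideal (chart O (algebraMap K F t))}
    [y.IsPrime] : IsFractionRing (locS y) F := by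
  refine IsFractionRing.of_field (locS y) F fun x => ?_
  obtain ⟨a, ha, b, hb, hb0, h⟩ := exists_chart_div ht x
  refine ⟨⟨a, mem_locS_of_mem ha⟩, ⟨b, mem_locS_of_mem hb⟩, ?_⟩
  change x = a / b
  rw [eq_div_iff hb0, ← h, mul_comm]

end Noeth

end Fermat.Agent.CA
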