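import Mathlib
import Fermat.Agent.CA.Point

/-!
Factoriality of the local rings; local `m`-th powers.
-/

set_option autoImplicit false
set_option linter.unusedSectionVars false
set_option linter.style.haveILetI false
set_option linter.unusedVariables false

open IsLocalRing Polynomial

universe u

namespace Fermat.Agent.CA

open Fermat.Agent.Geo Fermat.Agent.LG

section Poly

variable {O : Type u} [CommRing O] [IsDomain O] [IsDiscreteValuationRing O] {π : O}

theorem isMaximal_of_mem (hπ : Prime π) (I : Ideal O[X]) [hI : I.IsPrime] (h1 : C π ∈ I)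
    {B : O[X]} (hB : ¬ C π ∣ B) (hBI : B ∈ I) : I.IsMaximal := by
  let ρ : O[X] →+* (ResidueField O)[X] := mapRingHom (residue O)
  have hρ : Function.Surjective ρ := map_surjective _ residue_surjective
  have hmax : maximalIdeal O = Ideal.span {π} :=
    (IsDiscreteValuationRing.irreducible_iff_uniformizer π).mp hπ.irreducible
  have hker : RingHom.ker ρ ≤ I := by
    intro x hx
    rw [RingHom.mem_ker] at hx
    have h2 : C π ∣ x := by
      rw [C_dvd_iff_dvd_coeff]
      intro i
      have h3 : residue O (x.coeff i) = 0 := by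
        have := congrArg (fun p => p.coeff i) hx
        simpa [ρ] using this
      rw [residue_eq_zero_iff, hmax, Ideal.mem_span_singleton] at h3
      exact h3
    obtain ⟨w, rfl⟩ := h2
    exact I.mul_mem_right _ h1
  have hprime : (I.map ρ).IsPrime := Ideal.map_isPrime_of_surjective hρ hker
  have hne : I.map ρ ≠ ⊥ := by
    intro hbot
    have h2 : ρ B ∈ I.map ρ := Ideal.mem_map_of_mem _ hBI
    rw [hbot, Ideal.mem_bot] at h2
    apply hB
    rw [C_dvd_iff_dvd_coeff]
    intro i
    have h3 : residue O (B.coeff i) = 0 := by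
      have := congrArg (fun p => p.coeff i) h2
      simpa [ρ] using this
    rw [residue_eq_zero_iff, hmax, Ideal.mem_span_singleton] at h3
    exact h3
  have hm : (I.map ρ).IsMaximal := hprime.isMaximal hne
  have hco : (I.map ρ).comap ρ = I := by
    rw [Ideal.comap_map_of_surjective _ hρ]
    exact sup_eq_left.mpr hker
  rw [← hco]
  exact Ideal.comap_isMaximal_of_surjective ρ hρ

end Poly

section Loc

variable {O K F : Type u} [CommRing O] [IsDomain O] [IsDiscreteValuationRing O]
  [Field K] [Field F] [Algebra O K] [Algebra O F] [Algebra K F] [IsScalarTower O K F]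
  {t : K} {π : O} [FiniteDimensional K F] [Algebra.IsSeparable K F]

/-- The structural map of the chart. -/
noncomputable def chartHom (u : F) : O[X] →+* chart O u where
  toFun p := ⟨aeval u p, aeval_mem_chart u p⟩
  map_one' := Subtype.ext (map_one _)
  map_mul' a b := Subtype.ext (map_mul _ a b)
  map_zero' := Subtype.ext (map_zero _)
  map_add' a b := Subtype.ext (map_add _ a b)

theorem chartHom_isIntegral (u : F) : (chartHom (O := O) u).IsIntegral := by
  rintro ⟨x, p, hp, hx⟩
  refine ⟨p, hp, ?_⟩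
  apply Subtype.ext
  have : ((chart O u).val.toRingHom).comp (chartHom u) =
      ((aeval u : O[X] →ₐ[O] F) : O[X] →+* F) := RingHom.ext fun a => rfl
  change (chart O u).val.toRingHom (p.eval₂ (chartHom u) ⟨x, _⟩) = 0
  rw [hom_eval₂, this]
  exact hx

theorem aeval_inv_mem_gauss (ht : IsParam O t) (hπ : Prime π) {B : O[X]} (hB : ¬ C π ∣ B) :
    (aeval t B)⁻¹ ∈ gaussVal ht hπ := by
  letI := polyAlg O t
  haveI := ht.isFractionRing
  exact inv_mem_primeVal (F := K) (prime_C_iff.mpr hπ) hB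

theorem aeval_mem_gauss (ht : IsParam O t) (hπ : Prime π) (B : O[X]) :
    aeval t B ∈ gaussVal ht hπ := by
  letI := polyAlg O t
  haveI := ht.isFractionRing
  exact algebraMap_mem_primeVal (F := K) (prime_C_iff.mpr hπ) B

theorem nonunits_add {F : Type*} [Field F] {P : ValuationSubring F} {x y : F}
    (hx : x ∈ P.nonunits) (hy : y ∈ P.nonunits) : x + y ∈ P.nonunits := by
  rw [ValuationSubring.mem_nonunits_iff] at *
  exact Valuation.map_add_lt _ hx hy

theorem nonunits_neg {F : Type*} [Field F] {P : ValuationSubring F} {x : F}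
    (hx : x ∈ P.nonunits) : -x ∈ P.nonunits := by
  rw [ValuationSubring.mem_nonunits_iff] at *
  rwa [Valuation.map_neg]

theorem nonunits_sub {F : Type*} [Field F] {P : ValuationSubring F} {x y : F}
    (hx : x ∈ P.nonunits) (hy : y ∈ P.nonunits) : x - y ∈ P.nonunits := by
  rw [sub_eq_add_neg]; exact nonunits_add hx (nonunits_neg hy)

theorem nonunits_pow_sub {F : Type*} [Field F] {P : ValuationSubring F} {a b : F} (m : ℕ)
    (ha : a ∈ P) (hb : b ∈ P) (hab : a - b ∈ P.nonunits) : a ^ m - b ^ m ∈ P.nonunits := by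
  rw [← (Commute.all a b).geom_sum₂_mul m]
  refine mul_mem_nonunits (sum_mem fun i _ => ?_) hab
  exact P.mul_mem _ _ (pow_mem ha _) (pow_mem hb _)

theorem notMem_nonunits_of_inv {F : Type*} [Field F] {P : ValuationSubring F} {x : F}
    (h : x⁻¹ ∈ P) (hx0 : x ≠ 0) : x ∉ P.nonunits := by
  intro hx
  have := mul_mem_nonunits h hx
  rw [inv_mul_cancel₀ hx0, ValuationSubring.mem_nonunits_iff] at this
  simp at this

theorem aeval_notMem_nonunits {ht : IsParam O t} {hπ : Prime π} {P : ValuationSubring F}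
    (hP : Over (gaussVal ht hπ) (algebraMap O K π) P) {B : O[X]} (hB : ¬ C π ∣ B) :
    aeval (algebraMap K F t) B ∉ P.nonunits := by
  have h1 : aeval (algebraMap K F t) B = algebraMap K F (aeval t B) :=
    aeval_algebraMap_apply F t B
  have h0 : aeval t B ≠ 0 := by
    intro h
    have : B = 0 := ht.inj (by rw [h, map_zero])
    exact hB (this ▸ dvd_zero _)
  rw [h1]
  apply notMem_nonunits_of_inv
  · rw [← map_inv₀]
    exact hP.1 _ (aeval_inv_mem_gauss ht hπ hB)
  · rwa [Ne, map_eq_zero_iff _ (algebraMap K F).injective]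

theorem chart_mem_over {ht : IsParam O t} {hπ : Prime π} {P : ValuationSubring F}
    (hP : Over (gaussVal ht hπ) (algebraMap O K π) P) {x : F}
    (hx : x ∈ chart O (algebraMap K F t)) : x ∈ P :=
  mem_of_intOver hP.1 (intOver_of_mem_chart ht hπ hx)

theorem locS_le_over {ht : IsParam O t} {hπ : Prime π} {P : ValuationSubring F}
    (hP : Over (gaussVal ht hπ) (algebraMap O K π) P) {y : Ideal (chart O (algebraMap K F t))}
    [hy : y.IsPrime] (hmeet : Meets y P) {x : F} (hx : x ∈ locS y) : x ∈ P := by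
  obtain ⟨d, hd, h⟩ := hx
  have hd0 := ne_zero_of_notMem hd
  have h1 : (d : F) ∉ P.nonunits := fun h => hd (hmeet d h)
  have h2 : (d : F)⁻¹ ∈ P := inv_mem_of_notMem_nonunits h1
  have h3 := P.mul_mem _ _ h2 (chart_mem_over hP h)
  rwa [← mul_assoc, inv_mul_cancel₀ hd0, one_mul] at h3

theorem locM_of_nonunits {ht : IsParam O t} {hπ : Prime π} {P : ValuationSubring F}
    (hP : Over (gaussVal ht hπ) (algebraMap O K π) P) {y : Ideal (chart O (algebraMap K F t))}
    [hy : y.IsPrime] (hmeet : Meets y P) {x : F} (hx : x ∈ locS y) (hxP : x ∈ P.nonunits) :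
    locM y x := by
  obtain ⟨d, hd, h⟩ := hx
  exact ⟨d, hd, ⟨_, h⟩, hmeet _ (mul_mem_nonunits (chart_mem_over hP d.2) hxP), rfl⟩

/-- A local equation of `P` at `y`. -/
structure LocEq (y : Ideal (chart O (algebraMap K F t))) [y.IsPrime] (P : ValuationSubring F)
    (a : F) : Prop where
  ne : a ≠ 0
  mem : a ∈ locS y
  nonunit : a ∈ P.nonunits
  gen : ∀ x ∈ chart O (algebraMap K F t), x ∈ P.nonunits → x / a ∈ locS y

/-- The image of the local ring in the residue field of `P` is a valuation ring. -/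
def ValAt (y : Ideal (chart O (algebraMap K F t))) [y.IsPrime] (P : ValuationSubring F) : Prop :=
  ∀ x ∈ P, x⁻¹ ∈ P → ∃ r ∈ locS y, x - r ∈ P.nonunits ∨ x⁻¹ - r ∈ P.nonunits

variable {ht : IsParam O t} {hπ : Prime π} {P : ValuationSubring F}
  {y : Ideal (chart O (algebraMap K F t))} [hy : y.IsPrime] {a : F}

theorem LocEq.dvd (h : LocEq y P a) {x : locS y} (hxP : (x : F) ∈ P.nonunits)
    (hP : Over (gaussVal ht hπ) (algebraMap O K π) P) :
    (⟨a, h.mem⟩ : locS y) ∣ x := by
  obtain ⟨x, d, hd, hx⟩ := x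
  have h1 := h.gen _ hx (mul_mem_nonunits (chart_mem_over hP d.2) hxP)
  refine ⟨⟨(d : F)⁻¹ * ((d : F) * x / a), mul_mem (inv_mem_locS hd) h1⟩, ?_⟩
  apply Subtype.ext
  change x = a * ((d : F)⁻¹ * ((d : F) * x / a))
  have := ne_zero_of_notMem hd
  have := h.ne
  field_simp

theorem LocEq.mem_iff (h : LocEq y P a) (hmeet : Meets y P)
    (hP : Over (gaussVal ht hπ) (algebraMap O K π) P) (x : locS y) :
    (⟨a, h.mem⟩ : locS y) ∣ x ↔ (x : F) ∈ P.nonunits := by
  refine ⟨?_, fun hx => h.dvd hx hP⟩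
  rintro ⟨c, rfl⟩
  change a * (c : F) ∈ P.nonunits
  rw [mul_comm]
  exact mul_mem_nonunits (locS_le_over hP hmeet c.2) h.nonunit

theorem LocEq.prime (h : LocEq y P a) (hmeet : Meets y P)
    (hP : Over (gaussVal ht hπ) (algebraMap O K π) P) : Prime (⟨a, h.mem⟩ : locS y) := by
  refine ⟨fun h0 => h.ne (congrArg Subtype.val h0), ?_, ?_⟩
  · intro hu
    have h1 : (1 : F) ∈ P.nonunits := (h.mem_iff hmeet hP 1).mp (hu.dvd)
    rw [ValuationSubring.mem_nonunits_iff] at h1
    simp at h1
  · intro b c hbc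
    rw [h.mem_iff hmeet hP] at hbc ⊢
    rw [h.mem_iff hmeet hP]
    rw [ValuationSubring.mem_nonunits_iff] at hbc ⊢
    rw [ValuationSubring.mem_nonunits_iff]
    change P.valuation ((b : F) * c) < 1 at hbc
    rw [map_mul] at hbc
    by_contra hcon
    push Not at hcon
    exact absurd hbc (not_lt.mpr (one_le_mul hcon.1 hcon.2))

theorem LocEq.ufd (h : LocEq y P a) (hmeet : Meets y P)
    (hP : Over (gaussVal ht hπ) (algebraMap O K π) P) (hval : ValAt y P) :
    UniqueFactorizationMonoid (locS y) := by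
  haveI : IsNoetherianRing (chart O (algebraMap K F t)) := isNoetherianRing_chart ht
  haveI : IsNoetherianRing (locS y) := isNoetherianRing_locS
  haveI : IsLocalRing (locS y) := isLocalRing_locS
  refine ufd_of_prime (a := ⟨a, h.mem⟩) ?_ (h.prime hmeet hP) ?_
  · rw [mem_maximalIdeal_locS]
    exact locM_of_nonunits hP hmeet h.mem h.nonunit
  · intro x x'
    by_cases hx : (x : F) ∈ P.nonunits
    · exact ⟨0, Or.inl (by rw [zero_mul, sub_zero]; exact (h.mem_iff hmeet hP _).mpr hx)⟩
    by_cases hx' : (x' : F) ∈ P.nonunits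
    · exact ⟨0, Or.inr (by rw [zero_mul, sub_zero]; exact (h.mem_iff hmeet hP _).mpr hx')⟩
    have hxP := locS_le_over hP hmeet x.2
    have hxP' := locS_le_over hP hmeet x'.2
    have hxi := inv_mem_of_notMem_nonunits hx
    have hxi' := inv_mem_of_notMem_nonunits hx'
    have hx0 : (x : F) ≠ 0 := fun h0 => hx (h0 ▸ zero_mem_nonunits P)
    have hx0' : (x' : F) ≠ 0 := fun h0 => hx' (h0 ▸ zero_mem_nonunits P)
    obtain ⟨r, hr, h1 | h1⟩ := hval ((x : F) / (x' : F)) (by rw [div_eq_mul_inv]; exact P.mul_mem _ _ hxP hxi')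
      (by rw [inv_div, div_eq_mul_inv]; exact P.mul_mem _ _ hxP' hxi)
    · refine ⟨⟨r, hr⟩, Or.inl ((h.mem_iff hmeet hP _).mpr ?_)⟩
      have := mul_mem_nonunits hxP' h1
      have e : (x' : F) * ((x : F) / x' - r) = x - r * x' := by field_simp
      rw [e] at this
      exact this
    · refine ⟨⟨r, hr⟩, Or.inr ((h.mem_iff hmeet hP _).mpr ?_)⟩
      have := mul_mem_nonunits hxP h1
      have e : (x : F) * (((x : F) / x')⁻¹ - r) = x' - r * x := by rw [inv_div]; field_simp
      rw [e] at this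
      exact this

theorem over_primeVal [hym : y.IsMaximal] [UniqueFactorizationMonoid (locS y)]
    [IsFractionRing (locS y) F] (h : LocEq y P a) (hmeet : Meets y P)
    (hP : Over (gaussVal ht hπ) (algebraMap O K π) P) {p : locS y} (hp : Prime p)
    (hpπ : ∃ c ∈ locS y, algebraMap O F π = p * c) :
    Over (gaussVal ht hπ) (algebraMap O K π) (primeVal F hp) := by
  haveI : IsLocalRing (locS y) := isLocalRing_locS
  have hkey : ∀ B : O[X], ¬ C π ∣ B →
      ¬ p ∣ (⟨aeval (algebraMap K F t) B, mem_locS_of_mem (aeval_mem_chart _ B)⟩ : locS y) := by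
    intro B hB hpB
    let I : Ideal (locS y) := Ideal.span {p}
    haveI hI : I.IsPrime := (Ideal.span_singleton_prime hp.ne_zero).mpr hp
    let J : Ideal (chart O (algebraMap K F t)) := I.comap (algebraMap _ (locS y))
    haveI hJ : J.IsPrime := Ideal.comap_isPrime _ _
    have hmem : ∀ c : chart O (algebraMap K F t), c ∈ J ↔
        p ∣ (⟨c, mem_locS_of_mem c.2⟩ : locS y) := fun c => Ideal.mem_span_singleton
    have hJmax : (J.comap (chartHom (algebraMap K F t))).IsMaximal := by
      refine isMaximal_of_mem hπ _ ?_ hB ?_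
      · rw [Ideal.mem_comap, hmem]
        obtain ⟨c, hc, hpc⟩ := hpπ
        refine ⟨⟨c, hc⟩, Subtype.ext ?_⟩
        change aeval (algebraMap K F t) (C π) = p * c
        rw [aeval_C, hpc]
      · rw [Ideal.mem_comap, hmem]
        exact hpB
    have hJm : J.IsMaximal :=
      Ideal.isMaximal_of_isIntegral_of_isMaximal_comap' _ (chartHom_isIntegral _) J hJmax
    have hJy : J ≤ y := by
      intro c hc
      rw [hmem] at hc
      have h1 : (⟨c, mem_locS_of_mem c.2⟩ : locS y) ∈ maximalIdeal (locS y) := by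
        obtain ⟨d, hd⟩ := hc
        rw [hd]
        exact Ideal.mul_mem_right _ _ ((mem_maximalIdeal _).mpr hp.not_isUnit)
      rw [mem_maximalIdeal_locS] at h1
      exact locM_coe_iff.mp h1
    have hJy' : J = y := hJm.eq_of_le hym.ne_top hJy
    -- `a` is divisible by `p`
    obtain ⟨d, hd, c, hc, hdc⟩ := locM_of_nonunits hP hmeet h.mem h.nonunit
    rw [← hJy', hmem] at hc
    have hpa : p ∣ (⟨a, h.mem⟩ : locS y) := by
      have e : (⟨c, mem_locS_of_mem c.2⟩ : locS y) = ⟨d, mem_locS_of_mem d.2⟩ * ⟨a, h.mem⟩ :=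
        Subtype.ext hdc.symm
      rw [e] at hc
      refine (hp.dvd_or_dvd hc).resolve_left ?_
      intro hpd
      exact hd (hJy' ▸ (hmem d).mpr hpd)
    have hass := hp.associated_of_dvd (h.prime hmeet hP) hpa
    exact aeval_notMem_nonunits hP hB ((h.mem_iff hmeet hP _).mp (hass.symm.dvd.trans hpB))
  constructor
  · intro x hx
    obtain ⟨s, b, hs, hsx⟩ := (mem_placeVal_iff ht (prime_C_iff.mpr hπ)).mp hx
    rw [mem_primeVal_iff]
    refine ⟨⟨aeval (algebraMap K F t) s, mem_locS_of_mem (aeval_mem_chart _ s)⟩,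
      ⟨aeval (algebraMap K F t) b, mem_locS_of_mem (aeval_mem_chart _ b)⟩, hkey s hs, ?_⟩
    change aeval (algebraMap K F t) s * _ = aeval (algebraMap K F t) b
    rw [aeval_algebraMap_apply, aeval_algebraMap_apply, ← map_mul, hsx]
  · obtain ⟨c, hc, hpc⟩ := hpπ
    rw [← IsScalarTower.algebraMap_apply, hpc, mul_comm]
    refine mul_mem_nonunits (algebraMap_mem_primeVal hp (⟨c, hc⟩ : locS y)) ?_
    by_contra hcon
    obtain ⟨s, b, hs, hsb⟩ := (mem_primeVal_iff hp).mp (inv_mem_of_notMem_nonunits hcon)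
    apply hs
    refine ⟨b, Subtype.ext ?_⟩
    have hp0 : (p : F) ≠ 0 := fun h0 => hp.ne_zero (Subtype.ext h0)
    change (s : F) = p * b
    have h2 : (s : F) * (p : F)⁻¹ = b := hsb
    rw [← h2]
    field_simp

/-- Existence of local `m`-th roots up to units. -/
theorem exists_local_pow [hym : y.IsMaximal] (hLE : LocEq y P a) (hmeet : Meets y P)
    (hP : Over (gaussVal ht hπ) (algebraMap O K π) P) (hval : ValAt y P) {m : ℕ} (hm : 0 < m)
    {h : F} (h0 : h ≠ 0)
    (H3 : ∀ V : ValuationSubring F, V ≠ ⊤ → (∀ o : O, algebraMap O F o ∈ V) →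
      (algebraMap O F π)⁻¹ ∈ V → ∃ g : F, g ≠ 0 ∧ g ^ m * h ∈ V ∧ (g ^ m * h)⁻¹ ∈ V)
    (HP : ∀ W : ValuationSubring F, Over (gaussVal ht hπ) (algebraMap O K π) W →
      ∃ g : F, g ≠ 0 ∧ g ^ m * h ∈ W ∧ (g ^ m * h)⁻¹ ∈ W) :
    ∃ g : F, g ≠ 0 ∧ h / g ^ m ∈ locS y ∧ ¬ locM y (h / g ^ m) := by
  haveI : IsLocalRing (locS y) := isLocalRing_locS
  haveI : UniqueFactorizationMonoid (locS y) := hLE.ufd hmeet hP hval
  haveI : IsFractionRing (locS y) F := isFractionRing_locS ht
  have hOF : ∀ o : O, algebraMap O F o ∈ locS y := fun o =>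
    mem_locS_of_mem ((chart O (algebraMap K F t)).algebraMap_mem o)
  obtain ⟨u, g, hg0, hu⟩ := exists_unit_mul_pow (R := locS y) hm h h0 (by
    intro p hp
    by_cases hpπ : p ∣ (⟨algebraMap O F π, hOF π⟩ : locS y)
    · obtain ⟨c, hc⟩ := hpπ
      exact HP _ (over_primeVal hLE hmeet hP hp ⟨c, c.2, congrArg Subtype.val hc⟩)
    · refine H3 _ ?_ (fun o => algebraMap_mem_primeVal hp (⟨_, hOF o⟩ : locS y))
        (inv_mem_primeVal hp hpπ)
      intro htop
      have h1 : (p : F)⁻¹ ∈ primeVal F hp := by rw [htop]; trivial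
      obtain ⟨s, b, hs, hsb⟩ := (mem_primeVal_iff hp).mp h1
      apply hs
      refine ⟨b, Subtype.ext ?_⟩
      have hp0 : (p : F) ≠ 0 := fun h0 => hp.ne_zero (Subtype.ext h0)
      change (s : F) = p * b
      have h2 : (s : F) * (p : F)⁻¹ = b := hsb
      rw [← h2]
      field_simp)
  refine ⟨g, hg0, ?_, ?_⟩
  · rw [hu, mul_div_assoc, div_self (pow_ne_zero _ hg0), mul_one]
    exact (u : locS y).2
  · rw [hu, mul_div_assoc, div_self (pow_ne_zero _ hg0), mul_one]
    intro h1
    have h2 := (mem_maximalIdeal_locS (x := (u : locS y))).mpr h1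
    rw [mem_maximalIdeal, mem_nonunits_iff] at h2
    exact h2 u.isUnit

/-- Roots of units along `P` come from the local ring. -/
theorem exists_unit_lift (hmeet : Meets y P) (hP : Over (gaussVal ht hπ) (algebraMap O K π) P)
    (hval : ValAt y P) {m : ℕ} (hm : 0 < m) {x : F} (hx : x ∈ P) (hxi : x⁻¹ ∈ P) {v : F}
    (hv : v ∈ locS y) (hvM : ¬ locM y v) (hxv : x ^ m - v ∈ P.nonunits) :
    ∃ r ∈ locS y, ¬ locM y r ∧ x - r ∈ P.nonunits := by
  have hvP := locS_le_over hP hmeet hv
  obtain ⟨r, hr, h1 | h1⟩ := hval x hx hxi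
  · refine ⟨r, hr, ?_, h1⟩
    intro hrM
    have h2 := nonunits_pow_sub m hx (locS_le_over hP hmeet hr) h1
    have h3 : v - r ^ m ∈ P.nonunits := by
      have := nonunits_sub h2 hxv
      have e : x ^ m - r ^ m - (x ^ m - v) = v - r ^ m := by ring
      rwa [e] at this
    have h4 := locM_of_nonunits hP hmeet (sub_mem hv (pow_mem hr m)) h3
    have h5 : locM y (r ^ m) := by
      obtain ⟨n, rfl⟩ : ∃ n, m = n + 1 := ⟨m - 1, by omega⟩
      rw [pow_succ]
      exact hrM.mul_left (pow_mem hr n)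
    apply hvM
    have := h4.add h5
    rwa [sub_add_cancel] at this
  · have hrP := locS_le_over hP hmeet hr
    by_cases hx0 : x = 0
    · exfalso
      rw [hx0, zero_pow hm.ne', zero_sub] at hxv
      have := nonunits_neg hxv
      rw [neg_neg] at this
      exact hvM (locM_of_nonunits hP hmeet hv this)
    have h2 := nonunits_pow_sub m hxi hrP h1
    have h3 : 1 - (x⁻¹) ^ m * v ∈ P.nonunits := by
      have := mul_mem_nonunits (pow_mem hxi m) hxv
      have e : x⁻¹ ^ m * (x ^ m - v) = 1 - x⁻¹ ^ m * v := by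
        rw [mul_sub, ← mul_pow, inv_mul_cancel₀ hx0, one_pow]
      rwa [e] at this
    have h4 : 1 - r ^ m * v ∈ P.nonunits := by
      have h5 := mul_mem_nonunits hvP h2
      have := nonunits_add h3 h5
      have e : 1 - x⁻¹ ^ m * v + v * (x⁻¹ ^ m - r ^ m) = 1 - r ^ m * v := by ring
      rwa [e] at this
    have h5 := locM_of_nonunits hP hmeet (sub_mem (one_mem _) (mul_mem (pow_mem hr m) hv)) h4
    have hrM : ¬ locM y r := by
      intro hrM
      have h6 : locM y (r ^ m * v) := by
        obtain ⟨n, rfl⟩ : ∃ n, m = n + 1 := ⟨m - 1, by omega⟩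
        rw [pow_succ]
        exact (hrM.mul_left (pow_mem hr n)).mul_right hv
      have := h5.add h6
      rw [sub_add_cancel] at this
      exact not_locM_one this
    have hri := inv_mem_of_not_locM hr hrM
    have hr0 : r ≠ 0 := by rintro rfl; exact hrM locM_zero
    refine ⟨r⁻¹, hri, not_locM_inv hrM hr, ?_⟩
    have h7 := mul_mem_nonunits (P.mul_mem _ _ hx (locS_le_over hP hmeet hri)) (nonunits_neg h1)
    have e : x * r⁻¹ * -(x⁻¹ - r) = x - r⁻¹ := by field_simp; ring
    rwa [e] at h7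

end Loc

end Fermat.Agent.CA
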