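import Mathlib
import Fermat.Agent.CA.Loc
import Fermat.Agent.LG.Core2

/-!
Labels of the components of a Kummer cover which is totally split along all components, and
Zariski connectedness.
-/

set_option autoImplicit false
set_option linter.unusedSectionVars false
set_option linter.style.haveILetI false
set_option linter.unusedVariables false

open IsLocalRing Polynomial

universe u

namespace Fermat.Agent.CA

open Fermat.Agent.Geo Fermat.Agent.LG

section Roots

variable {O : Type u} [CommRing O] [IsDomain O] [IsDiscreteValuationRing O]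

theorem root_eq_of_sub_mem {m : ℕ} (hm : IsUnit (m : O)) {ζ η : O} (hζ : ζ ^ m = 1)
    (hη : η ^ m = 1) (h : ζ - η ∈ maximalIdeal O) : ζ = η := by
  have hm0 : 0 < m := by
    rcases Nat.eq_zero_or_pos m with rfl | h0
    · simp at hm
    · exact h0
  by_contra hne
  have h1 : (ζ - η) * ∑ i ∈ Finset.range m, ζ ^ i * η ^ (m - 1 - i) = 0 := by
    rw [mul_comm, (Commute.all ζ η).geom_sum₂_mul m, hζ, hη, sub_self]
  have h2 : ∑ i ∈ Finset.range m, ζ ^ i * η ^ (m - 1 - i) = 0 :=
    (mul_eq_zero.mp h1).resolve_left (sub_ne_zero.mpr hne)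
  have h3 : residue O ζ = residue O η := by
    rw [← sub_eq_zero, ← map_sub, residue_eq_zero_iff]
    exact h
  have h4 := congrArg (residue O) h2
  rw [map_zero, map_sum] at h4
  have h5 : ∀ i ∈ Finset.range m, residue O (ζ ^ i * η ^ (m - 1 - i)) = residue O η ^ (m - 1) := by
    intro i hi
    rw [Finset.mem_range] at hi
    rw [map_mul, map_pow, map_pow, h3, ← pow_add]
    congr 1
    omega
  rw [Finset.sum_congr rfl h5, Finset.sum_const, Finset.card_range, nsmul_eq_mul] at h4
  have h6 : (m : ResidueField O) ≠ 0 := by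
    have := hm.map (residue O)
    rw [map_natCast] at this
    exact this.ne_zero
  have h7 : residue O η ≠ 0 := by
    intro h0
    have := congrArg (residue O) hη
    rw [map_pow, h0, zero_pow hm0.ne', map_one] at this
    exact one_ne_zero this.symm
  exact (mul_ne_zero h6 (pow_ne_zero _ h7)) h4

end Roots

section Main

variable {O K F E : Type u} [CommRing O] [IsDomain O] [IsDiscreteValuationRing O]
  [Field K] [Field F] [Field E] [Algebra O K] [Algebra O F] [Algebra O E] [Algebra K F]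
  [Algebra K E] [Algebra F E] [IsScalarTower O K E] [IsScalarTower O K F] [IsScalarTower K F E]
  [IsScalarTower O F E]
  {t : K} {π : O} [FiniteDimensional K E] [Algebra.IsSeparable K E]
  [FiniteDimensional K F] [Algebra.IsSeparable K F]


theorem coe_notMem_nonunits_of_unit {W : ValuationSubring E} (hOW : ∀ o : O, algebraMap O E o ∈ W)
    {o : O} (ho : IsUnit o) : algebraMap O E o ∉ W.nonunits := by
  obtain ⟨u, rfl⟩ := ho
  intro h
  have h1 := mul_mem_nonunits (hOW (↑u⁻¹ : O)) h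
  rw [← map_mul, Units.inv_mul, map_one, ValuationSubring.mem_nonunits_iff] at h1
  simp at h1

/-- Label of a component. -/
theorem exists_label {m : ℕ} {ζ : O} (hζ : IsPrimitiveRoot ζ m) (hm : 0 < m)
    {W : ValuationSubring E} (hOW : ∀ o : O, algebraMap O E o ∈ W)
    {x : E} (hx : x ^ m - 1 ∈ W.nonunits) :
    ∃ η : O, η ^ m = 1 ∧ x - algebraMap O E η ∈ W.nonunits := by
  have hxW : x ∈ W := by
    have h1 : x ^ m ∈ W := by
      have := add_mem (ValuationSubring.nonunits_subset hx) (one_mem W)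
      rwa [sub_add_cancel] at this
    rw [← ValuationSubring.valuation_le_one_iff] at h1 ⊢
    rw [map_pow] at h1
    exact (pow_le_one_iff hm.ne').mp h1
  have h1 := X_pow_sub_one_eq_prod hm hζ
  have h2 := congrArg (fun p : O[X] => p.eval₂ (algebraMap O E) x) h1
  simp only [eval₂_sub, eval₂_pow, eval₂_X, eval₂_one, eval₂_finsetProd, eval₂_C] at h2
  rw [h2] at hx
  have h3 : ∃ η ∈ nthRootsFinset m (1 : O), x - algebraMap O E η ∈ W.nonunits := by
    by_contra hcon
    push Not at hcon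
    rw [ValuationSubring.mem_nonunits_iff, map_prod] at hx
    have : ∏ i ∈ nthRootsFinset m (1 : O), W.valuation (x - algebraMap O E i) = 1 := by
      apply Finset.prod_eq_one
      intro η hη
      have h4 := hcon η hη
      rw [ValuationSubring.mem_nonunits_iff, not_lt] at h4
      exact le_antisymm ((ValuationSubring.valuation_le_one_iff _ _).mpr
        (sub_mem hxW (hOW η))) h4
    rw [this] at hx
    exact lt_irrefl _ hx
  obtain ⟨η, hη, h⟩ := h3
  exact ⟨η, (mem_nthRootsFinset hm 1).mp hη, h⟩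

section Lift

variable {y : Ideal (chart O (algebraMap K E t))} [hy : y.IsPrime]
  {y₀ : Ideal (chart O (algebraMap K F t))} [hy₀ : y₀.IsPrime]

theorem chart_up {x : F} (hx : x ∈ chart O (algebraMap K F t)) :
    algebraMap F E x ∈ chart O (algebraMap K E t) := by
  have := mem_chart_algebraMap (E := E) hx
  rwa [← IsScalarTower.algebraMap_apply] at this

theorem locS_up (hyy : ∀ (x : chart O (algebraMap K F t)),
      x ∈ y₀ ↔ (⟨_, chart_up x.2⟩ : chart O (algebraMap K E t)) ∈ y) {x : F}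
    (hx : x ∈ locS y₀) : algebraMap F E x ∈ locS y := by
  obtain ⟨d, hd, h⟩ := hx
  refine ⟨⟨_, chart_up d.2⟩, fun h' => hd ((hyy d).mpr h'), ?_⟩
  have := chart_up (E := E) h
  rwa [map_mul] at this

theorem locM_up (hyy : ∀ (x : chart O (algebraMap K F t)),
      x ∈ y₀ ↔ (⟨_, chart_up x.2⟩ : chart O (algebraMap K E t)) ∈ y) {x : F}
    (hx : locM y₀ x) : locM y (algebraMap F E x) := by
  obtain ⟨d, hd, c, hc, h⟩ := hx
  refine ⟨⟨_, chart_up d.2⟩, fun h' => hd ((hyy d).mpr h'), ⟨_, chart_up c.2⟩, (hyy c).mp hc, ?_⟩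
  change algebraMap F E d * algebraMap F E x = algebraMap F E c
  rw [← map_mul, h]

theorem not_locM_up (hyy : ∀ (x : chart O (algebraMap K F t)),
      x ∈ y₀ ↔ (⟨_, chart_up x.2⟩ : chart O (algebraMap K E t)) ∈ y) {x : F}
    (hx : x ∈ locS y₀) (hxM : ¬ locM y₀ x) : ¬ locM y (algebraMap F E x) := by
  obtain ⟨d, hd, h⟩ := hx
  rw [locM_iff (d := d) hd (c := ⟨_, h⟩) rfl] at hxM
  rw [locM_iff (d := ⟨_, chart_up d.2⟩) (fun h' => hd ((hyy d).mpr h')) (c := ⟨_, chart_up h⟩)
    (by
      change algebraMap F E d * algebraMap F E x = algebraMap F E _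
      rw [← map_mul])]
  exact fun h' => hxM ((hyy _).mpr h')

/-- Roots of elements of the local ring. -/
theorem root_mem_locS (hyy : ∀ (x : chart O (algebraMap K F t)),
      x ∈ y₀ ↔ (⟨_, chart_up x.2⟩ : chart O (algebraMap K E t)) ∈ y) {v : F}
    (hv : v ∈ locS y₀) {x : E} {m : ℕ} (hm : 0 < m) (hx : x ^ m = algebraMap F E v) :
    x ∈ locS y := by
  obtain ⟨d, hd, h⟩ := hv
  refine ⟨⟨_, chart_up d.2⟩, fun h' => hd ((hyy d).mpr h'), ?_⟩
  have h1 : (algebraMap F E d * x) ^ m ∈ chart O (algebraMap K E t) := by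
    obtain ⟨n, rfl⟩ : ∃ n, m = n + 1 := ⟨m - 1, by omega⟩
    rw [mul_pow, hx, pow_succ, mul_assoc, ← map_mul]
    exact mul_mem (pow_mem (chart_up d.2) _) (chart_up h)
  -- integrally closed
  obtain ⟨p, hp, hpe⟩ := h1
  refine ⟨p.comp (X ^ m), hp.comp (monic_X_pow m) (by simp [hm.ne']), ?_⟩
  rw [eval₂_comp, eval₂_X_pow]
  exact hpe

end Lift

/-- Labels of components meeting at a point. -/
theorem label_eq_of_meets (ht : IsParam O t)
    (hπ : Prime π) {m : ℕ} (hm : IsUnit (m : O)) (hm0 : 0 < m)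
    {f : E} {h gy g g' r r' : F} (hf : f ^ m = algebraMap F E h) (hgy : gy ≠ 0) (hg : g ≠ 0)
    (hg' : g' ≠ 0)
    {W W' : ValuationSubring E} (hW : Over (gaussVal ht hπ) (algebraMap O K π) W)
    (hW' : Over (gaussVal ht hπ) (algebraMap O K π) W') {ζ ζ' Λ Λ' : O} {e : ℕ}
    (hζ : ζ ^ m = 1) (hζ' : ζ' ^ m = 1) (hΛ : Λ ^ m = 1) (hΛ' : Λ' ^ m = 1)
    (hl : f / algebraMap F E g - algebraMap O E ζ ∈ W.nonunits)
    (hl' : f / algebraMap F E g' - algebraMap O E ζ' ∈ W'.nonunits)
    {y : Ideal (chart O (algebraMap K E t))} [hy : y.IsPrime] (hmW : Meets y W)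
    (hmW' : Meets y W') {y₀ : Ideal (chart O (algebraMap K F t))} [hy₀ : y₀.IsPrime]
    (hyy : ∀ (x : chart O (algebraMap K F t)),
      x ∈ y₀ ↔ (⟨_, chart_up x.2⟩ : chart O (algebraMap K E t)) ∈ y)
    (hv : h / gy ^ m ∈ locS y₀) (hvM : ¬ locM y₀ (h / gy ^ m))
    (hr : r ∈ locS y₀) (hrM : ¬ locM y₀ r)
    (hrg : algebraMap F E (g / gy - r) ∈ W.nonunits)
    (hr' : r' ∈ locS y₀) (hrM' : ¬ locM y₀ r')
    (hrg' : algebraMap F E (g' / gy - r') ∈ W'.nonunits)
    (hrel : locM y₀ (algebraMap O F Λ' * r ^ e - algebraMap O F Λ * r' ^ e)) :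
    ζ ^ e * Λ = ζ' ^ e * Λ' := by
  have hgyE : algebraMap F E gy ≠ 0 := by rwa [Ne, map_eq_zero_iff _ (algebraMap F E).injective]
  have hO : ∀ o : O, algebraMap O E o ∈ locS y := fun o =>
    mem_locS_of_mem ((chart O (algebraMap K E t)).algebraMap_mem o)
  set x : E := f / algebraMap F E gy with hx
  have hxm : x ^ m = algebraMap F E (h / gy ^ m) := by
    rw [hx, div_pow, hf, map_div₀, map_pow]
  have hxS : x ∈ locS y := root_mem_locS hyy hv hm0 hxm
  have key : ∀ {V : ValuationSubring E} (hV : Over (gaussVal ht hπ) (algebraMap O K π) V)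
      (hmV : Meets y V) {γ s : F} {η : O} (hγ : γ ≠ 0)
      (hlV : f / algebraMap F E γ - algebraMap O E η ∈ V.nonunits) (hs : s ∈ locS y₀)
      (hsM : ¬ locM y₀ s)
      (hsγ : algebraMap F E (γ / gy - s) ∈ V.nonunits),
      locM y (x - algebraMap O E η * algebraMap F E s) := by
    intro V hV hmV γ s η hγ hlV hs hsM hsγ
    have hγE : algebraMap F E γ ≠ 0 := by rwa [Ne, map_eq_zero_iff _ (algebraMap F E).injective]
    refine locM_of_nonunits hV hmV (sub_mem hxS (mul_mem (hO _) (locS_up hyy hs))) ?_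
    have hOV : algebraMap O E η ∈ V := locS_le_over hV hmV (hO _)
    have hsV : algebraMap F E s ∈ V := locS_le_over hV hmV (locS_up hyy hs)
    have hγV : algebraMap F E (γ / gy) ∈ V := by
      have := add_mem (ValuationSubring.nonunits_subset hsγ) hsV
      rwa [← map_add, sub_add_cancel] at this
    have h1 := nonunits_add (mul_mem_nonunits hγV hlV) (mul_mem_nonunits hOV hsγ)
    have e1 : algebraMap F E (γ / gy) * (f / algebraMap F E γ - algebraMap O E η) +
        algebraMap O E η * algebraMap F E (γ / gy - s) =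
        x - algebraMap O E η * algebraMap F E s := by
      rw [map_sub, map_div₀, hx]
      field_simp
      ring
    rwa [e1] at h1
  have k1 := key hW hmW hg hl hr hrM hrg
  have k2 := key hW' hmW' hg' hl' hr' hrM' hrg'
  have k3 : locM y (algebraMap O E ζ' * algebraMap F E r' - algebraMap O E ζ * algebraMap F E r) := by
    have := k1.sub k2
    have e1 : x - algebraMap O E ζ * algebraMap F E r - (x - algebraMap O E ζ' * algebraMap F E r')
      = algebraMap O E ζ' * algebraMap F E r' - algebraMap O E ζ * algebraMap F E r := by ring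
    rwa [e1] at this
  have hrS := locS_up (E := E) (t := t) hyy hr
  have hrS' := locS_up (E := E) (t := t) hyy hr'
  have k4 : locM y ((algebraMap O E ζ' * algebraMap F E r') ^ e -
      (algebraMap O E ζ * algebraMap F E r) ^ e) := by
    rw [← (Commute.all _ _).geom_sum₂_mul e]
    refine k3.mul_left (sum_mem fun i _ => mul_mem ?_ ?_)
    · exact pow_mem (mul_mem (hO _) hrS') _
    · exact pow_mem (mul_mem (hO _) hrS) _
  have k5 := locM_up (E := E) hyy hrel
  rw [map_sub, map_mul, map_mul, map_pow, map_pow, ← IsScalarTower.algebraMap_apply,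
    ← IsScalarTower.algebraMap_apply] at k5
  have k6 := (k4.mul_left (hO Λ)).add (k5.mul_left (pow_mem (hO ζ') e))
  have e1 : algebraMap O E Λ * ((algebraMap O E ζ' * algebraMap F E r') ^ e -
      (algebraMap O E ζ * algebraMap F E r) ^ e) + algebraMap O E ζ' ^ e *
      (algebraMap O E Λ' * algebraMap F E r ^ e - algebraMap O E Λ * algebraMap F E r' ^ e) =
      algebraMap O E (ζ' ^ e * Λ' - ζ ^ e * Λ) * algebraMap F E r ^ e := by
    simp only [map_sub, map_mul, map_pow]
    ring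
  rw [e1] at k6
  have hrU := not_locM_up (E := E) hyy hr hrM
  have k7 := (k6.of_mul (hO _) (pow_mem hrS e)).resolve_right (fun h' => hrU (h'.of_pow hrS))
  have k8 : ζ' ^ e * Λ' - ζ ^ e * Λ ∈ maximalIdeal O := by
    rw [mem_maximalIdeal, mem_nonunits_iff]
    intro hu
    have h1 := (locM_iff (y := y) (d := 1) one_notMem_y
      (c := algebraMap O (chart O (algebraMap K E t)) (ζ' ^ e * Λ' - ζ ^ e * Λ))
      (by rw [OneMemClass.coe_one, one_mul]; rfl)).mp k7
    exact hy.ne_top (Ideal.eq_top_of_isUnit_mem _ h1 (hu.map _))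
  symm
  apply root_eq_of_sub_mem hm _ _ k8
  · rw [mul_pow, hΛ', mul_one, ← pow_mul, mul_comm, pow_mul, hζ', one_pow]
  · rw [mul_pow, hΛ, mul_one, ← pow_mul, mul_comm, pow_mul, hζ, one_pow]


variable {ι : Type*}

/-- The local data at a point `y₀`, for a curve with components `P i`. -/
def PtAt {O : Type u} {F : Type u} [CommRing O] [Field F] [Algebra O F] {C : Subalgebra O F}
    (y₀ : Ideal C) [y₀.IsPrime] (mt : ι → Prop) (P : ι → ValuationSubring F) (g : ι → F)
    (Λ : ι → O) (h : F) (m e : ℕ) : Prop :=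
  ∀ i j, mt i → mt j → ∃ gy : F, gy ≠ 0 ∧ h / gy ^ m ∈ locS y₀ ∧ ¬ locM y₀ (h / gy ^ m) ∧
      ∃ r ∈ locS y₀, ∃ r' ∈ locS y₀, ¬ locM y₀ r ∧ ¬ locM y₀ r' ∧
      g i / gy - r ∈ (P i).nonunits ∧ g j / gy - r' ∈ (P j).nonunits ∧
      locM y₀ (algebraMap O F (Λ j) * r ^ e - algebraMap O F (Λ i) * r' ^ e)

theorem label_eq_of_ptOK (ht : IsParam O t) (hπ : Prime π) {m e : ℕ} (hm : IsUnit (m : O))
    (hm0 : 0 < m) {P : ι → ValuationSubring F} {g : ι → F} {Λ : ι → O} {f : E} {h : F}
    (hf : f ^ m = algebraMap F E h) (hg0 : ∀ i, g i ≠ 0) (hΛ : ∀ i, Λ i ^ m = 1)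
    {W W' : ValuationSubring E} (hW : Over (gaussVal ht hπ) (algebraMap O K π) W)
    (hW' : Over (gaussVal ht hπ) (algebraMap O K π) W') {i j : ι}
    (hi : W.comap (algebraMap F E) = P i) (hj : W'.comap (algebraMap F E) = P j) {ζ ζ' : O}
    (hζ : ζ ^ m = 1) (hζ' : ζ' ^ m = 1)
    (hl : f / algebraMap F E (g i) - algebraMap O E ζ ∈ W.nonunits)
    (hl' : f / algebraMap F E (g j) - algebraMap O E ζ' ∈ W'.nonunits)
    {y : Ideal (chart O (algebraMap K E t))} (hy : y.IsMaximal) (hmW : Meets y W)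
    (hmW' : Meets y W')
    (hpt : ∀ (y₀ : Ideal (chart O (algebraMap K F t))) [y₀.IsMaximal] [y₀.IsPrime],
      (∀ (x : chart O (algebraMap K F t)),
      x ∈ y₀ ↔ (⟨_, chart_up x.2⟩ : chart O (algebraMap K E t)) ∈ y) →
      PtAt y₀ (fun i => Meets y₀ (P i)) P g Λ h m e) : ζ ^ e * Λ i = ζ' ^ e * Λ j := by
  -- the point of the chart of `F`
  let φ : chart O (algebraMap K F t) →+* chart O (algebraMap K E t) :=
    { toFun := fun x => ⟨_, chart_up x.2⟩
      map_one' := Subtype.ext (map_one _)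
      map_mul' := fun a b => Subtype.ext (map_mul _ _ _)
      map_zero' := Subtype.ext (map_zero _)
      map_add' := fun a b => Subtype.ext (map_add _ _ _) }
  have hφ : φ.IsIntegral := by
    have h1 : φ.comp (chartHom (algebraMap K F t)) = chartHom (algebraMap K E t) := by
      refine RingHom.ext fun p => Subtype.ext ?_
      change algebraMap F E (aeval (algebraMap K F t) p) = aeval (algebraMap K E t) p
      rw [← aeval_algebraMap_apply, ← IsScalarTower.algebraMap_apply]
    exact RingHom.IsIntegral.tower_top _ _ (h1 ▸ chartHom_isIntegral _)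
  let y₀ : Ideal (chart O (algebraMap K F t)) := y.comap φ
  haveI : y.IsPrime := hy.isPrime
  haveI hy₀ : y₀.IsMaximal := Ideal.isMaximal_comap_of_isIntegral_of_isMaximal' φ hφ y
  haveI : y₀.IsPrime := hy₀.isPrime
  have hyy : ∀ (x : chart O (algebraMap K F t)),
      x ∈ y₀ ↔ (⟨_, chart_up x.2⟩ : chart O (algebraMap K E t)) ∈ y := fun x => Iff.rfl
  have hm1 : ∀ {V : ValuationSubring E} {k : ι} (hk : V.comap (algebraMap F E) = P k)
      (hV : Meets y V), Meets y₀ (P k) := by
    intro V k hk hV x hx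
    rw [← hk] at hx
    exact hV _ (mem_nonunits_comap'.mp hx)
  obtain ⟨gy, hgy, hv, hvM, r, hr, r', hr', hrM, hrM', hrg, hrg', hrel⟩ :=
    hpt y₀ hyy i j (hm1 hi hmW) (hm1 hj hmW')
  exact label_eq_of_meets ht hπ hm hm0 hf hgy (hg0 i) (hg0 j) hW hW' hζ hζ' (hΛ i) (hΛ j) hl hl'
    hmW hmW' hyy hv hvM hr hrM (by rw [← hi] at hrg; exact mem_nonunits_comap'.mp hrg) hr' hrM'
    (by rw [← hj] at hrg'; exact mem_nonunits_comap'.mp hrg') hrel

/-- If all labels are compatible, then `f ^ e` is in the base field. -/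
theorem pow_mem_of_labels [FiniteDimensional F E] [IsGalois F E]
    (ht : IsParam O t) (ht' : IsParam O t⁻¹) (hπ : Prime π)
    (hinj : Function.Injective (algebraMap O E))
    (hO : ∀ x : E, IsIntegral O x → ∃ o : O, algebraMap O E o = x)
    {m e : ℕ} (hm : IsUnit (m : O)) (hm0 : 0 < m) {ζ : O} (hζ : IsPrimitiveRoot ζ m)
    {P : ι → ValuationSubring F} (hPinj : Function.Injective P)
    (hP : ∀ W : ValuationSubring E, Over (gaussVal ht hπ) (algebraMap O K π) W →
      ∃ i, W.comap (algebraMap F E) = P i)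
    {W₁ : ValuationSubring E} (hW₁ : Over (gaussVal ht hπ) (algebraMap O K π) W₁)
    {g : ι → F} {Λ : ι → O} {f : E} {h : F} (hf0 : f ≠ 0)
    (hf : f ^ m = algebraMap F E h) (hg0 : ∀ i, g i ≠ 0)
    (hg : ∀ i, h / g i ^ m - 1 ∈ (P i).nonunits) (hΛ : ∀ i, Λ i ^ m = 1)
    (hpt : ∀ (y₀ : Ideal (chart O (algebraMap K F t))) [y₀.IsMaximal] [y₀.IsPrime],
      PtAt y₀ (fun i => Meets y₀ (P i)) P g Λ h m e)
    (hpt' : ∀ (y₀ : Ideal (chart O (algebraMap K F t⁻¹))) [y₀.IsMaximal] [y₀.IsPrime],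
      (⟨_, self_mem_chart _⟩ : chart O (algebraMap K F t⁻¹)) ∈ y₀ →
      PtAt y₀ (fun i => Meets y₀ (P i)) P g Λ h m e) :
    ∃ a : F, f ^ e = algebraMap F E a := by
  have hOW : ∀ {W : ValuationSubring E}, Over (gaussVal ht hπ) (algebraMap O K π) W →
      ∀ o : O, algebraMap O E o ∈ W := by
    intro W hW o
    exact mem_of_intOver hW.1 (intOver_of_mem_chart ht hπ
      ((chart O (algebraMap K E t)).algebraMap_mem o))
  -- labels
  have hlab : ∀ W : ValuationSubring E, Over (gaussVal ht hπ) (algebraMap O K π) W →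
      ∃ i, ∃ η : O, W.comap (algebraMap F E) = P i ∧ η ^ m = 1 ∧
        f / algebraMap F E (g i) - algebraMap O E η ∈ W.nonunits := by
    intro W hW
    obtain ⟨i, hi⟩ := hP W hW
    have h1 : (f / algebraMap F E (g i)) ^ m - 1 ∈ W.nonunits := by
      have h2 := hg i
      rw [← hi] at h2
      have h3 := mem_nonunits_comap'.mp h2
      rwa [map_sub, map_div₀, map_pow, map_one, ← hf, ← div_pow] at h3
    obtain ⟨η, hη, h2⟩ := exists_label hζ hm0 (hOW hW) h1
    exact ⟨i, η, hi, hη, h2⟩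
  obtain ⟨i₁, ζ₁, hi₁, hζ₁, hl₁⟩ := hlab W₁ hW₁
  let S : Set (ValuationSubring E) := {W | ∃ i, ∃ η : O, W.comap (algebraMap F E) = P i ∧
    η ^ m = 1 ∧ f / algebraMap F E (g i) - algebraMap O E η ∈ W.nonunits ∧
    η ^ e * Λ i = ζ₁ ^ e * Λ i₁}
  have hall : ∀ W₂ : ValuationSubring E, Over (gaussVal ht hπ) (algebraMap O K π) W₂ → W₂ ∈ S := by
    intro W₂ hW₂
    by_contra hcon
    obtain ⟨W, hW, W', hW', hWo, hWo', u, y, hy, hmW, hmW'⟩ :=
      connected' ht hπ hinj hO S hW₁ hW₂ ⟨i₁, ζ₁, hi₁, hζ₁, hl₁, rfl⟩ hcon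
    obtain ⟨i, η, hi, hη, hl, heq⟩ := hW
    obtain ⟨j, η', hj, hη', hl'⟩ := hlab W' hWo'
    apply hW'
    refine ⟨j, η', hj, hη', hl', ?_⟩
    rw [← heq]
    symm
    obtain ⟨hyM, hu | ⟨hu, hyz⟩⟩ := hy
    · subst hu
      exact label_eq_of_ptOK ht hπ hm hm0 hf hg0 hΛ hWo hWo' hi hj hη hη' hl hl' hyM hmW hmW'
        (fun y₀ _ _ _ => hpt y₀)
    · rw [← map_inv₀] at hu
      subst hu
      have hWo₂ : Over (gaussVal ht' hπ) (algebraMap O K π) W := by rwa [gaussVal_inv ht ht' hπ]
      have hWo₂' : Over (gaussVal ht' hπ) (algebraMap O K π) W' := by rwa [gaussVal_inv ht ht' hπ]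
      exact label_eq_of_ptOK ht' hπ hm hm0 hf hg0 hΛ hWo₂ hWo₂' hi hj hη hη' hl hl' hyM
        hmW hmW' (fun y₀ _ _ hyy => hpt' y₀ (by
          rw [hyy]
          convert hyz using 1
          apply Subtype.ext
          exact (IsScalarTower.algebraMap_apply K F E t⁻¹).symm))
  -- Galois descent
  have hfix : ∀ σ : E ≃ₐ[F] E, σ (f ^ e) = f ^ e := by
    intro σ
    have hc : (σ f / f) ^ m = 1 := by
      rw [div_pow, ← map_pow, hf, AlgEquiv.commutes, div_self]
      rw [← hf]
      exact pow_ne_zero _ hf0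
    obtain ⟨c, hcm, hcσ⟩ : ∃ c : O, c ^ m = 1 ∧ σ f = algebraMap O E c * f := by
      obtain ⟨c, hc1⟩ := hO (σ f / f) ⟨X ^ m - C 1, monic_X_pow_sub_C _ hm0.ne', by
        rw [eval₂_sub, eval₂_X_pow, eval₂_C, map_one, hc, sub_self]⟩
      refine ⟨c, hinj ?_, ?_⟩
      · rw [map_pow, hc1, hc, map_one]
      · rw [hc1, div_mul_cancel₀ _ hf0]
    let W₂ := W₁.comap (σ : E →+* E)
    have hW₂ : Over (gaussVal ht hπ) (algebraMap O K π) W₂ := by
      refine ⟨fun x hx => ?_, ?_⟩
      · change σ (algebraMap K E x) ∈ W₁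
        rw [IsScalarTower.algebraMap_apply K F E, AlgEquiv.commutes,
          ← IsScalarTower.algebraMap_apply]
        exact hW₁.1 x hx
      · rw [comap_mem_nonunits]
        change σ (algebraMap K E _) ∈ W₁.nonunits
        rw [IsScalarTower.algebraMap_apply K F E, AlgEquiv.commutes,
          ← IsScalarTower.algebraMap_apply K F E]
        exact hW₁.2
    obtain ⟨i, η, hi, hη, hl, heq⟩ := hall W₂ hW₂
    have hi' : P i = P i₁ := by
      rw [← hi, ← hi₁]
      ext x
      change σ (algebraMap F E x) ∈ W₁ ↔ algebraMap F E x ∈ W₁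
      rw [AlgEquiv.commutes]
    obtain rfl := hPinj hi'
    have h1 : σ (f / algebraMap F E (g i) - algebraMap O E η) ∈ W₁.nonunits :=
      (comap_mem_nonunits W₁ (σ : E →+* E) _).mp hl
    have h2 : σ (algebraMap O E η) = algebraMap O E η := by
      rw [IsScalarTower.algebraMap_apply O F E, AlgEquiv.commutes]
    rw [map_sub, map_div₀, AlgEquiv.commutes, h2, hcσ] at h1
    have h3 := mul_mem_nonunits (hOW hW₁ c) hl₁
    have h4 := nonunits_sub h3 h1
    have e1 : algebraMap O E c * (f / algebraMap F E (g i) - algebraMap O E ζ₁) -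
        (algebraMap O E c * f / algebraMap F E (g i) - algebraMap O E η) =
        algebraMap O E (η - c * ζ₁) := by
      rw [map_sub, map_mul]
      ring
    rw [e1] at h4
    have h5 : η = c * ζ₁ := by
      apply root_eq_of_sub_mem hm hη (by rw [mul_pow, hcm, hζ₁, one_mul])
      rw [mem_maximalIdeal, mem_nonunits_iff]
      intro hu
      exact coe_notMem_nonunits_of_unit (hOW hW₁) hu h4
    have hΛu : Λ i ≠ 0 := by
      intro h0
      have := hΛ i
      rw [h0, zero_pow hm0.ne'] at this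
      exact zero_ne_one this
    have hζu : ζ₁ ≠ 0 := by
      rintro rfl
      rw [zero_pow hm0.ne'] at hζ₁
      exact zero_ne_one hζ₁
    rw [h5] at heq
    have h6 : c ^ e = 1 := by
      have h7 := mul_right_cancel₀ hΛu heq
      rw [mul_pow] at h7
      exact mul_right_cancel₀ (pow_ne_zero e hζu) (h7.trans (one_mul _).symm)
    rw [map_pow, hcσ, mul_pow, ← map_pow, h6, map_one, one_mul]
  have := (IsGalois.mem_bot_iff_fixed (F := F) (E := E) (f ^ e)).mpr (fun σ => hfix σ)
  rw [IntermediateField.mem_bot] at this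
  obtain ⟨a, ha⟩ := this
  exact ⟨a, ha.symm⟩

end Main

end Fermat.Agent.CA
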