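import Mathlib
import Fermat.Agent.CA.Label

/-!
Points of a curve with finitely many known components.
-/

set_option autoImplicit false
set_option linter.unusedSectionVars false
set_option linter.style.haveILetI false
set_option linter.unusedVariables false

open IsLocalRing Polynomial

universe u

namespace Fermat.Agent.CA

open Fermat.Agent.Geo Fermat.Agent.LG

section General

variable {F E : Type u} [Field F] [Field E] [Algebra F E]

theorem intOver_of_forall {V : Subring F} {x : E}
    (h : ∀ W : ValuationSubring E, (∀ v ∈ V, algebraMap F E v ∈ W) → x ∈ W) : IntOver V x := by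
  let φ : V →+* E := (algebraMap F E).comp V.subtype
  have hs : Subring.closure (Set.range φ) = φ.range := by
    rw [← RingHom.coe_range, Subring.closure_eq]
  have h1 : x ∈ (integralClosure (Subring.closure (Set.range φ)) E).toSubring := by
    rw [← iInf_valuationSubring_superset, Subring.mem_iInf]
    rintro ⟨W, hW⟩
    exact h W fun v hv => hW ⟨⟨v, hv⟩, rfl⟩
  rw [hs] at h1
  obtain ⟨p, hp, hpx⟩ := h1
  have hl : p ∈ Polynomial.lifts φ.rangeRestrict := by
    rw [Polynomial.mem_lifts]
    exact Polynomial.map_surjective _ φ.rangeRestrict_surjective p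
  obtain ⟨r, hr, -, hrm⟩ := Polynomial.lifts_and_degree_eq_and_monic hl hp
  refine ⟨r, hrm, ?_⟩
  rw [← hr, eval₂_map] at hpx
  exact hpx

/-- Elements in all extensions of a discrete valuation ring. -/
theorem intOver_of_forall_over {V : ValuationSubring F} [IsDiscreteValuationRing V]
    [FiniteDimensional F E] {ϖ : V} (hϖ : Irreducible ϖ) {x : E}
    (h : ∀ W : ValuationSubring E, Over V (ϖ : F) W → x ∈ W) : IntOver V.toSubring x := by
  apply intOver_of_forall
  intro W hW
  by_cases h1 : algebraMap F E ϖ ∈ W.nonunits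
  · exact h W ⟨hW, h1⟩
  · -- `W` contains `F`, hence everything
    have hi : (algebraMap F E ϖ)⁻¹ ∈ W := inv_mem_of_notMem_nonunits h1
    have hF : ∀ a : F, algebraMap F E a ∈ W := by
      intro a
      obtain ⟨n, b, hb⟩ : ∃ (n : ℕ) (b : V), (ϖ : F) ^ n * a = b := by
        rcases V.mem_or_inv_mem a with ha | ha
        · exact ⟨0, ⟨a, ha⟩, by simp⟩
        · by_cases ha0 : a = 0
          · exact ⟨0, 0, by simp [ha0]⟩
          have hne : (⟨a⁻¹, ha⟩ : V) ≠ 0 := by
            intro h0
            exact ha0 (inv_eq_zero.mp (congrArg Subtype.val h0))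
          obtain ⟨n, u, hu⟩ := IsDiscreteValuationRing.eq_unit_mul_pow_irreducible hne hϖ
          refine ⟨n, ↑u⁻¹, ?_⟩
          have h2 : a⁻¹ = ((u : V) : F) * (ϖ : F) ^ n := congrArg Subtype.val hu
          have h3 : ((u : V) : F) * (((u⁻¹ : Vˣ) : V) : F) = 1 := by
            rw [← MulMemClass.coe_mul, Units.mul_inv]; rfl
          have h4 : a⁻¹ ≠ 0 := inv_ne_zero ha0
          have h5 : (((u⁻¹ : Vˣ) : V) : F) * a⁻¹ = (ϖ : F) ^ n := by
            rw [h2, ← mul_assoc, mul_comm (((u⁻¹ : Vˣ) : V) : F), h3, one_mul]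
          rw [← h5, mul_assoc, inv_mul_cancel₀ ha0, mul_one]
      have h2 : algebraMap F E a = (algebraMap F E ϖ)⁻¹ ^ n * algebraMap F E b := by
        rw [← hb, map_mul, map_pow, ← mul_assoc, ← mul_pow, inv_mul_cancel₀, one_pow, one_mul]
        intro h0
        rw [map_eq_zero] at h0
        exact hϖ.ne_zero (Subtype.ext h0)
      rw [h2]
      exact W.mul_mem _ _ (pow_mem hi n) (hW _ b.2)
    have hxint : IntOver (⊤ : Subring F) x := by
      obtain ⟨p, hp, hpx⟩ := Algebra.IsIntegral.isIntegral (R := F) x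
      refine ⟨p.map (Subring.topEquiv.symm : F ≃+* (⊤ : Subring F)).toRingHom, hp.map _, ?_⟩
      rw [eval₂_map]
      exact hpx
    refine mem_of_intOver (V := (⊤ : ValuationSubring F)) (fun a _ => hF a) ?_
    exact hxint

end General

section Chart

variable {O K F : Type u} [CommRing O] [IsDomain O] [IsDiscreteValuationRing O]
  [Field K] [Field F] [Algebra O K] [Algebra O F] [Algebra K F] [IsScalarTower O K F]
  {t : K} {π : O} [FiniteDimensional K F] [Algebra.IsSeparable K F]

theorem over_gauss_iff (ht : IsParam O t) (hπ : Prime π) {ϖ : gaussVal ht hπ}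
    (hϖ : (ϖ : K) = algebraMap O K π) {W : ValuationSubring F} :
    Over (gaussVal ht hπ) (ϖ : K) W ↔ Over (gaussVal ht hπ) (algebraMap O K π) W := by
  rw [hϖ]

/-- An element of all the components, integral away from `π`, is in the chart. -/
theorem mem_chart_of_forall (ht : IsParam O t) (hπ : Prime π) {x : F}
    (h : ∀ W : ValuationSubring F, Over (gaussVal ht hπ) (algebraMap O K π) W → x ∈ W)
    {n : ℕ} (hn : algebraMap O F π ^ n * x ∈ chart O (algebraMap K F t)) :
    x ∈ chart O (algebraMap K F t) := by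
  haveI : IsDiscreteValuationRing (gaussVal ht hπ) := isDiscreteValuationRing_gaussVal ht hπ
  obtain ⟨ϖ, hϖ, hϖπ⟩ := exists_gauss_unif ht hπ
  have hx : IntOver (gaussVal ht hπ).toSubring x :=
    intOver_of_forall_over hϖ fun W hW => h W (by rwa [over_gauss_iff ht hπ hϖπ] at hW)
  have hπi : IntOver (gaussVal ht hπ).toSubring (algebraMap O F π) :=
    intOver_of_mem_chart ht hπ ((chart O (algebraMap K F t)).algebraMap_mem π)
  induction n generalizing x with
  | zero => simpa using hn
  | succ n ih =>
    refine ih (x := x) h ?_ hx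
    apply mem_chart_of_smul_mem ht hπ
    · exact (hπi.pow n).mul hx
    · rw [Algebra.smul_def, ← mul_assoc, ← pow_succ']
      exact hn

end Chart

/-- The list of the components. -/
structure CompSys {O K F : Type u} [CommRing O] [IsDomain O] [IsDiscreteValuationRing O]
    [Field K] [Field F] [Algebra O K] [Algebra O F] [Algebra K F] {t : K} {π : O}
    (ht : IsParam O t) (hπ : Prime π) {ι : Type} (P : ι → ValuationSubring F) : Prop where
  ov : ∀ i, Over (gaussVal ht hπ) (algebraMap O K π) (P i)
  all : ∀ W : ValuationSubring F, Over (gaussVal ht hπ) (algebraMap O K π) W → ∃ i, W = P i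
  rank : ∀ i, ∀ c ∈ (P i).nonunits, ∃ N : ℕ, c ^ N / algebraMap O F π ∈ P i

section Sys

variable {O K F : Type u} [CommRing O] [IsDomain O] [IsDiscreteValuationRing O]
  [Field K] [Field F] [Algebra O K] [Algebra O F] [Algebra K F] [IsScalarTower O K F]
  {t : K} {π : O} [FiniteDimensional K F] [Algebra.IsSeparable K F]
  {ht : IsParam O t} {hπ : Prime π} {ι : Type} [Fintype ι] {P : ι → ValuationSubring F}
  {y : Ideal (chart O (algebraMap K F t))} [hy : y.IsPrime]

/-- Membership in the local ring by valuations. -/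
theorem CompSys.mem_locS (hS : CompSys ht hπ P) {x : F} (hx : ∀ i, Meets y (P i) → x ∈ P i)
    {n : ℕ} (hn : algebraMap O F π ^ n * x ∈ locS y) : x ∈ locS y := by
  classical
  have hπ0 : algebraMap O F π ≠ 0 := by
    rw [IsScalarTower.algebraMap_apply O K F]
    rw [Ne, map_eq_zero_iff _ (algebraMap K F).injective]
    intro h0
    apply hπ.ne_zero
    have h1 : (aeval t : O[X] →ₐ[O] K) (C π) = (aeval t : O[X] →ₐ[O] K) 0 := by
      rw [aeval_C, h0, map_zero]
    exact C_eq_zero.mp (ht.inj h1)
  obtain ⟨d, hd, hdx⟩ := hn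
  -- the auxiliary functions
  have key : ∀ i, ∃ c : chart O (algebraMap K F t), c ∉ y ∧ (c : F) * ((d : F) * x) ∈ P i := by
    intro i
    by_cases hi : Meets y (P i)
    · exact ⟨1, one_notMem_y, by
        rw [OneMemClass.coe_one, one_mul]
        exact (P i).mul_mem _ _ (chart_mem_over (hS.ov i) d.2) (hx i hi)⟩
    · simp only [Meets, not_forall] at hi
      obtain ⟨c, hc, hcy⟩ := hi
      obtain ⟨N, hN⟩ := hS.rank i c hc
      refine ⟨c ^ (N * n), fun h => hcy (hy.mem_of_pow_mem _ h), ?_⟩
      have h1 := (P i).mul_mem _ _ (pow_mem hN n) (chart_mem_over (hS.ov i) hdx)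
      have h2 : ((c : F) ^ N / algebraMap O F π) ^ n * ((d : F) * (algebraMap O F π ^ n * x)) =
          ((c ^ (N * n) : chart O (algebraMap K F t)) : F) * ((d : F) * x) := by
        rw [SubmonoidClass.coe_pow, pow_mul, div_pow]
        field_simp
      rwa [h2] at h1
  choose c hc hcx using key
  have hmem : (∏ i, (c i : F)) * ((d : F) * x) ∈ chart O (algebraMap K F t) := by
    apply mem_chart_of_forall ht hπ (n := n)
    · intro W hW
      obtain ⟨i, rfl⟩ := hS.all W hW
      rw [← Finset.mul_prod_erase Finset.univ _ (Finset.mem_univ i), mul_right_comm]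
      refine (P i).mul_mem _ _ (hcx i) (prod_mem fun j _ => chart_mem_over (hS.ov i) (c j).2)
    · have : algebraMap O F π ^ n * ((∏ i, (c i : F)) * ((d : F) * x)) =
        (∏ i, (c i : F)) * ((d : F) * (algebraMap O F π ^ n * x)) := by ring
      rw [this]
      exact mul_mem (prod_mem fun j _ => (c j).2) hdx
  refine ⟨(∏ i, c i) * d, ?_, ?_⟩
  · intro h
    rcases hy.mem_or_mem h with h | h
    · obtain ⟨i, -, hi⟩ := hy.prod_mem_iff.mp h
      exact hc i hi
    · exact hd h
  · rw [MulMemClass.coe_mul, mul_assoc]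
    have e : ((∏ i, c i : chart O (algebraMap K F t)) : F) = ∏ i, (c i : F) := by
      simp
    rw [e]
    exact hmem

/-- Construction of local equations. -/
theorem CompSys.locEq (hS : CompSys ht hπ P) {i : ι} (hi : Meets y (P i)) {a : F} (ha0 : a ≠ 0)
    (ha : a ∈ locS y) (haP : a ∈ (P i).nonunits) (hgen : ∀ x ∈ (P i).nonunits, x / a ∈ P i)
    (hne : ∀ j, j ≠ i → Meets y (P j) → a⁻¹ ∈ P j) {n : ℕ}
    (hn : algebraMap O F π ^ n / a ∈ locS y) : LocEq y (P i) a where
  ne := ha0
  mem := ha
  nonunit := haP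
  gen x hx hxP := by
    apply hS.mem_locS (n := n)
    · intro j hj
      by_cases hji : j = i
      · rw [hji]; exact hgen x hxP
      · rw [div_eq_mul_inv]
        exact (P j).mul_mem _ _ (chart_mem_over (hS.ov j) hx) (hne j hji hj)
    · have : algebraMap O F π ^ n * (x / a) = x * (algebraMap O F π ^ n / a) := by
        field_simp
      rw [this]
      exact mul_mem (mem_locS_of_mem hx) hn

/-- A unit along all the components through `y`, dividing a power of `π` -/
theorem CompSys.inv_mem (hS : CompSys ht hπ P) {a : F}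
    (hne : ∀ j, Meets y (P j) → a⁻¹ ∈ P j) {n : ℕ}
    (hn : algebraMap O F π ^ n / a ∈ locS y) : a⁻¹ ∈ locS y :=
  hS.mem_locS hne (by rwa [div_eq_mul_inv] at hn)

end Sys

end Fermat.Agent.CA
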