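import Mathlib
import Fermat.Agent.CA.Pts

/-!
The valuation property of the local rings of the reduction along a component, from normality.
-/

set_option autoImplicit false
set_option linter.unusedSectionVars false
set_option linter.style.haveILetI false
set_option linter.unusedVariables false

open IsLocalRing Polynomial

universe u

namespace Fermat.Agent.CA

open Fermat.Agent.Geo Fermat.Agent.LG

section Kap

variable {k : Type*} [Field k] {D : Subring k}

/-- Kaplansky's lemma. -/
theorem mem_or_inv_mem_of_unit_coeff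
    (hint : ∀ z : k, (∃ (n : ℕ) (c : ℕ → k), (∀ i, c i ∈ D) ∧
      z ^ n + ∑ i ∈ Finset.range n, c i * z ^ i = 0) → z ∈ D)
    (hloc : ∀ a b : k, a ∈ D → b ∈ D → a⁻¹ ∉ D → b⁻¹ ∉ D → (a + b)⁻¹ ∉ D ∨ a + b = 0)
    (n : ℕ) (c : ℕ → k) (hc : ∀ i, c i ∈ D) (z : k)
    (hz : ∑ i ∈ Finset.range (n + 1), c i * z ^ i = 0)
    (hu : ∃ i ≤ n, c i ≠ 0 ∧ (c i)⁻¹ ∈ D) : z ∈ D ∨ z⁻¹ ∈ D := by
  induction n generalizing c with
  | zero =>
    exfalso
    obtain ⟨i, hi, hc0, -⟩ := hu
    obtain rfl : i = 0 := by omega
    simp at hz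
    exact hc0 hz
  | succ n ih =>
    by_cases h1 : c (n + 1) ≠ 0 ∧ (c (n + 1))⁻¹ ∈ D
    · left
      apply hint
      refine ⟨n + 1, fun i => (c (n + 1))⁻¹ * c i, fun i => mul_mem h1.2 (hc i), ?_⟩
      rw [Finset.sum_range_succ] at hz
      have : (c (n + 1))⁻¹ * (∑ i ∈ Finset.range (n + 1), c i * z ^ i + c (n + 1) * z ^ (n + 1)) =
        0 := by rw [hz, mul_zero]
      rw [mul_add, ← mul_assoc, inv_mul_cancel₀ h1.1, one_mul, Finset.mul_sum, add_comm] at this
      rw [← this]
      congr 1
      exact Finset.sum_congr rfl fun i _ => by ring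
    · -- `b = c (n+1) z` is in `D`
      set b := c (n + 1) * z with hb
      have hbD : b ∈ D := by
        apply hint
        refine ⟨n + 1, fun i => c i * c (n + 1) ^ (n - i), fun i => mul_mem (hc i) (pow_mem (hc _) _),
          ?_⟩
        rw [Finset.sum_range_succ] at hz
        have h2 : c (n + 1) ^ n * (∑ i ∈ Finset.range (n + 1), c i * z ^ i +
            c (n + 1) * z ^ (n + 1)) = 0 := by rw [hz, mul_zero]
        rw [← h2, mul_add, Finset.mul_sum, add_comm]
        congr 1
        · refine Finset.sum_congr rfl fun i hi => ?_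
          have hi' : i ≤ n := by have := Finset.mem_range.mp hi; omega
          have h3 : c (n + 1) ^ n = c (n + 1) ^ (n - i) * c (n + 1) ^ i := by
            rw [← pow_add]; congr 1; omega
          rw [hb, mul_pow, h3]
          ring
        · rw [hb, mul_pow]; ring
      have hrel : ∑ i ∈ Finset.range (n + 1), (if i = n then c n + b else c i) * z ^ i = 0 := by
        rw [← hz, Finset.sum_range_succ _ (n + 1), Finset.sum_range_succ,
          Finset.sum_range_succ (fun i => c i * z ^ i) n, if_pos rfl]
        have : ∑ i ∈ Finset.range n, (if i = n then c n + b else c i) * z ^ i =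
            ∑ i ∈ Finset.range n, c i * z ^ i := by
          refine Finset.sum_congr rfl fun i hi => ?_
          have := Finset.mem_range.mp hi
          rw [if_neg (by omega)]
        rw [this, hb]
        ring
      have hcD : ∀ i, (if i = n then c n + b else c i) ∈ D := by
        intro i
        split_ifs
        · exact add_mem (hc _) hbD
        · exact hc _
      obtain ⟨i, hi, hi0, hiD⟩ := hu
      have hi1 : i ≠ n + 1 := fun h => h1 (h ▸ ⟨hi0, hiD⟩)
      by_cases hin : i = n
      · subst hin
        by_cases h3 : c i + b ≠ 0 ∧ (c i + b)⁻¹ ∈ D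
        · exact ih _ hcD hrel ⟨i, le_rfl, by rw [if_pos rfl]; exact h3⟩
        · -- then `b` is a unit
          by_cases hbi : b ≠ 0 ∧ b⁻¹ ∈ D
          · right
            have hz0 : z ≠ 0 := by
              rintro rfl
              exact hbi.1 (by rw [hb, mul_zero])
            have hc0 : c (i + 1) ≠ 0 := by
              intro h0
              exact hbi.1 (by rw [hb, h0, zero_mul])
            have : z⁻¹ = c (i + 1) * b⁻¹ := by
              rw [hb]; field_simp
            rw [this]
            exact mul_mem (hc _) hbi.2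
          · exfalso
            by_cases hb0 : b = 0
            · rw [hb0, add_zero] at h3
              exact h3 ⟨hi0, hiD⟩
            have hbi' : b⁻¹ ∉ D := fun h => hbi ⟨hb0, h⟩
            by_cases hs0 : c i + b = 0
            · have : b = -c i := by linear_combination hs0
              apply hbi'
              rw [this, inv_neg]
              exact neg_mem hiD
            · have hs : (c i + b)⁻¹ ∉ D := fun h => h3 ⟨hs0, h⟩
              have hnb : (-b)⁻¹ ∉ D := by
                rw [inv_neg]
                intro h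
                exact hbi' (by simpa using neg_mem h)
              rcases hloc (c i + b) (-b) (add_mem (hc _) hbD) (neg_mem hbD) hs hnb with h | h
              · rw [add_neg_cancel_right] at h
                exact h hiD
              · rw [add_neg_cancel_right] at h
                exact hi0 h
      · refine ih _ hcD hrel ⟨i, by omega, ?_⟩
        rw [if_neg hin]
        exact ⟨hi0, hiD⟩

end Kap

section Val

variable {O K F : Type u} [CommRing O] [IsDomain O] [IsDiscreteValuationRing O]
  [Field K] [Field F] [Algebra O K] [Algebra O F] [Algebra K F] [IsScalarTower O K F]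
  {t : K} {π : O} [FiniteDimensional K F] [Algebra.IsSeparable K F]
  {ht : IsParam O t} {hπ : Prime π} {P : ValuationSubring F}
  {y : Ideal (chart O (algebraMap K F t))} [hy : y.IsPrime]

theorem coe_nonunits_iff {P : ValuationSubring F} {x : P} :
    residue P x = 0 ↔ (x : F) ∈ P.nonunits := by
  rw [residue_eq_zero_iff, ← ValuationSubring.coe_mem_nonunits_iff]

/-- A primitive algebraic equation with coefficients in `O[t]`. -/
theorem exists_poly_equation (ht : IsParam O t) (hπ : Prime π) (x : F) :
    ∃ (n : ℕ) (a : ℕ → O[X]), (∃ i ≤ n, ¬ C π ∣ a i) ∧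
      ∑ i ∈ Finset.range (n + 1), aeval (algebraMap K F t) (a i) * x ^ i = 0 := by
  obtain ⟨g, hg0, hgx⟩ := exists_primitive_equation (gaussVal ht hπ)
    (Algebra.IsAlgebraic.isAlgebraic (R := K) x)
  -- common denominators
  have hden : ∀ i, ∃ s a : O[X], ¬ C π ∣ s ∧ aeval t s * (g.coeff i : K) = aeval t a := by
    intro i
    exact (mem_placeVal_iff ht (prime_C_iff.mpr hπ)).mp (g.coeff i).2
  choose s a hs hsa using hden
  set S : O[X] := ∏ i ∈ Finset.range (g.natDegree + 1), s i with hS
  have hSπ : ¬ C π ∣ S := by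
    intro h
    obtain ⟨i, -, hi⟩ := (Prime.dvd_finsetProd_iff (prime_C_iff.mpr hπ) _).mp h
    exact hs i hi
  set A : ℕ → O[X] := fun i => (∏ j ∈ (Finset.range (g.natDegree + 1)).erase i, s j) * a i with hA
  have hSA : ∀ i ∈ Finset.range (g.natDegree + 1), aeval t S * (g.coeff i : K) =
      aeval t (A i) := by
    intro i hi
    rw [hS, ← Finset.mul_prod_erase _ _ hi, hA, map_mul, map_mul, ← hsa i]
    ring
  refine ⟨g.natDegree, A, ?_, ?_⟩
  · by_contra hcon
    push Not at hcon
    apply hg0
    ext i
    rw [coeff_map, coeff_zero]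
    by_cases hi : i ≤ g.natDegree
    · obtain ⟨r, hr⟩ := hcon i hi
      have h1 := hSA i (Finset.mem_range.mpr (by omega))
      rw [coe_nonunits_iff (x := g.coeff i)]
      rw [hr, map_mul, aeval_C] at h1
      have h2 : aeval t S ≠ 0 := by
        intro h0
        have : S = 0 := ht.inj (by rw [h0, map_zero])
        exact hSπ (this ▸ dvd_zero _)
      have h3 : (g.coeff i : K) = ((aeval t S)⁻¹ * aeval t r) * algebraMap O K π := by
        field_simp
        linear_combination h1
      rw [h3]
      refine mul_mem_nonunits (mul_mem (aeval_inv_mem_gauss ht hπ hSπ) (aeval_mem_gauss ht hπ r)) ?_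
      have h4 : (algebraMap O K π)⁻¹ ∉ gaussVal ht hπ := by
        intro h5
        obtain ⟨s', a', hs', hsa'⟩ := (mem_placeVal_iff ht (prime_C_iff.mpr hπ)).mp h5
        apply hs'
        refine ⟨a', ht.inj ?_⟩
        have hπ0 : algebraMap O K π ≠ 0 := by
          intro h0
          apply hπ.ne_zero
          have h1 : (aeval t : O[X] →ₐ[O] K) (C π) = (aeval t : O[X] →ₐ[O] K) 0 := by
            rw [aeval_C, h0, map_zero]
          exact C_eq_zero.mp (ht.inj h1)
        rw [map_mul, aeval_C, ← hsa']
        field_simp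
      by_contra h5
      exact h4 (inv_mem_of_notMem_nonunits h5)
    · rw [coeff_eq_zero_of_natDegree_lt (by omega), map_zero]
  · rw [eval₂_eq_sum_range] at hgx
    have h1 : ∀ i ∈ Finset.range (g.natDegree + 1), aeval (algebraMap K F t) (A i) * x ^ i =
        aeval (algebraMap K F t) S *
          (((algebraMap K F).comp (gaussVal ht hπ).toSubring.subtype) (g.coeff i) * x ^ i) := by
      intro i hi
      rw [aeval_algebraMap_apply, ← hSA i hi, map_mul, ← aeval_algebraMap_apply, mul_assoc]
      rfl
    rw [Finset.sum_congr rfl h1, ← Finset.mul_sum, hgx, mul_zero]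

theorem pi_ne_zero (ht : IsParam O t) (hπ : Prime π) : algebraMap O F π ≠ 0 := by
  rw [IsScalarTower.algebraMap_apply O K F, Ne, map_eq_zero_iff _ (algebraMap K F).injective]
  intro h0
  apply hπ.ne_zero
  have h1 : (aeval t : O[X] →ₐ[O] K) (C π) = (aeval t : O[X] →ₐ[O] K) 0 := by
    rw [aeval_C, h0, map_zero]
  exact C_eq_zero.mp (ht.inj h1)

/-- The valuation property from normality. -/
theorem valAt_of_normal (hP : Over (gaussVal ht hπ) (algebraMap O K π) P) (hmeet : Meets y P)
    (hN : ∀ w ∈ P, ∀ p : O[X][X], p.Monic →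
      p.eval₂ ((aeval (algebraMap K F t) : O[X] →ₐ[O] F) : O[X] →+* F) w ∈ P.nonunits →
      ∃ r ∈ locS y, w - r ∈ P.nonunits) : ValAt y P := by
  classical
  -- the image of the local ring
  let ι : locS y →+* P :=
    { toFun := fun x => ⟨x, locS_le_over hP hmeet x.2⟩
      map_one' := rfl
      map_mul' := fun _ _ => rfl
      map_zero' := rfl
      map_add' := fun _ _ => rfl }
  let D : Subring (ResidueField P) := ((residue P).comp ι).range
  have hD : ∀ z : ResidueField P, z ∈ D ↔ ∃ r : locS y, residue P (ι r) = z := fun z => Iff.rfl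
  have hDu : ∀ r : locS y, (residue P (ι r))⁻¹ ∈ D → residue P (ι r) ≠ 0 → ¬ locM y (r : F) := by
    rintro r ⟨r', hr'⟩ h0 hM
    have h1 : residue P (ι (r * r' - 1)) = 0 := by
      rw [map_sub, map_sub, map_mul, map_mul, map_one, map_one]
      change residue P (ι r) * (residue P).comp ι r' - 1 = 0
      rw [hr', mul_inv_cancel₀ h0, sub_self]
    rw [coe_nonunits_iff] at h1
    have h2 := locM_of_nonunits hP hmeet (r * r' - 1).2 h1
    have h3 := (hM.mul_right r'.2).sub h2
    have e : (r : F) * r' - ((r * r' - 1 : locS y) : F) = 1 := by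
      rw [AddSubgroupClass.coe_sub, Subring.coe_mul, Subring.coe_one]; ring
    rw [e] at h3
    exact not_locM_one h3
  have hDu' : ∀ r : locS y, ¬ locM y (r : F) → (residue P (ι r))⁻¹ ∈ D ∧
      residue P (ι r) ≠ 0 := by
    intro r hM
    have h1 := inv_mem_of_not_locM r.2 hM
    have hr0 : (r : F) ≠ 0 := by
      intro h0
      exact hM (h0 ▸ locM_zero)
    have h2 : residue P (ι r) * residue P (ι ⟨_, h1⟩) = 1 := by
      rw [← map_mul, ← map_mul, ← map_one (residue P)]
      congr 1
      apply Subtype.ext
      exact mul_inv_cancel₀ hr0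
    have h3 : residue P (ι r) ≠ 0 := left_ne_zero_of_mul_eq_one h2
    refine ⟨⟨⟨_, h1⟩, ?_⟩, h3⟩
    change residue P (ι ⟨_, h1⟩) = _
    exact (inv_eq_of_mul_eq_one_right h2).symm
  -- locality
  have hloc : ∀ a b : ResidueField P, a ∈ D → b ∈ D → a⁻¹ ∉ D → b⁻¹ ∉ D →
      (a + b)⁻¹ ∉ D ∨ a + b = 0 := by
    rintro a b ⟨r, rfl⟩ ⟨r', rfl⟩ ha hb
    by_cases h0 : (residue P).comp ι r + (residue P).comp ι r' = 0
    · exact Or.inr h0
    left
    intro h
    have h1 : locM y (r : F) := by
      by_contra h1
      exact ha (hDu' r h1).1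
    have h2 : locM y (r' : F) := by
      by_contra h2
      exact hb (hDu' r' h2).1
    rw [← map_add] at h h0
    exact hDu (r + r') h h0 (h1.add h2)
  -- integrally closed
  let g : chart O (algebraMap K F t) →+* ResidueField P :=
    (residue P).comp ({ toFun := fun x => ⟨x, chart_mem_over hP x.2⟩
                        map_one' := rfl
                        map_mul' := fun _ _ => rfl
                        map_zero' := rfl
                        map_add' := fun _ _ => rfl } : chart O (algebraMap K F t) →+* P)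
  have hint : ∀ z : ResidueField P, (∃ (n : ℕ) (c : ℕ → ResidueField P), (∀ i, c i ∈ D) ∧
      z ^ n + ∑ i ∈ Finset.range n, c i * z ^ i = 0) → z ∈ D := by
    rintro z ⟨n, c, hc, hz⟩
    obtain ⟨⟨w, hwP⟩, rfl⟩ := residue_surjective z
    choose r hr using hc
    choose d hd hdr using fun i => (r i).2
    set e : chart O (algebraMap K F t) := ∏ i ∈ Finset.range n, d i with he
    have hey : e ∉ y := by
      intro h
      obtain ⟨i, -, hi⟩ := hy.prod_mem_iff.mp h
      exact hd i hi
    have her : ∀ i ∈ Finset.range n, (e : F) * (r i : F) ∈ chart O (algebraMap K F t) := by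
      intro i hi
      have h1 : (e : F) = (((Finset.range n).erase i).prod d : chart O (algebraMap K F t)) *
          (d i : F) := by
        rw [← MulMemClass.coe_mul, he, mul_comm, Finset.mul_prod_erase _ _ hi]
      rw [h1, mul_assoc]
      exact mul_mem (SetLike.coe_mem _) (hdr i)
    have heP : (e : F) ∈ P := chart_mem_over hP e.2
    -- `e w` is integral over the chart modulo `P`
    let ew : ResidueField P := residue P ⟨(e : F) * w, P.mul_mem _ _ heP hwP⟩
    have hew : ew = g e * residue P ⟨w, hwP⟩ := by
      change residue P _ = residue P _ * residue P _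
      rw [← map_mul]; rfl
    let cc : ℕ → chart O (algebraMap K F t) := fun i =>
      if h : i ∈ Finset.range n then ⟨(e : F) * (r i : F), her i h⟩ * e ^ (n - 1 - i) else 0
    have hccg : ∀ i ∈ Finset.range n, g (cc i) = g e ^ (n - i) * c i := by
      intro i hi
      have h1 : g ⟨(e : F) * (r i : F), her i hi⟩ = g e * c i := by
        rw [← hr i]
        change residue P _ = residue P _ * residue P _
        rw [← map_mul]
        congr 1
      simp only [cc, dif_pos hi]
      rw [map_mul, h1, map_pow]
      have h2 : n - i = (n - 1 - i) + 1 := by have := Finset.mem_range.mp hi; omega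
      rw [h2, pow_succ]
      ring
    have hmonic : ew ^ n + ∑ i ∈ Finset.range n, g (cc i) * ew ^ i = 0 := by
      have h1 : g e ^ n * ((residue P ⟨w, hwP⟩) ^ n +
          ∑ i ∈ Finset.range n, c i * (residue P ⟨w, hwP⟩) ^ i) = 0 := by rw [hz, mul_zero]
      rw [← h1, mul_add, Finset.mul_sum, hew, mul_pow]
      congr 1
      refine Finset.sum_congr rfl fun i hi => ?_
      rw [hccg i hi, mul_pow]
      have h2 : g e ^ n = g e ^ (n - i) * g e ^ i := by
        rw [← pow_add]; congr 1; have := Finset.mem_range.mp hi; omega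
      rw [h2]
      ring
    have hgint : g.IsIntegralElem ew := by
      refine ⟨X ^ n + ∑ i ∈ Finset.range n, C (cc i) * X ^ i, ?_, ?_⟩
      · refine monic_X_pow_add ?_
        rw [degree_lt_iff_coeff_zero]
        intro j hj
        rw [finsetSum_coeff]
        refine Finset.sum_eq_zero fun i hi => ?_
        rw [coeff_C_mul_X_pow, if_neg]
        have := Finset.mem_range.mp hi
        omega
      · rw [eval₂_add, eval₂_X_pow, eval₂_finsetSum]
        simp only [eval₂_mul, eval₂_C, eval₂_X_pow]
        exact hmonic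
    have hint2 : (g.comp (chartHom (algebraMap K F t))).IsIntegralElem ew := by
      letI : Algebra O[X] (chart O (algebraMap K F t)) := (chartHom (algebraMap K F t)).toAlgebra
      letI : Algebra (chart O (algebraMap K F t)) (ResidueField P) := g.toAlgebra
      letI : Algebra O[X] (ResidueField P) := (g.comp (chartHom (algebraMap K F t))).toAlgebra
      haveI : IsScalarTower O[X] (chart O (algebraMap K F t)) (ResidueField P) :=
        IsScalarTower.of_algebraMap_eq fun a => rfl
      haveI : Algebra.IsIntegral O[X] (chart O (algebraMap K F t)) :=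
        ⟨fun x => chartHom_isIntegral _ x⟩
      exact isIntegral_trans (R := O[X]) (A := chart O (algebraMap K F t)) ew hgint
    obtain ⟨p, hp, hpe⟩ := hint2
    obtain ⟨r', hr', hrw⟩ := hN ((e : F) * w) (P.mul_mem _ _ heP hwP) p hp (by
      have hcoe : ∀ r : O[X],
          ((aeval (algebraMap K F t) : O[X] →ₐ[O] F) : O[X] →+* F) r ∈ P := fun r =>
        chart_mem_over hP (aeval_mem_chart _ r)
      let φ : O[X] →+* P := ((aeval (algebraMap K F t) : O[X] →ₐ[O] F) : O[X] →+* F).codRestrict
        P.toSubring hcoe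
      have h3 : p.eval₂ ((aeval (algebraMap K F t) : O[X] →ₐ[O] F) : O[X] →+* F) ((e : F) * w) =
          ((p.eval₂ φ ⟨(e : F) * w, P.mul_mem _ _ heP hwP⟩ : P) : F) := by
        exact (hom_eval₂ p φ P.toSubring.subtype ⟨(e : F) * w, P.mul_mem _ _ heP hwP⟩).symm
      rw [h3, ← coe_nonunits_iff, hom_eval₂]
      exact hpe)
    -- conclusion
    refine ⟨⟨(e : F)⁻¹ * r', mul_mem (inv_mem_locS hey) hr'⟩, ?_⟩
    change residue P (ι _) = residue P _
    rw [← sub_eq_zero, ← map_sub, coe_nonunits_iff]
    have h1 : (e : F)⁻¹ ∈ P := locS_le_over hP hmeet (inv_mem_locS hey)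
    have h2 := nonunits_neg (mul_mem_nonunits h1 hrw)
    have he0 := ne_zero_of_notMem hey
    have e1 : -((e : F)⁻¹ * ((e : F) * w - r')) = (e : F)⁻¹ * r' - w := by
      rw [mul_sub, ← mul_assoc, inv_mul_cancel₀ he0]; ring
    rw [e1] at h2
    exact h2
  -- the equation
  intro x hx hxi
  obtain ⟨n, a, ⟨i₀, hi₀, hai⟩, hax⟩ := exists_poly_equation (F := F) ht hπ x
  -- the gcd modulo `π`
  let red : O[X] →+* (ResidueField O)[X] := mapRingHom (residue O)
  have hred : Function.Surjective red := map_surjective _ residue_surjective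
  have hredker : ∀ b : O[X], red b = 0 ↔ C π ∣ b := by
    intro b
    have hmax : maximalIdeal O = Ideal.span {π} :=
      (IsDiscreteValuationRing.irreducible_iff_uniformizer π).mp hπ.irreducible
    rw [C_dvd_iff_dvd_coeff, Polynomial.ext_iff]
    refine forall_congr' fun i => ?_
    rw [coe_mapRingHom, coeff_map, coeff_zero, residue_eq_zero_iff, hmax, Ideal.mem_span_singleton]
  let v : Fin (n + 1) → (ResidueField O)[X] := fun i => red (a i)
  let I : Ideal (ResidueField O)[X] := Ideal.span (Set.range v)
  let γ := Submodule.IsPrincipal.generator I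
  have hγI : γ ∈ I := Submodule.IsPrincipal.generator_mem I
  have hγd : ∀ i, γ ∣ v i := fun i => (Submodule.IsPrincipal.mem_iff_generator_dvd I).mp
    (Ideal.subset_span ⟨i, rfl⟩)
  have hγ0 : γ ≠ 0 := by
    intro h0
    have h1 := hγd ⟨i₀, by omega⟩
    rw [h0, zero_dvd_iff] at h1
    exact hai ((hredker _).mp h1)
  obtain ⟨uu, huu⟩ := (Ideal.mem_span_range_iff_exists_fun).mp hγI
  choose b hb using hγd
  have hub : ∑ i, uu i * b i = 1 := by
    apply mul_left_cancel₀ hγ0
    rw [Finset.mul_sum, mul_one]
    refine Eq.trans ?_ huu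
    exact Finset.sum_congr rfl fun i _ => by rw [hb i]; ring
  -- lifts
  obtain ⟨G, hG⟩ := hred γ
  choose B hB using fun i => hred (b i)
  choose U hU using fun i => hred (uu i)
  let ψ : O[X] →+* ResidueField P := g.comp (chartHom (algebraMap K F t))
  have hψπ : ∀ b : O[X], red b = 0 → ψ b = 0 := by
    intro b hb
    obtain ⟨r, rfl⟩ := (hredker b).mp hb
    rw [map_mul]
    have : ψ (C π) = 0 := by
      change residue P _ = 0
      rw [coe_nonunits_iff]
      change aeval (algebraMap K F t) (C π) ∈ P.nonunits
      rw [aeval_C, IsScalarTower.algebraMap_apply O K F]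
      exact hP.2
    rw [this, zero_mul]
  have hψG : ψ G ≠ 0 := by
    change residue P _ ≠ 0
    rw [Ne, coe_nonunits_iff]
    apply aeval_notMem_nonunits hP
    intro h
    exact hγ0 (by rw [← hG]; exact (hredker G).mpr h)
  have hψa : ∀ i : Fin (n + 1), ψ (a i) = ψ G * ψ (B i) := by
    intro i
    rw [← map_mul, ← sub_eq_zero, ← map_sub]
    apply hψπ
    rw [map_sub, map_mul, hG, hB, sub_eq_zero]
    exact hb i
  have hsum1 : ∑ i, ψ (U i) * ψ (B i) = 1 := by
    have h1 : ψ (∑ i, U i * B i - 1) = 0 := by
      apply hψπ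
      rw [map_sub, map_sum, map_one]
      simp only [map_mul, hU, hB]
      rw [hub, sub_self]
    rw [map_sub, map_one, sub_eq_zero, map_sum] at h1
    rw [← h1]
    exact Finset.sum_congr rfl fun i _ => (map_mul _ _ _).symm
  have hψD : ∀ b : O[X], ψ b ∈ D := by
    intro b
    exact ⟨⟨_, mem_locS_of_mem (aeval_mem_chart _ b)⟩, rfl⟩
  let z : ResidueField P := residue P ⟨x, hx⟩
  have hzrel : ∑ i ∈ Finset.range (n + 1), (if h : i < n + 1 then ψ (B ⟨i, h⟩) else 0) * z ^ i =
      0 := by
    apply mul_left_cancel₀ hψG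
    rw [mul_zero, Finset.mul_sum]
    have h1 : ∀ i ∈ Finset.range (n + 1),
        ψ G * ((if h : i < n + 1 then ψ (B ⟨i, h⟩) else 0) * z ^ i) = ψ (a i) * z ^ i := by
      intro i hi
      rw [dif_pos (Finset.mem_range.mp hi), ← mul_assoc, ← hψa]
    rw [Finset.sum_congr rfl h1]
    have h2 : residue P (∑ i ∈ Finset.range (n + 1),
        (⟨aeval (algebraMap K F t) (a i), chart_mem_over hP (aeval_mem_chart _ _)⟩ : P) *
          ⟨x, hx⟩ ^ i) = 0 := by
      rw [show (∑ i ∈ Finset.range (n + 1),
        (⟨aeval (algebraMap K F t) (a i), chart_mem_over hP (aeval_mem_chart _ _)⟩ : P) *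
          ⟨x, hx⟩ ^ i) = 0 from Subtype.ext (by
            rw [AddSubmonoidClass.coe_finsetSum]
            exact hax), map_zero]
    rw [map_sum] at h2
    rw [← h2]
    refine Finset.sum_congr rfl fun i _ => ?_
    rw [map_mul, map_pow]
    rfl
  have hunit : ∃ i ≤ n, (if h : i < n + 1 then ψ (B ⟨i, h⟩) else 0) ≠ 0 ∧
      (if h : i < n + 1 then ψ (B ⟨i, h⟩) else 0)⁻¹ ∈ D := by
    by_contra hcon
    push Not at hcon
    have h1 : ∀ i : Fin (n + 1), locM y (aeval (algebraMap K F t) (B i)) := by
      intro i
      by_contra h1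
      have h2 := hDu' ⟨_, mem_locS_of_mem (aeval_mem_chart _ (B i))⟩ h1
      have h3 := hcon i (by omega)
      rw [dif_pos i.2] at h3
      exact h3 h2.2 h2.1
    have h2 : locM y (aeval (algebraMap K F t) (∑ i, U i * B i)) := by
      rw [map_sum]
      have : ∀ s : Finset (Fin (n + 1)), locM y (∑ i ∈ s,
          aeval (algebraMap K F t) (U i * B i)) := by
        intro s
        induction s using Finset.induction_on with
        | empty => rw [Finset.sum_empty]; exact locM_zero
        | insert i s hi ih =>
          rw [Finset.sum_insert hi, map_mul]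
          exact ((h1 i).mul_left (mem_locS_of_mem (aeval_mem_chart _ _))).add ih
      exact this _
    have h3 : aeval (algebraMap K F t) (∑ i, U i * B i - 1) ∈ P.nonunits := by
      have h4 : ψ (∑ i, U i * B i - 1) = 0 := by
        rw [map_sub, map_one, map_sum, sub_eq_zero, ← hsum1]
        exact Finset.sum_congr rfl fun i _ => map_mul _ _ _
      exact coe_nonunits_iff.mp h4
    have h4 := locM_of_nonunits hP hmeet (mem_locS_of_mem (aeval_mem_chart _ _)) h3
    have h5 := h2.sub h4
    rw [← map_sub, sub_sub_cancel, map_one] at h5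
    exact not_locM_one h5
  have hres := mem_or_inv_mem_of_unit_coeff hint hloc n _ (fun i => by
    split_ifs
    · exact hψD _
    · exact zero_mem D) z hzrel hunit
  have hx0 : x ≠ 0 ∨ x = 0 := (em (x = 0)).symm
  rcases hres with ⟨r, hr⟩ | ⟨r, hr⟩
  · refine ⟨r, r.2, Or.inl ?_⟩
    have h1 : residue P (⟨x, hx⟩ - ι r) = 0 := by
      rw [map_sub, sub_eq_zero]; exact hr.symm
    exact coe_nonunits_iff.mp h1
  · refine ⟨r, r.2, Or.inr ?_⟩
    rcases hx0 with hx0 | rfl
    · have h2 : z⁻¹ = residue P ⟨x⁻¹, hxi⟩ := by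
        apply inv_eq_of_mul_eq_one_right
        rw [← map_mul, ← map_one (residue P)]
        congr 1
        exact Subtype.ext (mul_inv_cancel₀ hx0)
      have h1 : residue P (⟨x⁻¹, hxi⟩ - ι r) = 0 := by
        rw [map_sub, sub_eq_zero, ← h2]; exact hr.symm
      exact coe_nonunits_iff.mp h1
    · have h1 : residue P (⟨0⁻¹, hxi⟩ - ι r) = 0 := by
        rw [map_sub, sub_eq_zero]
        have h3 : (⟨(0 : F)⁻¹, hxi⟩ : P) = 0 := Subtype.ext inv_zero
        have h4 : z = 0 := by
          change residue P (⟨0, hx⟩ : P) = 0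
          have : (⟨0, hx⟩ : P) = 0 := rfl
          rw [this, map_zero]
        rw [h3, map_zero]
        have h5 : residue P (ι r) = z⁻¹ := hr
        rw [h5, h4, inv_zero]
      exact coe_nonunits_iff.mp h1

end Val

end Fermat.Agent.CA
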