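import Mathlib
import Fermat.Agent.CA.Kap
import Fermat.Agent.LG.Rel

/-!
Integral closedness of the local rings; consequences of the modular relation at the cusps.
-/

set_option autoImplicit false
set_option linter.unusedSectionVars false
set_option linter.style.haveILetI false
set_option linter.unusedVariables false

open IsLocalRing Polynomial

universe u

namespace Fermat.Agent.CA

open Fermat.Agent.Geo Fermat.Agent.LG

section Closed

variable {O F : Type u} [CommRing O] [Field F] [Algebra O F] {u : F}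
  {y : Ideal (chart O u)} [hy : y.IsPrime]

/-- The chart is integrally closed. -/
theorem chart_intClosed {z : F} {n : ℕ} {c : ℕ → F} (hc : ∀ i < n, c i ∈ chart O u)
    (hz : z ^ n + ∑ i ∈ Finset.range n, c i * z ^ i = 0) : z ∈ chart O u := by
  letI : Algebra O[X] F := ((aeval u : O[X] →ₐ[O] F) : O[X] →+* F).toAlgebra
  let B := integralClosure O[X] F
  have hB : ∀ x : F, x ∈ B ↔ x ∈ chart O u := fun x => Iff.rfl
  have h1 : IsIntegral B z := by
    refine ⟨X ^ n + ∑ i ∈ Finset.range n, C (if h : i < n then (⟨c i, hc i h⟩ : B) else 0) * X ^ i,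
      ?_, ?_⟩
    · refine monic_X_pow_add ?_
      rw [degree_lt_iff_coeff_zero]
      intro j hj
      rw [finsetSum_coeff]
      refine Finset.sum_eq_zero fun i hi => ?_
      rw [coeff_C_mul_X_pow, if_neg]
      have := Finset.mem_range.mp hi
      omega
    · rw [eval₂_add, eval₂_X_pow, eval₂_finsetSum]
      simp only [eval₂_mul, eval₂_C, eval₂_X_pow]
      rw [← hz]
      congr 1
      refine Finset.sum_congr rfl fun i hi => ?_
      rw [dif_pos (Finset.mem_range.mp hi)]
      rfl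
  exact isIntegral_trans (R := O[X]) (A := B) z h1

/-- The local rings are integrally closed. -/
theorem locS_intClosed {z : F} {n : ℕ} {c : ℕ → F} (hc : ∀ i < n, c i ∈ locS y)
    (hz : z ^ n + ∑ i ∈ Finset.range n, c i * z ^ i = 0) : z ∈ locS y := by
  classical
  have hd : ∀ i, ∃ d : chart O u, d ∉ y ∧ (i < n → (d : F) * c i ∈ chart O u) := by
    intro i
    by_cases hi : i < n
    · obtain ⟨d, hd, h⟩ := hc i hi
      exact ⟨d, hd, fun _ => h⟩
    · exact ⟨1, one_notMem_y, fun h => absurd h hi⟩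
  choose d hdy hdc using hd
  set e : chart O u := ∏ i ∈ Finset.range n, d i with he
  have hey : e ∉ y := by
    intro h
    obtain ⟨i, -, hi⟩ := hy.prod_mem_iff.mp h
    exact hdy i hi
  have hec : ∀ i < n, (e : F) * c i ∈ chart O u := by
    intro i hi
    have h1 : (e : F) = (((Finset.range n).erase i).prod d : chart O u) * (d i : F) := by
      rw [← MulMemClass.coe_mul, he, mul_comm, Finset.mul_prod_erase _ _ (Finset.mem_range.mpr hi)]
    rw [h1, mul_assoc]
    exact mul_mem (SetLike.coe_mem _) (hdc i hi)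
  refine ⟨e, hey, ?_⟩
  apply chart_intClosed (n := n) (c := fun i => ((e : F) * c i) * (e : F) ^ (n - 1 - i))
  · intro i hi
    exact mul_mem (hec i hi) (pow_mem e.2 _)
  · have h1 : (e : F) ^ n * (z ^ n + ∑ i ∈ Finset.range n, c i * z ^ i) = 0 := by
      rw [hz, mul_zero]
    rw [← h1, mul_add, Finset.mul_sum, mul_pow]
    congr 1
    refine Finset.sum_congr rfl fun i hi => ?_
    have hi' := Finset.mem_range.mp hi
    have h2 : (e : F) ^ n = e * (e : F) ^ (n - 1 - i) * (e : F) ^ i := by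
      rw [← pow_succ', ← pow_add]; congr 1; omega
    rw [h2, mul_pow]
    ring

theorem locS_of_pow {z : F} {n : ℕ} (hn : 0 < n) (hz : z ^ n ∈ locS y) : z ∈ locS y := by
  obtain ⟨k, rfl⟩ : ∃ k, n = k + 1 := ⟨n - 1, by omega⟩
  apply locS_intClosed (n := k + 1) (c := fun i => if i = 0 then -(z ^ (k + 1)) else 0)
  · intro i _
    split_ifs
    · exact neg_mem hz
    · exact zero_mem _
  · rw [Finset.sum_range_succ']
    simp

theorem aevalZ_mem {p : ℤ[X]} {s : F} (hs : s ∈ locS y) : aeval s p ∈ locS y := by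
  rw [aeval_eq_sum_range]
  refine sum_mem fun i _ => ?_
  rw [zsmul_eq_mul]
  exact mul_mem (intCast_mem _ _) (pow_mem hs _)

theorem locM_sum {ι : Type*} {s : Finset ι} {f : ι → F} (h : ∀ i ∈ s, locM y (f i)) :
    locM y (∑ i ∈ s, f i) := by
  classical
  induction s using Finset.induction_on with
  | empty => rw [Finset.sum_empty]; exact locM_zero
  | insert i s hi ih =>
    rw [Finset.sum_insert hi]
    exact (h i (Finset.mem_insert_self _ _)).add
      (ih fun j hj => h j (Finset.mem_insert_of_mem hj))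

theorem locM.pow {a : F} (ha : locM y a) {n : ℕ} (hn : 0 < n) : locM y (a ^ n) := by
  obtain ⟨k, rfl⟩ : ∃ k, n = k + 1 := ⟨n - 1, by omega⟩
  rw [pow_succ]
  exact ha.mul_left (pow_mem ha.mem k)

end Closed

/-- The shape of the modular equation, with the Kronecker congruence. -/
structure KShape (q : ℕ) (c : ℕ → ℤ[X]) : Prop extends ModShape q c where
  c0 : C (q : ℤ) ∣ c 0 - X ^ (q + 1)
  c1 : C (q : ℤ) ∣ c 1 + X
  cq : C (q : ℤ) ∣ c q + X ^ q
  ci : ∀ i, 1 < i → i < q → C (q : ℤ) ∣ c i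

section Rev

variable {E : Type*} [Field E]

/-- reversal -/
theorem aeval_reflect {d : ℕ} {p : ℤ[X]} (hp : p.natDegree ≤ d) {x : E} (hx : x ≠ 0) :
    aeval x⁻¹ (reflect d p) = aeval x p * x⁻¹ ^ d := by
  letI := invertibleOfNonzero hx
  have h1 := eval₂_reflect_mul_pow (algebraMap ℤ E) x d p hp
  rw [invOf_eq_inv] at h1
  rw [aeval_def, aeval_def, ← h1, mul_assoc, ← mul_pow, mul_inv_cancel₀ hx, one_pow, mul_one]

end Rev

section Cusp

variable {O F : Type u} [CommRing O] [Field F] [Algebra O F] {u : F}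
  {y : Ideal (chart O u)} [hy : y.IsPrime] {q : ℕ} {c : ℕ → ℤ[X]}

/-- `1/x` is in the maximal ideal if `1/x'` is. -/
theorem KShape.inv_locM (hc : KShape q c) (hq : locM y ((q : ℕ) : F)) {x x' : F} (hx : x ≠ 0)
    (hx' : x' ≠ 0) (hrel : MRel q c x x') (hM : locM y x'⁻¹) : locM y x⁻¹ := by
  have hq2 := hc.two_le
  -- the leading coefficient
  obtain ⟨r0, hr0⟩ := hc.c0
  have hs := hM.mem
  set A : F := aeval x' (c 0) * x'⁻¹ ^ (q + 1) with hA
  have hA' : A = aeval x'⁻¹ (reflect (q + 1) (c 0)) := (aeval_reflect hc.deg0 hx').symm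
  have hAmem : A ∈ locS y := by rw [hA']; exact aevalZ_mem hs
  have hAu : ¬ locM y A := by
    intro h
    have h1 : reflect (q + 1) (c 0) = 1 + C (q : ℤ) * reflect (q + 1) r0 := by
      have : c 0 = X ^ (q + 1) + C (q : ℤ) * r0 := by rw [← hr0]; ring
      rw [this, reflect_add, reflect_C_mul]
      congr 1
      have := reflect_monomial (R := ℤ) (q + 1) (q + 1)
      rw [revAt_le le_rfl, Nat.sub_self, pow_zero] at this
      exact this
    have h2 : A = 1 + (q : F) * aeval x'⁻¹ (reflect (q + 1) r0) := by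
      rw [hA', h1, map_add, map_one, map_mul]
      simp
    have h3 : locM y (1 : F) := by
      have h4 := h.sub (hq.mul_right (aevalZ_mem (p := reflect (q + 1) r0) hs))
      rw [h2, add_sub_cancel_right] at h4
      exact h4
    exact not_locM_one h3
  have hAi := inv_mem_of_not_locM hAmem hAu
  have hA0 : A ≠ 0 := by
    intro h0
    exact hAu (h0 ▸ locM_zero)
  -- the coefficients
  have hB : ∀ i, 1 ≤ i → i ≤ q → ∃ ρ ∈ locS y, aeval x' (c i) * x'⁻¹ ^ (q + 1) = x'⁻¹ * ρ := by
    intro i hi hiq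
    refine ⟨aeval x'⁻¹ (reflect q (c i)), aevalZ_mem hs, ?_⟩
    rw [aeval_reflect (hc.deg i hi) hx', pow_succ]
    ring
  choose! ρ hρ hρe using hB
  -- the equation of `x⁻¹`
  have key : A * x⁻¹ ^ (q + 1) + ∑ i ∈ Finset.range q, (x'⁻¹ * ρ (i + 1)) * x⁻¹ ^ (q - i) +
      x'⁻¹ ^ (q + 1) = 0 := by
    have h1 : (∑ i ∈ Finset.range (q + 2), aeval x' (c i) * x ^ i) * (x'⁻¹ ^ (q + 1) *
        x⁻¹ ^ (q + 1)) = 0 := by
      rw [show ∑ i ∈ Finset.range (q + 2), aeval x' (c i) * x ^ i = 0 from hrel, zero_mul]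
    rw [Finset.sum_range_succ, hc.top, map_one, one_mul, Finset.sum_range_succ', pow_zero,
      mul_one, add_mul, add_mul, Finset.sum_mul] at h1
    rw [← h1]
    have e1 : x ^ (q + 1) * (x'⁻¹ ^ (q + 1) * x⁻¹ ^ (q + 1)) = x'⁻¹ ^ (q + 1) := by
      rw [mul_left_comm, ← mul_pow, mul_inv_cancel₀ hx, one_pow, mul_one]
    have e2 : ∑ i ∈ Finset.range q, (x'⁻¹ * ρ (i + 1)) * x⁻¹ ^ (q - i) =
        ∑ i ∈ Finset.range q, aeval x' (c (i + 1)) * x ^ (i + 1) *
          (x'⁻¹ ^ (q + 1) * x⁻¹ ^ (q + 1)) := by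
      refine Finset.sum_congr rfl fun i hi => ?_
      have hi' := Finset.mem_range.mp hi
      rw [← hρe (i + 1) (by omega) (by omega)]
      have h2 : x⁻¹ ^ (q + 1) = x⁻¹ ^ (i + 1) * x⁻¹ ^ (q - i) := by
        rw [← pow_add]; congr 1; omega
      have h3 : x ^ (i + 1) * x⁻¹ ^ (i + 1) = 1 := by
        rw [← mul_pow, mul_inv_cancel₀ hx, one_pow]
      rw [h2]
      linear_combination (-(aeval x' (c (i + 1)) * x'⁻¹ ^ (q + 1) * x⁻¹ ^ (q - i))) * h3
    rw [e1, e2, hA]
    ring
  have hxS : x⁻¹ ∈ locS y := by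
    apply locS_intClosed (n := q + 1) (c := fun j => A⁻¹ * (if j = 0 then x'⁻¹ ^ (q + 1) else
      x'⁻¹ * ρ (q - j + 1)))
    · intro j hj
      refine mul_mem hAi ?_
      split_ifs with h0
      · exact pow_mem hs _
      · exact mul_mem hs (hρ _ (by omega) (by omega))
    · have h1 : A⁻¹ * (A * x⁻¹ ^ (q + 1) + ∑ i ∈ Finset.range q, (x'⁻¹ * ρ (i + 1)) *
        x⁻¹ ^ (q - i) + x'⁻¹ ^ (q + 1)) = 0 := by rw [key, mul_zero]
      rw [Finset.sum_range_succ', if_pos rfl, pow_zero, mul_one, ← h1, mul_add, mul_add,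
        ← mul_assoc, inv_mul_cancel₀ hA0, one_mul, add_assoc]
      congr 2
      rw [Finset.mul_sum, ← Finset.sum_range_reflect]
      refine Finset.sum_congr rfl fun i hi => ?_
      have hi' := Finset.mem_range.mp hi
      rw [if_neg (by omega), show q - (q - 1 - i + 1) + 1 = i + 1 by omega,
        show q - 1 - i + 1 = q - i by omega]
      ring
  -- conclusion
  have h2 : locM y (A * x⁻¹ ^ (q + 1)) := by
    have e : A * x⁻¹ ^ (q + 1) = -(∑ i ∈ Finset.range q, (x'⁻¹ * ρ (i + 1)) * x⁻¹ ^ (q - i) +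
      x'⁻¹ ^ (q + 1)) := by linear_combination key
    rw [e]
    refine (locM.add ?_ (hM.pow (by omega))).neg
    refine locM_sum fun i hi => ?_
    have hi' := Finset.mem_range.mp hi
    exact (hM.mul_right (hρ _ (by omega) (by omega))).mul_right (pow_mem hxS _)
  exact ((h2.of_mul hAmem (pow_mem hxS _)).resolve_left hAu).of_pow hxS

/-- `x / x' ^ q` is in the local ring. -/
theorem KShape.quot_locS (hc : KShape q c) {x x' : F} (hx' : x' ≠ 0)
    (hrel : MRel q c x x') (hM : x'⁻¹ ∈ locS y) : x / x' ^ q ∈ locS y := by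
  obtain ⟨R, hR, hRx⟩ := hc.toModShape.exists_monic_quot
  have h1 := hRx x x' hx' hrel
  rw [eval₂_eq_sum_range, Finset.sum_range_succ, hR.coeff_natDegree, map_one, one_mul,
    add_comm] at h1
  refine locS_intClosed (n := R.natDegree)
    (c := fun i => (eval₂RingHom (Int.castRingHom F) x'⁻¹) (R.coeff i)) ?_ h1
  intro i _
  have : (eval₂RingHom (Int.castRingHom F) x'⁻¹) (R.coeff i) = aeval x'⁻¹ (R.coeff i) := by
    rw [aeval_def]; congr 1
  rw [this]
  exact aevalZ_mem hM

/-- `x` is integral over `ℤ[x']`. -/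
theorem MRel.mem_locS (hc : KShape q c) {x x' : F}
    (hrel : MRel q c x x') (hM : x' ∈ locS y) : x ∈ locS y := by
  have h1 : ∑ i ∈ Finset.range (q + 2), aeval x' (c i) * x ^ i = 0 := hrel
  rw [Finset.sum_range_succ, hc.top, map_one, one_mul, add_comm] at h1
  exact locS_intClosed (n := q + 1) (c := fun i => aeval x' (c i)) (fun i _ => aevalZ_mem hM) h1

theorem MRel.mem_chart (hc : KShape q c) {x x' : F}
    (hrel : MRel q c x x') (hM : x' ∈ chart O u) : x ∈ chart O u := by
  have h1 : ∑ i ∈ Finset.range (q + 2), aeval x' (c i) * x ^ i = 0 := hrel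
  rw [Finset.sum_range_succ, hc.top, map_one, one_mul, add_comm] at h1
  refine chart_intClosed (n := q + 1) (c := fun i => aeval x' (c i)) (fun i _ => ?_) h1
  rw [aeval_eq_sum_range]
  refine sum_mem fun j _ => ?_
  rw [zsmul_eq_mul]
  exact mul_mem (intCast_mem _ _) (pow_mem hM _)

end Cusp

end Fermat.Agent.CA
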