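import Mathlib
import Fermat.Agent.CA.Int

/-!
The local parameter of the middle component at the cusps, from the Kronecker congruence.
-/

set_option autoImplicit false
set_option linter.unusedSectionVars false
set_option linter.style.haveILetI false
set_option linter.unusedVariables false

open IsLocalRing Polynomial

universe u

namespace Fermat.Agent.CA

open Fermat.Agent.Geo Fermat.Agent.LG

variable {q : ℕ} {c : ℕ → ℤ[X]}

/-- Kronecker's form of the modular equation. -/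
theorem KShape.exists_lambda (hc : KShape q c) (hq0 : q ≠ 0) : ∃ l : ℕ → ℤ[X],
    (∀ i ≤ q, (l i).natDegree ≤ q + 1) ∧ (∀ i, 1 ≤ i → i < q → (l i).natDegree ≤ q) ∧
    (l q).natDegree ≤ q - 1 ∧
    ∀ {E : Type u} [CommRing E] (x y : E), ∑ i ∈ Finset.range (q + 2), aeval y (c i) * x ^ i =
      (x - y ^ q) * (x ^ q - y) + q * ∑ i ∈ Finset.range (q + 1), aeval y (l i) * x ^ i := by
  have hq2 := hc.two_le
  have hqZ : (q : ℤ) ≠ 0 := by exact_mod_cast hq0
  obtain ⟨l0, h0⟩ := hc.c0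
  obtain ⟨l1, h1⟩ := hc.c1
  obtain ⟨lq, hq⟩ := hc.cq
  have hi : ∀ i, ∃ r : ℤ[X], 1 < i → i < q → c i = C (q : ℤ) * r := by
    intro i
    by_cases h : 1 < i ∧ i < q
    · obtain ⟨r, hr⟩ := hc.ci i h.1 h.2
      exact ⟨r, fun _ _ => hr⟩
    · exact ⟨0, fun h1 h2 => absurd ⟨h1, h2⟩ h⟩
  choose li hli using hi
  have hdeg : ∀ r : ℤ[X], (C (q : ℤ) * r).natDegree = r.natDegree := fun r =>
    natDegree_C_mul hqZ
  let l : ℕ → ℤ[X] := fun i => if i = 0 then l0 else if i = q then lq else if i = 1 then l1 else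
    li i
  have l_0 : l 0 = l0 := by simp [l]
  have l_q : l q = lq := by simp [l, hq0]
  have hl0 : l0.natDegree ≤ q + 1 := by
    rw [← hdeg, ← h0]
    refine (natDegree_sub_le _ _).trans (max_le hc.deg0 ?_)
    rw [natDegree_X_pow]
  have hl1 : l1.natDegree ≤ q := by
    rw [← hdeg, ← h1]
    refine (natDegree_add_le _ _).trans (max_le (hc.deg 1 le_rfl) ?_)
    rw [natDegree_X]; omega
  have hlq : lq.natDegree ≤ q - 1 := by
    rw [natDegree_le_iff_coeff_eq_zero]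
    intro N hN
    have h2 : (q : ℤ) * lq.coeff N = 0 := by
      rw [← coeff_C_mul, ← hq, coeff_add, coeff_X_pow]
      by_cases hNq : N = q
      · rw [if_pos hNq, hNq, hc.coeff]; norm_num
      · rw [if_neg hNq, add_zero]
        exact coeff_eq_zero_of_natDegree_lt (lt_of_le_of_lt (hc.deg q (by omega)) (by omega))
    exact (mul_eq_zero.mp h2).resolve_left hqZ
  have hlidx : ∀ i, 1 ≤ i → i < q → (l i).natDegree ≤ q := by
    intro i hi1 hiq
    simp only [l]
    rw [if_neg (by omega), if_neg (by omega)]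
    split_ifs with h
    · exact hl1
    · rw [← hdeg, ← hli i (by omega) hiq]
      exact hc.deg i hi1
  refine ⟨l, ?_, hlidx, by rw [l_q]; exact hlq, ?_⟩
  · intro i hiq
    by_cases hi0 : i = 0
    · rw [hi0, l_0]; exact hl0
    by_cases hiq' : i = q
    · rw [hiq', l_q]; omega
    · exact (hlidx i (by omega) (by omega)).trans (by omega)
  · intro E _ x y
    have hcoe : ∀ r : ℤ[X], aeval y (C (q : ℤ) * r) = (q : E) * aeval y r := by
      intro r
      rw [map_mul, aeval_C]; simp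
    -- the base coefficients
    let b : ℕ → E := fun i => if i = 0 then y ^ (q + 1) else if i = q then -y ^ q else
      if i = 1 then -y else 0
    have hterm : ∀ i ∈ Finset.range (q + 1), aeval y (c i) * x ^ i =
        b i * x ^ i + (q : E) * (aeval y (l i) * x ^ i) := by
      intro i hi
      have hi' := Finset.mem_range.mp hi
      have : aeval y (c i) = b i + q * aeval y (l i) := by
        by_cases hi0 : i = 0
        · subst hi0
          have e : c 0 = X ^ (q + 1) + C (q : ℤ) * l0 := by rw [← h0]; ring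
          rw [l_0, e, map_add, hcoe]
          simp [b]
        by_cases hiq : i = q
        · subst hiq
          have e : c i = -X ^ i + C (i : ℤ) * lq := by rw [← hq]; ring
          rw [l_q, e, map_add, hcoe]
          simp [b, hi0]
        by_cases hi1 : i = 1
        · subst hi1
          have e : c 1 = -X + C (q : ℤ) * l1 := by rw [← h1]; ring
          rw [e, map_add, hcoe]
          simp [b, l, Ne.symm hiq, hiq]
        · rw [hli i (by omega) (by omega), hcoe]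
          simp [b, l, hi0, hiq, hi1]
      rw [this]; ring
    rw [Finset.sum_range_succ, hc.top, map_one, one_mul, Finset.sum_congr rfl hterm,
      Finset.sum_add_distrib, ← Finset.mul_sum]
    have hb : ∑ i ∈ Finset.range (q + 1), b i * x ^ i = y ^ (q + 1) - y * x - y ^ q * x ^ q := by
      obtain ⟨k, rfl⟩ : ∃ k, q = k + 2 := ⟨q - 2, by omega⟩
      rw [Finset.sum_range_succ, Finset.sum_range_succ', Finset.sum_range_succ']
      have e1 : ∑ i ∈ Finset.range k, b (i + 1 + 1) * x ^ (i + 1 + 1) = 0 := by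
        refine Finset.sum_eq_zero fun i hi => ?_
        have := Finset.mem_range.mp hi
        simp only [b]
        rw [if_neg (by omega), if_neg (by omega), if_neg (by omega), zero_mul]
      rw [e1]
      have b0 : b 0 = y ^ (k + 2 + 1) := if_pos rfl
      have b1 : b (0 + 1) = -y := by
        simp [b]
      have b2 : b (k + 2) = -y ^ (k + 2) := by
        simp [b]
      rw [b0, b1, b2]
      ring
    rw [hb]
    ring

section Omega

variable {O F : Type u} [CommRing O] [Field F] [Algebra O F] {u : F}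
  {y : Ideal (chart O u)} [hy : y.IsPrime]

theorem aeval_eq_pow_mul {p : ℤ[X]} {d : ℕ} (hp : p.natDegree ≤ d) {x : F} (hx : x ≠ 0)
    (hs : x⁻¹ ∈ locS y) : ∃ ρ ∈ locS y, aeval x p = x ^ d * ρ := by
  refine ⟨aeval x⁻¹ (reflect d p), aevalZ_mem hs, ?_⟩
  rw [aeval_reflect hp hx, mul_comm (aeval x p), ← mul_assoc, ← mul_pow, mul_inv_cancel₀ hx,
    one_pow, one_mul]

/-- The local parameter of the middle component at the cusps. -/
theorem KShape.omega (hc : KShape q c) (hqp : q.Prime) (hq : locM y ((q : ℕ) : F))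
    (hqF : ((q : ℕ) : F) ≠ 0) {X₀ X₁ X₂ : F}
    (h0 : X₀ ≠ 0) (h1 : X₁ ≠ 0) (rel0 : MRel q c X₀ X₁) (rel2 : MRel q c X₂ X₁)
    (m0 : locM y X₀⁻¹) (m1 : locM y X₁⁻¹) (u0 : X₀ ^ q / X₁ ∈ locS y)
    (hr : X₂ / X₀ ∈ locS y) (hrM : locM y (X₂ / X₀ - 1)) (hne : X₂ ≠ X₀) :
    locM y ((X₂ / X₀ - 1) ^ (q - 1) / q + 1) := by
  have hq2 := hc.two_le
  obtain ⟨l, hl, hli, hlq, hK⟩ := hc.exists_lambda hqp.ne_zero
  set r := X₂ / X₀ with hrdef
  have hX2 : X₂ = r * X₀ := by rw [hrdef]; field_simp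
  set z := r - 1 with hz
  have hz0 : z ≠ 0 := by
    rw [hz, sub_ne_zero]
    intro h
    apply hne
    rw [hX2, h, one_mul]
  -- `X₀ / X₁ ^ q` is in the maximal ideal
  have hX01 : locM y (X₀ / X₁) := by
    have e : X₀ / X₁ = X₀⁻¹ ^ (q - 1) * (X₀ ^ q / X₁) := by
      obtain ⟨k, rfl⟩ : ∃ k, q = k + 2 := ⟨q - 2, by omega⟩
      rw [show k + 2 - 1 = k + 1 by omega, inv_pow]
      field_simp
      ring
    rw [e]
    exact (m0.pow (by omega)).mul_right u0
  have hX0q : locM y (X₀ / X₁ ^ q) := by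
    have e : X₀ / X₁ ^ q = X₁⁻¹ ^ (q - 1) * (X₀ / X₁) := by
      obtain ⟨k, rfl⟩ : ∃ k, q = k + 2 := ⟨q - 2, by omega⟩
      rw [show k + 2 - 1 = k + 1 by omega, inv_pow]
      field_simp
      ring
    rw [e]
    exact hX01.mul_left (pow_mem m1.mem _)
  -- units
  set α₀ := 1 - X₀ / X₁ ^ q with hα₀
  set α₂ := 1 - r * (X₀ / X₁ ^ q) with hα₂
  have hα₀S : α₀ ∈ locS y := sub_mem (one_mem _) hX0q.mem
  have hα₂S : α₂ ∈ locS y := sub_mem (one_mem _) (mul_mem hr hX0q.mem)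
  have hα₀M : ¬ locM y α₀ := by
    intro h
    have := h.add hX0q
    rw [hα₀, sub_add_cancel] at this
    exact not_locM_one this
  have hα₂M : ¬ locM y α₂ := by
    intro h
    have := h.add (hX0q.mul_left hr)
    rw [hα₂, sub_add_cancel] at this
    exact not_locM_one this
  have hα₀i := inv_mem_of_not_locM hα₀S hα₀M
  have hα₂i := inv_mem_of_not_locM hα₂S hα₂M
  have hα₀0 : α₀ ≠ 0 := fun h => hα₀M (h ▸ locM_zero)
  have hα₂0 : α₂ ≠ 0 := fun h => hα₂M (h ▸ locM_zero)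
  have hA0 : X₀ - X₁ ^ q = -(X₁ ^ q * α₀) := by rw [hα₀]; field_simp; ring
  have hA2 : X₂ - X₁ ^ q = -(X₁ ^ q * α₂) := by rw [hα₂, hX2]; field_simp; ring
  -- the two equations
  set Λ : F → F := fun x => ∑ i ∈ Finset.range (q + 1), aeval X₁ (l i) * x ^ i with hΛ
  have hE0 : (X₁ ^ q * α₀) * (X₀ ^ q - X₁) = q * Λ X₀ := by
    have h2 : (0 : F) = _ := (rel0 : _ = (0 : F)).symm.trans (hK X₀ X₁)
    rw [hA0] at h2
    linear_combination h2
  have hE2 : (X₁ ^ q * α₂) * (X₂ ^ q - X₁) = q * Λ X₂ := by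
    have h2 : (0 : F) = _ := (rel2 : _ = (0 : F)).symm.trans (hK X₂ X₁)
    rw [hA2] at h2
    linear_combination h2
  -- the difference quotient of `Λ`
  set Λ' : F := ∑ i ∈ Finset.range (q + 1), aeval X₁ (l i) *
    ((∑ j ∈ Finset.range i, r ^ j) * X₀ ^ (i - 1)) with hΛ'
  have hdiff : Λ X₂ - Λ X₀ = z * X₀ * Λ' := by
    rw [hΛ, hΛ', ← Finset.sum_sub_distrib, Finset.mul_sum]
    refine Finset.sum_congr rfl fun i _ => ?_
    rcases Nat.eq_zero_or_pos i with rfl | hi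
    · simp
    · have h2 : r ^ i - 1 = z * ∑ j ∈ Finset.range i, r ^ j := by
        rw [mul_comm, hz, geom_sum_mul]
      obtain ⟨k, rfl⟩ : ∃ k, i = k + 1 := ⟨i - 1, by omega⟩
      rw [Nat.add_sub_cancel, hX2, mul_pow]
      linear_combination (aeval X₁ (l (k + 1)) * X₀ ^ (k + 1)) * h2
  -- the binomial expansion
  have hbin : ∃ E₀ ∈ locS y, X₂ ^ q - X₀ ^ q = q * X₀ ^ q * (z ^ q / q + z + z ^ 2 * E₀) := by
    have hb : ∀ k, ∃ b : ℕ, 0 < k → k < q → q.choose k = q * b := by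
      intro k
      by_cases h : 0 < k ∧ k < q
      · obtain ⟨b, hb⟩ := hqp.dvd_choose_self h.1.ne' h.2
        exact ⟨b, fun _ _ => hb⟩
      · exact ⟨0, fun h1 h2 => absurd ⟨h1, h2⟩ h⟩
    choose b hb using hb
    have hzS : z ∈ locS y := hrM.mem
    refine ⟨∑ k ∈ Finset.range (q - 2), (b (k + 2) : F) * z ^ k,
      sum_mem fun k _ => mul_mem (natCast_mem _ _) (pow_mem hzS _), ?_⟩
    have e1 : X₂ ^ q = X₀ ^ q * (z + 1) ^ q := by
      rw [hX2, hz, ← mul_pow]; ring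
    rw [e1, add_pow]
    obtain ⟨n, rfl⟩ : ∃ n, q = n + 2 := ⟨q - 2, by omega⟩
    rw [Finset.sum_range_succ, Finset.sum_range_succ', Finset.sum_range_succ',
      show n + 2 - 2 = n by omega]
    have e2 : ∑ k ∈ Finset.range n, z ^ (k + 1 + 1) * 1 ^ (n + 2 - (k + 1 + 1)) *
        ((n + 2).choose (k + 1 + 1) : F) =
        ((n + 2 : ℕ) : F) * (z ^ 2 * ∑ k ∈ Finset.range n, (b (k + 2) : F) * z ^ k) := by
      rw [Finset.mul_sum, Finset.mul_sum]
      refine Finset.sum_congr rfl fun k hk => ?_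
      have := Finset.mem_range.mp hk
      rw [hb (k + 1 + 1) (by omega) (by omega), one_pow, Nat.cast_mul]
      ring
    rw [e2]
    simp only [zero_add, one_pow, pow_zero, pow_one, Nat.choose_zero_right, Nat.cast_one,
      Nat.choose_self, Nat.choose_one_right, mul_one]
    field_simp
    ring
  obtain ⟨E₀, hE₀, hbin⟩ := hbin
  -- the main identity
  have hmain : z ^ (q - 1) / q + 1 = -(z * E₀) + X₁⁻¹ ^ q * X₀⁻¹ ^ (q - 1) * Λ' * α₂⁻¹ +
      X₁⁻¹ ^ (2 * q) * X₀⁻¹ ^ (q - 1) * Λ X₀ * (α₀⁻¹ * α₂⁻¹) := by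
    have hzq : z ^ q = z * z ^ (q - 1) := by
      rw [← pow_succ']; congr 1; omega
    have hXq : X₀ ^ q = X₀ * X₀ ^ (q - 1) := by
      rw [← pow_succ']; congr 1; omega
    have h2 : (X₁ ^ q * α₀) * (X₁ ^ q * α₂) * (X₂ ^ q - X₀ ^ q) =
        q * (X₁ ^ q * α₀ * (Λ X₂) - X₁ ^ q * α₂ * Λ X₀) := by
      linear_combination (X₁ ^ q * α₀) * hE2 - (X₁ ^ q * α₂) * hE0
    rw [hbin] at h2
    have h3 : X₁ ^ q * α₀ - X₁ ^ q * α₂ = z * X₀ := by
      rw [hα₀, hα₂, hz]
      field_simp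
      ring
    have h4 : X₁ ^ q * α₀ * Λ X₂ - X₁ ^ q * α₂ * Λ X₀ =
        z * X₀ * (X₁ ^ q * α₀ * Λ' + Λ X₀) := by
      linear_combination (X₁ ^ q * α₀) * hdiff + Λ X₀ * h3
    rw [h4] at h2
    have h5 : (X₁ ^ q * α₀) * (X₁ ^ q * α₂) * (X₀ ^ (q - 1) * (z ^ (q - 1) / q + 1 + z * E₀)) =
        X₁ ^ q * α₀ * Λ' + Λ X₀ := by
      have h6 : (q : F) * (z * X₀) ≠ 0 := mul_ne_zero hqF (mul_ne_zero hz0 h0)
      apply mul_left_cancel₀ h6
      rw [hzq, hXq] at h2
      linear_combination h2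
    have h7 : z ^ (q - 1) / q + 1 + z * E₀ = (X₁ ^ q * α₀ * Λ' + Λ X₀) /
        ((X₁ ^ q * α₀) * (X₁ ^ q * α₂) * X₀ ^ (q - 1)) := by
      rw [eq_div_iff (by
        refine mul_ne_zero (mul_ne_zero (mul_ne_zero (pow_ne_zero _ h1) hα₀0)
          (mul_ne_zero (pow_ne_zero _ h1) hα₂0)) (pow_ne_zero _ h0)), ← h5]
      ring
    have h8 : z ^ (q - 1) / q + 1 = -(z * E₀) + (X₁ ^ q * α₀ * Λ' + Λ X₀) /
        ((X₁ ^ q * α₀) * (X₁ ^ q * α₂) * X₀ ^ (q - 1)) := by
      rw [← h7]; ring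
    rw [h8, two_mul, pow_add]
    simp only [inv_pow]
    field_simp
    ring
  rw [hmain]
  refine ((hrM.mul_right hE₀).neg.add ?_).add ?_
  · -- the term with `Λ'`
    refine locM.mul_right ?_ hα₂i
    rw [hΛ', Finset.mul_sum]
    refine locM_sum fun i hi => ?_
    have hi' := Finset.mem_range.mp hi
    rcases Nat.eq_zero_or_pos i with rfl | hipos
    · simp only [Finset.range_zero, Finset.sum_empty, zero_mul, mul_zero]
      exact locM_zero
    have hgs : ∑ j ∈ Finset.range i, r ^ j ∈ locS y := sum_mem fun j _ => pow_mem hr _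
    by_cases hiq : i = q
    · obtain ⟨ρ, hρ, hρe⟩ := aeval_eq_pow_mul (p := l i) (d := q - 1) (by rw [hiq]; exact hlq) h1
        m1.mem
      rw [hρe, hiq]
      have e : X₁⁻¹ ^ q * X₀⁻¹ ^ (q - 1) * (X₁ ^ (q - 1) * ρ * ((∑ j ∈ Finset.range q, r ^ j) *
          X₀ ^ (q - 1))) = X₁⁻¹ * (ρ * ∑ j ∈ Finset.range q, r ^ j) := by
        have h2 : X₁⁻¹ ^ q = X₁⁻¹ * X₁⁻¹ ^ (q - 1) := by rw [← pow_succ']; congr 1; omega
        rw [h2]
        simp only [inv_pow]
        field_simp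
      rw [e]
      rw [hiq] at hgs
      exact m1.mul_right (mul_mem hρ hgs)
    · obtain ⟨ρ, hρ, hρe⟩ := aeval_eq_pow_mul (d := q) (hli i hipos (by omega)) h1 m1.mem
      rw [hρe]
      have e : X₁⁻¹ ^ q * X₀⁻¹ ^ (q - 1) * (X₁ ^ q * ρ * ((∑ j ∈ Finset.range i, r ^ j) *
          X₀ ^ (i - 1))) = X₀⁻¹ ^ (q - i) * (ρ * ∑ j ∈ Finset.range i, r ^ j) := by
        have h2 : X₀⁻¹ ^ (q - 1) = X₀⁻¹ ^ (q - i) * X₀⁻¹ ^ (i - 1) := by
          rw [← pow_add]; congr 1; omega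
        rw [h2]
        simp only [inv_pow]
        field_simp
      rw [e]
      exact (m0.pow (by omega)).mul_right (mul_mem hρ hgs)
  · refine locM.mul_right ?_ (mul_mem hα₀i hα₂i)
    rw [hΛ]
    simp only
    rw [Finset.mul_sum]
    refine locM_sum fun i hi => ?_
    have hi' := Finset.mem_range.mp hi
    obtain ⟨ρ, hρ, hρe⟩ := aeval_eq_pow_mul (d := q + 1) (hl i (by omega)) h1 m1.mem
    rw [hρe]
    by_cases hiq : i = q
    · have e : X₁⁻¹ ^ (2 * q) * X₀⁻¹ ^ (q - 1) * (X₁ ^ (q + 1) * ρ * X₀ ^ i) =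
          (X₀ / X₁) * (X₁⁻¹ ^ (q - 2) * ρ) := by
        rw [hiq]
        have h2 : X₁⁻¹ ^ (2 * q) = X₁⁻¹ ^ (q + 1) * (X₁⁻¹ * X₁⁻¹ ^ (q - 2)) := by
          rw [← pow_succ', ← pow_add]; congr 1; omega
        have h3 : X₀ ^ q = X₀ * X₀ ^ (q - 1) := by rw [← pow_succ']; congr 1; omega
        rw [h2, h3]
        simp only [inv_pow]
        field_simp
      rw [e]
      exact hX01.mul_right (mul_mem (pow_mem m1.mem _) hρ)
    · have e : X₁⁻¹ ^ (2 * q) * X₀⁻¹ ^ (q - 1) * (X₁ ^ (q + 1) * ρ * X₀ ^ i) =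
          X₁⁻¹ ^ (q - 1) * (X₀⁻¹ ^ (q - 1 - i) * ρ) := by
        have h2 : X₁⁻¹ ^ (2 * q) = X₁⁻¹ ^ (q + 1) * X₁⁻¹ ^ (q - 1) := by
          rw [← pow_add]; congr 1; omega
        have h3 : X₀⁻¹ ^ (q - 1) = X₀⁻¹ ^ (q - 1 - i) * X₀⁻¹ ^ i := by
          rw [← pow_add]; congr 1; omega
        rw [h2, h3]
        simp only [inv_pow]
        field_simp
      rw [e]
      exact (m1.pow (by omega)).mul_right (mul_mem (pow_mem m0.mem _) hρ)

end Omega

end Fermat.Agent.CA
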