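import Mathlib
import Fermat.Agent.CA.Omega
import Fermat.Agent.LG.LevelQ4

/-!
Normality modulo a component, for a model with good reduction.
-/

set_option autoImplicit false
set_option linter.unusedSectionVars false
set_option linter.style.haveILetI false
set_option linter.unusedVariables false

open IsLocalRing Polynomial

universe u

namespace Fermat.Agent.CA

open Fermat.Agent.Geo Fermat.Agent.LG

section Eval

variable {O F : Type u} [CommRing O] [Field F] [Algebra O F] {P : ValuationSubring F}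

/-- The reduction of polynomials. -/
theorem eval₂_congr_mod (hO : ∀ a : O, algebraMap O F a ∈ P) {u u' x x' : F} (hu : u ∈ P)
    (hx : x ∈ P) (huu : u - u' ∈ P.nonunits) (hxx : x - x' ∈ P.nonunits) (p : O[X][X])
    (h : p.eval₂ ((aeval u : O[X] →ₐ[O] F) : O[X] →+* F) x ∈ P.nonunits) :
    p.eval₂ ((aeval u' : O[X] →ₐ[O] F) : O[X] →+* F) x' ∈ P.nonunits := by
  have hu' : u' ∈ P := by
    have := sub_mem hu (ValuationSubring.nonunits_subset huu)
    rwa [sub_sub_cancel] at this
  have hx' : x' ∈ P := by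
    have := sub_mem hx (ValuationSubring.nonunits_subset hxx)
    rwa [sub_sub_cancel] at this
  let OP : O →+* P := (algebraMap O F).codRestrict P.toSubring hO
  have key : ∀ {v z : F} (hv : v ∈ P) (hz : z ∈ P),
      p.eval₂ ((aeval v : O[X] →ₐ[O] F) : O[X] →+* F) z =
        ((p.eval₂ (eval₂RingHom OP ⟨v, hv⟩) ⟨z, hz⟩ : P) : F) := by
    intro v z hv hz
    have h1 : ((aeval v : O[X] →ₐ[O] F) : O[X] →+* F) =
        P.toSubring.subtype.comp (eval₂RingHom OP ⟨v, hv⟩) := by
      apply Polynomial.ringHom_ext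
      · intro a
        simp [OP]
      · simp
    rw [h1]
    exact (hom_eval₂ p (eval₂RingHom OP ⟨v, hv⟩) P.toSubring.subtype ⟨z, hz⟩).symm
  rw [key hu hx, ← coe_nonunits_iff] at h
  rw [key hu' hx', ← coe_nonunits_iff]
  rw [hom_eval₂] at h ⊢
  have e1 : residue P ⟨u, hu⟩ = residue P ⟨u', hu'⟩ := by
    rw [← sub_eq_zero, ← map_sub, coe_nonunits_iff]; exact huu
  have e2 : residue P ⟨x, hx⟩ = residue P ⟨x', hx'⟩ := by
    rw [← sub_eq_zero, ← map_sub, coe_nonunits_iff]; exact hxx
  rw [← h, e2]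
  congr 1
  apply Polynomial.ringHom_ext
  · intro a; simp
  · simp [e1]

end Eval

section Model

variable {O K M : Type u} [CommRing O] [IsDomain O] [IsDiscreteValuationRing O] [CharZero O]
  [Field K] [Field M] [Algebra O K] [Algebra O M] [Algebra K M] [IsScalarTower O K M]
  {t : K} {π : O} [FiniteDimensional K M] [Algebra.IsSeparable K M]
  {ht : IsParam O t} {hπ : Prime π} {V : ValuationSubring M}

/-- A model with good reduction, with Gauss valuation `V`. -/
structure GModel (ht : IsParam O t) (hπ : Prime π) (V : ValuationSubring M) : Prop where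
  good : ∃ S : Set O, GoodRed ht hπ S M
  ov : Over (gaussVal ht hπ) (algebraMap O K π) V
  uniq : ∀ W : ValuationSubring M, Over (gaussVal ht hπ) (algebraMap O K π) W → W = V
  unif : ∀ x ∈ V.nonunits, x / algebraMap O M π ∈ V

theorem GModel.intOver (h : GModel ht hπ V) {x : M} (hx : x ∈ V) :
    IntOver (gaussVal ht hπ).toSubring x := by
  haveI : IsDiscreteValuationRing (gaussVal ht hπ) := isDiscreteValuationRing_gaussVal ht hπ
  obtain ⟨ϖ, hϖ, hϖπ⟩ := exists_gauss_unif ht hπ
  apply intOver_of_forall_over hϖ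
  intro W hW
  rw [over_gauss_iff ht hπ hϖπ] at hW
  rwa [h.uniq W hW]

theorem GModel.sub_mem (h : GModel ht hπ V) {f b w : M}
    (hw : IntOver (gaussVal ht hπ).toSubring w) (hf : f = b + π • w) : f - b ∈ V.nonunits := by
  have hwV : w ∈ V := mem_of_intOver h.ov.1 hw
  rw [hf, add_sub_cancel_left, Algebra.smul_def, mul_comm, IsScalarTower.algebraMap_apply O K M]
  exact mul_mem_nonunits hwV h.ov.2

theorem GModel.normal (h : GModel ht hπ V) {f : M} (p : O[X][X]) (hp : p.Monic)
    (hpf : p.eval₂ ((aeval (algebraMap K M t) : O[X] →ₐ[O] M) : O[X] →+* M) f ∈ V.nonunits) :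
    ∃ b ∈ chart O (algebraMap K M t), f - b ∈ V.nonunits := by
  obtain ⟨S, hS⟩ := h.good
  have h1 := h.unif _ hpf
  have hπ0 : algebraMap O M π ≠ 0 := pi_ne_zero ht hπ
  have hred : RedIntP ht hπ f := by
    refine ⟨p, hp, _, h.intOver h1, ?_⟩
    rw [Algebra.smul_def, mul_div_cancel₀ _ hπ0]
  obtain ⟨b, hb, w, hw, hbw⟩ := hS.exists_of_redIntP hred
  exact ⟨b, hb, h.sub_mem hw hbw⟩

theorem GModel.normal_inv (h : GModel ht hπ V) (ht' : IsParam O t⁻¹) {f : M} (p : O[X][X])
    (hp : p.Monic)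
    (hpf : p.eval₂ ((aeval (algebraMap K M t⁻¹) : O[X] →ₐ[O] M) : O[X] →+* M) f ∈ V.nonunits) :
    ∃ c : O[X], IsUnit (c.coeff 0) ∧ ∃ b ∈ chart O (algebraMap K M t⁻¹),
      aeval (algebraMap K M t⁻¹) c * f - b ∈ V.nonunits := by
  obtain ⟨S, hS⟩ := h.good
  have h1 := h.unif _ hpf
  have hπ0 : algebraMap O M π ≠ 0 := pi_ne_zero ht hπ
  have hgg : gaussVal ht' hπ = gaussVal ht hπ := gaussVal_inv ht ht' hπ
  have hred : RedIntP ht' hπ f := by
    have hI := h.intOver h1
    rw [← hgg] at hI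
    refine ⟨p, hp, _, hI, ?_⟩
    rw [Algebra.smul_def, mul_div_cancel₀ _ hπ0]
  obtain ⟨c, hc, b, hb, w, hw, hbw⟩ := goodRed_inf ht' hS hred
  rw [← map_inv₀] at hb hbw
  exact ⟨c, hc, b, hb, h.sub_mem hw hbw⟩

end Model

end Fermat.Agent.CA
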