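import Mathlib
import Fermat.Agent.CA.Model

/-!
Curves with three components: the abstract structure of the reduction of `X₀(q²M)`.
-/

set_option autoImplicit false
set_option linter.unusedSectionVars false
set_option linter.style.haveILetI false
set_option linter.unusedVariables false

open IsLocalRing Polynomial

universe u

namespace Fermat.Agent.CA

open Fermat.Agent.Geo Fermat.Agent.LG

/-- The data of a curve with three components `P 0` (`= P_∞`), `P 1` (`= P_m`), `P 2` (`= P_0`). -/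
structure Tri {O K M F : Type u} [CommRing O] [IsDomain O] [IsDiscreteValuationRing O]
    [Field K] [Field M] [Field F] [Algebra O K] [Algebra O M] [Algebra O F] [Algebra K M]
    [Algebra K F] [Algebra M F] [IsScalarTower O K M] [IsScalarTower O K F]
    {t : K} {π : O} (ht : IsParam O t) (hπ : Prime π) (q : ℕ)
    (c : ℕ → ℤ[X]) (C₀ : ℤ) (P : Fin 3 → ValuationSubring F) (w : F ≃+* F) (X₁ : F) : Prop where
  sys : CompSys ht hπ P
  inj : Function.Injective P
  prime : q.Prime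
  hq : (q : O) = π
  wO : ∀ a, w (algebraMap O F a) = algebraMap O F a
  ww : ∀ x, w (w x) = x
  wP0 : ∀ x, w x ∈ P 0 ↔ x ∈ P 2
  wP1 : ∀ x, w x ∈ P 1 ↔ x ∈ P 1
  res0 : ∀ x ∈ P 0, ∃ f : M, algebraMap M F f ∈ P 0 ∧ x - algebraMap M F f ∈ (P 0).nonunits
  res1 : ∀ x ∈ P 1, ∃ f : M, algebraMap M F f ∈ P 0 ∧ x - algebraMap M F f ∈ (P 1).nonunits
  memM : ∀ f : M, algebraMap M F f ∈ P 1 ↔ algebraMap M F f ∈ P 0
  wM : ∀ f : M, algebraMap M F f ∈ P 0 → w (algebraMap M F f) - algebraMap M F f ∈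
    (P 1).nonunits
  unif0 : ∀ x ∈ (P 0).nonunits, x / algebraMap O F π ∈ P 0
  unif1 : ∀ x ∈ (P 1).nonunits, x / (w (algebraMap K F t) - algebraMap K F t) ∈ P 1
  del : w (algebraMap K F t) - algebraMap K F t ∈ (P 1).nonunits
  delq : (w (algebraMap K F t) - algebraMap K F t) ^ (q - 1) / algebraMap O F π ∈ P 1
  delq' : algebraMap O F π / (w (algebraMap K F t) - algebraMap K F t) ^ (q - 1) ∈ P 1
  X1w : w X₁ = X₁
  X1_0 : X₁ - algebraMap K F t ^ q ∈ (P 0).nonunits
  X1_1 : X₁ - algebraMap K F t ^ q ∈ (P 1).nonunits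
  X2_0 : w (algebraMap K F t) - algebraMap K F t ^ (q ^ 2) ∈ (P 0).nonunits
  shape : KShape q c
  rel : MRel q c X₁ (algebraMap K F t)
  rel' : MRel q c (algebraMap K F t) X₁
  C0 : IsUnit ((C₀ : ℤ) : O)
  relu : MRel q c ((C₀ : F) / X₁) ((C₀ : F) / algebraMap K F t)
  relu' : MRel q c ((C₀ : F) / algebraMap K F t) ((C₀ : F) / X₁)
  gm : GModel ht hπ ((P 0).comap (algebraMap M F))

section

variable {O K M F : Type u} [CommRing O] [IsDomain O] [IsDiscreteValuationRing O] [CharZero O]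
  [Field K] [Field M] [Field F] [Algebra O K] [Algebra O M] [Algebra O F] [Algebra K M]
  [Algebra K F] [Algebra M F] [IsScalarTower O K M] [IsScalarTower O K F] [IsScalarTower K M F]
  [IsScalarTower O M F]
  {t : K} {π : O} [FiniteDimensional K M] [Algebra.IsSeparable K M]
  [FiniteDimensional K F] [Algebra.IsSeparable K F]
  {ht : IsParam O t} {hπ : Prime π} {q : ℕ} {c : ℕ → ℤ[X]} {C₀ : ℤ}
  {P : Fin 3 → ValuationSubring F} {w : F ≃+* F} {X₁ : F}

namespace Tri

variable (T : Tri (M := M) ht hπ q c C₀ P w X₁)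

include T

theorem tF_ne : algebraMap K F t ≠ 0 := by
  rw [Ne, map_eq_zero]; exact ht.ne_zero

theorem q2 : 2 ≤ q := T.prime.two_le

theorem O_mem (i : Fin 3) (a : O) : algebraMap O F a ∈ P i :=
  mem_of_intOver (T.sys.ov i).1 (intOver_of_mem_chart ht hπ
    ((chart O (algebraMap K F t)).algebraMap_mem a))

theorem π_nonunit (i : Fin 3) : algebraMap O F π ∈ (P i).nonunits := by
  have := (T.sys.ov i).2
  rwa [← IsScalarTower.algebraMap_apply] at this

theorem π_ne : algebraMap O F π ≠ 0 := pi_ne_zero ht hπ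

theorem q_cast : ((q : ℕ) : F) = algebraMap O F π := by
  rw [← T.hq, map_natCast]

theorem C0F : ((C₀ : ℤ) : F) = algebraMap O F (C₀ : O) := (map_intCast _ _).symm

theorem C0_ne : ((C₀ : ℤ) : F) ≠ 0 := by
  rw [T.C0F]
  intro h
  have h1 := coe_notMem_nonunits_of_unit (T.O_mem 0) T.C0
  rw [h] at h1
  exact h1 (zero_mem_nonunits _)

theorem C0_inv_mem (i : Fin 3) : ((C₀ : ℤ) : F)⁻¹ ∈ P i := by
  rw [T.C0F]
  exact inv_mem_of_notMem_nonunits (coe_notMem_nonunits_of_unit (T.O_mem i) T.C0)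

theorem w0_nonunits (x : F) : w x ∈ (P 0).nonunits ↔ x ∈ (P 2).nonunits := by
  have : P 2 = (P 0).comap (w : F →+* F) := by
    ext x; exact (T.wP0 x).symm
  rw [this]
  exact (comap_mem_nonunits (P 0) (w : F →+* F) x).symm

theorem w2_mem (x : F) : w x ∈ P 2 ↔ x ∈ P 0 := by
  rw [← T.wP0, T.ww]

theorem w2_nonunits (x : F) : w x ∈ (P 2).nonunits ↔ x ∈ (P 0).nonunits := by
  rw [← T.w0_nonunits, T.ww]

theorem w1_nonunits (x : F) : w x ∈ (P 1).nonunits ↔ x ∈ (P 1).nonunits := by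
  have : P 1 = (P 1).comap (w : F →+* F) := by
    ext x; exact (T.wP1 x).symm
  conv_rhs => rw [this]
  exact (comap_mem_nonunits (P 1) (w : F →+* F) x).symm

theorem unif2 (x : F) (hx : x ∈ (P 2).nonunits) : x / algebraMap O F π ∈ P 2 := by
  rw [← T.wP0, map_div₀, T.wO]
  exact T.unif0 _ ((T.w0_nonunits x).mpr hx)

theorem t_mem (i : Fin 3) : algebraMap K F t ∈ P i :=
  chart_mem_over (T.sys.ov i) (self_mem_chart _)

theorem t_inv_mem (i : Fin 3) : (algebraMap K F t)⁻¹ ∈ P i := by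
  rw [← map_inv₀]
  exact (T.sys.ov i).1 _ (by
    have := aeval_inv_mem_gauss ht hπ (B := X) (by
      intro h
      have h1 := (C_dvd_iff_dvd_coeff _ _).mp h 1
      rw [coeff_X_one] at h1
      exact hπ.not_unit (isUnit_of_dvd_one h1))
    rwa [aeval_X] at this)

theorem t_notMem (i : Fin 3) : algebraMap K F t ∉ (P i).nonunits :=
  notMem_nonunits_of_inv (T.t_inv_mem i) T.tF_ne

theorem X2_ne : w (algebraMap K F t) ≠ 0 := by
  rw [Ne, map_eq_zero_iff w w.injective]; exact T.tF_ne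

theorem X1_ne : X₁ ≠ 0 := by
  intro h
  have h1 := T.X1_0
  rw [h, zero_sub] at h1
  have h2 := nonunits_neg h1
  rw [neg_neg] at h2
  refine notMem_nonunits_of_inv ?_ (pow_ne_zero q T.tF_ne) h2
  rw [← inv_pow]
  exact pow_mem (T.t_inv_mem 0) q

/-- relations for `w t` -/
theorem rel2 : MRel q c X₁ (w (algebraMap K F t)) := by
  have h := congrArg w T.rel
  simp only [map_sum, map_mul, map_pow, T.X1w, map_zero] at h
  change ∑ i ∈ Finset.range (q + 2), _ = 0
  rw [← h]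
  refine Finset.sum_congr rfl fun i _ => ?_
  congr 1
  rw [aeval_def, aeval_def, ← RingEquiv.coe_toRingHom, hom_eval₂]
  congr 1
  exact RingHom.ext_int _ _

theorem rel2' : MRel q c (w (algebraMap K F t)) X₁ := by
  have h := congrArg w T.rel'
  simp only [map_sum, map_mul, map_pow, map_zero] at h
  change ∑ i ∈ Finset.range (q + 2), _ = 0
  rw [← h]
  refine Finset.sum_congr rfl fun i _ => ?_
  congr 1
  rw [aeval_def, ← RingEquiv.coe_toRingHom, hom_eval₂, RingEquiv.coe_toRingHom, T.X1w]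
  congr 1
  exact RingHom.ext_int _ _

theorem wC0 : w ((C₀ : ℤ) : F) = ((C₀ : ℤ) : F) := map_intCast w C₀

theorem relu2 : MRel q c ((C₀ : F) / X₁) ((C₀ : F) / w (algebraMap K F t)) := by
  have h := congrArg w T.relu
  simp only [map_sum, map_mul, map_pow, map_div₀, T.X1w, T.wC0, map_zero] at h
  change ∑ i ∈ Finset.range (q + 2), _ = 0
  rw [← h]
  refine Finset.sum_congr rfl fun i _ => ?_
  congr 1
  rw [aeval_def, aeval_def, ← RingEquiv.coe_toRingHom, hom_eval₂, RingEquiv.coe_toRingHom,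
    map_div₀, T.wC0]
  congr 1
  exact RingHom.ext_int _ _

theorem relu2' : MRel q c ((C₀ : F) / w (algebraMap K F t)) ((C₀ : F) / X₁) := by
  have h := congrArg w T.relu'
  simp only [map_sum, map_mul, map_pow, map_div₀, T.X1w, T.wC0, map_zero] at h
  change ∑ i ∈ Finset.range (q + 2), _ = 0
  rw [← h]
  refine Finset.sum_congr rfl fun i _ => ?_
  congr 1
  rw [aeval_def, ← RingEquiv.coe_toRingHom, hom_eval₂, RingEquiv.coe_toRingHom,
    map_div₀, T.wC0, T.X1w]
  congr 1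
  exact RingHom.ext_int _ _

/-! ### stability of the charts -/

theorem X1_chart : X₁ ∈ chart O (algebraMap K F t) :=
  MRel.mem_chart T.shape T.rel (self_mem_chart _)

theorem X2_chart : w (algebraMap K F t) ∈ chart O (algebraMap K F t) :=
  MRel.mem_chart T.shape T.rel2' T.X1_chart

theorem C0_mem_chart (u : F) : ((C₀ : ℤ) : F) ∈ chart O u := by
  rw [T.C0F]; exact (chart O u).algebraMap_mem _

theorem C0_inv_mem_chart (u : F) : ((C₀ : ℤ) : F)⁻¹ ∈ chart O u := by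
  obtain ⟨v, hv⟩ := T.C0
  have : ((C₀ : ℤ) : F)⁻¹ = algebraMap O F (↑v⁻¹ : O) := by
    rw [T.C0F, ← hv]
    apply inv_eq_of_mul_eq_one_right
    rw [← map_mul, Units.mul_inv, map_one]
  rw [this]; exact (chart O u).algebraMap_mem _

theorem X1_inv_chart : X₁⁻¹ ∈ chart O (algebraMap K F t⁻¹) := by
  have h1 : (C₀ : F) / algebraMap K F t ∈ chart O (algebraMap K F t⁻¹) := by
    rw [div_eq_mul_inv, ← map_inv₀]
    exact mul_mem (T.C0_mem_chart _) (self_mem_chart _)
  have h2 := MRel.mem_chart T.shape T.relu h1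
  have h3 := mul_mem (T.C0_inv_mem_chart _) h2
  rwa [div_eq_mul_inv, ← mul_assoc, inv_mul_cancel₀ T.C0_ne, one_mul] at h3

theorem X2_inv_chart : (w (algebraMap K F t))⁻¹ ∈ chart O (algebraMap K F t⁻¹) := by
  have h1 : (C₀ : F) / X₁ ∈ chart O (algebraMap K F t⁻¹) := by
    rw [div_eq_mul_inv]
    exact mul_mem (T.C0_mem_chart _) T.X1_inv_chart
  have h2 := MRel.mem_chart T.shape T.relu2' h1
  have h3 := mul_mem (T.C0_inv_mem_chart _) h2
  rwa [div_eq_mul_inv, ← mul_assoc, inv_mul_cancel₀ T.C0_ne, one_mul] at h3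

theorem w_aeval (u : F) (r : O[X]) : w (aeval u r) = aeval (w u) r := by
  have h1 : (w : F →+* F).comp ((aeval u : O[X] →ₐ[O] F) : O[X] →+* F) =
      ((aeval (w u) : O[X] →ₐ[O] F) : O[X] →+* F) := by
    apply Polynomial.ringHom_ext
    · intro a; simp [T.wO]
    · simp
  exact congrArg (fun f : O[X] →+* F => f r) h1

theorem w_eval₂ (u x : F) (p : O[X][X]) :
    w (p.eval₂ ((aeval u : O[X] →ₐ[O] F) : O[X] →+* F) x) =
      p.eval₂ ((aeval (w u) : O[X] →ₐ[O] F) : O[X] →+* F) (w x) := by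
  have h1 : (w : F →+* F).comp ((aeval u : O[X] →ₐ[O] F) : O[X] →+* F) =
      ((aeval (w u) : O[X] →ₐ[O] F) : O[X] →+* F) := by
    apply Polynomial.ringHom_ext
    · intro a; simp [T.wO]
    · simp
  rw [← RingEquiv.coe_toRingHom, hom_eval₂, h1]
  rfl

theorem w_chart_of {s : K} (hs : w (algebraMap K F s) ∈ chart O (algebraMap K F s)) {x : F}
    (hx : x ∈ chart O (algebraMap K F s)) : w x ∈ chart O (algebraMap K F s) := by
  obtain ⟨p, hp, hpx⟩ := hx
  refine chart_trans hs ⟨p, hp, ?_⟩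
  rw [← T.w_eval₂, hpx, map_zero]

theorem w_chart {x : F} (hx : x ∈ chart O (algebraMap K F t)) :
    w x ∈ chart O (algebraMap K F t) := T.w_chart_of T.X2_chart hx

theorem w_chart' {x : F} (hx : x ∈ chart O (algebraMap K F t⁻¹)) :
    w x ∈ chart O (algebraMap K F t⁻¹) := by
  refine T.w_chart_of ?_ hx
  rw [map_inv₀, map_inv₀, ← map_inv₀ (algebraMap K F)]
  exact T.X2_inv_chart

/-! ### normality -/

theorem comapM_nonunits (f : M) : f ∈ ((P 0).comap (algebraMap M F)).nonunits ↔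
    algebraMap M F f ∈ (P 0).nonunits := comap_mem_nonunits _ _ _

theorem M_inv_mem1 {f : M} (hf : algebraMap M F f ∈ (P 0).nonunits) :
    algebraMap M F f ∈ (P 1).nonunits := by
  by_contra h
  have h1 := inv_mem_of_notMem_nonunits h
  rw [← map_inv₀, T.memM, map_inv₀] at h1
  by_cases hf0 : algebraMap M F f = 0
  · rw [hf0] at h
    exact h (zero_mem_nonunits _)
  · exact notMem_nonunits_of_inv h1 hf0 hf

theorem M_nonunits1 {f : M} : algebraMap M F f ∈ (P 1).nonunits ↔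
    algebraMap M F f ∈ (P 0).nonunits := by
  refine ⟨fun hf => ?_, T.M_inv_mem1⟩
  by_contra h
  have h1 := inv_mem_of_notMem_nonunits h
  rw [← map_inv₀, ← T.memM, map_inv₀] at h1
  by_cases hf0 : algebraMap M F f = 0
  · rw [hf0] at h
    exact h (zero_mem_nonunits _)
  · exact notMem_nonunits_of_inv h1 hf0 hf

theorem aevalM (r : O[X]) {s : K} : algebraMap M F (aeval (algebraMap K M s) r) =
    aeval (algebraMap K F s) r := by
  rw [← aeval_algebraMap_apply, ← IsScalarTower.algebraMap_apply]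

theorem eval₂M (p : O[X][X]) (s : K) (f : M) :
    algebraMap M F (p.eval₂ ((aeval (algebraMap K M s) : O[X] →ₐ[O] M) : O[X] →+* M) f) =
      p.eval₂ ((aeval (algebraMap K F s) : O[X] →ₐ[O] F) : O[X] →+* F) (algebraMap M F f) := by
  rw [hom_eval₂]
  congr 1
  apply Polynomial.ringHom_ext
  · intro a; simp [← IsScalarTower.algebraMap_apply]
  · simp [← IsScalarTower.algebraMap_apply]

theorem chartM {s : K} {b : M} (hb : b ∈ chart O (algebraMap K M s)) :
    algebraMap M F b ∈ chart O (algebraMap K F s) := chart_up hb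

/-- normality along `P 0` -/
theorem normal0 {x : F} (hx : x ∈ P 0) (p : O[X][X]) (hp : p.Monic)
    (hpx : p.eval₂ ((aeval (algebraMap K F t) : O[X] →ₐ[O] F) : O[X] →+* F) x ∈
      (P 0).nonunits) :
    ∃ b ∈ chart O (algebraMap K M t), x - algebraMap M F b ∈ (P 0).nonunits := by
  obtain ⟨f, hf, hxf⟩ := T.res0 x hx
  have h1 := eval₂_congr_mod (T.O_mem 0) (T.t_mem 0) hx (u' := algebraMap K F t)
    (by rw [sub_self]; exact zero_mem_nonunits _) hxf p hpx
  rw [← T.eval₂M, ← T.comapM_nonunits] at h1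
  obtain ⟨b, hb, hfb⟩ := T.gm.normal p hp h1
  refine ⟨b, hb, ?_⟩
  rw [T.comapM_nonunits, map_sub] at hfb
  have := nonunits_add hxf hfb
  rwa [sub_add_sub_cancel] at this

theorem normal1 {x : F} (hx : x ∈ P 1) (p : O[X][X]) (hp : p.Monic)
    (hpx : p.eval₂ ((aeval (algebraMap K F t) : O[X] →ₐ[O] F) : O[X] →+* F) x ∈
      (P 1).nonunits) :
    ∃ b ∈ chart O (algebraMap K M t), x - algebraMap M F b ∈ (P 1).nonunits := by
  obtain ⟨f, hf, hxf⟩ := T.res1 x hx
  have h1 := eval₂_congr_mod (T.O_mem 1) (T.t_mem 1) hx (u' := algebraMap K F t)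
    (by rw [sub_self]; exact zero_mem_nonunits _) hxf p hpx
  rw [← T.eval₂M, T.M_nonunits1, ← T.comapM_nonunits] at h1
  obtain ⟨b, hb, hfb⟩ := T.gm.normal p hp h1
  refine ⟨b, hb, ?_⟩
  rw [T.comapM_nonunits, ← T.M_nonunits1, map_sub] at hfb
  have := nonunits_add hxf hfb
  rwa [sub_add_sub_cancel] at this

/-- substitution of `X ^ n` in the coefficients -/
theorem eval₂_expand (n : ℕ) (u x : F) (p : O[X][X]) :
    (p.map ((expand O n : O[X] →ₐ[O] O[X]) : O[X] →+* O[X])).eval₂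
      ((aeval u : O[X] →ₐ[O] F) : O[X] →+* F) x =
      p.eval₂ ((aeval (u ^ n) : O[X] →ₐ[O] F) : O[X] →+* F) x := by
  rw [eval₂_map]
  congr 1
  apply Polynomial.ringHom_ext
  · intro a; simp
  · simp

theorem normal2 {x : F} (hx : x ∈ P 2) (p : O[X][X]) (hp : p.Monic)
    (hpx : p.eval₂ ((aeval (algebraMap K F t) : O[X] →ₐ[O] F) : O[X] →+* F) x ∈
      (P 2).nonunits) :
    ∃ b ∈ chart O (algebraMap K M t), x - w (algebraMap M F b) ∈ (P 2).nonunits := by
  have hwx : w x ∈ P 0 := (T.wP0 x).mpr hx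
  rw [← T.w0_nonunits, T.w_eval₂] at hpx
  have h1 := eval₂_congr_mod (T.O_mem 0) ((T.wP0 _).mpr (T.t_mem 2)) hwx
    (u' := algebraMap K F t ^ (q ^ 2)) T.X2_0 (x' := w x)
    (by rw [sub_self]; exact zero_mem_nonunits _) p hpx
  rw [← T.eval₂_expand] at h1
  obtain ⟨b, hb, hxb⟩ := T.normal0 hwx _ (hp.map _) h1
  refine ⟨b, hb, ?_⟩
  rw [← T.w0_nonunits, map_sub, T.ww]
  exact hxb

/-! the chart at infinity -/

theorem normal0' {x : F} (hx : x ∈ P 0) (p : O[X][X]) (hp : p.Monic)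
    (hpx : p.eval₂ ((aeval (algebraMap K F t⁻¹) : O[X] →ₐ[O] F) : O[X] →+* F) x ∈
      (P 0).nonunits) :
    ∃ s : O[X], IsUnit (s.coeff 0) ∧ ∃ b ∈ chart O (algebraMap K M t⁻¹),
      aeval (algebraMap K F t⁻¹) s * x - algebraMap M F b ∈ (P 0).nonunits := by
  obtain ⟨f, hf, hxf⟩ := T.res0 x hx
  have hti : algebraMap K F t⁻¹ ∈ P 0 := by rw [map_inv₀]; exact T.t_inv_mem 0
  have h1 := eval₂_congr_mod (T.O_mem 0) hti hx (u' := algebraMap K F t⁻¹)
    (by rw [sub_self]; exact zero_mem_nonunits _) hxf p hpx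
  rw [← T.eval₂M, ← T.comapM_nonunits] at h1
  obtain ⟨s, hs, b, hb, hfb⟩ := T.gm.normal_inv ht.inv p hp h1
  refine ⟨s, hs, b, hb, ?_⟩
  rw [T.comapM_nonunits, map_sub, map_mul, T.aevalM] at hfb
  have hsP : aeval (algebraMap K F t⁻¹) s ∈ P 0 := by
    rw [aeval_eq_sum_range]
    refine sum_mem fun i _ => ?_
    rw [Algebra.smul_def]
    exact (P 0).mul_mem _ _ (T.O_mem 0 _) (pow_mem hti _)
  have := nonunits_add (mul_mem_nonunits hsP hxf) hfb
  rwa [mul_sub, sub_add_sub_cancel] at this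

theorem normal1' {x : F} (hx : x ∈ P 1) (p : O[X][X]) (hp : p.Monic)
    (hpx : p.eval₂ ((aeval (algebraMap K F t⁻¹) : O[X] →ₐ[O] F) : O[X] →+* F) x ∈
      (P 1).nonunits) :
    ∃ s : O[X], IsUnit (s.coeff 0) ∧ ∃ b ∈ chart O (algebraMap K M t⁻¹),
      aeval (algebraMap K F t⁻¹) s * x - algebraMap M F b ∈ (P 1).nonunits := by
  obtain ⟨f, hf, hxf⟩ := T.res1 x hx
  have hti : algebraMap K F t⁻¹ ∈ P 1 := by rw [map_inv₀]; exact T.t_inv_mem 1
  have h1 := eval₂_congr_mod (T.O_mem 1) hti hx (u' := algebraMap K F t⁻¹)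
    (by rw [sub_self]; exact zero_mem_nonunits _) hxf p hpx
  rw [← T.eval₂M, T.M_nonunits1, ← T.comapM_nonunits] at h1
  obtain ⟨s, hs, b, hb, hfb⟩ := T.gm.normal_inv ht.inv p hp h1
  refine ⟨s, hs, b, hb, ?_⟩
  rw [T.comapM_nonunits, ← T.M_nonunits1, map_sub, map_mul, T.aevalM] at hfb
  have hsP : aeval (algebraMap K F t⁻¹) s ∈ P 1 := by
    rw [aeval_eq_sum_range]
    refine sum_mem fun i _ => ?_
    rw [Algebra.smul_def]
    exact (P 1).mul_mem _ _ (T.O_mem 1 _) (pow_mem hti _)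
  have := nonunits_add (mul_mem_nonunits hsP hxf) hfb
  rwa [mul_sub, sub_add_sub_cancel] at this

theorem X2inv_sub : w (algebraMap K F t⁻¹) - algebraMap K F t⁻¹ ^ (q ^ 2) ∈ (P 0).nonunits := by
  rw [map_inv₀, map_inv₀]
  have h1 := T.X2_0
  have h2 : (w (algebraMap K F t))⁻¹ ∈ P 0 := by
    rw [← map_inv₀, T.wP0]; exact T.t_inv_mem 2
  have h3 := mul_mem_nonunits (mul_mem h2 (pow_mem (T.t_inv_mem 0) (q ^ 2))) (nonunits_neg h1)
  have h4 := T.X2_ne
  have h5 := T.tF_ne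
  have e : (w (algebraMap K F t))⁻¹ * (algebraMap K F t)⁻¹ ^ (q ^ 2) *
      -(w (algebraMap K F t) - algebraMap K F t ^ (q ^ 2)) =
      (w (algebraMap K F t))⁻¹ - (algebraMap K F t)⁻¹ ^ (q ^ 2) := by
    rw [inv_pow]
    field_simp
    ring
  rwa [e] at h3

theorem normal2' {x : F} (hx : x ∈ P 2) (p : O[X][X]) (hp : p.Monic)
    (hpx : p.eval₂ ((aeval (algebraMap K F t⁻¹) : O[X] →ₐ[O] F) : O[X] →+* F) x ∈
      (P 2).nonunits) :
    ∃ s : O[X], IsUnit (s.coeff 0) ∧ ∃ b ∈ chart O (algebraMap K M t⁻¹),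
      w (aeval (algebraMap K F t⁻¹) s) * x - w (algebraMap M F b) ∈ (P 2).nonunits := by
  have hwx : w x ∈ P 0 := (T.wP0 x).mpr hx
  rw [← T.w0_nonunits, T.w_eval₂] at hpx
  have hti : algebraMap K F t⁻¹ ∈ P 2 := by rw [map_inv₀]; exact T.t_inv_mem 2
  have h1 := eval₂_congr_mod (T.O_mem 0) ((T.wP0 _).mpr hti) hwx
    (u' := algebraMap K F t⁻¹ ^ (q ^ 2)) T.X2inv_sub (x' := w x)
    (by rw [sub_self]; exact zero_mem_nonunits _) p hpx
  rw [← T.eval₂_expand] at h1
  obtain ⟨s, hs, b, hb, hxb⟩ := T.normal0' hwx _ (hp.map _) h1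
  refine ⟨s, hs, b, hb, ?_⟩
  rw [← T.w0_nonunits, map_sub, map_mul, T.ww, T.ww]
  exact hxb

end Tri

end

end Fermat.Agent.CA
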