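import Mathlib
import Fermat.Agent.CA.Tri

/-!
Cusps of curves with three components: exactly one component passes through a cusp and it has a
local equation there.
-/

set_option autoImplicit false
set_option linter.unusedSectionVars false
set_option linter.style.haveILetI false
set_option linter.unusedVariables false

open IsLocalRing Polynomial

universe u

namespace Fermat.Agent.CA

open Fermat.Agent.Geo Fermat.Agent.LG

section General

variable {O K F : Type u} [CommRing O] [IsDomain O] [IsDiscreteValuationRing O]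
  [Field K] [Field F] [Algebra O K] [Algebra O F] [Algebra K F] [IsScalarTower O K F]
  {s : K} {π : O} [FiniteDimensional K F] [Algebra.IsSeparable K F]
  {hs : IsParam O s} {hπ : Prime π} {ι : Type} [Fintype ι] {P : ι → ValuationSubring F}
  {y : Ideal (chart O (algebraMap K F s))} [hy : y.IsPrime]

theorem mem_of_pow_mem' {V : ValuationSubring F} {m : ℕ} (hm : 0 < m) {x : F} (hx : x ^ m ∈ V) :
    x ∈ V := by
  rcases V.mem_or_inv_mem x with h | h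
  · exact h
  · by_cases hx0 : x = 0
    · rw [hx0]; exact zero_mem _
    have h1 : x = x ^ m * x⁻¹ ^ (m - 1) := by
      obtain ⟨n, rfl⟩ : ∃ n, m = n + 1 := ⟨m - 1, by omega⟩
      rw [Nat.add_sub_cancel, inv_pow, pow_succ, mul_comm (x ^ n), mul_assoc,
        mul_inv_cancel₀ (pow_ne_zero n hx0), mul_one]
    rw [h1]
    exact V.mul_mem _ _ hx (pow_mem h _)

theorem one_notMem_nonunits' (V : ValuationSubring F) : (1 : F) ∉ V.nonunits :=
  notMem_nonunits_of_inv (by rw [inv_one]; exact V.one_mem) one_ne_zero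

theorem meets_notMem {hs : IsParam O s} {hπ : Prime π} {V : ValuationSubring F}
    (hV : Over (gaussVal hs hπ) (algebraMap O K π) V) (hm : Meets y V) {x : F}
    (hx : x ∈ locS y) (hxM : ¬ locM y x) : x ∈ V ∧ x⁻¹ ∈ V ∧ x ∉ V.nonunits := by
  have h1 := locS_le_over hV hm hx
  have h2 := locS_le_over hV hm (inv_mem_of_not_locM hx hxM)
  exact ⟨h1, h2, fun h => hxM (locM_of_nonunits hV hm hx h)⟩

theorem exists_r {hs : IsParam O s} {hπ : Prime π} {V : ValuationSubring F}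
    (hV : Over (gaussVal hs hπ) (algebraMap O K π) V) (hm : Meets y V) (hval : ValAt y V)
    {m : ℕ} (hm0 : 0 < m) {h g gy : F} (hgy : gy ≠ 0) (hg0 : g ≠ 0)
    (hv : h / gy ^ m ∈ locS y) (hvM : ¬ locM y (h / gy ^ m))
    (hg : h / g ^ m - 1 ∈ V.nonunits) :
    ∃ r ∈ locS y, ¬ locM y r ∧ g / gy - r ∈ V.nonunits := by
  obtain ⟨h1, h2, h3⟩ := meets_notMem hV hm hv hvM
  have hh0 : h ≠ 0 := by
    rintro rfl
    apply hvM
    rw [zero_div]
    exact locM_zero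
  have h4 : h / g ^ m ∈ V := by
    have := V.add_mem _ _ (V.nonunits_le hg) V.one_mem
    rwa [sub_add_cancel] at this
  have h5 : h / g ^ m ∉ V.nonunits := by
    intro h
    have := nonunits_sub h hg
    rw [sub_sub_cancel] at this
    exact one_notMem_nonunits' V this
  have h6 := inv_mem_of_notMem_nonunits h5
  have e1 : (g / gy) ^ m = (h / gy ^ m) * (h / g ^ m)⁻¹ := by
    rw [div_pow]; field_simp
  have h7 : (g / gy) ^ m ∈ V := by rw [e1]; exact V.mul_mem _ _ h1 h6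
  have h8 : ((g / gy)⁻¹) ^ m ∈ V := by
    rw [inv_pow, e1, mul_inv, inv_inv]; exact V.mul_mem _ _ h2 h4
  have h9 : g / gy ∈ V := mem_of_pow_mem' hm0 h7
  have h10 : (g / gy)⁻¹ ∈ V := mem_of_pow_mem' hm0 h8
  refine exists_unit_lift hm hV hval hm0 h9 h10 hv hvM ?_
  have e2 : (g / gy) ^ m - h / gy ^ m = (-(g / gy) ^ m) * (h / g ^ m - 1) := by
    rw [div_pow]; field_simp; ring
  rw [e2]
  exact mul_mem_nonunits (V.neg_mem _ h7) hg

/-- a point with only one component -/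
theorem ptAt_single (hS : CompSys hs hπ P) [hym : y.IsMaximal]
    (hdisj : ∀ i j, Meets y (P i) → Meets y (P j) → i = j)
    (hloc : ∀ i, Meets y (P i) → ∃ a, LocEq y (P i) a)
    (hval : ∀ i, Meets y (P i) → ValAt y (P i))
    {m e : ℕ} (hm0 : 0 < m) {h : F} (h0 : h ≠ 0)
    (H3 : ∀ V : ValuationSubring F, V ≠ ⊤ → (∀ o : O, algebraMap O F o ∈ V) →
      (algebraMap O F π)⁻¹ ∈ V → ∃ g : F, g ≠ 0 ∧ g ^ m * h ∈ V ∧ (g ^ m * h)⁻¹ ∈ V)
    (HP : ∀ W : ValuationSubring F, Over (gaussVal hs hπ) (algebraMap O K π) W →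
      ∃ g : F, g ≠ 0 ∧ g ^ m * h ∈ W ∧ (g ^ m * h)⁻¹ ∈ W)
    {g : ι → F} (hg0 : ∀ i, g i ≠ 0) (hg : ∀ i, h / g i ^ m - 1 ∈ (P i).nonunits) (Λ : ι → O) :
    PtAt y (fun i => Meets y (P i)) P g Λ h m e := by
  intro i j hi hj
  obtain rfl := hdisj i j hi hj
  obtain ⟨a, ha⟩ := hloc i hi
  obtain ⟨gy, hgy, hv, hvM⟩ := exists_local_pow ha hi (hS.ov i) (hval i hi) hm0 h0 H3 HP
  obtain ⟨r, hr, hrM, hrg⟩ := exists_r (hS.ov i) hi (hval i hi) hm0 hgy (hg0 i) hv hvM (hg i)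
  refine ⟨gy, hgy, hv, hvM, r, hr, r, hr, hrM, hrM, hrg, hrg, ?_⟩
  rw [sub_self]
  exact locM_zero

end General

/-- the functions `t`, `t_q`, `t_{q²}` (or `C₀/t`, ...) near a cusp -/
structure CTrip {F : Type u} [Field F] (q : ℕ) (c : ℕ → ℤ[X]) (P : Fin 3 → ValuationSubring F)
    (X₀ X₁ X₂ : F) : Prop where
  rel01 : MRel q c X₁ X₀
  rel10 : MRel q c X₀ X₁
  rel21 : MRel q c X₂ X₁
  rel12 : MRel q c X₁ X₂
  n0 : X₀ ≠ 0
  n1 : X₁ ≠ 0
  n2 : X₂ ≠ 0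
  m0 : ∀ i, X₀⁻¹ ∈ P i
  m1 : ∀ i, X₁⁻¹ ∈ P i
  m2 : ∀ i, X₂⁻¹ ∈ P i
  c10 : X₁ - X₀ ^ q ∈ (P 0).nonunits
  c11 : X₁ - X₀ ^ q ∈ (P 1).nonunits
  c21 : X₁ - X₂ ^ q ∈ (P 1).nonunits
  c22 : X₁ - X₂ ^ q ∈ (P 2).nonunits
  d0 : X₂ - X₁ ^ q ∈ (P 0).nonunits
  d2 : X₀ - X₁ ^ q ∈ (P 2).nonunits
  ne : X₂ ≠ X₀
  del : X₂ - X₀ ∈ (P 1).nonunits
  unif : ∀ x ∈ (P 1).nonunits, x / (X₂ / X₀ - 1) ∈ P 1

section Cusp

variable {O K F : Type u} [CommRing O] [IsDomain O] [IsDiscreteValuationRing O]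
  [Field K] [Field F] [Algebra O K] [Algebra O F] [Algebra K F] [IsScalarTower O K F]
  {s : K} {π : O} [FiniteDimensional K F] [Algebra.IsSeparable K F]
  {hs : IsParam O s} {hπ : Prime π} {P : Fin 3 → ValuationSubring F} {q : ℕ} {c : ℕ → ℤ[X]}
  {y : Ideal (chart O (algebraMap K F s))} [hy : y.IsPrime] {X₀ X₁ X₂ : F}

theorem div_sub_one_nonunits {V : ValuationSubring F} {a b : F} (hb : b ≠ 0) (hbi : b⁻¹ ∈ V)
    (h : a - b ∈ V.nonunits) : a / b - 1 ∈ V.nonunits := by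
  have e : a / b - 1 = b⁻¹ * (a - b) := by field_simp
  rw [e]
  exact mul_mem_nonunits hbi h

theorem unit_of_cong {V : ValuationSubring F}
    (hV : Over (gaussVal hs hπ) (algebraMap O K π) V) (hm : Meets y V) {a b : F} (hb : b ≠ 0)
    (hbi : b⁻¹ ∈ V) (h : a - b ∈ V.nonunits) (hab : a / b ∈ locS y) : ¬ locM y (a / b) := by
  have h1 := locM_of_nonunits hV hm (Subring.sub_mem _ hab (Subring.one_mem _))
    (div_sub_one_nonunits hb hbi h)
  intro h2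
  have h3 := h2.sub h1
  rw [sub_sub_cancel] at h3
  exact not_locM_one h3

theorem not_locM_mul {a b : F} (ha : a ∈ locS y) (hb : b ∈ locS y) (ha' : ¬ locM y a)
    (hb' : ¬ locM y b) : ¬ locM y (a * b) := fun h => (h.of_mul ha hb).elim ha' hb'

theorem not_locM_pow {a : F} (ha : a ∈ locS y) (ha' : ¬ locM y a) (n : ℕ) :
    ¬ locM y (a ^ n) := fun h => ha' (h.of_pow ha)

theorem cusp_contra {q : ℕ} (hq : 2 ≤ q) {X Y Z : F} (hX : X ≠ 0) (hY : Y ≠ 0) (hZ : Z ≠ 0)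
    (hM : locM y Y⁻¹) (h1 : X / Y ^ q ∈ locS y) (h1' : ¬ locM y (X / Y ^ q))
    (h2 : Y / X ^ q ∈ locS y) (h2' : ¬ locM y (Y / X ^ q)) : False := by
  have h3 := not_locM_mul (Subring.pow_mem _ h1 q) h2 (not_locM_pow h1 h1' q) h2'
  apply h3
  have e : (X / Y ^ q) ^ q * (Y / X ^ q) = Y⁻¹ ^ (q ^ 2 - 1) := by
    obtain ⟨n, hn⟩ : ∃ n, q ^ 2 = n + 1 := ⟨q ^ 2 - 1, by
      have : 0 < q ^ 2 := by positivity
      omega⟩
    have h4 : (Y ^ q) ^ q = Y ^ (n + 1) := by rw [← pow_mul, ← pow_two, hn]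
    rw [hn, Nat.add_sub_cancel, div_pow, h4, inv_pow]
    field_simp
    ring
  rw [e]
  exact hM.pow (by
    have : 2 ^ 2 ≤ q ^ 2 := Nat.pow_le_pow_left hq 2
    omega)

namespace CTrip

variable (h : CTrip q c P X₀ X₁ X₂) (hc : KShape q c) (hS : CompSys hs hπ P)

include h hc in
theorem locs (hq : locM y ((q : ℕ) : F)) (hM : locM y X₀⁻¹) :
    locM y X₁⁻¹ ∧ locM y X₂⁻¹ ∧ X₁ / X₀ ^ q ∈ locS y ∧ X₀ / X₁ ^ q ∈ locS y ∧
      X₂ / X₁ ^ q ∈ locS y ∧ X₁ / X₂ ^ q ∈ locS y := by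
  have h1 := hc.inv_locM hq h.n1 h.n0 h.rel01 hM
  have h2 := hc.inv_locM hq h.n2 h.n1 h.rel21 h1
  exact ⟨h1, h2, hc.quot_locS h.n0 h.rel01 hM.mem, hc.quot_locS h.n1 h.rel10 h1.mem,
    hc.quot_locS h.n1 h.rel21 h1.mem, hc.quot_locS h.n2 h.rel12 h2.mem⟩

include h hc hS in
theorem disj (hqπ : ((q : ℕ) : F) = algebraMap O F π) (hqM : locM y ((q : ℕ) : F))
    (hM : locM y X₀⁻¹) : ∀ i j, Meets y (P i) → Meets y (P j) → i = j := by
  obtain ⟨h1, h2, l1, l2, l3, l4⟩ := h.locs hc hqM hM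
  have hq2 : 2 ≤ q := hc.two_le
  have a0 : Meets y (P 0) → ¬ locM y (X₁ / X₀ ^ q) ∧ ¬ locM y (X₂ / X₁ ^ q) := fun hm =>
    ⟨unit_of_cong (hS.ov 0) hm (pow_ne_zero _ h.n0) (by rw [← inv_pow]; exact pow_mem (h.m0 0) _)
      h.c10 l1, unit_of_cong (hS.ov 0) hm (pow_ne_zero _ h.n1)
      (by rw [← inv_pow]; exact pow_mem (h.m1 0) _) h.d0 l3⟩
  have a1 : Meets y (P 1) → ¬ locM y (X₁ / X₀ ^ q) ∧ ¬ locM y (X₁ / X₂ ^ q) := fun hm =>
    ⟨unit_of_cong (hS.ov 1) hm (pow_ne_zero _ h.n0) (by rw [← inv_pow]; exact pow_mem (h.m0 1) _)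
      h.c11 l1, unit_of_cong (hS.ov 1) hm (pow_ne_zero _ h.n2)
      (by rw [← inv_pow]; exact pow_mem (h.m2 1) _) h.c21 l4⟩
  have a2 : Meets y (P 2) → ¬ locM y (X₁ / X₂ ^ q) ∧ ¬ locM y (X₀ / X₁ ^ q) := fun hm =>
    ⟨unit_of_cong (hS.ov 2) hm (pow_ne_zero _ h.n2) (by rw [← inv_pow]; exact pow_mem (h.m2 2) _)
      h.c22 l4, unit_of_cong (hS.ov 2) hm (pow_ne_zero _ h.n1)
      (by rw [← inv_pow]; exact pow_mem (h.m1 2) _) h.d2 l2⟩
  have k1 : ¬ locM y (X₂ / X₁ ^ q) → ¬ locM y (X₁ / X₂ ^ q) → False := fun b c =>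
    cusp_contra hq2 h.n2 h.n1 h.n0 h1 l3 b l4 c
  have k2 : ¬ locM y (X₀ / X₁ ^ q) → ¬ locM y (X₁ / X₀ ^ q) → False := fun b c =>
    cusp_contra hq2 h.n0 h.n1 h.n0 h1 l2 b l1 c
  have e01 : Meets y (P 0) → Meets y (P 1) → False := fun i j => k1 (a0 i).2 (a1 j).2
  have e02 : Meets y (P 0) → Meets y (P 2) → False := fun i j => k1 (a0 i).2 (a2 j).1
  have e12 : Meets y (P 1) → Meets y (P 2) → False := fun i j => k2 (a2 j).2 (a1 i).1
  intro i j hi hj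
  match i, j with
  | 0, 0 => rfl
  | 0, 1 => exact (e01 hi hj).elim
  | 0, 2 => exact (e02 hi hj).elim
  | 1, 0 => exact (e01 hj hi).elim
  | 1, 1 => rfl
  | 1, 2 => exact (e12 hi hj).elim
  | 2, 0 => exact (e02 hj hi).elim
  | 2, 1 => exact (e12 hj hi).elim
  | 2, 2 => rfl

include h hc hS in
theorem exists_locEq (hqp : q.Prime) (hqπ : ((q : ℕ) : F) = algebraMap O F π)
    (hqM : locM y ((q : ℕ) : F)) (hM : locM y X₀⁻¹)
    (u0 : ∀ x ∈ (P 0).nonunits, x / algebraMap O F π ∈ P 0)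
    (u2 : ∀ x ∈ (P 2).nonunits, x / algebraMap O F π ∈ P 2) (i : Fin 3) (hi : Meets y (P i)) :
    ∃ a, LocEq y (P i) a := by
  have hdis := h.disj hc hS hqπ hqM hM
  obtain ⟨h1, h2, l1, l2, l3, l4⟩ := h.locs hc hqM hM
  have hπ0 : algebraMap O F π ≠ 0 := pi_ne_zero hs hπ
  have hπl : algebraMap O F π ∈ locS y := by rw [← hqπ]; exact hqM.mem
  have hov := fun i => (hS.ov i).2
  simp only [← IsScalarTower.algebraMap_apply] at hov
  match i with
  | 0 =>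
    exact ⟨algebraMap O F π, hS.locEq hi hπ0 hπl (hov 0) u0
      (fun j hj hm => (hj (hdis j 0 hm hi)).elim) (n := 1)
      (by rw [pow_one, div_self hπ0]; exact Subring.one_mem _)⟩
  | 2 =>
    exact ⟨algebraMap O F π, hS.locEq hi hπ0 hπl (hov 2) u2
      (fun j hj hm => (hj (hdis j 2 hm hi)).elim) (n := 1)
      (by rw [pow_one, div_self hπ0]; exact Subring.one_mem _)⟩
  | 1 =>
    have hX : X₂ / X₀ ∈ locS y := by
      apply locS_of_pow (n := q) hqp.pos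
      have e : (X₂ / X₀) ^ q = (X₁ / X₀ ^ q) * (X₁ / X₂ ^ q)⁻¹ := by
        rw [div_pow]
        have := h.n1
        have := h.n2
        have := h.n0
        field_simp
      rw [e]
      exact Subring.mul_mem _ l1 (inv_mem_of_not_locM l4
        (unit_of_cong (hS.ov 1) hi (pow_ne_zero _ h.n2)
          (by rw [← inv_pow]; exact pow_mem (h.m2 1) _) h.c21 l4))
    have hXn : X₂ / X₀ - 1 ∈ (P 1).nonunits := div_sub_one_nonunits h.n0 (h.m0 1) h.del
    have hXs : X₂ / X₀ - 1 ∈ locS y := Subring.sub_mem _ hX (Subring.one_mem _)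
    have hXM := locM_of_nonunits (hS.ov 1) hi hXs hXn
    have hX0 : X₂ / X₀ - 1 ≠ 0 := by
      intro h0
      have := sub_eq_zero.mp h0
      rw [div_eq_one_iff_eq h.n0] at this
      exact h.ne this
    have hqF : ((q : ℕ) : F) ≠ 0 := by rw [hqπ]; exact hπ0
    have hu0 : X₀ ^ q / X₁ ∈ locS y := by
      have := inv_mem_of_not_locM l1 (unit_of_cong (hS.ov 1) hi (pow_ne_zero _ h.n0)
          (by rw [← inv_pow]; exact pow_mem (h.m0 1) _) h.c11 l1)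
      rwa [inv_div] at this
    have hom := hc.omega hqp hqM hqF h.n0 h.n1 h.rel10 h.rel21 hM h1 hu0 hX hXM h.ne
    have hw : (X₂ / X₀ - 1) ^ (q - 1) / q ∈ locS y := by
      have := Subring.sub_mem _ hom.mem (Subring.one_mem _)
      rwa [add_sub_cancel_right] at this
    have hwM : ¬ locM y ((X₂ / X₀ - 1) ^ (q - 1) / q) := by
      intro h3
      have := hom.sub h3
      rw [add_sub_cancel_left] at this
      exact not_locM_one this
    have hwi := inv_mem_of_not_locM hw hwM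
    refine ⟨X₂ / X₀ - 1, hS.locEq hi hX0 hXs hXn h.unif
      (fun j hj hm => (hj (hdis j 1 hm hi)).elim) (n := 1) ?_⟩
    rw [pow_one, ← hqπ]
    have e : ((q : ℕ) : F) / (X₂ / X₀ - 1) =
        ((X₂ / X₀ - 1) ^ (q - 1) / q)⁻¹ * (X₂ / X₀ - 1) ^ (q - 2) := by
      obtain ⟨n, hn⟩ : ∃ n, q = n + 2 := ⟨q - 2, by have := hc.two_le; omega⟩
      have e1 : q - 1 = n + 1 := by omega
      have e2 : q - 2 = n := by omega
      rw [e1, e2, inv_div]
      have e3 : ∀ z a : F, z ≠ 0 → a / z = a / z ^ (n + 1) * z ^ n := by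
        intro z a hz
        rw [pow_succ]
        field_simp
      exact e3 _ _ hX0
    rw [e]
    exact Subring.mul_mem _ hwi (Subring.pow_mem _ hXs _)

end CTrip

end Cusp

end Fermat.Agent.CA
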