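import Mathlib
import Fermat.Agent.CA.Cusp

/-!
Cusps of curves with three components, continued.
-/

set_option autoImplicit false
set_option linter.unusedSectionVars false
set_option linter.style.haveILetI false
set_option linter.unusedVariables false

open IsLocalRing Polynomial

universe u

namespace Fermat.Agent.CA

open Fermat.Agent.Geo Fermat.Agent.LG

theorem inv_sub_eq {F : Type u} [Field F] {a : F} (ha : a ≠ 0) (x b : F) :
    x - a⁻¹ * b = a⁻¹ * (a * x - b) := by field_simp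

theorem int_pow_sub {F : Type u} [Field F] {V : ValuationSubring F} {q : ℕ} (hq : q.Prime)
    (hqV : ((q : ℕ) : F) ∈ V.nonunits) (C₀ : ℤ) : (C₀ : F) ^ q - C₀ ∈ V.nonunits := by
  haveI := Fact.mk hq
  have h1 : (q : ℤ) ∣ C₀ ^ q - C₀ := by
    rw [← ZMod.intCast_zmod_eq_zero_iff_dvd]
    push_cast
    rw [ZMod.pow_card, sub_self]
  obtain ⟨k, hk⟩ := h1
  have h2 : (C₀ : F) ^ q - C₀ = (k : F) * (q : ℕ) := by
    have := congrArg (fun z : ℤ => (z : F)) hk
    push_cast at this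
    rw [this, mul_comm]
  rw [h2]
  exact mul_mem_nonunits (intCast_mem V k) hqV

theorem inv_cong {F : Type u} [Field F] {V : ValuationSubring F} {a b C : F} {n : ℕ}
    (ha : a ≠ 0) (hb : b ≠ 0) (hai : a⁻¹ ∈ V) (hbi : b⁻¹ ∈ V) (hC : C ∈ V)
    (hCn : C ^ n - C ∈ V.nonunits) (h : a - b ^ n ∈ V.nonunits) :
    C / a - (C / b) ^ n ∈ V.nonunits := by
  have e : C / a - (C / b) ^ n = -((a⁻¹ * b⁻¹ ^ n * C) * (a - b ^ n)) -
      b⁻¹ ^ n * (C ^ n - C) := by
    rw [div_pow, inv_pow]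
    field_simp
    ring
  rw [e]
  exact nonunits_sub (nonunits_neg (mul_mem_nonunits (V.mul_mem _ _ (V.mul_mem _ _ hai
    (pow_mem hbi _)) hC) h)) (mul_mem_nonunits (pow_mem hbi _) hCn)

section

variable {O K M F : Type u} [CommRing O] [IsDomain O] [IsDiscreteValuationRing O] [CharZero O]
  [Field K] [Field M] [Field F] [Algebra O K] [Algebra O M] [Algebra O F] [Algebra K M]
  [Algebra K F] [Algebra M F] [IsScalarTower O K M] [IsScalarTower O K F] [IsScalarTower K M F]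
  [IsScalarTower O M F]
  {t : K} {π : O} [FiniteDimensional K M] [Algebra.IsSeparable K M]
  [FiniteDimensional K F] [Algebra.IsSeparable K F]
  {ht : IsParam O t} {hπ : Prime π} {q : ℕ} {c : ℕ → ℤ[X]} {C₀ : ℤ}
  {P : Fin 3 → ValuationSubring F} {w : F ≃+* F} {X₁ : F}

namespace Tri

variable (T : Tri (M := M) ht hπ q c C₀ P w X₁)

include T

theorem sys' : CompSys ht.inv hπ P where
  ov i := by rw [gaussVal_inv ht ht.inv hπ]; exact T.sys.ov i
  all W hW := T.sys.all W (by rwa [gaussVal_inv ht ht.inv hπ] at hW)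
  rank := T.sys.rank

theorem X1_mem (i : Fin 3) : X₁ ∈ P i := chart_mem_over (T.sys.ov i) T.X1_chart

theorem X2_mem (i : Fin 3) : w (algebraMap K F t) ∈ P i :=
  chart_mem_over (T.sys.ov i) T.X2_chart

theorem X1_inv_mem (i : Fin 3) : X₁⁻¹ ∈ P i := chart_mem_over (T.sys'.ov i) T.X1_inv_chart

theorem X2_inv_mem (i : Fin 3) : (w (algebraMap K F t))⁻¹ ∈ P i :=
  chart_mem_over (T.sys'.ov i) T.X2_inv_chart

theorem C0_mem (i : Fin 3) : ((C₀ : ℤ) : F) ∈ P i := by
  rw [T.C0F]; exact T.O_mem i _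

theorem q_nonunit (i : Fin 3) : ((q : ℕ) : F) ∈ (P i).nonunits := by
  rw [T.q_cast]; exact T.π_nonunit i

theorem del0 : w (algebraMap K F t) - algebraMap K F t ∉ (P 0).nonunits := by
  intro h
  have h1 := nonunits_sub T.X2_0 h
  have e : w (algebraMap K F t) - algebraMap K F t ^ (q ^ 2) -
      (w (algebraMap K F t) - algebraMap K F t) =
      -(aeval (algebraMap K F t) ((X : O[X]) ^ (q ^ 2) - X)) := by
    simp only [map_sub, map_pow, aeval_X]; ring
  rw [e] at h1
  have h2 := nonunits_neg h1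
  rw [neg_neg] at h2
  refine aeval_notMem_nonunits (T.sys.ov 0) ?_ h2
  intro h3
  have h4 := (C_dvd_iff_dvd_coeff _ _).mp h3 1
  have h5 : (1 : ℕ) ≠ q ^ 2 := by
    have : 2 ^ 2 ≤ q ^ 2 := Nat.pow_le_pow_left T.prime.two_le 2
    omega
  rw [coeff_sub, coeff_X_pow, if_neg h5, coeff_X_one, zero_sub, dvd_neg] at h4
  exact hπ.not_unit (isUnit_of_dvd_one h4)

theorem del_ne : w (algebraMap K F t) ≠ algebraMap K F t := by
  intro h
  apply T.del0
  rw [h, sub_self]
  exact zero_mem_nonunits _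

theorem d0 : w (algebraMap K F t) - X₁ ^ q ∈ (P 0).nonunits := by
  have h1 := nonunits_pow_sub q (T.X1_mem 0) (pow_mem (T.t_mem 0) q) T.X1_0
  rw [← pow_mul, ← pow_two] at h1
  have h2 := nonunits_sub T.X2_0 h1
  rwa [sub_sub_sub_cancel_right] at h2

theorem ctrip : CTrip q c P (algebraMap K F t) X₁ (w (algebraMap K F t)) where
  rel01 := T.rel
  rel10 := T.rel'
  rel21 := T.rel2'
  rel12 := T.rel2
  n0 := T.tF_ne
  n1 := T.X1_ne
  n2 := T.X2_ne
  m0 := T.t_inv_mem
  m1 := T.X1_inv_mem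
  m2 := T.X2_inv_mem
  c10 := T.X1_0
  c11 := T.X1_1
  c21 := by
    have := (T.w1_nonunits _).mpr T.X1_1
    rwa [map_sub, map_pow, T.X1w] at this
  c22 := by
    have := (T.w2_nonunits _).mpr T.X1_0
    rwa [map_sub, map_pow, T.X1w] at this
  d0 := T.d0
  d2 := by
    have := (T.w2_nonunits _).mpr T.d0
    rwa [map_sub, map_pow, T.X1w, T.ww] at this
  ne := T.del_ne
  del := T.del
  unif x hx := by
    have h1 := T.unif1 x hx
    have h2 := T.tF_ne
    have h3 := sub_ne_zero.mpr T.del_ne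
    have e : x / (w (algebraMap K F t) / algebraMap K F t - 1) =
        x / (w (algebraMap K F t) - algebraMap K F t) * algebraMap K F t := by
      have h4 : w (algebraMap K F t) / algebraMap K F t - 1 =
        (w (algebraMap K F t) - algebraMap K F t) / algebraMap K F t := by field_simp
      rw [h4, div_div_eq_mul_div, div_mul_eq_mul_div]
    rw [e]
    exact mul_mem h1 (T.t_mem 1)

theorem ctrip' : CTrip q c P ((C₀ : F) / algebraMap K F t) ((C₀ : F) / X₁)
    ((C₀ : F) / w (algebraMap K F t)) where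
  rel01 := T.relu
  rel10 := T.relu'
  rel21 := T.relu2'
  rel12 := T.relu2
  n0 := div_ne_zero T.C0_ne T.tF_ne
  n1 := div_ne_zero T.C0_ne T.X1_ne
  n2 := div_ne_zero T.C0_ne T.X2_ne
  m0 i := by rw [inv_div, div_eq_mul_inv]; exact mul_mem (T.t_mem i) (T.C0_inv_mem i)
  m1 i := by rw [inv_div, div_eq_mul_inv]; exact mul_mem (T.X1_mem i) (T.C0_inv_mem i)
  m2 i := by rw [inv_div, div_eq_mul_inv]; exact mul_mem (T.X2_mem i) (T.C0_inv_mem i)
  c10 := inv_cong T.X1_ne T.tF_ne (T.X1_inv_mem 0) (T.t_inv_mem 0) (T.C0_mem 0)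
    (int_pow_sub T.prime (T.q_nonunit 0) _) T.ctrip.c10
  c11 := inv_cong T.X1_ne T.tF_ne (T.X1_inv_mem 1) (T.t_inv_mem 1) (T.C0_mem 1)
    (int_pow_sub T.prime (T.q_nonunit 1) _) T.ctrip.c11
  c21 := inv_cong T.X1_ne T.X2_ne (T.X1_inv_mem 1) (T.X2_inv_mem 1) (T.C0_mem 1)
    (int_pow_sub T.prime (T.q_nonunit 1) _) T.ctrip.c21
  c22 := inv_cong T.X1_ne T.X2_ne (T.X1_inv_mem 2) (T.X2_inv_mem 2) (T.C0_mem 2)
    (int_pow_sub T.prime (T.q_nonunit 2) _) T.ctrip.c22
  d0 := inv_cong T.X2_ne T.X1_ne (T.X2_inv_mem 0) (T.X1_inv_mem 0) (T.C0_mem 0)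
    (int_pow_sub T.prime (T.q_nonunit 0) _) T.ctrip.d0
  d2 := inv_cong T.tF_ne T.X1_ne (T.t_inv_mem 2) (T.X1_inv_mem 2) (T.C0_mem 2)
    (int_pow_sub T.prime (T.q_nonunit 2) _) T.ctrip.d2
  ne h := by
    have h1 := T.C0_ne
    have h2 := T.tF_ne
    have h3 := T.X2_ne
    rw [div_eq_div_iff h3 h2] at h
    exact T.del_ne (mul_left_cancel₀ h1 h).symm
  del := by
    have h1 := T.del
    have e : (C₀ : F) / w (algebraMap K F t) - (C₀ : F) / algebraMap K F t =
        -((C₀ * (w (algebraMap K F t))⁻¹ * (algebraMap K F t)⁻¹) *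
          (w (algebraMap K F t) - algebraMap K F t)) := by
      have h2 := T.tF_ne
      have h3 := T.X2_ne
      field_simp
      ring
    rw [e]
    exact nonunits_neg (mul_mem_nonunits (mul_mem (mul_mem (T.C0_mem 1) (T.X2_inv_mem 1))
      (T.t_inv_mem 1)) h1)
  unif x hx := by
    have h1 := T.unif1 x hx
    have h2 := T.tF_ne
    have h3 := sub_ne_zero.mpr T.del_ne
    have h4 := T.X2_ne
    have h5 := T.C0_ne
    have e : x / ((C₀ : F) / w (algebraMap K F t) / ((C₀ : F) / algebraMap K F t) - 1) =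
        -(x / (w (algebraMap K F t) - algebraMap K F t) * w (algebraMap K F t)) := by
      have h4 : (C₀ : F) / w (algebraMap K F t) / ((C₀ : F) / algebraMap K F t) - 1 =
        -(w (algebraMap K F t) - algebraMap K F t) / w (algebraMap K F t) := by
        field_simp
        ring
      rw [h4, div_div_eq_mul_div, div_mul_eq_mul_div, div_neg]
    rw [e]
    exact neg_mem (mul_mem h1 (T.X2_mem 1))

/-! ### valuation rings at points -/

theorem valAt {y : Ideal (chart O (algebraMap K F t))} [hy : y.IsPrime] (i : Fin 3)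
    (hm : Meets y (P i)) : ValAt y (P i) := by
  refine valAt_of_normal (T.sys.ov i) hm fun x hx p hp hpx => ?_
  match i with
  | 0 =>
    obtain ⟨b, hb, hxb⟩ := T.normal0 hx p hp hpx
    exact ⟨_, mem_locS_of_mem (T.chartM hb), hxb⟩
  | 1 =>
    obtain ⟨b, hb, hxb⟩ := T.normal1 hx p hp hpx
    exact ⟨_, mem_locS_of_mem (T.chartM hb), hxb⟩
  | 2 =>
    obtain ⟨b, hb, hxb⟩ := T.normal2 hx p hp hpx
    exact ⟨_, mem_locS_of_mem (T.w_chart (T.chartM hb)), hxb⟩

theorem aeval_unit {C : Subalgebra O F} {y : Ideal C} [hy : y.IsPrime] {u : F}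
    (hu : locM y u) {s : O[X]} (hs : IsUnit (s.coeff 0)) :
    aeval u s ∈ locS y ∧ ¬ locM y (aeval u s) := by
  have hO : ∀ a : O, algebraMap O F a ∈ locS y := fun a =>
    mem_locS_of_mem (C.algebraMap_mem a)
  have h1 : aeval u s = algebraMap O F (s.coeff 0) + u * aeval u s.divX := by
    conv_lhs => rw [← divX_mul_X_add s]
    rw [map_add, map_mul, aeval_X, aeval_C]
    ring
  have h2 : aeval u s.divX ∈ locS y := by
    rw [aeval_eq_sum_range]
    refine Subring.sum_mem _ fun i _ => ?_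
    rw [Algebra.smul_def]
    exact Subring.mul_mem _ (hO _) (Subring.pow_mem _ hu.mem _)
  have h3 : locM y (u * aeval u s.divX) := hu.mul_right h2
  rw [h1]
  refine ⟨Subring.add_mem _ (hO _) h3.mem, fun h => ?_⟩
  have h4 := h.sub h3
  rw [add_sub_cancel_right] at h4
  obtain ⟨v, hv⟩ := hs
  have h5 := h4.mul_right (hO (↑v⁻¹ : O))
  rw [← map_mul, ← hv, Units.mul_inv, map_one] at h5
  exact not_locM_one h5

theorem valAt' {y : Ideal (chart O (algebraMap K F t⁻¹))} [hy : y.IsPrime]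
    (hty : locM y (algebraMap K F t)⁻¹) (i : Fin 3)
    (hm : Meets y (P i)) : ValAt y (P i) := by
  have hqM : locM y ((q : ℕ) : F) := locM_of_nonunits (T.sys'.ov i) hm
    (natCast_mem _ _) (T.q_nonunit i)
  obtain ⟨h1, h2, -⟩ := T.ctrip.locs T.shape hqM hty
  refine valAt_of_normal (T.sys'.ov i) hm fun x hx p hp hpx => ?_
  have hti : algebraMap K F t⁻¹ = (algebraMap K F t)⁻¹ := map_inv₀ _ _
  match i with
  | 0 =>
    obtain ⟨s, hs, b, hb, hxb⟩ := T.normal0' hx p hp hpx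
    obtain ⟨u1, u2⟩ := T.aeval_unit hty hs
    rw [← hti] at u1 u2
    refine ⟨(aeval (algebraMap K F t⁻¹) s)⁻¹ * algebraMap M F b, Subring.mul_mem _
      (inv_mem_of_not_locM u1 u2) (mem_locS_of_mem (T.chartM hb)), ?_⟩
    obtain ⟨v1, v2, v3⟩ := meets_notMem (T.sys'.ov 0) hm u1 u2
    have hs0 : aeval (algebraMap K F t⁻¹) s ≠ 0 := fun h => by
      rw [h] at v3; exact v3 (zero_mem_nonunits _)
    have e : x - (aeval (algebraMap K F t⁻¹) s)⁻¹ * algebraMap M F b =
      (aeval (algebraMap K F t⁻¹) s)⁻¹ * (aeval (algebraMap K F t⁻¹) s * x -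
        algebraMap M F b) := inv_sub_eq hs0 _ _
    rw [e]
    exact mul_mem_nonunits v2 hxb
  | 1 =>
    obtain ⟨s, hs, b, hb, hxb⟩ := T.normal1' hx p hp hpx
    obtain ⟨u1, u2⟩ := T.aeval_unit hty hs
    rw [← hti] at u1 u2
    refine ⟨(aeval (algebraMap K F t⁻¹) s)⁻¹ * algebraMap M F b, Subring.mul_mem _
      (inv_mem_of_not_locM u1 u2) (mem_locS_of_mem (T.chartM hb)), ?_⟩
    obtain ⟨v1, v2, v3⟩ := meets_notMem (T.sys'.ov 1) hm u1 u2
    have hs0 : aeval (algebraMap K F t⁻¹) s ≠ 0 := fun h => by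
      rw [h] at v3; exact v3 (zero_mem_nonunits _)
    have e : x - (aeval (algebraMap K F t⁻¹) s)⁻¹ * algebraMap M F b =
      (aeval (algebraMap K F t⁻¹) s)⁻¹ * (aeval (algebraMap K F t⁻¹) s * x -
        algebraMap M F b) := inv_sub_eq hs0 _ _
    rw [e]
    exact mul_mem_nonunits v2 hxb
  | 2 =>
    obtain ⟨s, hs, b, hb, hxb⟩ := T.normal2' hx p hp hpx
    have h3 : locM y (w (algebraMap K F t⁻¹)) := by
      have e : w (algebraMap K F t⁻¹) = (w (algebraMap K F t))⁻¹ := by rw [hti, map_inv₀]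
      rw [e]; exact h2
    obtain ⟨u1, u2⟩ := T.aeval_unit h3 hs
    rw [← T.w_aeval] at u1 u2
    refine ⟨(w (aeval (algebraMap K F t⁻¹) s))⁻¹ * w (algebraMap M F b), Subring.mul_mem _
      (inv_mem_of_not_locM u1 u2) (mem_locS_of_mem (T.w_chart' (T.chartM hb))), ?_⟩
    obtain ⟨v1, v2, v3⟩ := meets_notMem (T.sys'.ov 2) hm u1 u2
    have hs0 : w (aeval (algebraMap K F t⁻¹) s) ≠ 0 := fun h => by
      rw [h] at v3; exact v3 (zero_mem_nonunits _)
    have e : x - (w (aeval (algebraMap K F t⁻¹) s))⁻¹ * w (algebraMap M F b) =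
      (w (aeval (algebraMap K F t⁻¹) s))⁻¹ * (w (aeval (algebraMap K F t⁻¹) s) * x -
        w (algebraMap M F b)) := inv_sub_eq hs0 _ _
    rw [e]
    exact mul_mem_nonunits v2 hxb

end Tri

end

end Fermat.Agent.CA
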