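import Mathlib
import Fermat.Agent.CA.Cusp2

/-!
Noncuspidal points of curves with three components: crossing points and local equations.
-/

set_option autoImplicit false
set_option linter.unusedSectionVars false
set_option linter.style.haveILetI false
set_option linter.unusedVariables false

open IsLocalRing Polynomial

universe u

namespace Fermat.Agent.CA

open Fermat.Agent.Geo Fermat.Agent.LG

/-- the modular units -/
structure NC {O F : Type u} [CommRing O] [Field F] [Algebra O F] (t : F) (π : O) (q : ℕ)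
    (P : Fin 3 → ValuationSubring F) (w : F ≃+* F) (a1 a2 cc d : F) : Prop where
  prod : a1 * a2 * cc = algebraMap O F π
  ch1 : ∃ n : ℕ, t ^ n * a1 ∈ chart O t
  ch2 : ∃ n : ℕ, t ^ n * a2 ∈ chart O t
  chc : ∃ n : ℕ, t ^ n * cc ∈ chart O t
  chd : ∃ n : ℕ, t ^ n * d ∈ chart O t
  wa : ∃ ε : O, IsUnit ε ∧ w a1 = algebraMap O F ε * a2
  a1_0 : a1⁻¹ ∈ P 0
  a1_1 : a1⁻¹ ∈ P 1
  a1_m : ∀ i, a1 ∈ P i
  cc_m : cc ∈ P 0
  cc_0 : cc⁻¹ ∈ P 0
  cong : cc - a1 ^ (q - 1) ∈ (P 0).nonunits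
  d_non : d ∈ (P 1).nonunits
  d_ne : d ≠ 0
  d_unif : ∀ x ∈ (P 1).nonunits, x / d ∈ P 1
  om : ∃ l n : ℕ, ∃ u : O, IsUnit u ∧
    d ^ (q - 1) / algebraMap O F π * a1 ^ l * t ^ n - algebraMap O F u ∈ (P 1).nonunits

section

variable {O K M F : Type u} [CommRing O] [IsDomain O] [IsDiscreteValuationRing O] [CharZero O]
  [Field K] [Field M] [Field F] [Algebra O K] [Algebra O M] [Algebra O F] [Algebra K M]
  [Algebra K F] [Algebra M F] [IsScalarTower O K M] [IsScalarTower O K F] [IsScalarTower K M F]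
  [IsScalarTower O M F]
  {t : K} {π : O} [FiniteDimensional K M] [Algebra.IsSeparable K M]
  [FiniteDimensional K F] [Algebra.IsSeparable K F]
  {ht : IsParam O t} {hπ : Prime π} {q : ℕ} {c : ℕ → ℤ[X]} {C₀ : ℤ}
  {P : Fin 3 → ValuationSubring F} {w : F ≃+* F} {X₁ : F} {a1 a2 cc d : F}

namespace NC

variable (T : Tri (M := M) ht hπ q c C₀ P w X₁)
  (D : NC (algebraMap K F t) π q P w a1 a2 cc d)

theorem a_ne (hπ0 : algebraMap O F π ≠ 0) (D : NC (algebraMap K F t) π q P w a1 a2 cc d) :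
    a1 ≠ 0 ∧ a2 ≠ 0 ∧ cc ≠ 0 := by
  have h := D.prod
  refine ⟨?_, ?_, ?_⟩ <;> rintro rfl <;> simp only [zero_mul, mul_zero] at h <;>
    exact hπ0 h.symm

include T D

theorem a1_ne : a1 ≠ 0 := (a_ne T.π_ne D).1
theorem a2_ne : a2 ≠ 0 := (a_ne T.π_ne D).2.1
theorem cc_ne : cc ≠ 0 := (a_ne T.π_ne D).2.2

theorem wcc : w cc = cc := by
  obtain ⟨ε, hε, h⟩ := D.wa
  have h1 := congrArg w h
  rw [T.ww, map_mul, T.wO] at h1
  have h2 := congrArg w D.prod
  rw [map_mul, map_mul, T.wO, h] at h2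
  have h3 : a1 * a2 * w cc = a1 * a2 * cc := by
    rw [D.prod, ← h2]
    conv_lhs => rw [h1]
    ring
  exact mul_left_cancel₀ (mul_ne_zero (a1_ne T D) (a2_ne T D)) h3

theorem eps_mem (i : Fin 3) {ε : O} (hε : IsUnit ε) : (algebraMap O F ε)⁻¹ ∈ P i := by
  obtain ⟨v, rfl⟩ := hε
  have : (algebraMap O F (v : O))⁻¹ = algebraMap O F (↑v⁻¹ : O) := by
    apply inv_eq_of_mul_eq_one_right
    rw [← map_mul, Units.mul_inv, map_one]
  rw [this]
  exact T.O_mem i _

theorem eps_ne {ε : O} (hε : IsUnit ε) : algebraMap O F ε ≠ 0 := by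
  obtain ⟨v, rfl⟩ := hε
  intro h
  have : algebraMap O F (v : O) * algebraMap O F (↑v⁻¹ : O) = 1 := by
    rw [← map_mul, Units.mul_inv, map_one]
  rw [h, zero_mul] at this
  exact zero_ne_one this

theorem a2_inv1 : a2⁻¹ ∈ P 1 := by
  obtain ⟨ε, hε, h⟩ := D.wa
  have h1 := (T.wP1 _).mpr D.a1_1
  rw [map_inv₀, h, mul_inv] at h1
  have h2 := mul_mem (T.O_mem 1 ε) h1
  rwa [← mul_assoc, mul_inv_cancel₀ (eps_ne T D hε), one_mul] at h2

theorem a2_inv2 : a2⁻¹ ∈ P 2 := by
  obtain ⟨ε, hε, h⟩ := D.wa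
  have h1 := (T.w2_mem _).mpr D.a1_0
  rw [map_inv₀, h, mul_inv] at h1
  have h2 := mul_mem (T.O_mem 2 ε) h1
  rwa [← mul_assoc, mul_inv_cancel₀ (eps_ne T D hε), one_mul] at h2

theorem a2_m1 : a2 ∈ P 1 := by
  obtain ⟨ε, hε, h⟩ := D.wa
  have h1 := (T.wP1 _).mpr (D.a1_m 1)
  rw [h] at h1
  have h2 := mul_mem (eps_mem T D 1 hε) h1
  rwa [← mul_assoc, inv_mul_cancel₀ (eps_ne T D hε), one_mul] at h2

theorem a2_m2 : a2 ∈ P 2 := by
  obtain ⟨ε, hε, h⟩ := D.wa
  have h1 := (T.w2_mem _).mpr (D.a1_m 0)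
  rw [h] at h1
  have h2 := mul_mem (eps_mem T D 2 hε) h1
  rwa [← mul_assoc, inv_mul_cancel₀ (eps_ne T D hε), one_mul] at h2

theorem cc_2 : cc⁻¹ ∈ P 2 := by
  have h1 := (T.w2_mem _).mpr D.cc_0
  rwa [map_inv₀, wcc T D] at h1

theorem cc_m2 : cc ∈ P 2 := by
  have h1 := (T.w2_mem _).mpr D.cc_m
  rwa [wcc T D] at h1

theorem cc_non : cc ∈ (P 1).nonunits := by
  have e : cc = (a1⁻¹ * a2⁻¹) * algebraMap O F π := by
    rw [← D.prod]
    have := a1_ne T D
    have := a2_ne T D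
    field_simp
  rw [e]
  exact mul_mem_nonunits (mul_mem D.a1_1 (a2_inv1 T D)) (T.π_nonunit 1)

theorem a2_eq : a2 = (a1⁻¹ * cc⁻¹) * algebraMap O F π := by
  rw [← D.prod]
  have := a1_ne T D
  have := cc_ne T D
  field_simp

theorem a1_eq : a1 = (a2⁻¹ * cc⁻¹) * algebraMap O F π := by
  rw [← D.prod]
  have := a2_ne T D
  have := cc_ne T D
  field_simp

theorem a2_non : a2 ∈ (P 0).nonunits := by
  rw [a2_eq T D]
  exact mul_mem_nonunits (mul_mem D.a1_0 D.cc_0) (T.π_nonunit 0)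

theorem a1_non : a1 ∈ (P 2).nonunits := by
  rw [a1_eq T D]
  exact mul_mem_nonunits (mul_mem (a2_inv2 T D) (cc_2 T D)) (T.π_nonunit 2)

theorem cong2 : ∃ ε : O, IsUnit ε ∧ cc - (algebraMap O F ε * a2) ^ (q - 1) ∈ (P 2).nonunits := by
  obtain ⟨ε, hε, h⟩ := D.wa
  refine ⟨ε, hε, ?_⟩
  have h1 := (T.w2_nonunits _).mpr D.cong
  rwa [map_sub, map_pow, h, wcc T D] at h1

section Pt

variable {y : Ideal (chart O (algebraMap K F t))} [hy : y.IsPrime]
  (hty : ¬ locM y (algebraMap K F t))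

include hty

theorem loc_of {x : F} (h : ∃ n : ℕ, algebraMap K F t ^ n * x ∈ chart O (algebraMap K F t)) :
    x ∈ locS y := by
  obtain ⟨n, hn⟩ := h
  have h1 : algebraMap K F t ∈ locS y := mem_locS_of_mem (self_mem_chart _)
  have h2 := Subring.mul_mem _ (Subring.pow_mem _ (inv_mem_of_not_locM h1 hty) n)
    (mem_locS_of_mem hn)
  rwa [inv_pow, ← mul_assoc, inv_mul_cancel₀ (pow_ne_zero n T.tF_ne), one_mul] at h2

theorem l1 : a1 ∈ locS y := loc_of T D hty D.ch1
theorem l2 : a2 ∈ locS y := loc_of T D hty D.ch2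
theorem lc : cc ∈ locS y := loc_of T D hty D.chc
theorem ld : d ∈ locS y := loc_of T D hty D.chd

theorem inv1 (h : ¬ Meets y (P 2)) : a1⁻¹ ∈ locS y := by
  refine T.sys.inv_mem (fun j hj => ?_) (n := 1) ?_
  · match j with
    | 0 => exact D.a1_0
    | 1 => exact D.a1_1
    | 2 => exact (h hj).elim
  · have e : algebraMap O F π ^ 1 / a1 = a2 * cc := by
      rw [pow_one, ← D.prod]
      have := a1_ne T D
      field_simp
    rw [e]
    exact Subring.mul_mem _ (l2 T D hty) (lc T D hty)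

theorem inv2 (h : ¬ Meets y (P 0)) : a2⁻¹ ∈ locS y := by
  refine T.sys.inv_mem (fun j hj => ?_) (n := 1) ?_
  · match j with
    | 0 => exact (h hj).elim
    | 1 => exact a2_inv1 T D
    | 2 => exact a2_inv2 T D
  · rw [pow_one, ← D.prod]
    have e : a1 * a2 * cc / a2 = a1 * cc := by
      have := a2_ne T D
      field_simp
    rw [e]
    exact Subring.mul_mem _ (l1 T D hty) (lc T D hty)

theorem invc (h : ¬ Meets y (P 1)) : cc⁻¹ ∈ locS y := by
  refine T.sys.inv_mem (fun j hj => ?_) (n := 1) ?_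
  · match j with
    | 0 => exact D.cc_0
    | 1 => exact (h hj).elim
    | 2 => exact cc_2 T D
  · rw [pow_one, ← D.prod, mul_div_cancel_right₀ _ (cc_ne T D)]
    exact Subring.mul_mem _ (l1 T D hty) (l2 T D hty)

theorem not_locM_of_inv {C : Subalgebra O F} {y : Ideal C} [y.IsPrime] {x : F} (hx : x⁻¹ ∈ locS y)
    (hx0 : x ≠ 0) : ¬ locM y x := by
  intro h
  have := h.mul_right hx
  rw [mul_inv_cancel₀ hx0] at this
  exact not_locM_one this

theorem cross01 (h0 : Meets y (P 0)) (h1 : Meets y (P 1)) : Meets y (P 2) := by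
  by_contra h2
  have k1 := locM_of_nonunits (T.sys.ov 1) h1 (lc T D hty) (cc_non T D)
  have k2 := locM_of_nonunits (T.sys.ov 0) h0 (Subring.sub_mem _ (lc T D hty)
    (Subring.pow_mem _ (l1 T D hty) _)) D.cong
  have k3 := k1.sub k2
  rw [sub_sub_cancel] at k3
  exact not_locM_of_inv T D hty (inv1 T D hty h2) (a1_ne T D) (k3.of_pow (l1 T D hty))

theorem cross02 (h0 : Meets y (P 0)) (h2 : Meets y (P 2)) : Meets y (P 1) := by
  by_contra h1
  have hq := T.q2
  have k1 := locM_of_nonunits (T.sys.ov 2) h2 (l1 T D hty) (a1_non T D)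
  have k2 := locM_of_nonunits (T.sys.ov 0) h0 (Subring.sub_mem _ (lc T D hty)
    (Subring.pow_mem _ (l1 T D hty) _)) D.cong
  have k3 := k2.add (k1.pow (n := q - 1) (by omega))
  rw [sub_add_cancel] at k3
  exact not_locM_of_inv T D hty (invc T D hty h1) (cc_ne T D) k3

theorem cross12 (h1 : Meets y (P 1)) (h2 : Meets y (P 2)) : Meets y (P 0) := by
  by_contra h0
  obtain ⟨ε, hε, hc⟩ := cong2 T D
  have hεl : algebraMap O F ε ∈ locS y := mem_locS_of_mem ((chart O _).algebraMap_mem _)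
  have k1 := locM_of_nonunits (T.sys.ov 1) h1 (lc T D hty) (cc_non T D)
  have k2 := locM_of_nonunits (T.sys.ov 2) h2 (Subring.sub_mem _ (lc T D hty)
    (Subring.pow_mem _ (Subring.mul_mem _ hεl (l2 T D hty)) _)) hc
  have k3 := k1.sub k2
  rw [sub_sub_cancel] at k3
  have k4 := k3.of_pow (Subring.mul_mem _ hεl (l2 T D hty))
  refine not_locM_of_inv T D hty ?_ (mul_ne_zero (eps_ne T D hε) (a2_ne T D)) k4
  rw [mul_inv]
  refine Subring.mul_mem _ ?_ (inv2 T D hty h0)
  obtain ⟨v, rfl⟩ := hε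
  have : (algebraMap O F (v : O))⁻¹ = algebraMap O F (↑v⁻¹ : O) := by
    apply inv_eq_of_mul_eq_one_right
    rw [← map_mul, Units.mul_inv, map_one]
  rw [this]
  exact mem_locS_of_mem ((chart O _).algebraMap_mem _)

theorem cross {i j : Fin 3} (hij : i ≠ j) (hi : Meets y (P i)) (hj : Meets y (P j)) :
    ∀ k, Meets y (P k) := by
  have h : Meets y (P 0) ∧ Meets y (P 1) ∧ Meets y (P 2) := by
    match i, j with
    | 0, 0 => exact (hij rfl).elim
    | 0, 1 => exact ⟨hi, hj, cross01 T D hty hi hj⟩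
    | 0, 2 => exact ⟨hi, cross02 T D hty hi hj, hj⟩
    | 1, 0 => exact ⟨hj, hi, cross01 T D hty hj hi⟩
    | 1, 1 => exact (hij rfl).elim
    | 1, 2 => exact ⟨cross12 T D hty hi hj, hi, hj⟩
    | 2, 0 => exact ⟨hj, cross02 T D hty hj hi, hi⟩
    | 2, 1 => exact ⟨cross12 T D hty hj hi, hj, hi⟩
    | 2, 2 => exact (hij rfl).elim
  intro k
  match k with
  | 0 => exact h.1
  | 1 => exact h.2.1
  | 2 => exact h.2.2

theorem locEq0 (h0 : Meets y (P 0)) : LocEq y (P 0) a2 := by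
  refine T.sys.locEq h0 (a2_ne T D) (l2 T D hty) (a2_non T D) (fun x hx => ?_)
    (fun j hj hm => ?_) (n := 1) ?_
  · have e : x / a2 = x / algebraMap O F π * (a1 * cc) := by
      conv_rhs => rw [← D.prod]
      have := a1_ne T D
      have := a2_ne T D
      have := cc_ne T D
      field_simp
    rw [e]
    exact mul_mem (T.unif0 x hx) (mul_mem (D.a1_m 0) D.cc_m)
  · match j with
    | 0 => exact (hj rfl).elim
    | 1 => exact a2_inv1 T D
    | 2 => exact a2_inv2 T D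
  · have e : algebraMap O F π ^ 1 / a2 = a1 * cc := by
      rw [pow_one, ← D.prod]
      have := a2_ne T D
      field_simp
    rw [e]
    exact Subring.mul_mem _ (l1 T D hty) (lc T D hty)

theorem locEq2 (h2 : Meets y (P 2)) : LocEq y (P 2) a1 := by
  refine T.sys.locEq h2 (a1_ne T D) (l1 T D hty) (a1_non T D) (fun x hx => ?_)
    (fun j hj hm => ?_) (n := 1) ?_
  · have e : x / a1 = x / algebraMap O F π * (a2 * cc) := by
      conv_rhs => rw [← D.prod]
      have := a1_ne T D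
      have := a2_ne T D
      have := cc_ne T D
      field_simp
    rw [e]
    exact mul_mem (T.unif2 x hx) (mul_mem (a2_m2 T D) (cc_m2 T D))
  · match j with
    | 0 => exact D.a1_0
    | 1 => exact D.a1_1
    | 2 => exact (hj rfl).elim
  · have e : algebraMap O F π ^ 1 / a1 = a2 * cc := by
      rw [pow_one, ← D.prod]
      have := a1_ne T D
      field_simp
    rw [e]
    exact Subring.mul_mem _ (l2 T D hty) (lc T D hty)

theorem locEq1 (h0 : ¬ Meets y (P 0)) (h1 : Meets y (P 1)) (h2 : ¬ Meets y (P 2)) :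
    LocEq y (P 1) d := by
  obtain ⟨l, n, u, hu, hom⟩ := D.om
  set ω := d ^ (q - 1) / algebraMap O F π with hω
  have hq := T.q2
  have htl : algebraMap K F t ∈ locS y := mem_locS_of_mem (self_mem_chart _)
  have hul : algebraMap O F u ∈ locS y := mem_locS_of_mem ((chart O _).algebraMap_mem _)
  have ha1 := a1_ne T D
  have hωP : ω ∈ P 1 := by
    have k1 : ω * a1 ^ l * algebraMap K F t ^ n ∈ P 1 := by
      have := (P 1).add_mem _ _ ((P 1).nonunits_le hom) (T.O_mem 1 u)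
      rwa [sub_add_cancel] at this
    have k2 := mul_mem k1 (mul_mem (pow_mem D.a1_1 l) (pow_mem (T.t_inv_mem 1) n))
    have e : ω * a1 ^ l * algebraMap K F t ^ n * (a1⁻¹ ^ l * (algebraMap K F t)⁻¹ ^ n) = ω := by
      have := T.tF_ne
      simp only [inv_pow]
      field_simp
    rwa [e] at k2
  have hωl : ω ∈ locS y := by
    refine T.sys.mem_locS (fun j hj => ?_) (n := 1) ?_
    · match j with
      | 0 => exact (h0 hj).elim
      | 1 => exact hωP
      | 2 => exact (h2 hj).elim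
    · rw [pow_one, hω, mul_div_cancel₀ _ T.π_ne]
      exact Subring.pow_mem _ (ld T D hty) _
  have k1 := locM_of_nonunits (T.sys.ov 1) h1 (Subring.sub_mem _ (Subring.mul_mem _
    (Subring.mul_mem _ hωl (Subring.pow_mem _ (l1 T D hty) l)) (Subring.pow_mem _ htl n)) hul) hom
  have hωM : ¬ locM y ω := by
    intro h
    have h3 := (h.mul_right (Subring.pow_mem _ (l1 T D hty) l)).mul_right
      (Subring.pow_mem _ htl n)
    have h4 := h3.sub k1
    rw [sub_sub_cancel] at h4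
    obtain ⟨v, rfl⟩ := hu
    have h5 := h4.mul_right (b := algebraMap O F (↑v⁻¹ : O))
      (mem_locS_of_mem ((chart O _).algebraMap_mem _))
    rw [← map_mul, Units.mul_inv, map_one] at h5
    exact not_locM_one h5
  refine T.sys.locEq h1 D.d_ne (ld T D hty) D.d_non D.d_unif (fun j hj hm => ?_) (n := 1) ?_
  · match j with
    | 0 => exact (h0 hm).elim
    | 1 => exact (hj rfl).elim
    | 2 => exact (h2 hm).elim
  · rw [pow_one]
    have hd := D.d_ne
    have e : algebraMap O F π / d = ω⁻¹ * d ^ (q - 2) := by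
      obtain ⟨n, hn⟩ : ∃ n, q = n + 2 := ⟨q - 2, by omega⟩
      have e1 : q - 1 = n + 1 := by omega
      have e2 : q - 2 = n := by omega
      rw [hω, e1, e2, inv_div, pow_succ]
      field_simp
    rw [e]
    exact Subring.mul_mem _ (inv_mem_of_not_locM hωl hωM) (Subring.pow_mem _ (ld T D hty) _)

theorem exists_locEq {i : Fin 3} (hi : Meets y (P i)) :
    ∃ j a, Meets y (P j) ∧ LocEq y (P j) a := by
  by_cases h0 : Meets y (P 0)
  · exact ⟨0, a2, h0, locEq0 T D hty h0⟩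
  by_cases h2 : Meets y (P 2)
  · exact ⟨2, a1, h2, locEq2 T D hty h2⟩
  have h1 : Meets y (P 1) := by
    match i with
    | 0 => exact (h0 hi).elim
    | 1 => exact hi
    | 2 => exact (h2 hi).elim
  exact ⟨1, d, h1, locEq1 T D hty h0 h1 h2⟩

end Pt

end NC

end

end Fermat.Agent.CA
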