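import Mathlib
import Fermat.Agent.CA.Cross

/-!
Congruences between units of valuation rings.
-/

set_option autoImplicit false
set_option linter.unusedSectionVars false
set_option linter.style.haveILetI false
set_option linter.unusedVariables false

open IsLocalRing Polynomial

universe u

namespace Fermat.Agent.CA

open Fermat.Agent.Geo Fermat.Agent.LG

/-- `a` and `b` are units of `V` with the same residue -/
structure UC {F : Type u} [Field F] (V : ValuationSubring F) (a b : F) : Prop where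
  ne : a ≠ 0
  mem : a ∈ V
  inv : a⁻¹ ∈ V
  sub : a - b ∈ V.nonunits

namespace UC

variable {F : Type u} [Field F] {V : ValuationSubring F} {a b c a' b' : F}

theorem notMem (h : UC V a b) : a ∉ V.nonunits := notMem_nonunits_of_inv h.inv h.ne

theorem notMem' (h : UC V a b) : b ∉ V.nonunits := fun hb => by
  have := nonunits_add h.sub hb
  rw [sub_add_cancel] at this
  exact h.notMem this

theorem ne' (h : UC V a b) : b ≠ 0 := by
  rintro rfl
  exact h.notMem' (zero_mem_nonunits _)

theorem mem' (h : UC V a b) : b ∈ V := by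
  have := V.sub_mem h.mem (V.nonunits_le h.sub)
  rwa [sub_sub_cancel] at this

theorem inv' (h : UC V a b) : b⁻¹ ∈ V := inv_mem_of_notMem_nonunits h.notMem'

theorem symm (h : UC V a b) : UC V b a := ⟨h.ne', h.mem', h.inv', by
  have := nonunits_neg h.sub
  rwa [neg_sub] at this⟩

theorem refl (ha : a ≠ 0) (h : a ∈ V) (h' : a⁻¹ ∈ V) : UC V a a :=
  ⟨ha, h, h', by rw [sub_self]; exact zero_mem_nonunits _⟩

theorem rfl_left (h : UC V a b) : UC V a a := refl h.ne h.mem h.inv

theorem trans (h : UC V a b) (h' : UC V b c) : UC V a c := ⟨h.ne, h.mem, h.inv, by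
  have := nonunits_add h.sub h'.sub
  rwa [sub_add_sub_cancel] at this⟩

theorem mul (h : UC V a b) (h' : UC V a' b') : UC V (a * a') (b * b') :=
  ⟨mul_ne_zero h.ne h'.ne, V.mul_mem _ _ h.mem h'.mem, by
    rw [mul_inv]; exact V.mul_mem _ _ h.inv h'.inv, by
    have e : a * a' - b * b' = a * (a' - b') + b' * (a - b) := by ring
    rw [e]
    exact nonunits_add (mul_mem_nonunits h.mem h'.sub) (mul_mem_nonunits h'.mem' h.sub)⟩

theorem invs (h : UC V a b) : UC V a⁻¹ b⁻¹ :=
  ⟨inv_ne_zero h.ne, h.inv, by rw [inv_inv]; exact h.mem, by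
    have h1 := h.ne
    have h2 := h.ne'
    have e : a⁻¹ - b⁻¹ = -((a⁻¹ * b⁻¹) * (a - b)) := by field_simp; ring
    rw [e]
    exact nonunits_neg (mul_mem_nonunits (V.mul_mem _ _ h.inv h.inv') h.sub)⟩

theorem div (h : UC V a b) (h' : UC V a' b') : UC V (a / a') (b / b') := by
  rw [div_eq_mul_inv, div_eq_mul_inv]
  exact h.mul h'.invs

theorem one : UC V 1 1 := refl one_ne_zero V.one_mem (by rw [inv_one]; exact V.one_mem)

theorem pow (h : UC V a b) (n : ℕ) : UC V (a ^ n) (b ^ n) := by
  induction n with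
  | zero => rw [pow_zero, pow_zero]; exact one
  | succ n ih => rw [pow_succ, pow_succ]; exact ih.mul h

theorem zpow (h : UC V a b) (n : ℤ) : UC V (a ^ n) (b ^ n) := by
  cases n with
  | ofNat n => simpa using h.pow n
  | negSucc n => rw [zpow_negSucc, zpow_negSucc]; exact (h.pow _).invs

theorem of_sub_one (h : a / b - 1 ∈ V.nonunits) (hb : b ≠ 0) (hb1 : b ∈ V) (hb2 : b⁻¹ ∈ V) :
    UC V a b := by
  have e : a - b = b * (a / b - 1) := by field_simp
  have h2 : a - b ∈ V.nonunits := by rw [e]; exact mul_mem_nonunits hb1 h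
  have h3 : a ∈ V := by
    have := V.add_mem _ _ (V.nonunits_le h2) hb1
    rwa [sub_add_cancel] at this
  have h4 : a ∉ V.nonunits := by
    intro h5
    have := nonunits_sub h5 h2
    rw [sub_sub_cancel] at this
    exact notMem_nonunits_of_inv hb2 hb this
  refine ⟨?_, h3, inv_mem_of_notMem_nonunits h4, h2⟩
  rintro rfl
  exact h4 (zero_mem_nonunits _)

theorem mk_right (hb : b ≠ 0) (hb1 : b ∈ V) (hb2 : b⁻¹ ∈ V) (h : a - b ∈ V.nonunits) :
    UC V a b := of_sub_one (div_sub_one_nonunits hb hb2 h) hb hb1 hb2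

/-- a power congruent to a power differs by a root of unity -/
theorem exists_root {O : Type u} [CommRing O] [IsDomain O] [IsDiscreteValuationRing O]
    [Algebra O F]
    {m : ℕ} {ζ : O} (hζ : IsPrimitiveRoot ζ m) (hm : 0 < m)
    (hO : ∀ o : O, algebraMap O F o ∈ V) (ha : a ≠ 0) (hb : b ≠ 0) (h : UC V (a ^ m) (b ^ m)) :
    ∃ η : O, η ^ m = 1 ∧ UC V a (algebraMap O F η * b) := by
  have hb1 : b ∈ V := mem_of_pow_mem' hm h.mem'
  have hb2 : b⁻¹ ∈ V := mem_of_pow_mem' hm (by rw [inv_pow]; exact h.inv')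
  have ha1 : a ∈ V := mem_of_pow_mem' hm h.mem
  have ha2 : a⁻¹ ∈ V := mem_of_pow_mem' hm (by rw [inv_pow]; exact h.inv)
  have h1 : (a / b) ^ m - 1 ∈ V.nonunits := by
    rw [div_pow]; exact div_sub_one_nonunits h.ne' h.inv' h.sub
  obtain ⟨η, hη, h2⟩ := exists_label hζ hm hO h1
  refine ⟨η, hη, ha, ha1, ha2, ?_⟩
  have e : a - algebraMap O F η * b = b * (a / b - algebraMap O F η) := by field_simp
  rw [e]
  exact mul_mem_nonunits hb1 h2

theorem map {w : F ≃+* F} {V' : ValuationSubring F} (hw : ∀ x, w x ∈ V' ↔ x ∈ V)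
    (h : UC V a b) : UC V' (w a) (w b) := by
  have hwn : ∀ x, w x ∈ V'.nonunits ↔ x ∈ V.nonunits := by
    intro x
    have : V = V'.comap (w : F →+* F) := by
      ext x; exact (hw x).symm
    rw [this]
    exact (comap_mem_nonunits V' (w : F →+* F) x).symm
  exact ⟨by rw [Ne, map_eq_zero_iff w w.injective]; exact h.ne, (hw _).mpr h.mem, by
    rw [← map_inv₀]; exact (hw _).mpr h.inv, by rw [← map_sub]; exact (hwn _).mpr h.sub⟩

end UC

end Fermat.Agent.CA
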