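import Mathlib
import Fermat.Agent.CA.UC

/-!
The norm at crossing points.
-/

set_option autoImplicit false
set_option linter.unusedSectionVars false
set_option linter.style.haveILetI false
set_option linter.unusedVariables false

open IsLocalRing Polynomial

universe u

namespace Fermat.Agent.CA

open Fermat.Agent.Geo Fermat.Agent.LG

structure NormD {O M F : Type u} [CommRing O] [Field M] [Field F] [Algebra O F] [Algebra M F]
    (t : F) (q : ℕ) (P : Fin 3 → ValuationSubring F) (a1 : F) (S1 : Subfield F)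
    (Nm : F →* F) : Prop where
  s1 : ∀ x, Nm x ∈ S1
  sq : ∀ x ∈ S1, Nm x = x ^ q
  ch : ∀ x ∈ chart O t, Nm x ∈ chart O t
  memM : ∀ f : M, algebraMap M F f ∈ S1
  mema : a1 ∈ S1
  n0 : ∀ (x : F) (f0 f1 : M), UC (P 0) x (algebraMap M F f0) → UC (P 1) x (algebraMap M F f1) →
    UC (P 0) (Nm x) (algebraMap M F f0 * algebraMap M F f1 ^ (q - 1))
  n2 : ∀ x : F, UC (P 2) x x → UC (P 2) (Nm x) (x ^ q)

section

variable {O K M F : Type u} [CommRing O] [IsDomain O] [IsDiscreteValuationRing O] [CharZero O]
  [Field K] [Field M] [Field F] [Algebra O K] [Algebra O M] [Algebra O F] [Algebra K M]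
  [Algebra K F] [Algebra M F] [IsScalarTower O K M] [IsScalarTower O K F] [IsScalarTower K M F]
  [IsScalarTower O M F]
  {t : K} {π : O} [FiniteDimensional K M] [Algebra.IsSeparable K M]
  [FiniteDimensional K F] [Algebra.IsSeparable K F]
  {ht : IsParam O t} {hπ : Prime π} {q : ℕ} {c : ℕ → ℤ[X]} {C₀ : ℤ}
  {P : Fin 3 → ValuationSubring F} {w : F ≃+* F} {X₁ : F} {a1 a2 cc d : F}
  {S1 : Subfield F} {Nm : F →* F}

namespace NormD

variable (T : Tri (M := M) ht hπ q c C₀ P w X₁)
  (D : NC (algebraMap K F t) π q P w a1 a2 cc d)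
  (B : NormD (O := O) (M := M) (algebraMap K F t) q P a1 S1 Nm)

include T D B

theorem t_mem : algebraMap K F t ∈ S1 := by
  rw [IsScalarTower.algebraMap_apply K M F]; exact B.memM _

theorem O_mem (a : O) : algebraMap O F a ∈ S1 := by
  rw [IsScalarTower.algebraMap_apply O M F]; exact B.memM _

section Pt

variable {y y' : Ideal (chart O (algebraMap K F t))} [hy : y.IsPrime] [hy' : y'.IsPrime]
  (hty : ¬ locM y (algebraMap K F t))

include hty

theorem unique (hm : ∀ k, Meets y (P k))
    (hsub : ∀ x : chart O (algebraMap K F t), (x : F) ∈ S1 → (x ∈ y ↔ x ∈ y')) :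
    y' = y := by
  have hty' : ¬ locM y' (algebraMap K F t) := by
    intro h
    apply hty
    have h1 : locM y' (((⟨algebraMap K F t, self_mem_chart _⟩ : chart O (algebraMap K F t))) : F)
      := h
    rw [locM_coe_iff] at h1
    exact locM_of_mem ((hsub _ (t_mem T D B)).mpr h1)
  have key : ∀ a : F, a ∈ S1 → (∃ n : ℕ, algebraMap K F t ^ n * a ∈ chart O (algebraMap K F t)) →
      locM y a → locM y' a := by
    rintro a ha ⟨n, hn⟩ hM
    have h1 : algebraMap K F t ∈ locS y := mem_locS_of_mem (self_mem_chart _)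
    have h1' : algebraMap K F t ∈ locS y' := mem_locS_of_mem (self_mem_chart _)
    have h2 : locM y (((⟨algebraMap K F t ^ n * a, hn⟩ : chart O (algebraMap K F t))) : F) :=
      hM.mul_left (Subring.pow_mem _ h1 n)
    rw [locM_coe_iff, hsub _ (mul_mem (pow_mem (t_mem T D B) n) ha)] at h2
    have h3 := (locM_of_mem h2).mul_left (Subring.pow_mem _ (inv_mem_of_not_locM h1' hty') n)
    change locM y' ((algebraMap K F t)⁻¹ ^ n * (algebraMap K F t ^ n * a)) at h3
    rwa [inv_pow, ← mul_assoc, inv_mul_cancel₀ (pow_ne_zero n T.tF_ne), one_mul] at h3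
  have h1 : locM y' a1 := key a1 B.mema D.ch1
    (locM_of_nonunits (T.sys.ov 2) (hm 2) (NC.l1 T D hty) (NC.a1_non T D))
  have hbe : algebraMap O F π / a1 = a2 * cc := by
    rw [← D.prod, mul_assoc]
    have := NC.a1_ne T D
    field_simp
  have h2 : locM y' (a2 * cc) := by
    rw [← hbe]
    apply key
    · exact div_mem (O_mem T D B π) B.mema
    · rw [hbe]
      obtain ⟨n, hn⟩ := D.ch2
      obtain ⟨n', hn'⟩ := D.chc
      refine ⟨n + n', ?_⟩
      have e : algebraMap K F t ^ (n + n') * (a2 * cc) =
        (algebraMap K F t ^ n * a2) * (algebraMap K F t ^ n' * cc) := by ring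
      rw [e]
      exact mul_mem hn hn'
    · rw [hbe]
      exact (locM_of_nonunits (T.sys.ov 0) (hm 0) (NC.l2 T D hty) (NC.a2_non T D)).mul_right
        (NC.lc T D hty)
  have h3 : Meets y' (P 2) := by
    by_contra h
    exact NC.not_locM_of_inv T D hty' (NC.inv1 T D hty' h) (NC.a1_ne T D) h1
  have h4 : Meets y' (P 0) := by
    rcases h2.of_mul (NC.l2 T D hty') (NC.lc T D hty') with h | h
    · by_contra hcon
      exact NC.not_locM_of_inv T D hty' (NC.inv2 T D hty' hcon) (NC.a2_ne T D) h
    · have h5 : Meets y' (P 1) := by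
        by_contra hcon
        exact NC.not_locM_of_inv T D hty' (NC.invc T D hty' hcon) (NC.cc_ne T D) h
      exact NC.cross12 T D hty' h5 h3
  ext x
  obtain ⟨p, hp, hpx⟩ := x.2
  have hx0 : (x : F) ∈ P 0 := chart_mem_over (T.sys.ov 0) x.2
  obtain ⟨b, hb, hxb⟩ := T.normal0 hx0 p hp (by rw [hpx]; exact zero_mem_nonunits _)
  set b' : chart O (algebraMap K F t) := ⟨algebraMap M F b, T.chartM hb⟩ with hb'
  have k1 : x - b' ∈ y := hm 0 _ hxb
  have k2 : x - b' ∈ y' := h4 _ hxb
  have k3 := hsub b' (B.memM b)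
  have k4 : x ∈ y ↔ b' ∈ y := by
    refine ⟨fun h => ?_, fun h => ?_⟩
    · have := y.sub_mem h k1; rwa [sub_sub_cancel] at this
    · have := y.add_mem k1 h; rwa [sub_add_cancel] at this
  have k5 : x ∈ y' ↔ b' ∈ y' := by
    refine ⟨fun h => ?_, fun h => ?_⟩
    · have := y'.sub_mem h k2; rwa [sub_sub_cancel] at this
    · have := y'.add_mem k2 h; rwa [sub_add_cancel] at this
  rw [k4, k5, k3]

theorem exists_denom (hm : ∀ k, Meets y (P k)) {v : F} (hv : v ∈ locS y) :
    ∃ d' : chart O (algebraMap K F t), d' ∉ y ∧ (d' : F) ∈ S1 ∧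
      (d' : F) * v ∈ chart O (algebraMap K F t) := by
  classical
  let C1 : Subring (chart O (algebraMap K F t)) :=
    S1.toSubring.comap (chart O (algebraMap K F t)).subtype
  let I : Ideal (chart O (algebraMap K F t)) :=
    { carrier := {x | (x : F) * v ∈ chart O (algebraMap K F t)}
      add_mem' := fun {a b} ha hb => by
        change ((a + b : chart O (algebraMap K F t)) : F) * v ∈ chart O (algebraMap K F t)
        rw [Subalgebra.coe_add, add_mul]; exact add_mem ha hb
      zero_mem' := by
        change ((0 : chart O (algebraMap K F t)) : F) * v ∈ chart O (algebraMap K F t)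
        rw [Subalgebra.coe_zero, zero_mul]; exact zero_mem _
      smul_mem' := fun a b hb => by
        change ((a * b : chart O (algebraMap K F t)) : F) * v ∈ chart O (algebraMap K F t)
        rw [Subalgebra.coe_mul, mul_assoc]; exact mul_mem a.2 hb }
  by_contra hcon
  push Not at hcon
  have hint : Algebra.IsIntegral C1 (chart O (algebraMap K F t)) := by
    constructor
    intro x
    obtain ⟨p, hp, hpx⟩ := x.2
    let φ : O[X] →+* C1 :=
      { toFun := fun r => ⟨⟨aeval (algebraMap K F t) r, by
          exact aeval_mem_chart _ _⟩, by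
          change aeval (algebraMap K F t) r ∈ S1
          rw [aeval_eq_sum_range]
          refine sum_mem fun i _ => ?_
          rw [Algebra.smul_def]
          exact mul_mem (O_mem T D B _) (pow_mem (t_mem T D B) i)⟩
        map_one' := by ext; simp
        map_mul' := fun a b => by ext; simp
        map_zero' := by ext; simp
        map_add' := fun a b => by ext; simp }
    refine ⟨p.map φ, hp.map φ, ?_⟩
    rw [eval₂_map]
    apply Subtype.ext
    have h1 := hom_eval₂ p ((algebraMap C1 (chart O (algebraMap K F t))).comp φ)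
      ((chart O (algebraMap K F t)).subtype : chart O (algebraMap K F t) →+* F) x
    exact h1.trans hpx
  have hle : I.comap (algebraMap C1 (chart O (algebraMap K F t))) ≤
      y.comap (algebraMap C1 (chart O (algebraMap K F t))) := by
    intro x hx
    by_contra hx'
    exact hcon (x : chart O (algebraMap K F t)) hx' x.2 hx
  obtain ⟨Q, hQI, hQ, hQc⟩ := Ideal.exists_ideal_over_prime_of_isIntegral
    (y.comap (algebraMap C1 (chart O (algebraMap K F t)))) I hle
  have hQy : Q = y := by
    refine unique T D B hty hm fun x hx => ?_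
    have h1 : (⟨x, hx⟩ : C1) ∈ Q.comap (algebraMap C1 (chart O (algebraMap K F t))) ↔
      (⟨x, hx⟩ : C1) ∈ y.comap (algebraMap C1 (chart O (algebraMap K F t))) := by rw [hQc]
    exact h1.symm
  obtain ⟨d', hd', hdv⟩ := hv
  exact hd' (hQy ▸ hQI hdv)

theorem nm_mem (hm : ∀ k, Meets y (P k)) {v : F} (hv : v ∈ locS y) : Nm v ∈ locS y := by
  obtain ⟨d', hd', hd1, hdv⟩ := exists_denom T D B hty hm hv
  have h1 := B.ch _ hdv
  rw [map_mul, B.sq _ hd1] at h1
  exact ⟨d' ^ q, fun h => hd' (hy.mem_of_pow_mem q h), by simpa using h1⟩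

end Pt

end NormD

end

end Fermat.Agent.CA
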