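import Mathlib
import Fermat.Agent.CA.NormPt

/-!
The relations between the labels at crossing points.
-/

set_option autoImplicit false
set_option linter.unusedSectionVars false
set_option linter.style.haveILetI false
set_option linter.unusedVariables false

open IsLocalRing Polynomial

universe u

namespace Fermat.Agent.CA

open Fermat.Agent.Geo Fermat.Agent.LG

/-- the function `h` and the root of its norm -/
structure Kit {O M F : Type u} [CommRing O] [Field M] [Field F] [Algebra O F] [Algebra M F]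
    (q m : ℕ) (P : Fin 3 → ValuationSubring F) (Nm : F →* F) (h H : F) (g : Fin 3 → F)
    (f0 f1 : M) (ξ ξz : O) : Prop where
  nm : Nm h = H ^ m
  hg : ∀ i, UC (P i) h (g i ^ m)
  g_ne : ∀ i, g i ≠ 0
  g0 : UC (P 0) (g 0) (algebraMap M F f0)
  g1 : UC (P 1) (g 1) (algebraMap M F f1)
  H0 : UC (P 0) H (algebraMap O F ξ * (algebraMap M F f0 * algebraMap M F f1 ^ (q - 1)))
  H2 : UC (P 2) H (algebraMap O F ξz * g 2 ^ q)
  hξ : ξ ^ m = 1
  hξz : ξz ^ m = 1

section Alg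

theorem label_alg {κ : Type*} [Field κ] {q m : ℕ} (hq : 1 ≤ q) (hm : 0 < m)
    {a0 a1 a2 x z x' z' : κ}
    (h0 : a0 ≠ 0) (h1 : a1 ≠ 0) (h2 : a2 ≠ 0) (hx : x ^ m = 1) (hz : z ^ m = 1)
    (hx' : x' ^ m = 1) (hz' : z' ^ m = 1) (r1 : x * a0 * a1 ^ (q - 1) = z * a2 ^ q)
    (r2 : x' * a2 * a1 ^ (q - 1) = z' * a0 ^ q) :
    a0 ^ (q ^ 2 - 1) = (z * x' * (x * z') ^ (m - 1)) ^ (q - 1) * a2 ^ (q ^ 2 - 1) ∧
    a1 ^ (q ^ 2 - 1) = (z ^ q * z' * (x ^ q * x') ^ (m - 1)) * a2 ^ (q ^ 2 - 1) := by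
  have inv : ∀ c : κ, c ^ m = 1 → c * c ^ (m - 1) = 1 := fun c hc => by
    rw [← pow_succ', Nat.sub_add_cancel hm]; exact hc
  have ne : ∀ c : κ, c ^ m = 1 → c ≠ 0 := fun c hc h => by
    rw [h, zero_pow hm.ne'] at hc; exact zero_ne_one hc
  obtain ⟨n, rfl⟩ : ∃ n, q = n + 1 := ⟨q - 1, by omega⟩
  rw [Nat.add_sub_cancel] at *
  have e : (n + 1) ^ 2 - 1 = (n + 2) * n := by
    have : (n + 1) ^ 2 = (n + 2) * n + 1 := by ring
    omega
  have e' : (n + 1) ^ 2 - 1 = n * (n + 1) + n := by rw [e]; ring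
  have hxz' : (x * z') ^ m = 1 := by rw [mul_pow, hx, hz', one_mul]
  have hxx' : (x ^ (n + 1) * x') ^ m = 1 := by
    rw [mul_pow, ← pow_mul, mul_comm (n + 1) m, pow_mul, hx, hx', one_pow, one_mul]
  constructor
  · have h3 : x * z' * a0 ^ (n + 2) = z * x' * a2 ^ (n + 2) := by
      apply mul_right_cancel₀ (pow_ne_zero n h1)
      have : (x * a0 * a1 ^ n) * (z' * a0 ^ (n + 1)) = (z * a2 ^ (n + 1)) *
          (x' * a2 * a1 ^ n) := by rw [r1, r2]
      linear_combination this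
    have h4 : a0 ^ (n + 2) = z * x' * (x * z') ^ (m - 1) * a2 ^ (n + 2) := by
      have := inv _ hxz'
      linear_combination (x * z') ^ (m - 1) * h3 - a0 ^ (n + 2) * this
    rw [e, pow_mul, h4, mul_pow, ← pow_mul]
  · have h5 : x ^ (n + 1) * x' * a1 ^ ((n + 1) ^ 2 - 1) = z ^ (n + 1) * z' *
        a2 ^ ((n + 1) ^ 2 - 1) := by
      apply mul_right_cancel₀ (pow_ne_zero (n + 1) h0)
      apply mul_right_cancel₀ h2
      have h6 : (x * a0 * a1 ^ n) ^ (n + 1) * (x' * a2 * a1 ^ n) = (z * a2 ^ (n + 1)) ^ (n + 1) *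
          (z' * a0 ^ (n + 1)) := by rw [r1, r2]
      have h7 : (x * a0 * a1 ^ n) ^ (n + 1) * (x' * a2 * a1 ^ n) = x ^ (n + 1) * x' *
          a1 ^ ((n + 1) ^ 2 - 1) * a0 ^ (n + 1) * a2 := by
        rw [e', mul_pow, mul_pow, pow_add a1 (n * (n + 1)) n, pow_mul a1 n (n + 1)]; ring
      have h8 : (z * a2 ^ (n + 1)) ^ (n + 1) * (z' * a0 ^ (n + 1)) = z ^ (n + 1) * z' *
          a2 ^ ((n + 1) ^ 2 - 1) * a0 ^ (n + 1) * a2 := by
        have h9 : (a2 ^ (n + 1)) ^ (n + 1) = a2 ^ ((n + 1) ^ 2 - 1) * a2 := by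
          rw [← pow_mul, ← pow_succ]
          congr 1
          have h10 : 0 < (n + 1) ^ 2 := by positivity
          rw [Nat.sub_add_cancel h10]
          ring
        rw [mul_pow, h9]; ring
      rw [← h7, ← h8, h6]
    have := inv _ hxx'
    linear_combination (x ^ (n + 1) * x') ^ (m - 1) * h5 - a1 ^ ((n + 1) ^ 2 - 1) * this

end Alg

section

variable {O K M F : Type u} [CommRing O] [IsDomain O] [IsDiscreteValuationRing O] [CharZero O]
  [Field K] [Field M] [Field F] [Algebra O K] [Algebra O M] [Algebra O F] [Algebra K M]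
  [Algebra K F] [Algebra M F] [IsScalarTower O K M] [IsScalarTower O K F] [IsScalarTower K M F]
  [IsScalarTower O M F]
  {t : K} {π : O} [FiniteDimensional K M] [Algebra.IsSeparable K M]
  [FiniteDimensional K F] [Algebra.IsSeparable K F]
  {ht : IsParam O t} {hπ : Prime π} {q : ℕ} {c : ℕ → ℤ[X]} {C₀ : ℤ}
  {P : Fin 3 → ValuationSubring F} {w : F ≃+* F} {X₁ : F} {a1 a2 cc d : F}
  {S1 : Subfield F} {Nm : F →* F}

theorem Tri.uc_M {T : Tri (M := M) ht hπ q c C₀ P w X₁} {a b : M}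
    (h : UC (P 1) (algebraMap M F a) (algebraMap M F b)) :
    UC (P 0) (algebraMap M F a) (algebraMap M F b) where
  ne := h.ne
  mem := (T.memM _).mp h.mem
  inv := by
    have := h.inv
    rw [← map_inv₀] at this ⊢
    exact (T.memM _).mp this
  sub := by
    have := h.sub
    rw [← map_sub] at this ⊢
    exact T.M_nonunits1.mp this

variable (T : Tri (M := M) ht hπ q c C₀ P w X₁)
  (D : NC (algebraMap K F t) π q P w a1 a2 cc d)
  (B : NormD (O := O) (M := M) (algebraMap K F t) q P a1 S1 Nm)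

section Pt

variable {y : Ideal (chart O (algebraMap K F t))} [hy : y.IsPrime]

theorem unit_gy {V : ValuationSubring F} {m : ℕ} (hm : 0 < m) {h gy : F} (hgy : gy ≠ 0)
    (hh : UC V h h) (hv : UC V (h / gy ^ m) (h / gy ^ m)) : UC V gy gy := by
  have h1 : UC V (gy ^ m) (gy ^ m) := by
    have := hh.div hv
    have e : h / (h / gy ^ m) = gy ^ m := by
      have := hh.ne
      field_simp
    rwa [e] at this
  exact UC.refl hgy (mem_of_pow_mem' hm h1.mem) (mem_of_pow_mem' hm (by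
    rw [inv_pow]; exact h1.inv))

include T D B in
theorem lemmaA (hty : ¬ locM y (algebraMap K F t)) (hmt : ∀ k, Meets y (P k)) {m : ℕ}
    (hm : 0 < m) {h H : F} {g : Fin 3 → F} {f0 f1 : M} {ξ ξz : O}
    (hk : Kit q m P Nm h H g f0 f1 ξ ξz) {gy : F} (hgy : gy ≠ 0)
    (hv : h / gy ^ m ∈ locS y) (hvM : ¬ locM y (h / gy ^ m)) {r : Fin 3 → F} {ρ : M}
    (hr : ∀ i, r i ∈ locS y) (hrg : ∀ i, UC (P i) (g i / gy) (r i))
    (hρ : r 1 = algebraMap M F ρ) :
    locM y (algebraMap O F ξ * (r 0 * r 1 ^ (q - 1)) - algebraMap O F ξz * r 2 ^ q) := by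
  have hvu : ∀ i, UC (P i) (h / gy ^ m) (h / gy ^ m) := fun i => by
    obtain ⟨v1, v2, v3⟩ := meets_notMem (T.sys.ov i) (hmt i) hv hvM
    exact UC.refl (by intro h0; rw [h0] at v3; exact v3 (zero_mem_nonunits _)) v1 v2
  have hgyu : ∀ i, UC (P i) gy gy := fun i => unit_gy hm hgy (hk.hg i).rfl_left (hvu i)
  have hNg : Nm gy ≠ 0 := (B.n2 gy (hgyu 2)).ne
  -- the quotient
  set k := H / Nm gy with hkdef
  have hv0 : h / gy ^ m ≠ 0 := (hvu 0).ne
  have hkm : k ^ m = Nm (h / gy ^ m) := by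
    have e : Nm (h / gy ^ m) * Nm gy ^ m = Nm h := by
      rw [← map_pow, ← map_mul, div_mul_cancel₀ _ (pow_ne_zero m hgy)]
    rw [hkdef, div_pow, ← hk.nm, ← e, mul_div_cancel_right₀ _ (pow_ne_zero m hNg)]
  have hkl : k ∈ locS y := by
    apply locS_of_pow hm
    rw [hkm]
    exact NormD.nm_mem T D B hty hmt hv
  -- modulo `P 0`
  obtain ⟨F0, hF0, hF0'⟩ := T.res0 gy (hgyu 0).mem
  obtain ⟨F1, hF1, hF1'⟩ := T.res1 gy (hgyu 1).mem
  have u0 : UC (P 0) gy (algebraMap M F F0) := ⟨hgy, (hgyu 0).mem, (hgyu 0).inv, hF0'⟩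
  have u1 : UC (P 1) gy (algebraMap M F F1) := ⟨hgy, (hgyu 1).mem, (hgyu 1).inv, hF1'⟩
  have n0 := B.n0 gy F0 F1 u0 u1
  have k0 : UC (P 0) k (algebraMap O F ξ * (r 0 * r 1 ^ (q - 1))) := by
    have s0 : UC (P 0) (algebraMap M F f0 / algebraMap M F F0) (r 0) :=
      ((hk.g0.symm).div u0.symm).trans (hrg 0)
    have s1 : UC (P 0) (algebraMap M F f1 / algebraMap M F F1) (r 1) := by
      rw [hρ, ← map_div₀]
      refine Tri.uc_M (T := T) ?_
      rw [← hρ, map_div₀]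
      exact ((hk.g1.symm).div u1.symm).trans (hrg 1)
    have s2 := s0.mul (s1.pow (q - 1))
    have s3 := hk.H0.div n0
    refine s3.trans ?_
    have hξu : UC (P 0) (algebraMap O F ξ) (algebraMap O F ξ) := by
      have hξm := hk.hξ
      have : UC (P 0) ((algebraMap O F ξ) ^ m) ((algebraMap O F ξ) ^ m) := by
        rw [← map_pow, hξm, map_one]; exact UC.one
      refine UC.refl ?_ (T.O_mem 0 ξ) (mem_of_pow_mem' hm (by rw [inv_pow]; exact this.inv))
      intro h0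
      rw [h0, zero_pow hm.ne'] at this
      exact this.ne rfl
    have s4 := hξu.mul s2
    have e : algebraMap O F ξ * (algebraMap M F f0 * algebraMap M F f1 ^ (q - 1)) /
        (algebraMap M F F0 * algebraMap M F F1 ^ (q - 1)) = algebraMap O F ξ *
        (algebraMap M F f0 / algebraMap M F F0 *
          (algebraMap M F f1 / algebraMap M F F1) ^ (q - 1)) := by
      rw [div_pow, mul_div_assoc, mul_div_mul_comm]
    rw [e]
    exact s4
  have k2 : UC (P 2) k (algebraMap O F ξz * r 2 ^ q) := by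
    have s3 := hk.H2.div (B.n2 gy (hgyu 2))
    refine s3.trans ?_
    have hξu : UC (P 2) (algebraMap O F ξz) (algebraMap O F ξz) := by
      have hξm := hk.hξz
      have : UC (P 2) ((algebraMap O F ξz) ^ m) ((algebraMap O F ξz) ^ m) := by
        rw [← map_pow, hξm, map_one]; exact UC.one
      refine UC.refl ?_ (T.O_mem 2 ξz) (mem_of_pow_mem' hm (by rw [inv_pow]; exact this.inv))
      intro h0
      rw [h0, zero_pow hm.ne'] at this
      exact this.ne rfl
    rw [mul_div_assoc, ← div_pow]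
    exact hξu.mul ((hrg 2).pow q)
  have hξl : ∀ o : O, algebraMap O F o ∈ locS y := fun o =>
    mem_locS_of_mem ((chart O _).algebraMap_mem _)
  have j0 := locM_of_nonunits (T.sys.ov 0) (hmt 0) (Subring.sub_mem _ hkl
    (Subring.mul_mem _ (hξl ξ) (Subring.mul_mem _ (hr 0) (Subring.pow_mem _ (hr 1) _)))) k0.sub
  have j2 := locM_of_nonunits (T.sys.ov 2) (hmt 2) (Subring.sub_mem _ hkl
    (Subring.mul_mem _ (hξl ξz) (Subring.pow_mem _ (hr 2) _))) k2.sub
  have := j2.sub j0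
  rwa [sub_sub_sub_cancel_left] at this

end Pt

end

end Fermat.Agent.CA
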