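import Mathlib
import Fermat.Agent.CA.CrossPt

/-!
Labels at crossing points, continued.
-/

set_option autoImplicit false
set_option linter.unusedSectionVars false
set_option linter.style.haveILetI false
set_option linter.unusedVariables false

open IsLocalRing Polynomial

universe u

namespace Fermat.Agent.CA

open Fermat.Agent.Geo Fermat.Agent.LG

section

variable {O K M F : Type u} [CommRing O] [IsDomain O] [IsDiscreteValuationRing O] [CharZero O]
  [Field K] [Field M] [Field F] [Algebra O K] [Algebra O M] [Algebra O F] [Algebra K M]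
  [Algebra K F] [Algebra M F] [IsScalarTower O K M] [IsScalarTower O K F] [IsScalarTower K M F]
  [IsScalarTower O M F]
  {t : K} {π : O} [FiniteDimensional K M] [Algebra.IsSeparable K M]
  [FiniteDimensional K F] [Algebra.IsSeparable K F]
  {ht : IsParam O t} {hπ : Prime π} {q : ℕ} {c : ℕ → ℤ[X]} {C₀ : ℤ}
  {P : Fin 3 → ValuationSubring F} {w : F ≃+* F} {X₁ : F} {a1 a2 cc d : F}
  {S1 : Subfield F} {Nm : F →* F}

variable (T : Tri (M := M) ht hπ q c C₀ P w X₁)
  (D : NC (algebraMap K F t) π q P w a1 a2 cc d)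
  (B : NormD (O := O) (M := M) (algebraMap K F t) q P a1 S1 Nm)

/-- the involution of the chart -/
def Tri.wC : chart O (algebraMap K F t) →+* chart O (algebraMap K F t) where
  toFun x := ⟨w x, T.w_chart x.2⟩
  map_one' := by ext; simp
  map_mul' a b := by ext; simp
  map_zero' := by ext; simp
  map_add' a b := by ext; simp

theorem Tri.coe_wC (x : chart O (algebraMap K F t)) : ((T.wC x : chart O (algebraMap K F t)) : F) =
    w x := rfl

theorem Tri.wC_wC (x : chart O (algebraMap K F t)) : T.wC (T.wC x) = x := by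
  apply Subtype.ext
  rw [T.coe_wC, T.coe_wC, T.ww]

section Pt

variable {y : Ideal (chart O (algebraMap K F t))} [hy : y.IsPrime]

theorem Tri.mem_locS_comap {x : F} :
    x ∈ locS (y.comap T.wC) ↔ w x ∈ locS y := by
  constructor
  · rintro ⟨d, hd, hdx⟩
    refine ⟨T.wC d, hd, ?_⟩
    rw [T.coe_wC, ← map_mul]
    exact T.w_chart hdx
  · rintro ⟨d, hd, hdx⟩
    refine ⟨T.wC d, ?_, ?_⟩
    · rw [Ideal.mem_comap, T.wC_wC]; exact hd
    · have := T.w_chart hdx
      rwa [map_mul, T.ww] at this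

theorem Tri.locM_comap {x : F} :
    locM (y.comap T.wC) x ↔ locM y (w x) := by
  constructor
  · rintro ⟨d, hd, e, he, hdx⟩
    refine ⟨T.wC d, hd, T.wC e, he, ?_⟩
    rw [T.coe_wC, T.coe_wC, ← map_mul, hdx]
  · rintro ⟨d, hd, e, he, hdx⟩
    refine ⟨T.wC d, ?_, T.wC e, ?_, ?_⟩
    · rw [Ideal.mem_comap, T.wC_wC]; exact hd
    · rw [Ideal.mem_comap, T.wC_wC]; exact he
    · have := congrArg w hdx
      rwa [map_mul, T.ww] at this

theorem Tri.meets_comap (hmt : ∀ k, Meets y (P k)) (k : Fin 3) : Meets (y.comap T.wC) (P k) := by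
  intro x hx
  rw [Ideal.mem_comap]
  match k with
  | 0 => exact hmt 2 _ ((T.w2_nonunits _).mpr hx)
  | 1 => exact hmt 1 _ ((T.w1_nonunits _).mpr hx)
  | 2 => exact hmt 0 _ ((T.w0_nonunits _).mpr hx)

include T in
theorem Tri.not_locM_wt (hty : ¬ locM y (algebraMap K F t)) : ¬ locM y (w (algebraMap K F t)) := by
  have htl : algebraMap K F t ∈ locS y := mem_locS_of_mem (self_mem_chart _)
  have h1 : (C₀ : F) / algebraMap K F t ∈ locS y := by
    rw [div_eq_mul_inv]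
    exact Subring.mul_mem _ (mem_locS_of_mem (T.C0_mem_chart _)) (inv_mem_of_not_locM htl hty)
  have h2 := MRel.mem_locS T.shape T.relu h1
  have h3 := MRel.mem_locS T.shape T.relu2' h2
  have h4 := Subring.mul_mem _ (mem_locS_of_mem (y := y) (T.C0_inv_mem_chart _)) h3
  rw [div_eq_mul_inv, ← mul_assoc, inv_mul_cancel₀ T.C0_ne, one_mul] at h4
  intro h
  have h5 := h.mul_right h4
  rw [mul_inv_cancel₀ T.X2_ne] at h5
  exact not_locM_one h5

include T in
theorem Tri.exists_rM (h1 : Meets y (P 1)) {r : F} (hr : r ∈ locS y) (hrM : ¬ locM y r) :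
    ∃ ρ : M, algebraMap M F ρ ∈ locS y ∧ w (algebraMap M F ρ) ∈ locS y ∧
      UC (P 1) r (algebraMap M F ρ) ∧ UC (P 1) (w (algebraMap M F ρ)) (algebraMap M F ρ) := by
  obtain ⟨d, hd, hdr⟩ := hr
  set e : chart O (algebraMap K F t) := ⟨(d : F) * r, hdr⟩ with he
  have hd0 := ne_zero_of_notMem hd
  have hr0 : r ≠ 0 := by rintro rfl; exact hrM locM_zero
  have hey : e ∉ y := by
    intro h
    apply hrM
    have := (locM_of_mem h).mul_left (inv_mem_locS hd)
    rwa [he, ← mul_assoc, inv_mul_cancel₀ hd0, one_mul] at this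
  have key : ∀ x : chart O (algebraMap K F t), x ∉ y → ∃ b : M,
      ∃ hb : algebraMap M F b ∈ chart O (algebraMap K F t),
      (⟨_, hb⟩ : chart O (algebraMap K F t)) ∉ y ∧ UC (P 1) (x : F) (algebraMap M F b) ∧
      (⟨_, T.w_chart hb⟩ : chart O (algebraMap K F t)) ∉ y ∧
      UC (P 1) (w (algebraMap M F b)) (algebraMap M F b) := by
    intro x hx
    obtain ⟨p, hp, hpx⟩ := x.2
    have hx1 : (x : F) ∈ P 1 := chart_mem_over (T.sys.ov 1) x.2
    obtain ⟨b, hb, hxb⟩ := T.normal1 hx1 p hp (by rw [hpx]; exact zero_mem_nonunits _)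
    have hbF := T.chartM hb
    have hxn : (x : F) ∉ (P 1).nonunits := fun h => hx (h1 _ h)
    have hby : (⟨_, hbF⟩ : chart O (algebraMap K F t)) ∉ y := by
      intro h
      have h2 : x - ⟨_, hbF⟩ ∈ y := h1 _ hxb
      have h3 := y.add_mem h2 h
      rw [sub_add_cancel] at h3
      exact hx h3
    have hu : UC (P 1) (x : F) (algebraMap M F b) := by
      refine ⟨?_, hx1, inv_mem_of_notMem_nonunits hxn, hxb⟩
      intro h0
      rw [h0] at hxn
      exact hxn (zero_mem_nonunits _)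
    have hw := T.wM b ((T.memM b).mp hu.mem')
    have hu2 : UC (P 1) (w (algebraMap M F b)) (algebraMap M F b) :=
      UC.mk_right hu.ne' hu.mem' hu.inv' hw
    refine ⟨b, hbF, hby, hu, ?_, hu2⟩
    intro h
    have h2 : (⟨_, T.w_chart hbF⟩ : chart O (algebraMap K F t)) - ⟨_, hbF⟩ ∈ y := h1 _ hw
    have h3 := y.sub_mem h h2
    rw [sub_sub_cancel] at h3
    exact hby h3
  obtain ⟨b, hb, hby, ub, hwb, uwb⟩ := key e hey
  obtain ⟨b', hb', hby', ub', hwb', uwb'⟩ := key d hd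
  refine ⟨b / b', ?_, ?_, ?_, ?_⟩
  · rw [map_div₀, div_eq_mul_inv]
    exact Subring.mul_mem _ (mem_locS_of_mem hb) (inv_mem_locS hby')
  · rw [map_div₀, map_div₀, div_eq_mul_inv]
    exact Subring.mul_mem _ (mem_locS_of_mem (T.w_chart hb)) (inv_mem_locS hwb')
  · have := ub.div ub'
    rw [map_div₀]
    have e1 : (e : F) / (d : F) = r := by
      rw [he]; field_simp
    rwa [e1] at this
  · rw [map_div₀, map_div₀]
    exact uwb.div uwb'

/-- the constants -/
def lamO (q m : ℕ) (ξ ξz ξ' ξz' : O) : Fin 3 → O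
  | 0 => (ξz * ξ' * (ξ * ξz') ^ (m - 1)) ^ (q - 1)
  | 1 => ξz ^ q * ξz' * (ξ ^ q * ξ') ^ (m - 1)
  | 2 => 1

theorem lamO_pow {q m : ℕ} {ξ ξz ξ' ξz' : O} (h1 : ξ ^ m = 1) (h2 : ξz ^ m = 1)
    (h3 : ξ' ^ m = 1) (h4 : ξz' ^ m = 1) (i : Fin 3) : lamO q m ξ ξz ξ' ξz' i ^ m = 1 := by
  have e : ∀ (x : O) (n : ℕ), x ^ m = 1 → (x ^ n) ^ m = 1 := fun x n h => by
    rw [← pow_mul, mul_comm, pow_mul, h, one_pow]
  match i with
  | 0 =>
    apply e
    rw [mul_pow, mul_pow, h2, h3, e _ _ (by rw [mul_pow, h1, h4, one_mul])]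
    ring
  | 1 =>
    change (ξz ^ q * ξz' * (ξ ^ q * ξ') ^ (m - 1)) ^ m = 1
    rw [mul_pow, mul_pow, e _ _ h2, h4, e _ _ (by rw [mul_pow, e _ _ h1, h3, one_mul])]
    ring
  | 2 => exact one_pow m

include T D B in
theorem ptAt_cross [hym : y.IsMaximal] (hty : ¬ locM y (algebraMap K F t))
    (hmt : ∀ k, Meets y (P k)) {m : ℕ}
    (hm : 0 < m) {h H H' : F} {g : Fin 3 → F} {f0 f1 f0' f1' : M} {ξ ξz ξ' ξz' : O}
    (hk : Kit q m P Nm h H g f0 f1 ξ ξz)
    (hk' : Kit q m P Nm (w h) H' ![w (g 2), w (g 1), w (g 0)] f0' f1' ξ' ξz')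
    (H3 : ∀ V : ValuationSubring F, V ≠ ⊤ → (∀ o : O, algebraMap O F o ∈ V) →
      (algebraMap O F π)⁻¹ ∈ V → ∃ g : F, g ≠ 0 ∧ g ^ m * h ∈ V ∧ (g ^ m * h)⁻¹ ∈ V) :
    PtAt y (fun i => Meets y (P i)) P g (lamO q m ξ ξz ξ' ξz') h m (q ^ 2 - 1) := by
  have h0 : h ≠ 0 := (hk.hg 0).ne
  obtain ⟨gy, hgy, hv, hvM⟩ := exists_local_pow (NC.locEq0 T D hty (hmt 0)) (hmt 0) (T.sys.ov 0)
    (T.valAt 0 (hmt 0)) hm h0 H3 (fun W hW => by
      obtain ⟨i, rfl⟩ := T.sys.all W hW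
      have hi := hk.hg i
      have u : UC (P i) ((g i)⁻¹ ^ m * h) ((g i)⁻¹ ^ m * h) := by
        rw [inv_pow]
        exact (hi.symm.invs.rfl_left).mul hi.rfl_left
      exact ⟨(g i)⁻¹, inv_ne_zero (hk.g_ne i), u.mem, u.inv⟩)
  -- the local residues
  have hru : ∀ i, ∃ r ∈ locS y, ¬ locM y r ∧ UC (P i) (g i / gy) r := by
    intro i
    have hi := hk.hg i
    obtain ⟨r, hr, hrM, hrg⟩ := exists_r (T.sys.ov i) (hmt i) (T.valAt i (hmt i)) hm hgy
      (hk.g_ne i) hv hvM (div_sub_one_nonunits hi.ne' hi.inv' hi.sub)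
    obtain ⟨v1, v2, v3⟩ := meets_notMem (T.sys.ov i) (hmt i) hr hrM
    exact ⟨r, hr, hrM, UC.mk_right (by intro h0; rw [h0] at v3; exact v3 (zero_mem_nonunits _))
      v1 v2 hrg⟩
  obtain ⟨r0, hr0, hr0M, hrg0⟩ := hru 0
  obtain ⟨r1', hr1', hr1M', hrg1'⟩ := hru 1
  obtain ⟨r2, hr2, hr2M, hrg2⟩ := hru 2
  obtain ⟨ρ, hρ1, hρ2, hρ3, hρ4⟩ := T.exists_rM (hmt 1) hr1' hr1M'
  have hrg1 : UC (P 1) (g 1 / gy) (algebraMap M F ρ) := hrg1'.trans hρ3
  have hr1M : ¬ locM y (algebraMap M F ρ) := by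
    intro h
    have h1 := locM_of_nonunits (T.sys.ov 1) (hmt 1) (Subring.sub_mem _ hr1' hρ1) hρ3.sub
    have h2 := h1.add h
    rw [sub_add_cancel] at h2
    exact hr1M' h2
  have hr3 : ∀ i : Fin 3, (![r0, algebraMap M F ρ, r2] : Fin 3 → F) i ∈ locS y := by
    intro i
    match i with
    | 0 => exact hr0
    | 1 => exact hρ1
    | 2 => exact hr2
  have hr3M : ∀ i : Fin 3, ¬ locM y ((![r0, algebraMap M F ρ, r2] : Fin 3 → F) i) := by
    intro i
    match i with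
    | 0 => exact hr0M
    | 1 => exact hr1M
    | 2 => exact hr2M
  have hr3g : ∀ i : Fin 3, UC (P i) (g i / gy) ((![r0, algebraMap M F ρ, r2] : Fin 3 → F) i) := by
    intro i
    match i with
    | 0 => exact hrg0
    | 1 => exact hrg1
    | 2 => exact hrg2
  -- first relation
  have R1 := lemmaA T D B hty hmt hm hk hgy hv hvM (r := ![r0, algebraMap M F ρ, r2]) (ρ := ρ)
    hr3 hr3g rfl
  -- second relation
  have hmt' := T.meets_comap hmt
  have hty' : ¬ locM (y.comap T.wC) (algebraMap K F t) := by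
    rw [T.locM_comap]; exact T.not_locM_wt hty
  have hgy' : w gy ≠ 0 := by rw [Ne, map_eq_zero_iff w w.injective]; exact hgy
  have hwv : w h / w gy ^ m = w (h / gy ^ m) := by rw [map_div₀, map_pow]
  have hu2 : UC (P 0) (w (g 2 / gy)) (w r2) := hrg2.map (V' := P 0) (fun x => T.wP0 x)
  have hu1 : UC (P 1) (w (g 1 / gy)) (w (algebraMap M F ρ)) := hrg1.map (fun x => T.wP1 x)
  have hu0 : UC (P 2) (w (g 0 / gy)) (w r0) := hrg0.map (V' := P 2) (fun x => T.w2_mem x)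
  have R2 := lemmaA T D B hty' hmt' hm hk' hgy'
    (by rw [hwv, T.mem_locS_comap, T.ww]; exact hv)
    (by rw [hwv, T.locM_comap, T.ww]; exact hvM) (r := ![w r2, algebraMap M F ρ, w r0])
    (ρ := ρ) (by
      intro i
      rw [T.mem_locS_comap]
      match i with
      | 0 => exact (T.ww r2).symm ▸ hr2
      | 1 => exact hρ2
      | 2 => exact (T.ww r0).symm ▸ hr0)
    (by
      intro i
      match i with
      | 0 =>
        rw [map_div₀] at hu2
        exact hu2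
      | 1 =>
        rw [map_div₀] at hu1
        exact hu1.trans hρ4
      | 2 =>
        rw [map_div₀] at hu0
        exact hu0) rfl
  rw [T.locM_comap] at R2
  have e2 : w (algebraMap O F ξ' * ((![w r2, algebraMap M F ρ, w r0] : Fin 3 → F) 0 *
      (![w r2, algebraMap M F ρ, w r0] : Fin 3 → F) 1 ^ (q - 1)) -
      algebraMap O F ξz' * (![w r2, algebraMap M F ρ, w r0] : Fin 3 → F) 2 ^ q) =
      algebraMap O F ξ' * (r2 * w (algebraMap M F ρ) ^ (q - 1)) - algebraMap O F ξz' * r0 ^ q := by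
    change w (algebraMap O F ξ' * (w r2 * (algebraMap M F ρ) ^ (q - 1)) -
      algebraMap O F ξz' * (w r0) ^ q) = _
    rw [map_sub, map_mul, map_mul, map_mul, map_pow, map_pow, T.wO, T.wO, T.ww, T.ww]
  rw [e2] at R2
  change locM y (algebraMap O F ξ * (r0 * algebraMap M F ρ ^ (q - 1)) -
    algebraMap O F ξz * r2 ^ q) at R1
  -- the residue field
  haveI := isLocalRing_locS (y := y)
  have hOl : ∀ o : O, algebraMap O F o ∈ locS y := fun o =>
    mem_locS_of_mem ((chart O _).algebraMap_mem _)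
  let ι : O →+* locS y := (algebraMap O F).codRestrict (locS y) hOl
  let res := IsLocalRing.residue (locS y)
  have hres : ∀ x : locS y, res x = 0 ↔ locM y (x : F) := fun x => by
    rw [IsLocalRing.residue_eq_zero_iff, mem_maximalIdeal_locS]
  have hne : ∀ (x : F) (hx : x ∈ locS y), ¬ locM y x → res ⟨x, hx⟩ ≠ 0 := fun x hx h => by
    rw [Ne, hres]; exact h
  have hw1 : res ⟨w (algebraMap M F ρ), hρ2⟩ = res ⟨algebraMap M F ρ, hρ1⟩ := by
    rw [← sub_eq_zero, ← map_sub, hres]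
    exact locM_of_nonunits (T.sys.ov 1) (hmt 1) (Subring.sub_mem _ hρ2 hρ1) hρ4.sub
  have E1 : res (ι ξ) * res ⟨r0, hr0⟩ * res ⟨algebraMap M F ρ, hρ1⟩ ^ (q - 1) =
      res (ι ξz) * res ⟨r2, hr2⟩ ^ q := by
    rw [mul_assoc, ← sub_eq_zero]
    simp only [← map_mul, ← map_pow, ← map_sub]
    rw [hres]
    exact R1
  have E2 : res (ι ξ') * res ⟨r2, hr2⟩ * res ⟨algebraMap M F ρ, hρ1⟩ ^ (q - 1) =
      res (ι ξz') * res ⟨r0, hr0⟩ ^ q := by
    rw [mul_assoc, ← hw1, ← sub_eq_zero]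
    simp only [← map_mul, ← map_pow, ← map_sub]
    rw [hres]
    exact R2
  have hp : ∀ x : O, x ^ m = 1 → (res (ι x)) ^ m = 1 := fun x hx => by
    rw [← map_pow, ← map_pow, hx, map_one, map_one]
  obtain ⟨L0, L1⟩ := label_alg (m := m) (le_trans (by norm_num) T.q2) hm
    (hne r0 hr0 hr0M) (hne _ hρ1 hr1M) (hne r2 hr2 hr2M)
    (hp _ hk.hξ) (hp _ hk.hξz) (hp _ hk'.hξ) (hp _ hk'.hξz) E1 E2
  have L : ∀ i : Fin 3, res ⟨_, hr3 i⟩ ^ (q ^ 2 - 1) =
      res (ι (lamO q m ξ ξz ξ' ξz' i)) * res ⟨r2, hr2⟩ ^ (q ^ 2 - 1) := by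
    intro i
    match i with
    | 0 =>
      have : res (ι (lamO q m ξ ξz ξ' ξz' 0)) = (res (ι ξz) * res (ι ξ') *
        (res (ι ξ) * res (ι ξz')) ^ (m - 1)) ^ (q - 1) := by
        simp only [← map_mul, ← map_pow]; rfl
      rw [this]
      exact L0
    | 1 =>
      have : res (ι (lamO q m ξ ξz ξ' ξz' 1)) = (res (ι ξz) ^ q * res (ι ξz') *
        (res (ι ξ) ^ q * res (ι ξ')) ^ (m - 1)) := by
        simp only [← map_mul, ← map_pow]; rfl
      rw [this]
      exact L1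
    | 2 =>
      have : res (ι (lamO q m ξ ξz ξ' ξz' 2)) = 1 := by
        change res (ι 1) = 1
        rw [map_one, map_one]
      rw [this, one_mul]
      rfl
  intro i j hi hj
  refine ⟨gy, hgy, hv, hvM, _, hr3 i, _, hr3 j, hr3M i, hr3M j, (hr3g i).sub, (hr3g j).sub, ?_⟩
  have hfin : res (ι (lamO q m ξ ξz ξ' ξz' j)) * res ⟨_, hr3 i⟩ ^ (q ^ 2 - 1) =
      res (ι (lamO q m ξ ξz ξ' ξz' i)) * res ⟨_, hr3 j⟩ ^ (q ^ 2 - 1) := by
    rw [L i, L j]; ring
  rw [← sub_eq_zero] at hfin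
  simp only [← map_mul, ← map_pow, ← map_sub] at hfin
  rw [hres] at hfin
  exact hfin

end Pt

end

end Fermat.Agent.CA
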