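import Mathlib
import Fermat.Agent.CA.CrossPt2

/-!
The main theorem on the labels of three component curves.
-/

set_option autoImplicit false
set_option linter.unusedSectionVars false
set_option linter.style.haveILetI false
set_option linter.unusedVariables false

open IsLocalRing Polynomial

universe u

namespace Fermat.Agent.CA

open Fermat.Agent.Geo Fermat.Agent.LG

section

variable {O K M F : Type u} [CommRing O] [IsDomain O] [IsDiscreteValuationRing O] [CharZero O]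
  [Field K] [Field M] [Field F] [Algebra O K] [Algebra O M] [Algebra O F] [Algebra K M]
  [Algebra K F] [Algebra M F] [IsScalarTower O K M] [IsScalarTower O K F] [IsScalarTower K M F]
  [IsScalarTower O M F]
  {t : K} {π : O} [FiniteDimensional K M] [Algebra.IsSeparable K M]
  [FiniteDimensional K F] [Algebra.IsSeparable K F]
  {ht : IsParam O t} {hπ : Prime π} {q : ℕ} {c : ℕ → ℤ[X]} {C₀ : ℤ}
  {P : Fin 3 → ValuationSubring F} {w : F ≃+* F} {X₁ : F} {a1 a2 cc d : F}
  {S1 : Subfield F} {Nm : F →* F}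

variable (T : Tri (M := M) ht hπ q c C₀ P w X₁)
  (D : NC (algebraMap K F t) π q P w a1 a2 cc d)
  (B : NormD (O := O) (M := M) (algebraMap K F t) q P a1 S1 Nm)

/-- the divisor of `h` away from the special fibre is an `m`-th multiple -/
def Hor {O F : Type u} [CommRing O] [Field F] [Algebra O F] (π : O) (m : ℕ) (h : F) : Prop :=
  ∀ V : ValuationSubring F, V ≠ ⊤ → (∀ o : O, algebraMap O F o ∈ V) →
      (algebraMap O F π)⁻¹ ∈ V → ∃ g : F, g ≠ 0 ∧ g ^ m * h ∈ V ∧ (g ^ m * h)⁻¹ ∈ V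

theorem Kit.hP {m : ℕ} {h H : F} {g : Fin 3 → F} {f0 f1 : M} {ξ ξz : O}
    (hk : Kit q m P Nm h H g f0 f1 ξ ξz) (i : Fin 3) :
    ∃ g : F, g ≠ 0 ∧ g ^ m * h ∈ P i ∧ (g ^ m * h)⁻¹ ∈ P i := by
  have hi := hk.hg i
  have u : UC (P i) ((g i)⁻¹ ^ m * h) ((g i)⁻¹ ^ m * h) := by
    rw [inv_pow]
    exact (hi.symm.invs.rfl_left).mul hi.rfl_left
  exact ⟨(g i)⁻¹, inv_ne_zero (hk.g_ne i), u.mem, u.inv⟩

include T in
/-- a point at the cusp `t = ∞` -/
theorem ptAt_inf {y : Ideal (chart O (algebraMap K F t⁻¹))} [hym : y.IsMaximal] [hy : y.IsPrime]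
    (hty : locM y (algebraMap K F t)⁻¹) {m e : ℕ} (hm : 0 < m) {h H : F} {g : Fin 3 → F}
    {f0 f1 : M} {ξ ξz : O} (hk : Kit q m P Nm h H g f0 f1 ξ ξz) (H3 : Hor π m h)
    (Λ : Fin 3 → O) :
    PtAt y (fun i => Meets y (P i)) P g Λ h m e := by
  intro i j hi hj
  have hqM : locM y ((q : ℕ) : F) := locM_of_nonunits (T.sys'.ov i) hi
    (natCast_mem _ _) (T.q_nonunit i)
  refine ptAt_single T.sys' (T.ctrip.disj T.shape T.sys' T.q_cast hqM hty)
    (T.ctrip.exists_locEq T.shape T.sys' T.prime T.q_cast hqM hty T.unif0 T.unif2)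
    (T.valAt' hty) hm (hk.hg 0).ne H3 (fun W hW => ?_) hk.g_ne (fun i => ?_) Λ i j hi hj
  · obtain ⟨i, rfl⟩ := T.sys'.all W hW
    exact hk.hP i
  · exact div_sub_one_nonunits (hk.hg i).ne' (hk.hg i).inv' (hk.hg i).sub

include T D B in
/-- a point of the finite chart -/
theorem ptAt_fin {y : Ideal (chart O (algebraMap K F t))} [hym : y.IsMaximal] [hy : y.IsPrime]
    {m : ℕ} (hm : 0 < m) {h H H' : F} {g : Fin 3 → F} {f0 f1 f0' f1' : M} {ξ ξz ξ' ξz' : O}
    (hk : Kit q m P Nm h H g f0 f1 ξ ξz)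
    (hk' : Kit q m P Nm (w h) H' ![w (g 2), w (g 1), w (g 0)] f0' f1' ξ' ξz')
    (H3 : Hor π m h) :
    PtAt y (fun i => Meets y (P i)) P g (lamO q m ξ ξz ξ' ξz') h m (q ^ 2 - 1) := by
  intro i j hi hj
  have hPW : ∀ W : ValuationSubring F, Over (gaussVal ht hπ) (algebraMap O K π) W →
      ∃ g : F, g ≠ 0 ∧ g ^ m * h ∈ W ∧ (g ^ m * h)⁻¹ ∈ W := fun W hW => by
    obtain ⟨i, rfl⟩ := T.sys.all W hW
    exact hk.hP i
  have hg1 : ∀ i, h / g i ^ m - 1 ∈ (P i).nonunits := fun i =>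
    div_sub_one_nonunits (hk.hg i).ne' (hk.hg i).inv' (hk.hg i).sub
  by_cases hty : locM y (algebraMap K F t)
  · have hqM : locM y ((q : ℕ) : F) := locM_of_nonunits (T.sys.ov i) hi
      (natCast_mem _ _) (T.q_nonunit i)
    have hty' : locM y ((C₀ : F) / algebraMap K F t)⁻¹ := by
      rw [inv_div, div_eq_mul_inv]
      exact hty.mul_right (mem_locS_of_mem (T.C0_inv_mem_chart _))
    exact ptAt_single T.sys (T.ctrip'.disj T.shape T.sys T.q_cast hqM hty')
      (T.ctrip'.exists_locEq T.shape T.sys T.prime T.q_cast hqM hty' T.unif0 T.unif2)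
      (fun i hi => T.valAt i hi) hm (hk.hg 0).ne H3 hPW hk.g_ne hg1 _ i j hi hj
  · by_cases hall : ∀ k, Meets y (P k)
    · exact ptAt_cross T D B hty hall hm hk hk' H3 i j hi hj
    · have hdis : ∀ i j, Meets y (P i) → Meets y (P j) → i = j := by
        intro i j hi hj
        by_contra hij
        exact hall (NC.cross T D hty hij hi hj)
      refine ptAt_single T.sys hdis (fun i hi => ?_)
        (fun i hi => T.valAt i hi) hm (hk.hg 0).ne H3 hPW hk.g_ne hg1 _ i j hi hj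
      obtain ⟨j, a, hj, ha⟩ := NC.exists_locEq T D hty hi
      obtain rfl := hdis i j hi hj
      exact ⟨a, ha⟩

include T D B in
theorem label_main {E : Type u} [Field E] [Algebra O E] [Algebra K E] [Algebra F E]
    [IsScalarTower O K E] [IsScalarTower K F E] [IsScalarTower O F E]
    [FiniteDimensional K E] [Algebra.IsSeparable K E] [FiniteDimensional F E] [IsGalois F E]
    (hinj : Function.Injective (algebraMap O E))
    (hO : ∀ x : E, IsIntegral O x → ∃ o : O, algebraMap O E o = x)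
    {m : ℕ} (hmu : IsUnit (m : O)) (hm : 0 < m) {ζ : O} (hζ : IsPrimitiveRoot ζ m)
    {h H H' : F} {g : Fin 3 → F} {f0 f1 f0' f1' : M} {ξ ξz ξ' ξz' : O}
    (hk : Kit q m P Nm h H g f0 f1 ξ ξz)
    (hk' : Kit q m P Nm (w h) H' ![w (g 2), w (g 1), w (g 0)] f0' f1' ξ' ξz')
    (H3 : Hor π m h) {f : E} (hf : f ^ m = algebraMap F E h) :
    ∃ a : F, f ^ (q ^ 2 - 1) = algebraMap F E a := by
  have hf0 : f ≠ 0 := by
    rintro rfl
    rw [zero_pow hm.ne'] at hf
    exact (hk.hg 0).ne ((map_eq_zero (algebraMap F E)).mp hf.symm)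
  have hO' : ∀ W : ValuationSubring E, Over (gaussVal ht hπ) (algebraMap O K π) W →
      Over (gaussVal ht hπ) (algebraMap O K π) (W.comap (algebraMap F E)) := by
    intro W hW
    refine ⟨fun x hx => ?_, ?_⟩
    · rw [ValuationSubring.mem_comap, ← IsScalarTower.algebraMap_apply]
      exact hW.1 x hx
    · rw [comap_mem_nonunits, ← IsScalarTower.algebraMap_apply]
      exact hW.2
  obtain ⟨W₁, hW₁⟩ : ∃ W₁ : ValuationSubring E, Over (gaussVal ht hπ) (algebraMap O K π) W₁ := by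
    haveI : IsDiscreteValuationRing (gaussVal ht hπ) := isDiscreteValuationRing_gaussVal ht hπ
    obtain ⟨ϖ, hϖ, hϖπ⟩ := exists_gauss_unif ht hπ
    obtain ⟨W, hW⟩ := exists_over (E := E) hϖ
    exact ⟨W, by rwa [hϖπ] at hW⟩
  refine pow_mem_of_labels ht ht.inv hπ hinj hO hmu hm hζ T.inj
    (fun W hW => T.sys.all _ (hO' W hW)) hW₁ hf0 hf hk.g_ne (fun i => ?_)
    (lamO_pow hk.hξ hk.hξz hk'.hξ hk'.hξz) (fun y₀ _ _ => ptAt_fin T D B hm hk hk' H3)
    (fun y₀ _ _ hy => ?_)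
  · exact div_sub_one_nonunits (hk.hg i).ne' (hk.hg i).inv' (hk.hg i).sub
  · refine ptAt_inf T ?_ hm hk H3 _
    have := locM_of_mem hy
    rwa [← map_inv₀]

end

end Fermat.Agent.CA
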