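import Mathlib
import Fermat.Agent.CA.Main

/-!
Integer valued valuations at the components.
-/

set_option autoImplicit false
set_option linter.unusedSectionVars false
set_option linter.style.haveILetI false
set_option linter.unusedVariables false

open IsLocalRing Polynomial

universe u

namespace Fermat.Agent.CA

open Fermat.Agent.Geo Fermat.Agent.LG

/-- `x` has valuation `k` with respect to the uniformiser `u` -/
def Vl {F : Type u} [Field F] (V : ValuationSubring F) (u x : F) (k : ℤ) : Prop :=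
  UC V (x / u ^ k) (x / u ^ k)

/-- `u` is a uniformiser -/
structure Uni {F : Type u} [Field F] (V : ValuationSubring F) (u : F) : Prop where
  non : u ∈ V.nonunits
  ne : u ≠ 0
  dvd : ∀ x ∈ V.nonunits, x / u ∈ V
  arch : ∀ x : F, ∃ n : ℕ, u ^ n * x ∈ V

section

variable {F : Type u} [Field F] {V : ValuationSubring F} {u x x' : F} {k k' : ℤ}

theorem Uni.exists_vl (h : Uni V u) (hx : x ≠ 0) : ∃ k, Vl V u x k := by
  have key : ∀ N : ℕ, ∀ z : F, z ≠ 0 → z ∈ V → u ^ N * z⁻¹ ∈ V → ∃ k, Vl V u z k := by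
    intro N
    induction N with
    | zero =>
      intro z hz hzV hzi
      rw [pow_zero, one_mul] at hzi
      refine ⟨0, ?_⟩
      rw [Vl, zpow_zero, div_one]
      exact UC.refl hz hzV hzi
    | succ N ih =>
      intro z hz hzV hzi
      by_cases hzn : z ∈ V.nonunits
      · obtain ⟨k, hk⟩ := ih (z / u) (div_ne_zero hz h.ne) (h.dvd z hzn) (by
          have e : u ^ N * (z / u)⁻¹ = u ^ (N + 1) * z⁻¹ := by
            rw [inv_div, pow_succ]
            field_simp
          rwa [e])
        refine ⟨k + 1, ?_⟩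
        rw [Vl] at hk ⊢
        have e : z / u / u ^ k = z / u ^ (k + 1) := by
          rw [zpow_add_one₀ h.ne, div_div, mul_comm]
        rwa [e] at hk
      · refine ⟨0, ?_⟩
        rw [Vl, zpow_zero, div_one]
        exact UC.refl hz hzV (inv_mem_of_notMem_nonunits hzn)
  obtain ⟨n, hn⟩ := h.arch x
  obtain ⟨n', hn'⟩ := h.arch x⁻¹
  obtain ⟨k, hk⟩ := key (n' + n) (u ^ n * x) (mul_ne_zero (pow_ne_zero n h.ne) hx) hn (by
    have e : u ^ (n' + n) * (u ^ n * x)⁻¹ = u ^ n' * x⁻¹ := by
      have := h.ne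
      rw [pow_add]
      field_simp
    rwa [e])
  refine ⟨k - n, ?_⟩
  rw [Vl] at hk ⊢
  have e : u ^ n * x / u ^ k = x / u ^ (k - n) := by
    rw [zpow_sub₀ h.ne, zpow_natCast]
    have := h.ne
    field_simp
  rwa [e] at hk

theorem Vl.ne (h : Vl V u x k) : x ≠ 0 := by
  rintro rfl
  rw [Vl, zero_div] at h
  exact h.ne rfl

theorem Vl.mul (h : Vl V u x k) (h' : Vl V u x' k') (hu : u ≠ 0) : Vl V u (x * x') (k + k') := by
  have := UC.mul h h'
  rw [Vl, zpow_add₀ hu, mul_div_mul_comm]
  exact this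

theorem Vl.inv (h : Vl V u x k) : Vl V u x⁻¹ (-k) := by
  have := UC.invs h
  rw [Vl, zpow_neg, div_inv_eq_mul]
  rwa [div_eq_mul_inv, mul_inv, inv_inv] at this

theorem Vl.div (h : Vl V u x k) (h' : Vl V u x' k') (hu : u ≠ 0) : Vl V u (x / x') (k - k') := by
  rw [div_eq_mul_inv, sub_eq_add_neg]
  exact h.mul h'.inv hu

theorem vl_zero_iff : Vl V u x 0 ↔ UC V x x := by rw [Vl, zpow_zero, div_one]

theorem vl_one : Vl V u 1 0 := vl_zero_iff.mpr UC.one

theorem Vl.pow (h : Vl V u x k) (hu : u ≠ 0) (n : ℕ) : Vl V u (x ^ n) (n * k) := by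
  induction n with
  | zero => rw [pow_zero, Nat.cast_zero, zero_mul]; exact vl_one
  | succ n ih =>
    have := ih.mul h hu
    rw [pow_succ]
    have e : ((n + 1 : ℕ) : ℤ) * k = n * k + k := by push_cast; ring
    rw [e]
    exact this

theorem Vl.zpow (h : Vl V u x k) (hu : u ≠ 0) (n : ℤ) : Vl V u (x ^ n) (n * k) := by
  cases n with
  | ofNat n => simpa using h.pow hu n
  | negSucc n =>
    rw [zpow_negSucc, Int.negSucc_eq, neg_mul]
    have := (h.pow hu (n + 1)).inv
    push_cast at this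
    exact this

theorem vl_self (hu : u ≠ 0) (k : ℤ) : Vl V u (u ^ k) k := by
  rw [Vl, div_self (zpow_ne_zero _ hu)]
  exact UC.one

theorem vl_self_one (hu : u ≠ 0) : Vl V u u 1 := by
  simpa using vl_self (V := V) hu 1

theorem uc_zpow_zero (hu : Uni V u) {j : ℤ} (h : UC V (u ^ j) (u ^ j)) : j = 0 := by
  have key : ∀ n : ℕ, 0 < n → u ^ n ∈ V.nonunits := by
    intro n hn
    obtain ⟨r, rfl⟩ : ∃ r, n = r + 1 := ⟨n - 1, by omega⟩
    rw [pow_succ]
    exact mul_mem_nonunits (pow_mem (show u ∈ V from V.nonunits_le hu.non) r) hu.non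
  rcases lt_trichotomy j 0 with hj | hj | hj
  · exfalso
    obtain ⟨n, hn⟩ : ∃ n : ℕ, -j = n := ⟨(-j).toNat, by omega⟩
    have h1 := h.invs
    rw [← zpow_neg, hn, zpow_natCast] at h1
    exact h1.notMem (key n (by omega))
  · exact hj
  · exfalso
    obtain ⟨n, hn⟩ : ∃ n : ℕ, j = n := ⟨j.toNat, by omega⟩
    rw [hn, zpow_natCast] at h
    exact h.notMem (key n (by omega))

theorem Vl.unique (h : Vl V u x k) (h' : Vl V u x k') (hu : Uni V u) : k = k' := by
  have h1 := h.div h' hu.ne
  rw [div_self h.ne] at h1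
  have h2 : UC V (u ^ (k - k')) (u ^ (k - k')) := by
    have := UC.invs h1
    rwa [one_div, inv_inv] at this
  have := uc_zpow_zero hu h2
  omega

theorem Vl.of_uc (h : Vl V u x k) (h' : UC V x' x') (hu : u ≠ 0) : Vl V u (x * x') k := by
  have := h.mul (vl_zero_iff.mpr h') hu
  rwa [add_zero] at this

theorem Vl.congr (h : Vl V u x k) (h' : UC V (x' / x) (x' / x)) (hu : u ≠ 0) : Vl V u x' k := by
  have := h.of_uc h' hu
  rwa [mul_div_cancel₀ _ h.ne] at this

end

section Arch

variable {O K F : Type u} [CommRing O] [IsDomain O] [IsDiscreteValuationRing O]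
  [Field K] [Field F] [Algebra O K] [Algebra O F] [Algebra K F] [IsScalarTower O K F]
  {t : K} {π : O} [FiniteDimensional K F] [Algebra.IsSeparable K F]

theorem exists_C_pow (hπ : Prime π) (a : O[X]) (ha : a ≠ 0) : ∃ (n : ℕ) (b : O[X]),
    a = C (π ^ n) * b ∧ ¬ C π ∣ b := by
  have h1 : FiniteMultiplicity (C π) a := FiniteMultiplicity.of_not_isUnit
    (prime_C_iff.mpr hπ).not_unit ha
  obtain ⟨b, hb, hb'⟩ := h1.exists_eq_pow_mul_and_not_dvd
  exact ⟨_, b, by rw [C_pow]; exact hb, hb'⟩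

theorem over_arch {ht : IsParam O t} {hπ : Prime π} {V : ValuationSubring F}
    (hV : Over (gaussVal ht hπ) (algebraMap O K π) V) (x : F) :
    ∃ n : ℕ, algebraMap O F π ^ n * x ∈ V := by
  letI := polyAlg O t
  haveI := ht.isFractionRing
  letI : Algebra O[X] F := polyAlg O (algebraMap K F t)
  haveI t1 : IsScalarTower O[X] K F := IsScalarTower.of_algebraMap_eq fun a =>
    aeval_algebraMap_apply F t a
  obtain ⟨a, ha0, ha⟩ := exists_smul_isIntegral (A := O[X]) K x
  obtain ⟨n, b, rfl, hb⟩ := exists_C_pow hπ a ha0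
  refine ⟨n, ?_⟩
  have h1 : (C (π ^ n) * b) • x ∈ V := chart_mem_over hV ha
  have h2 : (C (π ^ n) * b) • x = algebraMap O F π ^ n * aeval (algebraMap K F t) b * x := by
    rw [Algebra.smul_def]
    congr 1
    change aeval (algebraMap K F t) (C (π ^ n) * b) = _
    rw [map_mul, aeval_C, map_pow]
  have h3 := aeval_notMem_nonunits hV hb
  have h4 := inv_mem_of_notMem_nonunits h3
  rw [h2] at h1
  have h5 := V.mul_mem _ _ h1 h4
  have e : algebraMap O F π ^ n * aeval (algebraMap K F t) b * x *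
      (aeval (algebraMap K F t) b)⁻¹ = algebraMap O F π ^ n * x := by
    have : aeval (algebraMap K F t) b ≠ 0 := fun h => h3 (by rw [h]; exact zero_mem_nonunits _)
    field_simp
  rwa [e] at h5

end Arch

end Fermat.Agent.CA
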