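import Mathlib
import Fermat.Agent.CA.ValZ

/-!
Power conditions and the final abstract theorem.
-/

set_option autoImplicit false
set_option linter.unusedSectionVars false
set_option linter.style.haveILetI false
set_option linter.unusedVariables false

open IsLocalRing Polynomial

universe u

namespace Fermat.Agent.CA

open Fermat.Agent.Geo Fermat.Agent.LG

section

variable {O K M F : Type u} [CommRing O] [IsDomain O] [IsDiscreteValuationRing O] [CharZero O]
  [Field K] [Field M] [Field F] [Algebra O K] [Algebra O M] [Algebra O F] [Algebra K M]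
  [Algebra K F] [Algebra M F] [IsScalarTower O K M] [IsScalarTower O K F] [IsScalarTower K M F]
  [IsScalarTower O M F]
  {t : K} {π : O} [FiniteDimensional K M] [Algebra.IsSeparable K M]
  [FiniteDimensional K F] [Algebra.IsSeparable K F]
  {ht : IsParam O t} {hπ : Prime π} {q : ℕ} {c : ℕ → ℤ[X]} {C₀ : ℤ}
  {P : Fin 3 → ValuationSubring F} {w : F ≃+* F} {X₁ : F} {a1 a2 cc d : F}
  {S1 : Subfield F} {Nm : F →* F}

variable (T : Tri (M := M) ht hπ q c C₀ P w X₁)
  (D : NC (algebraMap K F t) π q P w a1 a2 cc d)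
  (B : NormD (O := O) (M := M) (algebraMap K F t) q P a1 S1 Nm)

include T in
theorem Tri.uni0 : Uni (P 0) (algebraMap O F π) :=
  ⟨T.π_nonunit 0, T.π_ne, T.unif0, over_arch (T.sys.ov 0)⟩

include T in
theorem Tri.uni2 : Uni (P 2) (algebraMap O F π) :=
  ⟨T.π_nonunit 2, T.π_ne, T.unif2, over_arch (T.sys.ov 2)⟩

include T in
theorem Tri.uni1 : Uni (P 1) (w (algebraMap K F t) - algebraMap K F t) where
  non := T.del
  ne := sub_ne_zero.mpr T.del_ne
  dvd := T.unif1
  arch x := by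
    obtain ⟨n, hn⟩ := over_arch (T.sys.ov 1) x
    refine ⟨(q - 1) * n, ?_⟩
    have h1 := (P 1).mul_mem _ _ (pow_mem T.delq n) hn
    have hπ0 := T.π_ne
    have e : ((w (algebraMap K F t) - algebraMap K F t) ^ (q - 1) / algebraMap O F π) ^ n *
        (algebraMap O F π ^ n * x) =
        (w (algebraMap K F t) - algebraMap K F t) ^ ((q - 1) * n) * x := by
      rw [div_pow, ← pow_mul]
      field_simp
    rwa [e] at h1

include T in
theorem Tri.del_v0 : UC (P 0) (w (algebraMap K F t) - algebraMap K F t)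
    (w (algebraMap K F t) - algebraMap K F t) :=
  UC.refl (sub_ne_zero.mpr T.del_ne) (sub_mem (T.X2_mem 0) (T.t_mem 0))
    (inv_mem_of_notMem_nonunits T.del0)

include T in
theorem Tri.w_del : w (w (algebraMap K F t) - algebraMap K F t) =
    -(w (algebraMap K F t) - algebraMap K F t) := by
  rw [map_sub, T.ww]; ring

theorem UC.neg {V : ValuationSubring F} {a b : F} (h : UC V (-a) (-b)) : UC V a b := by
  have h1 : UC V (-1 : F) (-1) := UC.refl (by simp) (V.neg_mem _ V.one_mem)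
    (by rw [inv_neg, inv_one]; exact V.neg_mem _ V.one_mem)
  have := h1.mul h
  simpa using this

include T in
theorem Tri.del_v2 : UC (P 2) (w (algebraMap K F t) - algebraMap K F t)
    (w (algebraMap K F t) - algebraMap K F t) := by
  have := T.del_v0.map (V' := P 2) (fun x => T.w2_mem x)
  rw [T.w_del] at this
  exact this.neg

include T in
theorem Tri.π_v1 : Vl (P 1) (w (algebraMap K F t) - algebraMap K F t) (algebraMap O F π)
    ((q : ℤ) - 1) := by
  have hq := T.q2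
  have e : ((q : ℤ) - 1) = ((q - 1 : ℕ) : ℤ) := by push_cast [Nat.cast_sub (by omega : 1 ≤ q)]; rfl
  rw [Vl, e, zpow_natCast]
  have h0 := sub_ne_zero.mpr T.del_ne
  refine UC.refl (div_ne_zero T.π_ne (pow_ne_zero _ h0)) T.delq' ?_
  rw [inv_div]
  exact T.delq

theorem hom_inv {F : Type u} [Field F] (Nm : F →* F) {x : F} (hx : x ≠ 0) :
    Nm x⁻¹ = (Nm x)⁻¹ := by
  apply eq_inv_of_mul_eq_one_left
  rw [← map_mul, inv_mul_cancel₀ hx, map_one]

theorem hom_zpow {F : Type u} [Field F] (Nm : F →* F) {x : F} (hx : x ≠ 0) (n : ℤ) :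
    Nm (x ^ n) = Nm x ^ n := by
  cases n with
  | ofNat n => simp
  | negSucc n => rw [zpow_negSucc, zpow_negSucc, hom_inv Nm (pow_ne_zero _ hx), map_pow]

/-- the valuation of the norm at `P 0` -/
theorem nm_v0 (T : Tri (M := M) ht hπ q c C₀ P w X₁)
    (B : NormD (O := O) (M := M) (algebraMap K F t) q P a1 S1 Nm)
    (hO1 : algebraMap O F π ∈ S1)
    (nd : Vl (P 0) (algebraMap O F π) (Nm (w (algebraMap K F t) - algebraMap K F t)) 1)
    {x : F} {a b : ℤ} (ha : Vl (P 0) (algebraMap O F π) x a)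
    (hb : Vl (P 1) (w (algebraMap K F t) - algebraMap K F t) x b) :
    Vl (P 0) (algebraMap O F π) (Nm x) (a + b) := by
  set δ := w (algebraMap K F t) - algebraMap K F t with hδ
  set p := algebraMap O F π with hp
  have hp0 : p ≠ 0 := T.π_ne
  have hδ0 : δ ≠ 0 := sub_ne_zero.mpr T.del_ne
  set e : ℤ := b - (q - 1) * a with he
  set z : F := p ^ a * δ ^ e with hz
  have hz0 : z ≠ 0 := mul_ne_zero (zpow_ne_zero _ hp0) (zpow_ne_zero _ hδ0)
  have z0 : Vl (P 0) p z a := by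
    have := (vl_self (V := P 0) hp0 a).mul ((vl_zero_iff.mpr T.del_v0).zpow hp0 e) hp0
    rwa [mul_zero, add_zero] at this
  have z1 : Vl (P 1) δ z b := by
    have := (T.π_v1.zpow hδ0 a).mul (vl_self (V := P 1) hδ0 e) hδ0
    have e1 : a * ((q : ℤ) - 1) + e = b := by rw [he]; ring
    rwa [e1] at this
  have x0 : UC (P 0) (x / z) (x / z) := by
    rw [← vl_zero_iff (u := p)]
    have := ha.div z0 hp0
    rwa [sub_self] at this
  have x1 : UC (P 1) (x / z) (x / z) := by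
    rw [← vl_zero_iff (u := δ)]
    have := hb.div z1 hδ0
    rwa [sub_self] at this
  obtain ⟨f0, -, h0⟩ := T.res0 _ x0.mem
  obtain ⟨f1, -, h1⟩ := T.res1 _ x1.mem
  have n := B.n0 _ f0 f1 ⟨x0.ne, x0.mem, x0.inv, h0⟩ ⟨x1.ne, x1.mem, x1.inv, h1⟩
  have hx : Nm x = Nm (x / z) * (Nm p ^ a * Nm δ ^ e) := by
    rw [← hom_zpow Nm hp0 a, ← hom_zpow Nm hδ0 e, ← map_mul, ← map_mul, ← hz,
      div_mul_cancel₀ _ hz0]
  rw [hx, B.sq _ hO1]
  have v1 : Vl (P 0) p ((p ^ q) ^ a) (a * q) := by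
    have := ((vl_self_one (V := P 0) hp0).pow hp0 q).zpow hp0 a
    rwa [mul_one] at this
  have v2 := nd.zpow hp0 e
  have v3 := (vl_zero_iff (u := p).mpr n.rfl_left).mul (v1.mul v2 hp0) hp0
  have e2 : 0 + (a * (q : ℤ) + e * 1) = a + b := by rw [he]; ring
  rwa [e2] at v3

/-- the valuation of the norm at `P 2` -/
theorem nm_v2 (T : Tri (M := M) ht hπ q c C₀ P w X₁)
    (B : NormD (O := O) (M := M) (algebraMap K F t) q P a1 S1 Nm)
    (hO1 : algebraMap O F π ∈ S1)
    {x : F} {a : ℤ} (ha : Vl (P 2) (algebraMap O F π) x a) :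
    Vl (P 2) (algebraMap O F π) (Nm x) (q * a) := by
  set p := algebraMap O F π with hp
  have hp0 : p ≠ 0 := T.π_ne
  have n := B.n2 _ ha
  have hz0 : p ^ a ≠ 0 := zpow_ne_zero _ hp0
  have hx : Nm x = Nm (x / p ^ a) * (p ^ q) ^ a := by
    rw [← B.sq _ hO1, ← hom_zpow Nm hp0 a, ← map_mul, div_mul_cancel₀ _ hz0]
  rw [hx]
  have v1 : Vl (P 2) p ((p ^ q) ^ a) (a * q) := by
    have := ((vl_self_one (V := P 2) hp0).pow hp0 q).zpow hp0 a
    rwa [mul_one] at this
  have v3 := (vl_zero_iff (u := p).mpr n.rfl_left).mul v1 hp0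
  have e2 : 0 + (a * (q : ℤ)) = q * a := by ring
  rwa [e2] at v3

/-- the norm is a constant times an `m`-th power -/
def NmP {O F : Type u} [CommRing O] [Field F] [Algebra O F] (π : O) (Nm : F →* F) (m : ℕ)
    (h : F) : Prop :=
  ∃ (k : ℤ) (u : O) (H : F), IsUnit u ∧ Nm h = algebraMap O F π ^ k * algebraMap O F u * H ^ m

theorem Tri.uc_unit (T : Tri (M := M) ht hπ q c C₀ P w X₁) {o : O} (ho : IsUnit o) (i : Fin 3) :
    UC (P i) (algebraMap O F o) (algebraMap O F o) := by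
  obtain ⟨v, rfl⟩ := ho
  have h1 : algebraMap O F (v : O) * algebraMap O F (↑v⁻¹ : O) = 1 := by
    rw [← map_mul, Units.mul_inv, map_one]
  have h2 : algebraMap O F (v : O) ≠ 0 := left_ne_zero_of_mul_eq_one h1
  exact UC.refl h2 (T.O_mem i _) (by
    rw [inv_eq_of_mul_eq_one_right h1]; exact T.O_mem i _)

/-- valuations from the norm condition -/
theorem nmp_vals (T : Tri (M := M) ht hπ q c C₀ P w X₁)
    (B : NormD (O := O) (M := M) (algebraMap K F t) q P a1 S1 Nm)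
    (hO1 : algebraMap O F π ∈ S1)
    (nd : Vl (P 0) (algebraMap O F π) (Nm (w (algebraMap K F t) - algebraMap K F t)) 1)
    {m : ℕ} {x : F} {n0 n1 n2 : ℤ} (h0 : Vl (P 0) (algebraMap O F π) x n0)
    (h1 : Vl (P 1) (w (algebraMap K F t) - algebraMap K F t) x n1)
    (h2 : Vl (P 2) (algebraMap O F π) x n2) {k : ℤ} {u : O} {H : F} (hu : IsUnit u)
    (hm : 0 < m)
    (hH : Nm x = algebraMap O F π ^ k * algebraMap O F u * H ^ m) :
    (m : ℤ) ∣ n0 + n1 - k ∧ (m : ℤ) ∣ q * n2 - k := by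
  have hp0 : algebraMap O F π ≠ 0 := T.π_ne
  have v0 := nm_v0 T B hO1 nd h0 h1
  have v2 := nm_v2 T B hO1 h2
  have hH0 : H ≠ 0 := by
    rintro rfl
    rw [zero_pow hm.ne', mul_zero] at hH
    exact v0.ne hH
  obtain ⟨j0, hj0⟩ := T.uni0.exists_vl hH0
  obtain ⟨j2, hj2⟩ := T.uni2.exists_vl hH0
  have r0 := ((vl_self (V := P 0) hp0 k).of_uc (T.uc_unit hu 0) hp0).mul (hj0.pow hp0 m) hp0
  have r2 := ((vl_self (V := P 2) hp0 k).of_uc (T.uc_unit hu 2) hp0).mul (hj2.pow hp0 m) hp0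
  rw [← hH] at r0 r2
  have e0 := v0.unique r0 T.uni0
  have e2 := v2.unique r2 T.uni2
  exact ⟨⟨j0, by rw [e0]; ring⟩, ⟨j2, by rw [e2]; ring⟩⟩

/-- the norm of a unit is an `m`-th power -/
theorem nmp_root (T : Tri (M := M) ht hπ q c C₀ P w X₁)
    (B : NormD (O := O) (M := M) (algebraMap K F t) q P a1 S1 Nm)
    (hO1 : algebraMap O F π ∈ S1)
    (nd : Vl (P 0) (algebraMap O F π) (Nm (w (algebraMap K F t) - algebraMap K F t)) 1)
    {m : ℕ} (hm : 0 < m) (hroot : ∀ u : O, IsUnit u → ∃ v : O, v ^ m = u) {x : F}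
    (hx : ∀ i, UC (P i) x x) (hN : NmP π Nm m x) : ∃ H : F, Nm x = H ^ m := by
  obtain ⟨k, u, H, hu, hH⟩ := hN
  have hp0 : algebraMap O F π ≠ 0 := T.π_ne
  obtain ⟨⟨j, hj⟩, -⟩ := nmp_vals T B hO1 nd (vl_zero_iff.mpr (hx 0)) (vl_zero_iff.mpr (hx 1))
    (vl_zero_iff.mpr (hx 2)) hu hm hH
  obtain ⟨v, hv⟩ := hroot u hu
  refine ⟨algebraMap O F π ^ (-j) * algebraMap O F v * H, ?_⟩
  have e : k = m * (-j) := by linarith
  rw [hH, e, mul_pow, mul_pow, ← map_pow, hv, ← zpow_natCast (algebraMap O F π ^ (-j)), ← zpow_mul,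
    mul_comm (-j) (m : ℤ)]

end

end Fermat.Agent.CA
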