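import Mathlib
import Fermat.Agent.CA.Final

/-!
Power conditions and the final abstract theorem, continued.
-/

set_option autoImplicit false
set_option linter.unusedSectionVars false
set_option linter.style.haveILetI false
set_option linter.unusedVariables false

open IsLocalRing Polynomial

universe u

namespace Fermat.Agent.CA

open Fermat.Agent.Geo Fermat.Agent.LG

section

variable {O K M F : Type u} [CommRing O] [IsDomain O] [IsDiscreteValuationRing O] [CharZero O]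
  [Field K] [Field M] [Field F] [Algebra O K] [Algebra O M] [Algebra O F] [Algebra K M]
  [Algebra K F] [Algebra M F] [IsScalarTower O K M] [IsScalarTower O K F] [IsScalarTower K M F]
  [IsScalarTower O M F]
  {t : K} {π : O} [FiniteDimensional K M] [Algebra.IsSeparable K M]
  [FiniteDimensional K F] [Algebra.IsSeparable K F]
  {ht : IsParam O t} {hπ : Prime π} {q : ℕ} {c : ℕ → ℤ[X]} {C₀ : ℤ}
  {P : Fin 3 → ValuationSubring F} {w : F ≃+* F} {X₁ : F} {a1 a2 cc d : F}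
  {S1 : Subfield F} {Nm : F →* F}

/-- the kit from the norm equation -/
theorem exists_kit (T : Tri (M := M) ht hπ q c C₀ P w X₁)
    (B : NormD (O := O) (M := M) (algebraMap K F t) q P a1 S1 Nm)
    {m : ℕ} (hm : 0 < m) {ζ : O} (hζ : IsPrimitiveRoot ζ m) {h H : F} {g : Fin 3 → F}
    (hg0 : ∀ i, g i ≠ 0) (hg : ∀ i, UC (P i) h (g i ^ m)) (hN : Nm h = H ^ m) :
    ∃ (f0 f1 : M) (ξ ξz : O), Kit q m P Nm h H g f0 f1 ξ ξz := by
  have hgu : ∀ i, UC (P i) (g i) (g i) := fun i =>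
    UC.refl (hg0 i) (mem_of_pow_mem' hm (hg i).mem') (mem_of_pow_mem' hm (by
      rw [inv_pow]; exact (hg i).inv'))
  obtain ⟨f0, -, h0⟩ := T.res0 _ (hgu 0).mem
  obtain ⟨f1, -, h1⟩ := T.res1 _ (hgu 1).mem
  have u0 : UC (P 0) (g 0) (algebraMap M F f0) := ⟨hg0 0, (hgu 0).mem, (hgu 0).inv, h0⟩
  have u1 : UC (P 1) (g 1) (algebraMap M F f1) := ⟨hg0 1, (hgu 1).mem, (hgu 1).inv, h1⟩
  have hn : UC (P 0) (H ^ m) ((algebraMap M F f0 * algebraMap M F f1 ^ (q - 1)) ^ m) := by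
    have := B.n0 h (f0 ^ m) (f1 ^ m)
      (by rw [map_pow]; exact (hg 0).trans (u0.pow m))
      (by rw [map_pow]; exact (hg 1).trans (u1.pow m))
    rw [hN, map_pow, map_pow] at this
    rwa [mul_pow, ← pow_mul, mul_comm (q - 1) m, pow_mul]
  have hH0 : H ≠ 0 := by
    rintro rfl
    rw [zero_pow hm.ne'] at hn
    exact hn.ne rfl
  obtain ⟨ξ, hξ, hξu⟩ := UC.exists_root hζ hm (T.O_mem 0) hH0
    (mul_ne_zero u0.ne' (pow_ne_zero _ u1.ne')) hn
  have hn2 : UC (P 2) (H ^ m) ((g 2 ^ q) ^ m) := by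
    have h2 := B.n2 h (hg 2).rfl_left
    rw [hN] at h2
    refine h2.trans ?_
    have := (hg 2).pow q
    rwa [← pow_mul, mul_comm m q, pow_mul] at this
  obtain ⟨ξz, hξz, hξzu⟩ := UC.exists_root hζ hm (T.O_mem 2) hH0
    (pow_ne_zero _ (hg0 2)) hn2
  exact ⟨f0, f1, ξ, ξz, hN, hg, hg0, u0, u1, hξu, hξzu, hξ, hξz⟩

theorem Tri.uc_M' (T : Tri (M := M) ht hπ q c C₀ P w X₁) {a b : M}
    (h : UC (P 0) (algebraMap M F a) (algebraMap M F b)) :
    UC (P 1) (algebraMap M F a) (algebraMap M F b) where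
  ne := h.ne
  mem := (T.memM _).mpr h.mem
  inv := by
    have := h.inv
    rw [← map_inv₀] at this ⊢
    exact (T.memM _).mpr this
  sub := by
    have := h.sub
    rw [← map_sub] at this ⊢
    exact T.M_nonunits1.mpr this

/-- a unit whose norm is an `m`-th power is an `m`-th power at `P 2` -/
theorem pow_at2 (T : Tri (M := M) ht hπ q c C₀ P w X₁)
    (B : NormD (O := O) (M := M) (algebraMap K F t) q P a1 S1 Nm)
    {m : ℕ} (hm : 0 < m) (hqm : Nat.Coprime q m) {h H : F}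
    (hu : UC (P 2) h h) (hN : Nm h = H ^ m) : ∃ g : F, g ≠ 0 ∧ UC (P 2) h (g ^ m) := by
  obtain ⟨a, b, hab⟩ := (Nat.isCoprime_iff_coprime.mpr hqm)
  have hH0 : H ≠ 0 := by
    have := B.n2 h hu
    rintro rfl
    rw [hN, zero_pow hm.ne'] at this
    exact this.ne rfl
  refine ⟨H ^ a * h ^ b, mul_ne_zero (zpow_ne_zero _ hH0) (zpow_ne_zero _ hu.ne), ?_⟩
  have h1 : UC (P 2) (h ^ q) (H ^ m) := by
    have := B.n2 h hu
    rw [hN] at this
    exact this.symm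
  have h2 := (h1.zpow a).mul ((hu.pow m).zpow b)
  have e1 : (h ^ q) ^ a * (h ^ m) ^ b = h := by
    rw [← zpow_natCast h q, ← zpow_natCast h m, ← zpow_mul, ← zpow_mul, ← zpow_add₀ hu.ne]
    have : (q : ℤ) * a + m * b = 1 := by linarith
    rw [this, zpow_one]
  have e2 : (H ^ m) ^ a * (h ^ m) ^ b = (H ^ a * h ^ b) ^ m := by
    rw [mul_pow, ← zpow_natCast (H ^ a) m, ← zpow_natCast (h ^ b) m, ← zpow_mul, ← zpow_mul,
      ← zpow_natCast H m, ← zpow_natCast h m, ← zpow_mul, ← zpow_mul, mul_comm a, mul_comm b]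
  rwa [e1, e2] at h2

/-- the roots of `h ^ (q - 1)` at the three components -/
theorem exists_g (T : Tri (M := M) ht hπ q c C₀ P w X₁)
    (B : NormD (O := O) (M := M) (algebraMap K F t) q P a1 S1 Nm)
    {m : ℕ} (hm : 0 < m) (hqm : Nat.Coprime q m) {h H H' : F}
    (hu : ∀ i, UC (P i) h h) (hN : Nm h = H ^ m) (hN' : Nm (w h) = H' ^ m) :
    ∃ g : Fin 3 → F, (∀ i, g i ≠ 0) ∧ ∀ i, UC (P i) (h ^ (q - 1)) (g i ^ m) := by
  obtain ⟨g2, hg20, hg2⟩ := pow_at2 T B hm hqm (hu 2) hN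
  obtain ⟨g0, hg00, hg0⟩ := pow_at2 T B hm hqm ((hu 0).map (fun x => T.w2_mem x)) hN'
  have hg0' := hg0.map (V' := P 0) (fun x => T.wP0 x)
  rw [T.ww, map_pow] at hg0'
  have hwg0 : w g0 ≠ 0 := by rw [Ne, map_eq_zero_iff w w.injective]; exact hg00
  obtain ⟨f0, -, h0⟩ := T.res0 _ (hu 0).mem
  obtain ⟨f1, -, h1⟩ := T.res1 _ (hu 1).mem
  have u0 : UC (P 0) h (algebraMap M F f0) := ⟨(hu 0).ne, (hu 0).mem, (hu 0).inv, h0⟩
  have u1 : UC (P 1) h (algebraMap M F f1) := ⟨(hu 1).ne, (hu 1).mem, (hu 1).inv, h1⟩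
  have hn := B.n0 h f0 f1 u0 u1
  rw [hN] at hn
  have hH0 : H ≠ 0 := by
    rintro rfl
    rw [zero_pow hm.ne'] at hn
    exact hn.ne rfl
  -- `f1 ^ (q - 1)` is an `m`-th power
  have h2 : UC (P 0) (algebraMap M F f1 ^ (q - 1)) ((H / w g0) ^ m) := by
    have h3 := (hn.symm).div (u0.symm.trans hg0')
    have e : algebraMap M F f0 * algebraMap M F f1 ^ (q - 1) / algebraMap M F f0 =
        algebraMap M F f1 ^ (q - 1) := by
      have := u0.ne'
      field_simp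
    rwa [e, ← div_pow] at h3
  have h3 : UC (P 0) (H / w g0) (H / w g0) := UC.refl (div_ne_zero hH0 hwg0)
    (mem_of_pow_mem' hm h2.mem') (mem_of_pow_mem' hm (by rw [inv_pow]; exact h2.inv'))
  obtain ⟨κ, -, h4⟩ := T.res0 _ h3.mem
  have h5 : UC (P 0) (H / w g0) (algebraMap M F κ) := ⟨h3.ne, h3.mem, h3.inv, h4⟩
  have h6 : UC (P 1) (h ^ (q - 1)) (algebraMap M F κ ^ m) := by
    have h7 := h2.trans (h5.pow m)
    rw [← map_pow, ← map_pow] at h7
    have h8 := T.uc_M' h7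
    rw [map_pow, map_pow] at h8
    exact (u1.pow (q - 1)).trans h8
  refine ⟨![(w g0) ^ (q - 1), algebraMap M F κ, g2 ^ (q - 1)], fun i => ?_, fun i => ?_⟩
  · match i with
    | 0 => exact pow_ne_zero _ hwg0
    | 1 => exact h5.ne'
    | 2 => exact pow_ne_zero _ hg20
  · match i with
    | 0 =>
      have := hg0'.pow (q - 1)
      change UC (P 0) _ (((w g0) ^ (q - 1)) ^ m)
      rwa [← pow_mul, mul_comm (q - 1) m, pow_mul]
    | 1 => exact h6
    | 2 =>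
      have := hg2.pow (q - 1)
      change UC (P 2) _ ((g2 ^ (q - 1)) ^ m)
      rwa [← pow_mul, mul_comm (q - 1) m, pow_mul]

theorem Hor.pow {m n : ℕ} {h : F} (hh : Hor π m h) : Hor π m (h ^ n) := by
  intro V hV h1 h2
  obtain ⟨g, hg, h3, h4⟩ := hh V hV h1 h2
  refine ⟨g ^ n, pow_ne_zero _ hg, ?_, ?_⟩
  · have e : (g ^ n) ^ m * h ^ n = (g ^ m * h) ^ n := by rw [mul_pow]; ring
    rw [e]
    exact pow_mem h3 n
  · have e : ((g ^ n) ^ m * h ^ n)⁻¹ = ((g ^ m * h)⁻¹) ^ n := by rw [inv_pow, mul_pow]; ring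
    rw [e]
    exact pow_mem h4 n

theorem Hor.div {m : ℕ} {h G : F} (hG : G ≠ 0) (hh : Hor π m h) : Hor π m (h / G ^ m) := by
  intro V hV h1 h2
  obtain ⟨g, hg, h3, h4⟩ := hh V hV h1 h2
  refine ⟨g * G, mul_ne_zero hg hG, ?_, ?_⟩
  · have e : (g * G) ^ m * (h / G ^ m) = g ^ m * h := by rw [mul_pow]; field_simp
    rw [e]
    exact h3
  · have e : (g * G) ^ m * (h / G ^ m) = g ^ m * h := by rw [mul_pow]; field_simp
    rw [e]
    exact h4

theorem NmP.pow {m n : ℕ} {h : F} (hh : NmP π Nm m h) : NmP π Nm m (h ^ n) := by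
  obtain ⟨k, u, H, hu, hH⟩ := hh
  refine ⟨n * k, u ^ n, H ^ n, hu.pow n, ?_⟩
  rw [map_pow, hH, mul_pow, mul_pow, map_pow]
  rw [← zpow_natCast (algebraMap O F π ^ k) n, ← zpow_mul, mul_comm k]
  ring

theorem NmP.div {m : ℕ} {h G : F} (hG : G ≠ 0) (hh : NmP π Nm m h) : NmP π Nm m (h / G ^ m) := by
  obtain ⟨k, u, H, hu, hH⟩ := hh
  refine ⟨k, u, H / Nm G, hu, ?_⟩
  rw [div_eq_mul_inv, map_mul, hom_inv Nm (pow_ne_zero _ hG), map_pow, hH, div_pow]
  ring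

end

end Fermat.Agent.CA
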