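import Mathlib
import Fermat.Agent.CA.Final2

/-!
The final abstract theorem.
-/

set_option autoImplicit false
set_option linter.unusedSectionVars false
set_option linter.style.haveILetI false
set_option linter.unusedVariables false

open IsLocalRing Polynomial

universe u

namespace Fermat.Agent.CA

open Fermat.Agent.Geo Fermat.Agent.LG

theorem UC.neg_one {F : Type u} [Field F] {V : ValuationSubring F} : UC V (-1 : F) (-1) :=
  UC.refl (by simp) (V.neg_mem _ V.one_mem) (by rw [inv_neg, inv_one]; exact V.neg_mem _ V.one_mem)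

section

variable {O K M F : Type u} [CommRing O] [IsDomain O] [IsDiscreteValuationRing O] [CharZero O]
  [Field K] [Field M] [Field F] [Algebra O K] [Algebra O M] [Algebra O F] [Algebra K M]
  [Algebra K F] [Algebra M F] [IsScalarTower O K M] [IsScalarTower O K F] [IsScalarTower K M F]
  [IsScalarTower O M F]
  {t : K} {π : O} [FiniteDimensional K M] [Algebra.IsSeparable K M]
  [FiniteDimensional K F] [Algebra.IsSeparable K F]
  {ht : IsParam O t} {hπ : Prime π} {q : ℕ} {c : ℕ → ℤ[X]} {C₀ : ℤ}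
  {P : Fin 3 → ValuationSubring F} {w : F ≃+* F} {X₁ : F} {a1 a2 cc d : F}
  {S1 : Subfield F} {Nm : F →* F}

theorem Tri.vl_w0 (T : Tri (M := M) ht hπ q c C₀ P w X₁) {x : F} {k : ℤ}
    (h : Vl (P 2) (algebraMap O F π) x k) : Vl (P 0) (algebraMap O F π) (w x) k := by
  have := UC.map (V' := P 0) (fun x => T.wP0 x) h
  rwa [map_div₀, map_zpow₀, T.wO] at this

theorem Tri.vl_w2 (T : Tri (M := M) ht hπ q c C₀ P w X₁) {x : F} {k : ℤ}
    (h : Vl (P 0) (algebraMap O F π) x k) : Vl (P 2) (algebraMap O F π) (w x) k := by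
  have := UC.map (V' := P 2) (fun x => T.w2_mem x) h
  rwa [map_div₀, map_zpow₀, T.wO] at this

theorem Tri.vl_w1 (T : Tri (M := M) ht hπ q c C₀ P w X₁) {x : F} {k : ℤ}
    (h : Vl (P 1) (w (algebraMap K F t) - algebraMap K F t) x k) :
    Vl (P 1) (w (algebraMap K F t) - algebraMap K F t) (w x) k := by
  have h1 := UC.map (V' := P 1) (fun x => T.wP1 x) h
  rw [map_div₀, map_zpow₀, T.w_del] at h1
  have h2 := h1.mul ((UC.neg_one (V := P 1)).zpow k)
  have e : w x / (-(w (algebraMap K F t) - algebraMap K F t)) ^ k * (-1 : F) ^ k =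
      w x / (w (algebraMap K F t) - algebraMap K F t) ^ k := by
    have h0 := zpow_ne_zero k (sub_ne_zero.mpr T.del_ne)
    have h3 : (-1 : F) ^ k ≠ 0 := zpow_ne_zero k (by simp)
    rw [neg_eq_neg_one_mul, mul_zpow]
    field_simp
  rwa [e] at h2

theorem main_abs (T : Tri (M := M) ht hπ q c C₀ P w X₁)
    (D : NC (algebraMap K F t) π q P w a1 a2 cc d)
    (B : NormD (O := O) (M := M) (algebraMap K F t) q P a1 S1 Nm)
    (nd : Vl (P 0) (algebraMap O F π) (Nm (w (algebraMap K F t) - algebraMap K F t)) 1)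
    {E : Type u} [Field E] [Algebra O E] [Algebra K E] [Algebra F E]
    [IsScalarTower O K E] [IsScalarTower K F E] [IsScalarTower O F E]
    [FiniteDimensional K E] [Algebra.IsSeparable K E] [FiniteDimensional F E] [IsGalois F E]
    (hinj : Function.Injective (algebraMap O E))
    (hO : ∀ x : E, IsIntegral O x → ∃ o : O, algebraMap O E o = x)
    {m : ℕ} (hmu : IsUnit (m : O)) (hm : 0 < m) (hqm : Nat.Coprime q m)
    {ζ : O} (hζ : IsPrimitiveRoot ζ m) (hroot : ∀ u : O, IsUnit u → ∃ v : O, v ^ m = u)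
    {y : E} {h₀ : F} (hy : y ^ m = algebraMap F E h₀) (h₀P : UC (P 0) h₀ h₀)
    (hN : NmP π Nm m h₀) (hN' : NmP π Nm m (w h₀)) (hor : Hor π m h₀) :
    ∃ a : F, y ^ ((q ^ 2 - 1) ^ 2) = algebraMap F E a := by
  have hO1 : algebraMap O F π ∈ S1 := NormD.O_mem T D B π
  have hp0 : algebraMap O F π ≠ 0 := T.π_ne
  have hδ0 := sub_ne_zero.mpr T.del_ne
  have h₀ne : h₀ ≠ 0 := h₀P.ne
  have ha0 : a1 ≠ 0 := NC.a1_ne T D
  obtain ⟨n1, hn1⟩ := T.uni1.exists_vl h₀ne
  obtain ⟨n2, hn2⟩ := T.uni2.exists_vl h₀ne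
  have hn0 : Vl (P 0) (algebraMap O F π) h₀ 0 := vl_zero_iff.mpr h₀P
  -- divisibility
  obtain ⟨k, u, H, hu, hH⟩ := id hN
  obtain ⟨k', u', H', hu', hH'⟩ := id hN'
  obtain ⟨d1, d2⟩ := nmp_vals T B hO1 nd hn0 hn1 hn2 hu hm hH
  obtain ⟨d3, d4⟩ := nmp_vals T B hO1 nd (T.vl_w0 hn2) (T.vl_w1 hn1) (T.vl_w2 hn0) hu' hm hH'
  have e2 : (m : ℤ) ∣ (q + 1) * n2 := by
    have := (d2.sub d1).add (d3.sub d4)
    have e : q * n2 - k - (0 + n1 - k) + (n2 + n1 - k' - (q * 0 - k')) = (q + 1) * n2 := by ring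
    rwa [e] at this
  have e1 : (m : ℤ) ∣ (q + 1) * n1 := by
    have := ((d3.sub d4).mul_left ((q : ℤ) + 1)).sub e2
    have e : ((q : ℤ) + 1) * (n2 + n1 - k' - (q * 0 - k')) - (q + 1) * n2 = (q + 1) * n1 := by
      ring
    rwa [e] at this
  obtain ⟨j1, hj1⟩ := e1
  obtain ⟨j2, hj2⟩ := e2
  -- the monomial
  set δ := w (algebraMap K F t) - algebraMap K F t with hδ
  set p := algebraMap O F π with hp
  set G : F := a1 ^ j2 * δ ^ j1 with hG
  have hG0 : G ≠ 0 := mul_ne_zero (zpow_ne_zero _ ha0) (zpow_ne_zero _ hδ0)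
  have a0 : UC (P 0) a1 a1 := UC.refl ha0 (D.a1_m 0) D.a1_0
  have a1' : UC (P 1) a1 a1 := UC.refl ha0 (D.a1_m 1) D.a1_1
  have a2' : Vl (P 2) p a1 1 := by
    rw [Vl, zpow_one]
    have e : a1 / p = (a2 * cc)⁻¹ := by
      rw [hp, ← D.prod]
      have := NC.a2_ne T D
      have := NC.cc_ne T D
      field_simp
    rw [e]
    refine (UC.refl (mul_ne_zero (NC.a2_ne T D) (NC.cc_ne T D))
      ((P 2).mul_mem _ _ (NC.a2_m2 T D) (NC.cc_m2 T D)) ?_).invs
    rw [mul_inv]
    exact (P 2).mul_mem _ _ (NC.a2_inv2 T D) (NC.cc_2 T D)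
  have G0 : Vl (P 0) p G 0 := by
    have := ((vl_zero_iff (u := p).mpr a0).zpow hp0 j2).mul
      ((vl_zero_iff (u := p).mpr T.del_v0).zpow hp0 j1) hp0
    rwa [mul_zero, mul_zero, add_zero] at this
  have G1 : Vl (P 1) δ G j1 := by
    have := ((vl_zero_iff (u := δ).mpr a1').zpow hδ0 j2).mul (vl_self (V := P 1) hδ0 j1) hδ0
    rwa [mul_zero, zero_add] at this
  have G2 : Vl (P 2) p G j2 := by
    have := (a2'.zpow hp0 j2).mul ((vl_zero_iff (u := p).mpr T.del_v2).zpow hp0 j1) hp0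
    rwa [mul_one, mul_zero, add_zero] at this
  -- the first modification
  set h1 : F := h₀ ^ (q + 1) / G ^ m with hh1
  have hh1u : ∀ i, UC (P i) h1 h1 := by
    intro i
    match i with
    | 0 =>
      have := (hn0.pow hp0 (q + 1)).div (G0.pow hp0 m) hp0
      rw [mul_zero, mul_zero, sub_zero] at this
      exact vl_zero_iff.mp this
    | 1 =>
      have := (hn1.pow hδ0 (q + 1)).div (G1.pow hδ0 m) hδ0
      have e : ((q + 1 : ℕ) : ℤ) * n1 - m * j1 = 0 := by rw [← hj1]; push_cast; ring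
      rw [e] at this
      exact vl_zero_iff.mp this
    | 2 =>
      have := (hn2.pow hp0 (q + 1)).div (G2.pow hp0 m) hp0
      have e : ((q + 1 : ℕ) : ℤ) * n2 - m * j2 = 0 := by rw [← hj2]; push_cast; ring
      rw [e] at this
      exact vl_zero_iff.mp this
  have hwh1u : ∀ i, UC (P i) (w h1) (w h1) := by
    intro i
    match i with
    | 0 => exact (hh1u 2).map (V' := P 0) (fun x => T.wP0 x)
    | 1 => exact (hh1u 1).map (V' := P 1) (fun x => T.wP1 x)
    | 2 => exact (hh1u 0).map (V' := P 2) (fun x => T.w2_mem x)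
  have hwG0 : w G ≠ 0 := by rw [Ne, map_eq_zero_iff w w.injective]; exact hG0
  have hN1 : NmP π Nm m h1 := (hN.pow (n := q + 1)).div hG0
  have hN1' : NmP π Nm m (w h1) := by
    rw [hh1, map_div₀, map_pow, map_pow]
    exact (hN'.pow (n := q + 1)).div hwG0
  obtain ⟨H1, hH1⟩ := nmp_root T B hO1 nd hm hroot hh1u hN1
  obtain ⟨H1', hH1'⟩ := nmp_root T B hO1 nd hm hroot hwh1u hN1'
  obtain ⟨g, hg0, hg⟩ := exists_g T B hm hqm hh1u hH1 hH1'
  -- the second modification
  set h2 : F := h1 ^ (q - 1) with hh2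
  obtain ⟨f0, f1, ξ, ξz, hk⟩ := exists_kit T B hm hζ hg0 hg (H := H1 ^ (q - 1)) (by
    rw [map_pow, hH1, ← pow_mul, ← pow_mul, mul_comm])
  obtain ⟨f0', f1', ξ', ξz', hk'⟩ := exists_kit T B hm hζ (h := w h2) (H := H1' ^ (q - 1))
    (g := ![w (g 2), w (g 1), w (g 0)]) (fun i => by
      match i with
      | 0 => exact (_root_.map_ne_zero w).mpr (hg0 2)
      | 1 => exact (_root_.map_ne_zero w).mpr (hg0 1)
      | 2 => exact (_root_.map_ne_zero w).mpr (hg0 0)) (fun i => by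
      match i with
      | 0 =>
        have := (hg 2).map (V' := P 0) (fun x => T.wP0 x)
        rwa [map_pow w (g 2)] at this
      | 1 =>
        have := (hg 1).map (V' := P 1) (fun x => T.wP1 x)
        rwa [map_pow w (g 1)] at this
      | 2 =>
        have := (hg 0).map (V' := P 2) (fun x => T.w2_mem x)
        rwa [map_pow w (g 0)] at this) (by
    rw [hh2, map_pow, map_pow, hH1', ← pow_mul, ← pow_mul, mul_comm])
  have hor2 : Hor π m h2 := ((hor.pow (n := q + 1)).div hG0).pow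
  set f : E := (y ^ (q + 1) / algebraMap F E G) ^ (q - 1) with hf
  have hfm : f ^ m = algebraMap F E h2 := by
    rw [hf, hh2, hh1, ← pow_mul, mul_comm (q - 1) m, pow_mul, div_pow, ← pow_mul,
      mul_comm (q + 1) m, pow_mul, hy]
    simp only [map_pow, map_div₀]
  obtain ⟨a, ha⟩ := label_main T D B hinj hO hmu hm hζ hk hk' hor2 hfm
  refine ⟨a * G ^ ((q - 1) * (q ^ 2 - 1)), ?_⟩
  have hGE : algebraMap F E G ≠ 0 := (_root_.map_ne_zero _).mpr hG0
  rw [map_mul, map_pow, ← ha, hf, ← pow_mul, div_pow, div_mul_cancel₀ _ (pow_ne_zero _ hGE),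
    ← pow_mul]
  congr 1
  have hq := T.q2
  obtain ⟨n, rfl⟩ : ∃ n, q = n + 1 := ⟨q - 1, by omega⟩
  have : (n + 1) ^ 2 - 1 = (n + 1 + 1) * (n + 1 - 1) := by
    rw [Nat.add_sub_cancel]
    have : (n + 1) ^ 2 = (n + 1 + 1) * n + 1 := by ring
    omega
  rw [← mul_assoc, ← this, pow_two]

end

end Fermat.Agent.CA
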