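import Mathlib
import Fermat.Agent.LG.GVal
import Fermat.Agent.LG.LevelQ
import Fermat.Agent.LG.Unorm
import Fermat.Agent.LG.Th3

/-!
The Gauss valuation ring of Laurent series and change of coefficients, twists.
-/

set_option autoImplicit false
set_option linter.unusedSectionVars false

open IsLocalRing Polynomial ModularCurve

universe u

namespace Fermat.Agent.CA

open Fermat.Agent.Geo Fermat.Agent.LG Fermat.Agent.ModFun

section Map

variable {O L O' L' : Type u} [CommRing O] [IsDomain O] [IsDiscreteValuationRing O] [Field L]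
  [Algebra O L] [IsFractionRing O L] [CommRing O'] [IsDomain O'] [IsDiscreteValuationRing O']
  [Field L'] [Algebra O' L'] [IsFractionRing O' L'] {i : L →+* L'} {i' : O →+* O'}
  [IsLocalHom i']

theorem coeffMap_toL (comp : ∀ a, i (algebraMap O L a) = algebraMap O' L' (i' a))
    (a : LaurentSeries O) : coeffMap i (toL O L a) = toL O' L' (coeffMap i' a) := by
  ext n
  exact comp _

theorem toK_coeffMap (a : LaurentSeries O) :
    toK O' (coeffMap i' a) = coeffMap (ResidueField.map i') (toK O a) := by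
  ext n
  rfl

theorem coeffMap_inj' {R S : Type*} [CommRing R] [CommRing S] {f : R →+* S}
    (hf : Function.Injective f) : Function.Injective (coeffMap f) := by
  intro x y h
  ext n
  exact hf (congrArg (fun z : LaurentSeries S => z.coeff n) h)

theorem coeffMap_gV (comp : ∀ a, i (algebraMap O L a) = algebraMap O' L' (i' a))
    {y : LaurentSeries L} (hy : y ∈ gV O L) : ∃ h' : coeffMap i y ∈ gV O' L',
      gR (⟨_, h'⟩ : gV O' L') = coeffMap (ResidueField.map i') (gR (⟨y, hy⟩ : gV O L)) := by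
  obtain ⟨a, b, hb, h⟩ := mem_gV.mp hy
  have hb' : toK O' (coeffMap i' b) ≠ 0 := by
    rw [toK_coeffMap]
    intro h0
    apply hb
    exact coeffMap_inj' (ResidueField.map i').injective (by rw [h0, map_zero])
  have h2 : toL O' L' (coeffMap i' b) * coeffMap i y = toL O' L' (coeffMap i' a) := by
    rw [← coeffMap_toL comp, ← coeffMap_toL comp, ← map_mul, h]
  obtain ⟨hx, hg⟩ := gR_of_mul hb' h2
  have e := gR_eq (x := ⟨y, hy⟩) hb h
  refine ⟨hx, hg.trans ?_⟩
  rw [e, map_div₀, toK_coeffMap, toK_coeffMap]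

theorem coeffMap_gK (comp : ∀ a, i (algebraMap O L a) = algebraMap O' L' (i' a))
    (hinj : Function.Injective i') {y : LaurentSeries L} (hy : y ∈ gK O L) :
    coeffMap i y ∈ gK O' L' := by
  obtain ⟨a, b, hb, h⟩ := hy
  refine ⟨coeffMap i' a, coeffMap i' b, fun h0 => hb (coeffMap_inj' hinj (by rw [h0, map_zero])),
    ?_⟩
  rw [← coeffMap_toL comp, ← coeffMap_toL comp, ← map_mul, h]

theorem coeffMap_gV_iff (comp : ∀ a, i (algebraMap O L a) = algebraMap O' L' (i' a))
    {y : LaurentSeries L} (hy : y ∈ gK O L) : coeffMap i y ∈ gV O' L' ↔ y ∈ gV O L := by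
  refine ⟨fun h => ?_, fun h => (coeffMap_gV comp h).choose⟩
  by_contra hcon
  have hy0 : y ≠ 0 := by
    rintro rfl
    exact hcon (zero_mem _)
  have h1 : y⁻¹ ∈ gV O L := (mem_or_inv_mem hy).resolve_left hcon
  have h2 : gR (⟨y⁻¹, h1⟩ : gV O L) = 0 := by
    by_contra h3
    have := isUnit_of_gR_ne_zero h3
    change (y⁻¹)⁻¹ ∈ gV O L at this
    rw [inv_inv] at this
    exact hcon this
  obtain ⟨h3, h4⟩ := coeffMap_gV comp h1
  rw [h2, map_zero] at h4
  have h5 : (⟨coeffMap i y⁻¹, h3⟩ : gV O' L') * ⟨coeffMap i y, h⟩ = 1 := by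
    apply Subtype.ext
    change coeffMap i y⁻¹ * coeffMap i y = 1
    rw [← map_mul, inv_mul_cancel₀ hy0, map_one]
  have h6 := congrArg gR h5
  rw [map_mul, h4, zero_mul, map_one] at h6
  exact zero_ne_one h6

end Map

section Twist

variable {O L : Type u} [CommRing O] [IsDomain O] [IsDiscreteValuationRing O] [Field L]
  [Algebra O L] [IsFractionRing O L] {ζ : Oˣ}

/-- the image of a unit -/
def zL (L : Type*) [Field L] [Algebra O L] (ζ : Oˣ) : Lˣ := Units.map (algebraMap O L : O →* L) ζ

theorem twist_toL (a : LaurentSeries O) :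
    twist (zL L ζ) (toL O L a) = toL O L (twist ζ a) := by
  rw [toL, coeffMap_twist]; rfl

theorem toK_twist (hζ : residue O ζ = 1) (a : LaurentSeries O) : toK O (twist ζ a) = toK O a := by
  rw [toK, coeffMap_twist]
  have : Units.map (residue O : O →* ResidueField O) ζ = 1 := by
    apply Units.ext
    exact hζ
  rw [this, twist_one']

theorem twist_gV (hζ : residue O ζ = 1) {y : LaurentSeries L} (hy : y ∈ gV O L) :
    ∃ h' : twist (zL L ζ) y ∈ gV O L, gR (⟨_, h'⟩ : gV O L) = gR (⟨y, hy⟩ : gV O L) := by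
  obtain ⟨a, b, hb, h⟩ := mem_gV.mp hy
  have hb' : toK O (twist ζ b) ≠ 0 := by rw [toK_twist hζ]; exact hb
  have h2 : toL O L (twist ζ b) * twist (zL L ζ) y = toL O L (twist ζ a) := by
    rw [← twist_toL, ← twist_toL, ← map_mul, h]
  obtain ⟨hx, hg⟩ := gR_of_mul hb' h2
  have e := gR_eq (x := ⟨y, hy⟩) hb h
  refine ⟨hx, hg.trans ?_⟩
  rw [e, toK_twist hζ, toK_twist hζ]

theorem twist_inj {R : Type*} [CommRing R] (u : Rˣ) : Function.Injective (twist u) := by
  intro x y h
  have h1 := congrArg (twist u⁻¹) h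
  rwa [twist_twist, twist_twist, inv_mul_cancel, twist_one', twist_one'] at h1

theorem twist_gK {y : LaurentSeries L} (hy : y ∈ gK O L) : twist (zL L ζ) y ∈ gK O L := by
  obtain ⟨a, b, hb, h⟩ := hy
  refine ⟨twist ζ a, twist ζ b, fun h0 => hb (twist_inj ζ (by rw [h0, map_zero])), ?_⟩
  rw [← twist_toL, ← twist_toL, ← map_mul, h]

end Twist

end Fermat.Agent.CA
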