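import Mathlib
import Fermat.Agent.Geo.ListUnr

set_option autoImplicit false
set_option linter.unusedSectionVars false

/-!
# Complete lists of extensions, with ramification
-/

open IsLocalRing Polynomial

namespace Fermat.Agent.CA

open Fermat.Agent.Geo

section

variable {F E : Type*} [Field F] [Field E] [Algebra F E]
  {V : ValuationSubring F}

/-- a list of extensions with uniformisers -/
structure RList (V : ValuationSubring F) (ϖ : V) {ι : Type*} (W : ι → ValuationSubring E)
    (u : ι → E) (N : ℕ) : Prop where
  inj : Function.Injective W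
  le : ∀ i, ∀ x ∈ V, algebraMap F E x ∈ W i
  non : ∀ i, algebraMap F E ϖ ∈ (W i).nonunits
  une : ∀ i, u i ≠ 0
  dvd : ∀ i, ∀ x ∈ (W i).nonunits, x / u i ∈ W i
  pow : ∀ i, u i ^ N / algebraMap F E ϖ ∈ W i

theorem div_add_mem {W : ValuationSubring E} {p x y : E} (hx : x / p ∈ W) (hy : y / p ∈ W) :
    (x + y) / p ∈ W := by rw [add_div]; exact add_mem hx hy

theorem div_sub_mem {W : ValuationSubring E} {p x y : E} (hx : x / p ∈ W) (hy : y / p ∈ W) :
    (x - y) / p ∈ W := by rw [sub_div]; exact sub_mem hx hy

theorem div_mul_mem {W : ValuationSubring E} {p x y : E} (hx : x ∈ W) (hy : y / p ∈ W) :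
    (x * y) / p ∈ W := by rw [mul_div_assoc]; exact mul_mem hx hy

theorem div_sum_mem {W : ValuationSubring E} {p : E} {κ : Type*} (s : Finset κ) (f : κ → E)
    (hf : ∀ k ∈ s, f k / p ∈ W) : (∑ k ∈ s, f k) / p ∈ W := by
  rw [Finset.sum_div]; exact sum_mem hf

namespace RList

variable [IsDiscreteValuationRing V] [FiniteDimensional F E] [Algebra.IsSeparable F E]
  {ϖ : V} {ι : Type*} {W : ι → ValuationSubring E} {u : ι → E} {N : ℕ}

theorem ne (hϖ : Irreducible ϖ) : algebraMap F E ϖ ≠ 0 := by
  rw [Ne, map_eq_zero]
  intro h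
  exact hϖ.ne_zero (Subtype.ext h)

theorem non_of_div (h : RList V ϖ W u N) (hϖ : Irreducible ϖ) (i : ι) {x : E}
    (hx : x / algebraMap F E ϖ ∈ W i) : x ∈ (W i).nonunits := by
  have : x = (x / algebraMap F E ϖ) * algebraMap F E ϖ := (div_mul_cancel₀ _ (ne hϖ)).symm
  rw [this]
  exact mul_mem_nonunits hx (h.non i)

theorem pow_div (h : RList V ϖ W u N) (i : ι) {x : E} (hx : x ∈ (W i).nonunits) :
    x ^ N / algebraMap F E ϖ ∈ W i := by
  have e : x ^ N / algebraMap F E ϖ = (x / u i) ^ N * (u i ^ N / algebraMap F E ϖ) := by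
    have := pow_ne_zero N (h.une i)
    rw [div_pow, div_mul_div_comm, mul_comm (u i ^ N), mul_div_mul_right _ _ this]
  rw [e]
  exact mul_mem (pow_mem (h.dvd i x hx) N) (h.pow i)

/-- approximation at one place -/
theorem approx (h : RList V ϖ W u N) (hϖ : Irreducible ϖ) (i : ι) {x : E} (hx : x ∈ W i) :
    ∃ b : E, IntOver V.toSubring b ∧ (b - x) / algebraMap F E ϖ ∈ W i := by
  obtain ⟨j, hj, hxj, hjW, hjn⟩ := exists_intOver_mul (h.le i) hx
  letI : Algebra V E := ((algebraMap F E).comp V.toSubring.subtype).toAlgebra
  haveI : IsScalarTower V F E := IsScalarTower.of_algebraMap_eq fun a => rfl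
  have hfs : FaithfulSMul V E := faithfulSMul_of_tower F E
  have hded : IsDedekindDomain (integralClosure V E) := integralClosure.isDedekindDomain V F E
  obtain ⟨Q, hQ, hQ0, hQl, hmem⟩ := exists_ideal_of_valuationSubring (W i) hϖ (h.le i) (h.non i)
  have hQmax : Q.IsMaximal := hQ.isMaximal hQ0
  have hjQ : (⟨j, hj⟩ : integralClosure V E) ∉ Q := fun h => hjn ((hmem _).mp h)
  obtain ⟨j', q, hq, hjj⟩ := hQmax.exists_inv hjQ
  have hjj' : j * (j' : E) + q = 1 := by
    have := congrArg Subtype.val hjj
    rw [mul_comm] at this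
    exact this
  set g : integralClosure V E := ∑ k ∈ Finset.range N, q ^ k with hg
  have hgeom : (1 - (q : E)) * (g : E) = 1 - (q : E) ^ N := by
    have h1 : (1 - q) * g = 1 - q ^ N := by
      rw [hg]; exact mul_neg_geom_sum q N
    exact congrArg Subtype.val h1
  refine ⟨(x * j) * (j' * g : integralClosure V E), hxj.mul (j' * g).2, ?_⟩
  have h1 : x * j * ((j' * g : integralClosure V E) : E) - x = (-x) * (q : E) ^ N := by
    have e1 : ((j' * g : integralClosure V E) : E) = (j' : E) * (g : E) := rfl
    rw [e1]
    have e2 : j * (j' : E) = 1 - q := by linear_combination hjj'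
    linear_combination x * (g : E) * e2 + x * hgeom
  rw [h1]
  exact div_mul_mem (neg_mem hx) (h.pow_div i ((hmem q).mp hq))

/-- simultaneous approximation -/
theorem separating [Fintype ι] (h : RList V ϖ W u N) (hϖ : Irreducible ϖ)
    (x : ι → E) (hx : ∀ i, x i ∈ W i) :
    ∃ b : E, IntOver V.toSubring b ∧ ∀ i, (b - x i) / algebraMap F E ϖ ∈ W i := by
  letI : Algebra V E := ((algebraMap F E).comp V.toSubring.subtype).toAlgebra
  haveI : IsScalarTower V F E := IsScalarTower.of_algebraMap_eq fun a => rfl
  have hfs : FaithfulSMul V E := faithfulSMul_of_tower F E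
  have hded : IsDedekindDomain (integralClosure V E) := integralClosure.isDedekindDomain V F E
  choose Q hQ hQ0 hQl hmem using fun i =>
    exists_ideal_of_valuationSubring (W i) hϖ (h.le i) (h.non i)
  have hQmax : ∀ i, (Q i).IsMaximal := fun i => (hQ i).isMaximal (hQ0 i)
  have hQne : ∀ i j, i ≠ j → Q i ≠ Q j := by
    intro i j hij hQQ
    apply hij
    apply h.inj
    apply le_antisymm
    · apply le_of_center_le (h.le i) (h.le j)
      intro x hx hxn
      rw [← hmem i ⟨x, hx⟩, hQQ, hmem]
      exact hxn
    · apply le_of_center_le (h.le j) (h.le i)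
      intro x hx hxn
      rw [← hmem j ⟨x, hx⟩, ← hQQ, hmem]
      exact hxn
  have hcop : Pairwise (Function.onFun IsCoprime fun i => Q i ^ N) := by
    intro i j hij
    exact (Ideal.isCoprime_of_isMaximal (hQne i j hij)).pow
  choose b hb hbx using fun i => h.approx hϖ i (hx i)
  obtain ⟨r, hr⟩ := Ideal.exists_forall_sub_mem_ideal hcop
    (fun i => (⟨b i, hb i⟩ : integralClosure V E))
  -- elements of `Q i ^ N` are divisible
  have hdiv : ∀ i, ∀ c ∈ Q i ^ N, (c : E) / algebraMap F E ϖ ∈ W i := by
    intro i
    have key : ∀ k : ℕ, ∀ c ∈ Q i ^ k, (c : E) / u i ^ k ∈ W i := by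
      intro k
      let J : Ideal (integralClosure V E) :=
        { carrier := {c | (c : E) / u i ^ k ∈ W i}
          add_mem' := fun {a b} ha hb => by
            change ((a + b : integralClosure V E) : E) / u i ^ k ∈ W i
            rw [Subalgebra.coe_add]; exact div_add_mem ha hb
          zero_mem' := by
            change ((0 : integralClosure V E) : E) / u i ^ k ∈ W i
            rw [Subalgebra.coe_zero, zero_div]; exact zero_mem _
          smul_mem' := fun a b hb => by
            change ((a * b : integralClosure V E) : E) / u i ^ k ∈ W i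
            rw [Subalgebra.coe_mul]
            exact div_mul_mem (mem_of_intOver (h.le i) a.2) hb }
      have hJ : ∀ c : integralClosure V E, c ∈ J ↔ (c : E) / u i ^ k ∈ W i := fun c => Iff.rfl
      suffices Q i ^ k ≤ J from fun c hc => this hc
      have hind : ∀ k : ℕ, ∀ J : Ideal (integralClosure V E),
          (∀ c : integralClosure V E, c ∈ J ↔ (c : E) / u i ^ k ∈ W i) → Q i ^ k ≤ J := by
        intro k
        induction k with
        | zero =>
          intro J hJ c _
          rw [hJ, pow_zero, div_one]
          exact mem_of_intOver (h.le i) c.2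
        | succ k ih =>
          intro J hJ
          let J' : Ideal (integralClosure V E) :=
            { carrier := {c | (c : E) / u i ^ k ∈ W i}
              add_mem' := fun {a b} ha hb => by
                change ((a + b : integralClosure V E) : E) / u i ^ k ∈ W i
                rw [Subalgebra.coe_add]; exact div_add_mem ha hb
              zero_mem' := by
                change ((0 : integralClosure V E) : E) / u i ^ k ∈ W i
                rw [Subalgebra.coe_zero, zero_div]; exact zero_mem _
              smul_mem' := fun a b hb => by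
                change ((a * b : integralClosure V E) : E) / u i ^ k ∈ W i
                rw [Subalgebra.coe_mul]
                exact div_mul_mem (mem_of_intOver (h.le i) a.2) hb }
          have h1 := ih J' fun c => Iff.rfl
          rw [pow_succ, Ideal.mul_le]
          intro r hr s hs
          rw [hJ, Subalgebra.coe_mul, pow_succ, ← div_mul_div_comm]
          exact mul_mem (h1 hr) (h.dvd i _ ((hmem i s).mp hs))
      exact hind k J hJ
    intro c hc
    have e : (c : E) / algebraMap F E ϖ = ((c : E) / u i ^ N) * (u i ^ N / algebraMap F E ϖ) := by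
      have := pow_ne_zero N (h.une i)
      rw [div_mul_div_comm, mul_comm (u i ^ N), mul_div_mul_right _ _ this]
    rw [e]
    exact mul_mem (key N c hc) (h.pow i)
  refine ⟨r, r.2, fun i => ?_⟩
  have h1 : (r : E) - x i = ((r : E) - b i) + (b i - x i) := by ring
  rw [h1]
  exact div_add_mem (hdiv i _ (hr i)) (hbx i)

end RList

end

end Fermat.Agent.CA
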