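import Mathlib
import Fermat.Agent.CA.ListRam

set_option autoImplicit false
set_option linter.unusedSectionVars false

/-!
# Complete lists of extensions, with ramification, continued
-/

open IsLocalRing Polynomial

namespace Fermat.Agent.CA

open Fermat.Agent.Geo

section

variable {F E : Type*} [Field F] [Field E] [Algebra F E]
  {V : ValuationSubring F}

namespace RList

variable [IsDiscreteValuationRing V] [FiniteDimensional F E] [Algebra.IsSeparable F E]
  {ϖ : V} {ι : Type*} [Fintype ι] {W : ι → ValuationSubring E} {u : ι → E} {N : ℕ}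
  {n : ι → ℕ} {b : ∀ i, Fin (n i) → E}

theorem smul_div_mem {W : ValuationSubring E} (hW : ∀ x ∈ V, algebraMap F E x ∈ W)
    {p : E} {v : F} (hv : v ∈ V) {x : E} (hx : x / p ∈ W) : (v • x) / p ∈ W := by
  rw [Algebra.smul_def]; exact div_mul_mem (hW v hv) hx

/-- A basis of `E/F` adapted to the list. -/
theorem basis (h : RList V ϖ W u N) (hϖ : Irreducible ϖ) (hb : ∀ i j, b i j ∈ W i)
    (hind : ∀ i, ∀ c : Fin (n i) → F, (∀ j, c j ∈ V) →
      (∑ j, c j • b i j) / algebraMap F E ϖ ∈ W i → ∀ j, c j ∈ V.nonunits)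
    (hsum : Module.finrank F E ≤ ∑ i, n i) :
    ∃ b' : ∀ i, Fin (n i) → E, (∀ i j, IntOver V.toSubring (b' i j)) ∧
      (∀ i j, (b' i j - b i j) / algebraMap F E ϖ ∈ W i) ∧
      (∀ i j i', i' ≠ i → b' i j / algebraMap F E ϖ ∈ W i') ∧
      (∀ c : (Σ i, Fin (n i)) → F, (∀ a, c a ∈ V) →
        (∀ i, (∑ a, c a • b' a.1 a.2) / algebraMap F E ϖ ∈ W i) → ∀ a, c a ∈ V.nonunits) ∧
      ∀ x : E, ∃ c : (Σ i, Fin (n i)) → F, ∑ a, c a • b' a.1 a.2 = x := by
  classical
  -- lift the bases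
  have hlift : ∀ i j, ∃ b' : E, IntOver V.toSubring b' ∧
      (b' - b i j) / algebraMap F E ϖ ∈ W i ∧
      ∀ i', i' ≠ i → b' / algebraMap F E ϖ ∈ W i' := by
    intro i j
    obtain ⟨r, hr, hri⟩ := h.separating hϖ
      (fun i' => if i' = i then b i j else 0) (fun i' => by
        split_ifs with h
        · subst h
          exact hb i' j
        · exact zero_mem _)
    refine ⟨r, hr, by simpa using hri i, fun i' hi' => ?_⟩
    have := hri i'
    rw [if_neg hi', sub_zero] at this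
    exact this
  choose b' hb' hb'1 hb'2 using hlift
  let J := Σ i, Fin (n i)
  let β : J → E := fun a => b' a.1 a.2
  have hcard : Fintype.card J = ∑ i, n i := by
    rw [Fintype.card_sigma]
    simp
  -- the key independence
  have key : ∀ c : J → F, (∀ a, c a ∈ V) →
      (∀ i, (∑ a, c a • β a) / algebraMap F E ϖ ∈ W i) → ∀ a, c a ∈ V.nonunits := by
    rintro c hc hsumc ⟨i, j⟩
    refine hind i (fun j => c ⟨i, j⟩) (fun j => hc _) ?_ j
    have h1 : ∑ a, c a • β a = ∑ i', ∑ j, c ⟨i', j⟩ • b' i' j := by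
      rw [← Finset.univ_sigma_univ, Finset.sum_sigma]
    have h2 : ∑ i', ∑ j, c ⟨i', j⟩ • b' i' j = ∑ j, c ⟨i, j⟩ • b' i j +
        ∑ i' ∈ Finset.univ.erase i, ∑ j, c ⟨i', j⟩ • b' i' j :=
      (Finset.add_sum_erase _ _ (Finset.mem_univ i)).symm
    have h3 : (∑ i' ∈ Finset.univ.erase i, ∑ j, c ⟨i', j⟩ • b' i' j) / algebraMap F E ϖ ∈
        W i := by
      refine div_sum_mem _ _ fun i' hi' => div_sum_mem _ _ fun j _ => ?_
      exact smul_div_mem (h.le i) (hc _) (hb'2 i' j i (Finset.ne_of_mem_erase hi').symm)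
    have h4 : ∑ j, c ⟨i, j⟩ • b i j = ∑ a, c a • β a -
        ∑ i' ∈ Finset.univ.erase i, ∑ j, c ⟨i', j⟩ • b' i' j -
        ∑ j, c ⟨i, j⟩ • (b' i j - b i j) := by
      rw [h1, h2]
      simp only [smul_sub, Finset.sum_sub_distrib]
      ring
    rw [h4]
    refine div_sub_mem (div_sub_mem (hsumc i) h3) (div_sum_mem _ _ fun j _ => ?_)
    exact smul_div_mem (h.le i) (hc _) (hb'1 i j)
  have hone : (1 : F) ∉ V.nonunits := by
    rw [ValuationSubring.mem_nonunits_iff, map_one]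
    exact lt_irrefl _
  have hli : LinearIndependent F β := by
    rw [Fintype.linearIndependent_iff]
    intro c hc
    by_contra hne
    push Not at hne
    obtain ⟨a₀, ha₀, hmax⟩ := exists_max_coeff V c hne
    have h1 := key (fun a => (c a₀)⁻¹ * c a) hmax (fun i => by
      have h2 : ∑ a, ((c a₀)⁻¹ * c a) • β a = 0 := by
        simp only [mul_smul]
        rw [← Finset.smul_sum, hc, smul_zero]
      rw [h2, zero_div]
      exact zero_mem _) a₀
    rw [inv_mul_cancel₀ ha₀] at h1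
    exact hone h1
  have hJcard : Fintype.card J = Module.finrank F E :=
    le_antisymm hli.fintype_card_le_finrank (by rw [hcard]; exact hsum)
  have hspan : Submodule.span F (Set.range β) = ⊤ := by
    by_cases hJ : Nonempty J
    · exact hli.span_eq_top_of_card_eq_finrank hJcard
    · exfalso
      have : Fintype.card J = 0 := by
        rw [not_nonempty_iff] at hJ
        exact Fintype.card_eq_zero
      rw [this] at hJcard
      exact (Module.finrank_pos (R := F) (M := E)).ne hJcard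
  refine ⟨b', hb', hb'1, fun i j i' hi' => hb'2 i j i' hi', key, fun x => ?_⟩
  have hx1 : x ∈ Submodule.span F (Set.range β) := by rw [hspan]; trivial
  exact (Submodule.mem_span_range_iff_exists_fun F).mp hx1

/-- An element divisible by the uniformiser at all places of the list is divisible. -/
theorem divisible (h : RList V ϖ W u N) (hϖ : Irreducible ϖ) (hb : ∀ i j, b i j ∈ W i)
    (hind : ∀ i, ∀ c : Fin (n i) → F, (∀ j, c j ∈ V) →
      (∑ j, c j • b i j) / algebraMap F E ϖ ∈ W i → ∀ j, c j ∈ V.nonunits)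
    (hsum : Module.finrank F E ≤ ∑ i, n i) {x : E}
    (hxi : ∀ i, x / algebraMap F E ϖ ∈ W i) :
    ∃ y, IntOver V.toSubring y ∧ x = (ϖ : F) • y := by
  classical
  obtain ⟨b', hb', hb'1, hb'2, key, hspan⟩ := h.basis hϖ hb hind hsum
  have hone : (1 : F) ∉ V.nonunits := by
    rw [ValuationSubring.mem_nonunits_iff, map_one]
    exact lt_irrefl _
  obtain ⟨c, hc⟩ := hspan x
  have hcn : ∀ a, c a ∈ V.nonunits := by
    by_contra hne
    push Not at hne
    obtain ⟨a₁, ha₁⟩ := hne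
    have hc1 : c a₁ ≠ 0 := fun h0 => ha₁ (by rw [h0]; exact zero_mem_nonunits V)
    obtain ⟨a₀, ha₀, hmax⟩ := exists_max_coeff V c ⟨a₁, hc1⟩
    have hinv : (c a₀)⁻¹ ∈ V := by
      have h2 : (c a₁)⁻¹ ∈ V := inv_mem_of_notMem_nonunits ha₁
      have h3 : (c a₀)⁻¹ = ((c a₀)⁻¹ * c a₁) * (c a₁)⁻¹ := by field_simp
      rw [h3]
      exact mul_mem (hmax a₁) h2
    have h1 := key (fun a => (c a₀)⁻¹ * c a) hmax (fun i => by
      have h2 : ∑ a, ((c a₀)⁻¹ * c a) • b' a.1 a.2 = (c a₀)⁻¹ • x := by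
        simp only [mul_smul]
        rw [← Finset.smul_sum, hc]
      rw [h2]
      exact smul_div_mem (h.le i) hinv (hxi i)) a₀
    rw [inv_mul_cancel₀ ha₀] at h1
    exact hone h1
  have hdiv : ∀ a, ∃ v ∈ V, c a = ϖ * v := by
    intro a
    obtain ⟨hV, hm⟩ := ValuationSubring.mem_nonunits_iff_exists_mem_maximalIdeal.mp (hcn a)
    rw [hϖ.maximalIdeal_eq, Ideal.mem_span_singleton] at hm
    obtain ⟨v, hv⟩ := hm
    exact ⟨v, v.2, congrArg Subtype.val hv⟩
  choose v hv hcv using hdiv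
  refine ⟨∑ a, v a • b' a.1 a.2, ?_, ?_⟩
  · have : ∀ s : Finset (Σ i, Fin (n i)), IntOver V.toSubring (∑ a ∈ s, v a • b' a.1 a.2) := by
      intro s
      induction s using Finset.induction_on with
      | empty =>
        rw [Finset.sum_empty]
        have := intOver_algebraMap (E := E) (V := V.toSubring) (zero_mem V.toSubring)
        rwa [map_zero] at this
      | insert a s ha ih =>
        rw [Finset.sum_insert ha]
        exact ((hb' a.1 a.2).smul (hv a)).add ih
    exact this _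
  · rw [← hc, Finset.smul_sum]
    refine Finset.sum_congr rfl fun a _ => ?_
    rw [hcv a, mul_smul]

/-- The residue ring of `W i` modulo the uniformiser is spanned by the given elements. -/
theorem spanning (h : RList V ϖ W u N) (hϖ : Irreducible ϖ) (hb : ∀ i j, b i j ∈ W i)
    (hind : ∀ i, ∀ c : Fin (n i) → F, (∀ j, c j ∈ V) →
      (∑ j, c j • b i j) / algebraMap F E ϖ ∈ W i → ∀ j, c j ∈ V.nonunits)
    (hsum : Module.finrank F E ≤ ∑ i, n i) (i : ι) {x : E} (hx : x ∈ W i) :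
    ∃ c : Fin (n i) → F, (∀ j, c j ∈ V) ∧
      (x - ∑ j, c j • b i j) / algebraMap F E ϖ ∈ W i := by
  classical
  obtain ⟨b', hb', hb'1, hb'2, key, hspan⟩ := h.basis hϖ hb hind hsum
  have hone : (1 : F) ∉ V.nonunits := by
    rw [ValuationSubring.mem_nonunits_iff, map_one]
    exact lt_irrefl _
  obtain ⟨y, hy, hyx⟩ := h.approx hϖ i hx
  obtain ⟨c, hc⟩ := hspan y
  have hcV : ∀ a, c a ∈ V := by
    by_contra hne
    push Not at hne
    obtain ⟨a₁, ha₁⟩ := hne
    have hc1 : c a₁ ≠ 0 := fun h0 => ha₁ (by rw [h0]; exact zero_mem V)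
    obtain ⟨a₀, ha₀, hmax⟩ := exists_max_coeff V c ⟨a₁, hc1⟩
    have hinv : (c a₀)⁻¹ ∈ V.nonunits := by
      have h2 : (c a₁)⁻¹ ∈ V.nonunits := V.inv_mem_nonunits_iff.mpr (Or.inr ha₁)
      have h3 : (c a₀)⁻¹ = ((c a₀)⁻¹ * c a₁) * (c a₁)⁻¹ := by field_simp
      rw [h3]
      exact mul_mem_nonunits (hmax a₁) h2
    obtain ⟨hinvV, hinvm⟩ := ValuationSubring.mem_nonunits_iff_exists_mem_maximalIdeal.mp hinv
    have h1 := key (fun a => (c a₀)⁻¹ * c a) hmax (fun i' => by
      have h2 : ∑ a, ((c a₀)⁻¹ * c a) • b' a.1 a.2 = (c a₀)⁻¹ • y := by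
        simp only [mul_smul]
        rw [← Finset.smul_sum, hc]
      rw [hϖ.maximalIdeal_eq, Ideal.mem_span_singleton] at hinvm
      obtain ⟨v, hv⟩ := hinvm
      have h3 : (c a₀)⁻¹ = (ϖ : F) * v := congrArg Subtype.val hv
      rw [h2, h3, Algebra.smul_def, map_mul]
      have e : algebraMap F E ϖ * algebraMap F E v * y / algebraMap F E ϖ =
          algebraMap F E v * y := by
        have := ne (E := E) hϖ
        field_simp
      rw [e]
      exact mul_mem (h.le i' _ v.2) (mem_of_intOver (h.le i') hy)) a₀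
    rw [inv_mul_cancel₀ ha₀] at h1
    exact hone h1
  refine ⟨fun j => c ⟨i, j⟩, fun j => hcV _, ?_⟩
  have h1 : ∑ a, c a • b' a.1 a.2 = ∑ i', ∑ j, c ⟨i', j⟩ • b' i' j := by
    rw [← Finset.univ_sigma_univ, Finset.sum_sigma]
  have h2 : ∑ i', ∑ j, c ⟨i', j⟩ • b' i' j = ∑ j, c ⟨i, j⟩ • b' i j +
      ∑ i' ∈ Finset.univ.erase i, ∑ j, c ⟨i', j⟩ • b' i' j :=
    (Finset.add_sum_erase _ _ (Finset.mem_univ i)).symm
  have h3 : (∑ i' ∈ Finset.univ.erase i, ∑ j, c ⟨i', j⟩ • b' i' j) / algebraMap F E ϖ ∈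
      W i := by
    refine div_sum_mem _ _ fun i' hi' => div_sum_mem _ _ fun j _ => ?_
    exact smul_div_mem (h.le i) (hcV _) (hb'2 i' j i (Finset.ne_of_mem_erase hi').symm)
  have h4 : x - ∑ j, c ⟨i, j⟩ • b i j = (∑ i' ∈ Finset.univ.erase i, ∑ j, c ⟨i', j⟩ • b' i' j) +
      ∑ j, c ⟨i, j⟩ • (b' i j - b i j) - (y - x) := by
    rw [← hc, h1, h2]
    simp only [smul_sub, Finset.sum_sub_distrib]
    ring
  rw [h4]
  exact div_sub_mem (div_add_mem h3 (div_sum_mem _ _ fun j _ =>
    smul_div_mem (h.le i) (hcV _) (hb'1 i j))) hyx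

/-- **List criterion.** -/
theorem complete (h : RList V ϖ W u N) (hϖ : Irreducible ϖ) (hb : ∀ i j, b i j ∈ W i)
    (hind : ∀ i, ∀ c : Fin (n i) → F, (∀ j, c j ∈ V) →
      (∑ j, c j • b i j) / algebraMap F E ϖ ∈ W i → ∀ j, c j ∈ V.nonunits)
    (hsum : Module.finrank F E ≤ ∑ i, n i) (W' : ValuationSubring E)
    (hW' : ∀ x ∈ V, algebraMap F E x ∈ W') (hϖW' : algebraMap F E ϖ ∈ W'.nonunits) :
    ∃ i, W' = W i := by
  classical
  letI : Algebra V E := ((algebraMap F E).comp V.toSubring.subtype).toAlgebra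
  haveI : IsScalarTower V F E := IsScalarTower.of_algebraMap_eq fun a => rfl
  have hfs : FaithfulSMul V E := faithfulSMul_of_tower F E
  have hded : IsDedekindDomain (integralClosure V E) := integralClosure.isDedekindDomain V F E
  choose Q hQ hQ0 hQl hmem using fun i =>
    exists_ideal_of_valuationSubring (W i) hϖ (h.le i) (h.non i)
  obtain ⟨Q', hQ', hQ'0, hQ'l, hmem'⟩ := exists_ideal_of_valuationSubring W' hϖ hW' hϖW'
  have hQmax : ∀ i, (Q i).IsMaximal := fun i => (hQ i).isMaximal (hQ0 i)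
  have hQ'max : Q'.IsMaximal := hQ'.isMaximal hQ'0
  obtain ⟨i, hi⟩ : ∃ i, Q i ≤ Q' := by
    by_contra hne
    push Not at hne
    have h1 : ∀ i, ∃ q ∈ Q i, q ∉ Q' := fun i => Set.not_subset.mp (hne i)
    choose q hq hqn using h1
    have h2 : ∏ i, q i ^ N ∉ Q' := by
      rw [hQ'.prod_mem_iff]
      rintro ⟨i, -, hi⟩
      exact hqn i (hQ'.mem_of_pow_mem N hi)
    obtain ⟨y, hy, hxy⟩ := h.divisible hϖ hb hind hsum
      (x := ((∏ i, q i ^ N : integralClosure V E) : E)) (fun i => by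
        have e : (∏ i, q i ^ N : integralClosure V E) =
            (∏ i' ∈ Finset.univ.erase i, q i' ^ N) * q i ^ N := by
          rw [mul_comm]
          exact (Finset.mul_prod_erase _ (fun i' => q i' ^ N) (Finset.mem_univ i)).symm
        rw [e, Subalgebra.coe_mul, Subalgebra.coe_pow]
        exact div_mul_mem (mem_of_intOver (h.le i) (Subtype.prop _))
          (h.pow_div i ((hmem i _).mp (hq i))))
    apply h2
    rw [hmem', hxy]
    rw [Algebra.smul_def, mul_comm]
    exact mul_mem_nonunits (mem_of_intOver hW' hy) hϖW'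
  have hQQ : Q i = Q' := (hQmax i).eq_of_le hQ'.ne_top hi
  refine ⟨i, le_antisymm ?_ ?_⟩
  · apply le_of_center_le hW' (h.le i)
    intro x hx hxn
    rw [← hmem' ⟨x, hx⟩, ← hQQ, hmem]
    exact hxn
  · apply le_of_center_le (h.le i) hW'
    intro x hx hxn
    rw [← hmem i ⟨x, hx⟩, hQQ, hmem']
    exact hxn

end RList

end

end Fermat.Agent.CA
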