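import Mathlib
import Fermat.Agent.CA.GMap
import Fermat.Agent.CA.ListRam2
import Fermat.Agent.CA.Final3

/-!
The three components of the function field of level `q² M`.
-/

set_option autoImplicit false
set_option linter.unusedSectionVars false
set_option linter.unusedVariables false

open IsLocalRing Polynomial ModularCurve

noncomputable section

universe u

namespace Fermat.Agent.CA

open Fermat.Agent.Geo Fermat.Agent.LG Fermat.Agent.ModFun

/-- the data -/
structure L2 {O L O' L' K F : Type u} [CommRing O] [IsDomain O] [IsDiscreteValuationRing O]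
    [Field L] [Algebra O L] [IsFractionRing O L] [CommRing O'] [IsDomain O']
    [IsDiscreteValuationRing O'] [Field L'] [Algebra O' L'] [IsFractionRing O' L']
    [Field K] [Field F] (M : Type u) [Field M] [Algebra O K] [Algebra O F] [Algebra K M]
    [Algebra K F] [Algebra M F] (q : ℕ) [NeZero q] (t : K) (T : LaurentSeries O)
    (θ : F →+* LaurentSeries L) (θ₁ : F →+* LaurentSeries L') (i : L →+* L') (i' : O →+* O')
    (ζ : O'ˣ) (w : F ≃+* F) : Prop where
  prime : q.Prime
  q0 : (q : ResidueField O) = 0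
  hgK : ∀ x, θ x ∈ gK O L
  hgK' : ∀ x, θ₁ x ∈ gK O' L'
  θC : ∀ a : O, θ (algebraMap O F a) = HahnSeries.C (algebraMap O L a)
  θt : θ (algebraMap K F t) = toL O L T
  trans : ∀ P : (ResidueField O)[X], P.eval₂ HahnSeries.C (toK O T) = 0 → P = 0
  lead : (toK O T).coeff (-1) = 1
  lead' : ∀ n < -1, T.coeff n = 0
  wC : ∀ a : O, w (algebraMap O F a) = algebraMap O F a
  ww : ∀ x, w (w x) = x
  θw : ∀ x : M, θ (w (algebraMap M F x)) = qExpand L (q ^ 2) (θ (algebraMap M F x))
  Tq : qExpand _ (q ^ 2) (toK O T) = (toK O T) ^ (q ^ 2)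
  comp : ∀ a, i (algebraMap O L a) = algebraMap O' L' (i' a)
  loc : IsLocalHom i'
  inj' : Function.Injective i'
  θ₁M : ∀ x : M, θ₁ (algebraMap M F x) = coeffMap i (θ (algebraMap M F x))
  θ₁w : ∀ x : M, θ₁ (w (algebraMap M F x)) = twist (zL L' ζ) (coeffMap i (θ (algebraMap M F x)))
  ζirr : Irreducible ((ζ : O') - 1)
  ζpow : ∃ v : O'ˣ, ((ζ : O') - 1) ^ (q - 1) = v * q
  deg : Module.finrank K F ≤ Module.finrank K M * (q ^ 2 + q)
  bas : ∃ (e : Fin (Module.finrank K M) → M) (he : ∀ i, θ (algebraMap M F (e i)) ∈ gV O L),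
    ∀ P : Fin (Module.finrank K M) → (ResidueField O)[X],
      ∑ i, (P i).eval₂ HahnSeries.C (toK O T) * gR (⟨_, he i⟩ : gV O L) = 0 → ∀ i, P i = 0

namespace L2

variable {O L O' L' K M F : Type u} [CommRing O] [IsDomain O] [IsDiscreteValuationRing O]
    [Field L] [Algebra O L] [IsFractionRing O L] [CommRing O'] [IsDomain O']
    [IsDiscreteValuationRing O'] [Field L'] [Algebra O' L'] [IsFractionRing O' L']
    [Field K] [Field M] [Field F] [Algebra O K] [Algebra O M] [Algebra O F] [Algebra K M]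
    [Algebra K F] [Algebra M F] [IsScalarTower O K M] [IsScalarTower O K F]
    [IsScalarTower K M F] [IsScalarTower O M F] {q : ℕ} [NeZero q] {t : K} {T : LaurentSeries O}
    {θ : F →+* LaurentSeries L} {θ₁ : F →+* LaurentSeries L'} {i : L →+* L'} {i' : O →+* O'}
    {ζ : O'ˣ} {w : F ≃+* F} {π : O}

variable (D : L2 M q t T θ θ₁ i i' ζ w)

theorem resζ (D : L2 M q t T θ θ₁ i i' ζ w) : residue O' ζ = 1 := by
  have h1 : residue O' ((ζ : O') - 1) = 0 := by
    rw [residue_eq_zero_iff]
    exact D.ζirr.1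
  rwa [map_sub, map_one, sub_eq_zero] at h1

theorem gK2 (D : L2 M q t T θ θ₁ i i' ζ w) (x : F) : θ.comp (w : F →+* F) x ∈ gK O L := D.hgK _

/-- the component of the cusp `∞` -/
def P0 (D : L2 M q t T θ θ₁ i i' ζ w) : ValuationSubring F := gW θ D.hgK

/-- the middle component -/
def P1 (D : L2 M q t T θ θ₁ i i' ζ w) : ValuationSubring F := gW θ₁ D.hgK'

/-- the component of the cusp `0` -/
def P2 (D : L2 M q t T θ θ₁ i i' ζ w) : ValuationSubring F := gW (θ.comp (w : F →+* F)) D.gK2

/-- the three components -/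
def PP (D : L2 M q t T θ θ₁ i i' ζ w) : Fin 3 → ValuationSubring F := ![D.P0, D.P1, D.P2]

include D

theorem mem0 {x : F} : x ∈ D.P0 ↔ θ x ∈ gV O L := Iff.rfl
theorem mem1 {x : F} : x ∈ D.P1 ↔ θ₁ x ∈ gV O' L' := Iff.rfl
theorem mem2 {x : F} : x ∈ D.P2 ↔ w x ∈ D.P0 := Iff.rfl
theorem mem0w {x : F} : w x ∈ D.P0 ↔ x ∈ D.P2 := Iff.rfl
theorem mem2w {x : F} : w x ∈ D.P2 ↔ x ∈ D.P0 := by rw [mem2, D.ww]

theorem isEmb0 : IsEmb θ t T where
  map_C := D.θC
  map_z := D.θt
  trans := D.trans

omit D in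
theorem tM : algebraMap K F t = algebraMap M F (algebraMap K M t) :=
  IsScalarTower.algebraMap_apply K M F t

omit D in
theorem toL_qExpand (n : ℕ) [NeZero n] (a : LaurentSeries O) :
    toL O L (qExpand O n a) = qExpand L n (toL O L a) := by
  rw [toL, coeffMap_qExpand']

theorem isEmb2 : IsEmb (θ.comp (w : F →+* F)) t (qExpand O (q ^ 2) T) where
  map_C a := by
    change θ (w _) = _
    rw [D.wC, D.θC]
  map_z := by
    change θ (w _) = _
    rw [tM (M := M), D.θw, ← tM (M := M), D.θt, toL_qExpand]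
  trans P hP := by
    have h1 : toK O (qExpand O (q ^ 2) T) = toK O T ^ (q ^ 2) := by
      rw [toK, coeffMap_qExpand']; exact D.Tq
    rw [h1] at hP
    have h2 : (P.comp (X ^ (q ^ 2))).eval₂ HahnSeries.C (toK O T) = 0 := by
      rw [eval₂_comp]
      simpa using hP
    have h3 := D.trans _ h2
    have h4 : (P.comp (X ^ (q ^ 2))) = expand _ (q ^ 2) P := (expand_eq_comp_X_pow (q ^ 2)).symm
    rw [h4] at h3
    exact (expand_eq_zero (by
      have := D.prime.pos
      positivity)).mp h3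

/-- `M` meets `P1` and `P0` in the same ring -/
theorem memM (x : M) : algebraMap M F x ∈ D.P1 ↔ algebraMap M F x ∈ D.P0 := by
  haveI := D.loc
  rw [D.mem1, D.mem0, D.θ₁M]
  exact coeffMap_gV_iff D.comp (D.hgK _)

omit D in
theorem notMem_inv {V : ValuationSubring F} {x : F} (hx : x ∈ V) :
    x ∈ V.nonunits ↔ x = 0 ∨ x⁻¹ ∉ V := by
  constructor
  · intro h
    by_contra hcon
    push Not at hcon
    exact notMem_nonunits_of_inv hcon.2 hcon.1 h
  · rintro (rfl | h)
    · exact zero_mem_nonunits _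
    · by_contra hcon
      exact h (inv_mem_of_notMem_nonunits hcon)

omit D in
theorem mem_of_nonunits {V : ValuationSubring F} {x : F} (hx : x ∈ V.nonunits) : x ∈ V :=
  V.nonunits_le hx

theorem nonM (x : M) : algebraMap M F x ∈ D.P1.nonunits ↔ algebraMap M F x ∈ D.P0.nonunits := by
  constructor
  · intro h
    have h1 := (D.memM x).mp (mem_of_nonunits h)
    rw [notMem_inv h1]
    rw [notMem_inv (mem_of_nonunits h)] at h
    refine h.imp id fun h2 h3 => h2 ?_
    rw [← map_inv₀] at h3 ⊢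
    exact (D.memM _).mpr h3
  · intro h
    have h1 := (D.memM x).mpr (mem_of_nonunits h)
    rw [notMem_inv h1]
    rw [notMem_inv (mem_of_nonunits h)] at h
    refine h.imp id fun h2 h3 => h2 ?_
    rw [← map_inv₀] at h3 ⊢
    exact (D.memM _).mp h3

theorem over0 (ht : IsParam O t) (hπ : Prime π) :
    Over (gaussVal ht hπ) (algebraMap O K π) D.P0 := D.isEmb0.over ht hπ

theorem over2 (ht : IsParam O t) (hπ : Prime π) :
    Over (gaussVal ht hπ) (algebraMap O K π) D.P2 := D.isEmb2.over ht hπ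

theorem over1 (ht : IsParam O t) (hπ : Prime π) :
    Over (gaussVal ht hπ) (algebraMap O K π) D.P1 := by
  have h := D.over0 ht hπ
  refine ⟨fun x hx => ?_, ?_⟩
  · rw [IsScalarTower.algebraMap_apply K M F, D.memM, ← IsScalarTower.algebraMap_apply K M F]
    exact h.1 x hx
  · rw [IsScalarTower.algebraMap_apply K M F, D.nonM, ← IsScalarTower.algebraMap_apply K M F]
    exact h.2

end L2

end Fermat.Agent.CA
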