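import Mathlib
import Fermat.Agent.CA.L2

/-!
The three components: uniformisers.
-/

set_option autoImplicit false
set_option linter.unusedSectionVars false
set_option linter.unusedVariables false

open IsLocalRing Polynomial ModularCurve

noncomputable section

universe u

namespace Fermat.Agent.CA

open Fermat.Agent.Geo Fermat.Agent.LG Fermat.Agent.ModFun

theorem toL_unit {O L : Type u} [CommRing O] [IsDomain O] [IsDiscreteValuationRing O]
    [Field L] [Algebra O L] [IsFractionRing O L] {U : LaurentSeries O} (hU : toK O U ≠ 0) :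
    toL O L U ∈ gV O L ∧ (toL O L U)⁻¹ ∈ gV O L := by
  refine ⟨toL_mem_gV U, mem_gV.mpr ⟨1, U, hU, ?_⟩⟩
  rw [map_one]
  apply mul_inv_cancel₀
  intro h0
  apply hU
  have : U = 0 := toL_injective (O := O) (L := L) (by rw [h0, map_zero])
  rw [this, map_zero]

namespace L2

variable {O L O' L' K M F : Type u} [CommRing O] [IsDomain O] [IsDiscreteValuationRing O]
    [Field L] [Algebra O L] [IsFractionRing O L] [CommRing O'] [IsDomain O']
    [IsDiscreteValuationRing O'] [Field L'] [Algebra O' L'] [IsFractionRing O' L']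
    [Field K] [Field M] [Field F] [Algebra O K] [Algebra O M] [Algebra O F] [Algebra K M]
    [Algebra K F] [Algebra M F] [IsScalarTower O K M] [IsScalarTower O K F]
    [IsScalarTower K M F] [IsScalarTower O M F] {q : ℕ} [NeZero q] {t : K} {T : LaurentSeries O}
    {θ : F →+* LaurentSeries L} {θ₁ : F →+* LaurentSeries L'} {i : L →+* L'} {i' : O →+* O'}
    {ζ : O'ˣ} {w : F ≃+* F} {π : O}

variable (D : L2 M q t T θ θ₁ i i' ζ w)

include D

theorem θ₁C (a : O) : θ₁ (algebraMap O F a) = HahnSeries.C (algebraMap O' L' (i' a)) := by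
  rw [IsScalarTower.algebraMap_apply O M F, D.θ₁M, ← IsScalarTower.algebraMap_apply O M F, D.θC,
    ← D.comp]
  ext n
  rw [coeffMap_coeff]
  by_cases hn : n = 0
  · subst hn; simp
  · rw [HahnSeries.C_apply, HahnSeries.C_apply, HahnSeries.coeff_single_of_ne hn,
      HahnSeries.coeff_single_of_ne hn, map_zero]

/-- the series of `t` over `O'` -/
theorem θ₁t : θ₁ (algebraMap K F t) = toL O' L' (coeffMap i' T) := by
  haveI := D.loc
  rw [tM (M := M), D.θ₁M, ← tM (M := M), D.θt, coeffMap_toL D.comp]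

theorem exists_U : ∃ U : LaurentSeries O', toK O' U ≠ 0 ∧
    θ₁ (w (algebraMap K F t) - algebraMap K F t) =
      toL O' L' (HahnSeries.C ((ζ : O') - 1) * U) := by
  haveI := D.loc
  have h1 : θ₁ (w (algebraMap K F t) - algebraMap K F t) =
      toL O' L' (twist ζ (coeffMap i' T) - coeffMap i' T) := by
    rw [map_sub, tM (M := M), D.θ₁w, D.θ₁M, ← tM (M := M), D.θt, coeffMap_toL D.comp, twist_toL,
      map_sub]
  have h2 : toK O' (twist ζ (coeffMap i' T) - coeffMap i' T) = 0 := by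
    rw [map_sub, toK_twist D.resζ, sub_self]
  obtain ⟨U, hU⟩ := exists_eq_mul_of_toK_eq_zero D.ζirr h2
  refine ⟨U, ?_, by rw [h1, hU]⟩
  intro h0
  have h3 := congrArg (fun x : LaurentSeries O' => x.coeff (-1)) hU
  simp only [HahnSeries.coeff_sub, twist_coeff, HahnSeries.C_mul_eq_smul, HahnSeries.coeff_smul,
    smul_eq_mul] at h3
  have h4 : (((ζ ^ (-1 : ℤ) : O'ˣ) : O')) - 1 = -((ζ : O') - 1) * ((ζ⁻¹ : O'ˣ) : O') := by
    rw [zpow_neg_one, neg_mul, sub_mul, Units.mul_inv, one_mul]; ring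
  have h5 : ((ζ : O') - 1) * U.coeff (-1) = ((ζ : O') - 1) *
      (-(((ζ⁻¹ : O'ˣ) : O') * (coeffMap i' T).coeff (-1))) := by
    rw [← h3]; linear_combination (coeffMap i' T).coeff (-1) * h4
  have h6 := mul_left_cancel₀ D.ζirr.ne_zero h5
  have h7 : residue O' (U.coeff (-1)) = 0 := by
    have := congrArg (fun x : LaurentSeries (ResidueField O') => x.coeff (-1)) h0
    simpa using this
  rw [h6, map_neg, map_mul, neg_eq_zero, mul_eq_zero] at h7
  rcases h7 with h7 | h7
  · rw [residue_eq_zero_iff, mem_maximalIdeal] at h7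
    exact h7 (ζ⁻¹).isUnit
  · rw [coeffMap_coeff] at h7
    have h8 : residue O (T.coeff (-1)) = 1 := D.lead
    have h9 : ResidueField.map i' (residue O (T.coeff (-1))) = 0 := h7
    rw [h8, map_one] at h9
    exact one_ne_zero h9

theorem unif1 {x : F} (hx : x ∈ D.P1.nonunits) :
    x / (w (algebraMap K F t) - algebraMap K F t) ∈ D.P1 := by
  obtain ⟨U, hU, hδ⟩ := D.exists_U
  have hxV : θ₁ x ∈ gV O' L' := mem_of_nonunits hx
  have h1 := (mem_nonunits_iff_gR (hθ := D.hgK') hxV).mp hx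
  obtain ⟨y, hy, hxy⟩ := (gR_eq_zero_iff D.ζirr _).mp h1
  change θ₁ x = _ at hxy
  rw [D.mem1, map_div₀, hδ, hxy, map_mul, toL_C]
  have h0 : HahnSeries.C (algebraMap O' L' ((ζ : O') - 1)) ≠ (0 : LaurentSeries L') := by
    rw [Ne, map_eq_zero_iff _ HahnSeries.C_injective, map_eq_zero_iff _
      (IsFractionRing.injective O' L')]
    exact D.ζirr.ne_zero
  rw [mul_div_mul_left _ _ h0, div_eq_mul_inv]
  exact mul_mem hy (toL_unit hU).2

theorem del_mem : w (algebraMap K F t) - algebraMap K F t ∈ D.P1.nonunits := by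
  obtain ⟨U, hU, hδ⟩ := D.exists_U
  have hV : θ₁ (w (algebraMap K F t) - algebraMap K F t) ∈ gV O' L' := by
    rw [hδ]; exact toL_mem_gV _
  refine (mem_nonunits_iff_gR (hθ := D.hgK') hV).mpr ?_
  have e : (⟨_, hV⟩ : gV O' L') = ⟨toL O' L' (HahnSeries.C ((ζ : O') - 1) * U),
    toL_mem_gV _⟩ := Subtype.ext hδ
  have h2 := gR_toL (L := L') (HahnSeries.C ((ζ : O') - 1) * U)
  rw [e, h2, map_mul, toK_C_of_irreducible D.ζirr, zero_mul]

theorem delq (hπ : (q : O) = π) :
    (w (algebraMap K F t) - algebraMap K F t) ^ (q - 1) / algebraMap O F π ∈ D.P1 ∧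
    ((w (algebraMap K F t) - algebraMap K F t) ^ (q - 1) / algebraMap O F π)⁻¹ ∈ D.P1 := by
  obtain ⟨U, hU, hδ⟩ := D.exists_U
  obtain ⟨v, hv⟩ := D.ζpow
  have hq0 : HahnSeries.C (algebraMap O' L' (q : O')) ≠ (0 : LaurentSeries L') := by
    rw [Ne, map_eq_zero_iff _ HahnSeries.C_injective, map_eq_zero_iff _
      (IsFractionRing.injective O' L')]
    intro h0
    rw [h0, mul_zero] at hv
    exact pow_ne_zero _ D.ζirr.ne_zero hv
  have h1 : θ₁ ((w (algebraMap K F t) - algebraMap K F t) ^ (q - 1) / algebraMap O F π) =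
      toL O' L' (HahnSeries.C (v : O') * U ^ (q - 1)) := by
    rw [map_div₀, map_pow, hδ, D.θ₁C, ← hπ, map_natCast, map_mul, mul_pow, toL_C,
      ← map_pow HahnSeries.C, ← map_pow (algebraMap O' L'), hv, map_mul, map_mul, map_mul, toL_C,
      map_pow]
    field_simp
  have h2 : toK O' (HahnSeries.C (v : O') * U ^ (q - 1)) ≠ 0 := by
    rw [map_mul, map_pow]
    refine mul_ne_zero ?_ (pow_ne_zero _ hU)
    have e : toK O' (HahnSeries.C (v : O')) = HahnSeries.C (residue O' v) := by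
      have h := gR_toL (L := L') (HahnSeries.C (v : O'))
      have h' := gR_C (L := L') (v : O')
      rw [← h, ← h']
      congr 1
      exact Subtype.ext (toL_C _)
    rw [e, Ne, map_eq_zero_iff _ HahnSeries.C_injective, residue_eq_zero_iff, mem_maximalIdeal]
    exact fun h => h v.isUnit
  rw [D.mem1, D.mem1, map_inv₀, h1]
  exact toL_unit h2

theorem unif0 (hπ : Prime π) {x : F} (hx : x ∈ D.P0.nonunits) :
    x / algebraMap O F π ∈ D.P0 := by
  obtain ⟨y, hy, rfl⟩ := gW_unif D.isEmb0 hπ hx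
  by_cases h0 : algebraMap O F π = 0
  · rw [h0, zero_mul, div_zero]; exact zero_mem _
  · rw [mul_div_cancel_left₀ _ h0]; exact hy

theorem unif2 (hπ : Prime π) {x : F} (hx : x ∈ D.P2.nonunits) :
    x / algebraMap O F π ∈ D.P2 := by
  obtain ⟨y, hy, rfl⟩ := gW_unif D.isEmb2 hπ hx
  by_cases h0 : algebraMap O F π = 0
  · rw [h0, zero_mul, div_zero]; exact zero_mem _
  · rw [mul_div_cancel_left₀ _ h0]; exact hy

end L2

end Fermat.Agent.CA
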