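import Mathlib
import Fermat.Agent.CA.L2b

/-!
The three components: independence.
-/

set_option autoImplicit false
set_option linter.unusedSectionVars false
set_option linter.unusedVariables false

open IsLocalRing Polynomial ModularCurve

noncomputable section

universe u

namespace Fermat.Agent.CA

open Fermat.Agent.Geo Fermat.Agent.LG Fermat.Agent.ModFun

theorem expand_indep {k : Type*} [Field k] {r s : ℕ} (hrs : r ≤ s) (P : Fin r → k[X])
    (h : ∑ l, expand k s (P l) * X ^ (l : ℕ) = 0) (l₀ : Fin r) : P l₀ = 0 := by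
  have hs : 0 < s := lt_of_lt_of_le (Fin.pos l₀) hrs
  ext a
  have h1 := congrArg (fun p : k[X] => p.coeff (s * a + l₀)) h
  simp only [finsetSum_coeff, coeff_zero] at h1
  rw [Finset.sum_eq_single l₀] at h1
  · rw [coeff_mul_X_pow, mul_comm s a, coeff_expand_mul hs] at h1
    rw [h1, coeff_zero]
  · intro l _ hl
    rw [coeff_mul_X_pow']
    split_ifs with h2
    · rw [coeff_expand hs, if_neg]
      intro h3
      have hl1 := l.2
      have hl2 := l₀.2
      have h4 : (l : ℕ) ≠ l₀ := fun h => hl (Fin.ext h)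
      obtain ⟨c, hc⟩ := h3
      rcases lt_trichotomy (l : ℕ) l₀ with h5 | h5 | h5
      · have h6 : s * a + l₀ - l = s * a + (l₀ - l) := by omega
        rw [h6] at hc
        have h7 : s ∣ (l₀ : ℕ) - l := by
          have : s ∣ s * a + ((l₀ : ℕ) - l) := ⟨c, hc⟩
          exact (Nat.dvd_add_right (dvd_mul_right s a)).mp this
        have := Nat.le_of_dvd (by omega) h7
        omega
      · exact h4 h5
      · have h6 : s * a - (s * a + l₀ - l) = l - l₀ := by omega
        have h7 : s ∣ (l : ℕ) - l₀ := by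
          rw [← h6]
          exact Nat.dvd_sub (dvd_mul_right s a) ⟨c, hc⟩
        have := Nat.le_of_dvd (by omega) h7
        omega
    · rfl
  · intro h; exact absurd (Finset.mem_univ _) h

namespace L2

variable {O L O' L' K M F : Type u} [CommRing O] [IsDomain O] [IsDiscreteValuationRing O]
    [Field L] [Algebra O L] [IsFractionRing O L] [CommRing O'] [IsDomain O']
    [IsDiscreteValuationRing O'] [Field L'] [Algebra O' L'] [IsFractionRing O' L']
    [Field K] [Field M] [Field F] [Algebra O K] [Algebra O M] [Algebra O F] [Algebra K M]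
    [Algebra K F] [Algebra M F] [IsScalarTower O K M] [IsScalarTower O K F]
    [IsScalarTower K M F] [IsScalarTower O M F] {q : ℕ} [NeZero q] {t : K} {T : LaurentSeries O}
    {θ : F →+* LaurentSeries L} {θ₁ : F →+* LaurentSeries L'} {i : L →+* L'} {i' : O →+* O'}
    {ζ : O'ˣ} {w : F ≃+* F} {π : O}

variable (D : L2 M q t T θ θ₁ i i' ζ w)

include D

/-- the lifted basis -/
def ee (D : L2 M q t T θ θ₁ i i' ζ w) : Fin (Module.finrank K M) → M := D.bas.choose

theorem ee_mem (k : Fin (Module.finrank K M)) : θ (algebraMap M F (D.ee k)) ∈ gV O L :=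
  D.bas.choose_spec.choose k

theorem ee_indep (P : Fin (Module.finrank K M) → (ResidueField O)[X])
    (h : ∑ i, (P i).eval₂ HahnSeries.C (toK O T) * gR (⟨_, D.ee_mem i⟩ : gV O L) = 0)
    (k : Fin (Module.finrank K M)) : P k = 0 :=
  D.bas.choose_spec.choose_spec P h k

theorem indep_prod {r s : ℕ} (hrs : r ≤ s)
    (P : Fin (Module.finrank K M * r) → (ResidueField O)[X])
    (h : ∑ j, (P j).eval₂ HahnSeries.C (toK O T ^ s) *
      (gR (⟨_, D.ee_mem (finProdFinEquiv.symm j).1⟩ : gV O L) *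
        toK O T ^ ((finProdFinEquiv.symm j).2 : ℕ)) = 0) (j : Fin (Module.finrank K M * r)) :
    P j = 0 := by
  have h1 : ∑ k : Fin (Module.finrank K M), (∑ l : Fin r,
      expand _ s (P (finProdFinEquiv (k, l))) * X ^ (l : ℕ)).eval₂ HahnSeries.C (toK O T) *
        gR (⟨_, D.ee_mem k⟩ : gV O L) = 0 := by
    rw [← h, ← Equiv.sum_comp finProdFinEquiv, Fintype.sum_prod_type]
    refine Finset.sum_congr rfl fun k _ => ?_
    rw [eval₂_finsetSum, Finset.sum_mul]
    refine Finset.sum_congr rfl fun l _ => ?_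
    rw [eval₂_mul, eval₂_X_pow, Equiv.symm_apply_apply, expand_eq_comp_X_pow, eval₂_comp,
      eval₂_X_pow]
    ring
  have h2 := D.ee_indep _ h1 (finProdFinEquiv.symm j).1
  have h3 := expand_indep hrs _ h2 (finProdFinEquiv.symm j).2
  rwa [Prod.mk.eta, Equiv.apply_symm_apply] at h3

/-- the families -/
def β (D : L2 M q t T θ θ₁ i i' ζ w) : Fin 3 → Fin (Module.finrank K M) → ℕ → F
  | 0, k, l => algebraMap M F (D.ee k) * algebraMap K F t ^ l
  | 1, k, l => algebraMap M F (D.ee k) * (w (algebraMap K F t) - algebraMap K F t) ^ l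
  | 2, k, l => w (algebraMap M F (D.ee k) * algebraMap K F t ^ l)

theorem θt_mem : θ (algebraMap K F t) ∈ gV O L := by rw [D.θt]; exact toL_mem_gV T

theorem gR_θt : gR (⟨_, D.θt_mem⟩ : gV O L) = toK O T := by
  have h := gR_toL (L := L) T
  rw [← h]
  congr 1
  exact Subtype.ext D.θt

theorem fam_mem (k : Fin (Module.finrank K M)) (l : ℕ) :
    θ (algebraMap M F (D.ee k) * algebraMap K F t ^ l) ∈ gV O L := by
  rw [map_mul, map_pow]; exact mul_mem (D.ee_mem k) (pow_mem D.θt_mem l)

theorem gR_fam (k : Fin (Module.finrank K M)) (l : ℕ) :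
    gR (⟨_, D.fam_mem k l⟩ : gV O L) = gR (⟨_, D.ee_mem k⟩ : gV O L) * toK O T ^ l := by
  have e : (⟨_, D.fam_mem k l⟩ : gV O L) = ⟨_, D.ee_mem k⟩ * ⟨_, D.θt_mem⟩ ^ l := by
    apply Subtype.ext
    simp only [map_mul, map_pow, Subring.coe_mul, SubmonoidClass.coe_pow]
  rw [e, map_mul, map_pow, D.gR_θt]

theorem mem_k (k : Fin (Module.finrank K M)) : algebraMap M F (D.ee k) ∈ D.P0 := D.ee_mem k

theorem del_P1 : w (algebraMap K F t) - algebraMap K F t ∈ D.P1 := mem_of_nonunits D.del_mem

theorem β_mem (j : Fin 3) (k : Fin (Module.finrank K M)) (l : ℕ) : D.β j k l ∈ D.PP j := by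
  match j with
  | 0 => exact D.fam_mem k l
  | 1 => exact mul_mem ((D.memM _).mpr (D.mem_k k)) (pow_mem D.del_P1 l)
  | 2 => exact (D.mem2w (M := M)).mpr (D.fam_mem k l)

/-- independence at `P0` -/
theorem indep0 (ht : IsParam O t) (hπ : Prime π)
    (c : Fin (Module.finrank K M * 1) → K) (hc : ∀ j, c j ∈ gaussVal ht hπ)
    (hsum : ∑ j, c j • D.β 0 (finProdFinEquiv.symm j).1 (finProdFinEquiv.symm j).2 ∈
      D.P0.nonunits) (j : Fin (Module.finrank K M * 1)) : c j ∈ (gaussVal ht hπ).nonunits := by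
  refine D.isEmb0.indep (hθ := D.hgK) ht hπ
    (fun j => D.β 0 (finProdFinEquiv.symm j).1 (finProdFinEquiv.symm j).2)
    (fun j => D.fam_mem _ _) (fun P hP => ?_) c hc hsum j
  refine D.indep_prod (r := 1) (s := 1) le_rfl P ?_
  rw [← hP]
  refine Finset.sum_congr rfl fun j _ => ?_
  rw [pow_one, ← D.gR_fam]
  rfl

/-- independence at `P2` -/
theorem indep2 (ht : IsParam O t) (hπ : Prime π)
    (c : Fin (Module.finrank K M * q ^ 2) → K) (hc : ∀ j, c j ∈ gaussVal ht hπ)
    (hsum : ∑ j, c j • D.β 2 (finProdFinEquiv.symm j).1 (finProdFinEquiv.symm j).2 ∈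
      D.P2.nonunits) (j : Fin (Module.finrank K M * q ^ 2)) :
    c j ∈ (gaussVal ht hπ).nonunits := by
  have hm : ∀ j : Fin (Module.finrank K M * q ^ 2), (θ.comp (w : F →+* F))
      (D.β 2 (finProdFinEquiv.symm j).1 (finProdFinEquiv.symm j).2) ∈ gV O L := fun j => by
    change θ (w (w _)) ∈ _
    rw [D.ww]
    exact D.fam_mem _ _
  refine D.isEmb2.indep (hθ := D.gK2) ht hπ
    (fun j => D.β 2 (finProdFinEquiv.symm j).1 (finProdFinEquiv.symm j).2)
    hm (fun P hP => ?_) c hc hsum j
  refine D.indep_prod (r := q ^ 2) (s := q ^ 2) le_rfl P ?_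
  rw [← hP]
  refine Finset.sum_congr rfl fun j _ => ?_
  have h1 : toK O (qExpand O (q ^ 2) T) = toK O T ^ (q ^ 2) := by
    rw [toK, coeffMap_qExpand']; exact D.Tq
  rw [h1, gρ_apply, ← D.gR_fam]
  congr 2
  apply Subtype.ext
  change _ = θ (w (w _))
  rw [D.ww]

/-- the uniformiser of `P1` -/
abbrev dl (t : K) (w : F ≃+* F) : F := w (algebraMap K F t) - algebraMap K F t

theorem M_unif (hπ : Prime π) {x : M} (hx : algebraMap M F x ∈ D.P1.nonunits) :
    algebraMap M F x / algebraMap O F π ∈ D.P1 := by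
  have h1 := D.unif0 hπ ((D.nonM x).mp hx)
  have e : algebraMap M F x / algebraMap O F π = algebraMap M F (x / algebraMap O M π) := by
    rw [map_div₀, ← IsScalarTower.algebraMap_apply O M F]
  rw [e] at h1 ⊢
  exact (D.memM _).mpr h1

theorem pow_div_mem (hπ' : (q : O) = π) {n : ℕ} (hn : q - 1 ≤ n) :
    dl t w ^ n / algebraMap O F π ∈ D.P1 := by
  obtain ⟨r, rfl⟩ : ∃ r, n = r + (q - 1) := ⟨n - (q - 1), by omega⟩
  rw [pow_add, mul_div_assoc]
  exact mul_mem (pow_mem D.del_P1 r) (D.delq hπ').1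

/-- a sum `∑ S l δ ^ l` with coefficients from `M` divisible by `π` has all its coefficients
divisible by `π` -/
theorem ram_indep (hπ : Prime π) (hπ' : (q : O) = π) (hδ : dl t w ≠ 0) {r : ℕ} (hr : r ≤ q - 1)
    (S : ℕ → M) (hS : ∀ l < r, algebraMap M F (S l) ∈ D.P1)
    (hsum : (∑ l ∈ Finset.range r, algebraMap M F (S l) * dl t w ^ l) / algebraMap O F π ∈ D.P1)
    (l : ℕ) (hl : l < r) : algebraMap M F (S l) ∈ D.P1.nonunits := by
  have hp0 : algebraMap O F π ≠ 0 := by
    intro h0
    have h1 := D.delq hπ'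
    rw [h0, div_zero, inv_zero] at h1
    obtain ⟨U, hU, hδ'⟩ := D.exists_U
    have h2 : θ₁ (algebraMap O F π) = 0 := by rw [h0, map_zero]
    rw [D.θ₁C, map_eq_zero_iff _ HahnSeries.C_injective, map_eq_zero_iff _
      (IsFractionRing.injective O' L'), map_eq_zero_iff _ D.inj'] at h2
    exact hπ.ne_zero h2
  induction l using Nat.strong_induction_on with
  | _ l ih =>
    -- the lower terms are divisible
    have h1 : (∑ k ∈ Finset.range l, algebraMap M F (S k) * dl t w ^ k) / algebraMap O F π ∈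
        D.P1 := by
      refine div_sum_mem _ _ fun k hk => ?_
      rw [mul_comm]
      exact div_mul_mem (pow_mem D.del_P1 k) (D.M_unif hπ (ih k (Finset.mem_range.mp hk)
        (lt_trans (Finset.mem_range.mp hk) hl)))
    have h2 : ∑ k ∈ Finset.range r, algebraMap M F (S k) * dl t w ^ k =
        ∑ k ∈ Finset.range l, algebraMap M F (S k) * dl t w ^ k +
        (algebraMap M F (S l) * dl t w ^ l +
          ∑ k ∈ Finset.Ico (l + 1) r, algebraMap M F (S k) * dl t w ^ k) := by
      rw [← Finset.sum_range_add_sum_Ico _ hl.le, Finset.sum_eq_sum_Ico_succ_bot hl]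
    -- divide by `δ ^ (l + 1)`
    have hpd : algebraMap O F π / dl t w ^ (l + 1) ∈ D.P1 := by
      have h3 : algebraMap O F π / dl t w ^ (q - 1) ∈ D.P1 := by
        have := (D.delq hπ').2
        rwa [inv_div] at this
      obtain ⟨s, hs⟩ : ∃ s, q - 1 = s + (l + 1) := ⟨q - 1 - (l + 1), by omega⟩
      have e : algebraMap O F π / dl t w ^ (l + 1) =
          dl t w ^ s * (algebraMap O F π / dl t w ^ (q - 1)) := by
        have aux : ∀ (p x : F), x ≠ 0 → p / x ^ (l + 1) = x ^ s * (p / x ^ (s + (l + 1))) := by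
          intro p x hx
          rw [pow_add x s]
          field_simp
        rw [hs]
        exact aux _ _ hδ
      rw [e]
      exact mul_mem (pow_mem D.del_P1 s) h3
    have key : ∀ x : F, x / algebraMap O F π ∈ D.P1 → x / dl t w ^ (l + 1) ∈ D.P1 := by
      intro x hx
      have e : x / dl t w ^ (l + 1) = (x / algebraMap O F π) *
          (algebraMap O F π / dl t w ^ (l + 1)) := by field_simp
      rw [e]
      exact mul_mem hx hpd
    have h4 : (∑ k ∈ Finset.Ico (l + 1) r, algebraMap M F (S k) * dl t w ^ k) /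
        dl t w ^ (l + 1) ∈ D.P1 := by
      refine div_sum_mem _ _ fun k hk => ?_
      rw [Finset.mem_Ico] at hk
      obtain ⟨s, rfl⟩ : ∃ s, k = s + (l + 1) := ⟨k - (l + 1), by omega⟩
      have e : algebraMap M F (S (s + (l + 1))) * dl t w ^ (s + (l + 1)) / dl t w ^ (l + 1) =
          algebraMap M F (S (s + (l + 1))) * dl t w ^ s := by
        rw [pow_add, ← mul_assoc, mul_div_cancel_right₀ _ (pow_ne_zero _ hδ)]
      rw [e]
      exact mul_mem (hS _ hk.2) (pow_mem D.del_P1 s)
    have h5 : (algebraMap M F (S l) * dl t w ^ l) / dl t w ^ (l + 1) ∈ D.P1 := by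
      have e : algebraMap M F (S l) * dl t w ^ l =
          (∑ k ∈ Finset.range r, algebraMap M F (S k) * dl t w ^ k) -
          (∑ k ∈ Finset.range l, algebraMap M F (S k) * dl t w ^ k) -
          ∑ k ∈ Finset.Ico (l + 1) r, algebraMap M F (S k) * dl t w ^ k := by
        rw [h2]; ring
      rw [e]
      exact div_sub_mem (div_sub_mem (key _ hsum) (key _ h1)) h4
    have e : algebraMap M F (S l) = ((algebraMap M F (S l) * dl t w ^ l) / dl t w ^ (l + 1)) *
        dl t w := by
      rw [pow_succ]; field_simp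
    rw [e]
    exact mul_mem_nonunits h5 D.del_mem

end L2

end Fermat.Agent.CA
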