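import Mathlib
import Fermat.Agent.CA.L2c

/-!
The three components: completeness and residue fields.
-/

set_option autoImplicit false
set_option linter.unusedSectionVars false
set_option linter.unusedVariables false

open IsLocalRing Polynomial ModularCurve

noncomputable section

universe u

namespace Fermat.Agent.CA

open Fermat.Agent.Geo Fermat.Agent.LG Fermat.Agent.ModFun

namespace L2

variable {O L O' L' K M F : Type u} [CommRing O] [IsDomain O] [IsDiscreteValuationRing O]
    [Field L] [Algebra O L] [IsFractionRing O L] [CommRing O'] [IsDomain O']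
    [IsDiscreteValuationRing O'] [Field L'] [Algebra O' L'] [IsFractionRing O' L']
    [Field K] [Field M] [Field F] [Algebra O K] [Algebra O M] [Algebra O F] [Algebra K M]
    [Algebra K F] [Algebra M F] [IsScalarTower O K M] [IsScalarTower O K F]
    [IsScalarTower K M F] [IsScalarTower O M F] {q : ℕ} [NeZero q] {t : K} {T : LaurentSeries O}
    {θ : F →+* LaurentSeries L} {θ₁ : F →+* LaurentSeries L'} {i : L →+* L'} {i' : O →+* O'}
    {ζ : O'ˣ} {w : F ≃+* F} {π : O}

variable (D : L2 M q t T θ θ₁ i i' ζ w)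

include D

theorem dl_ne : dl t w ≠ 0 := by
  obtain ⟨U, hU, hδ⟩ := D.exists_U
  intro h0
  change w (algebraMap K F t) - algebraMap K F t = 0 at h0
  rw [h0, map_zero] at hδ
  have h1 := toL_injective (O := O') (L := L') (hδ.symm.trans (map_zero _).symm)
  rcases mul_eq_zero.mp h1 with h2 | h2
  · rw [map_eq_zero_iff _ HahnSeries.C_injective] at h2
    exact D.ζirr.ne_zero h2
  · rw [h2, map_zero] at hU
    exact hU rfl

theorem p_ne (hπ : Prime π) : algebraMap O F π ≠ 0 := by
  intro h0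
  have h2 : θ (algebraMap O F π) = 0 := by rw [h0, map_zero]
  rw [D.θC, map_eq_zero_iff _ HahnSeries.C_injective, map_eq_zero_iff _
    (IsFractionRing.injective O L)] at h2
  exact hπ.ne_zero h2

omit D in
/-- the ranks -/
def rr (q : ℕ) : Fin 3 → ℕ
  | 0 => 1
  | 1 => q - 1
  | 2 => q ^ 2

/-- the uniformisers -/
def uu (π : O) (t : K) (w : F ≃+* F) : Fin 3 → F
  | 0 => algebraMap O F π
  | 1 => dl t w
  | 2 => algebraMap O F π

theorem O_mem (j : Fin 3) (a : O) : algebraMap O F a ∈ D.PP j := by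
  have h0 : algebraMap O F a ∈ D.P0 := by
    rw [D.mem0, D.θC]; exact C_mem_gV a
  match j with
  | 0 => exact h0
  | 1 =>
    change algebraMap O F a ∈ D.P1
    rw [IsScalarTower.algebraMap_apply O M F] at h0 ⊢
    exact (D.memM _).mpr h0
  | 2 =>
    change algebraMap O F a ∈ D.P2
    rw [D.mem2, D.wC]; exact h0

theorem t_mem0 : algebraMap K F t ∈ D.P0 := D.θt_mem

/-- `δ` is a unit at `P0` -/
theorem dl_not0 : dl t w ∉ D.P0.nonunits := by
  have h1 : θ (dl t w) = toL O L (qExpand O (q ^ 2) T - T) := by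
    change θ (w _ - _) = _
    rw [map_sub, tM (M := M), D.θw, ← tM (M := M), D.θt, map_sub, toL_qExpand]
  have hV : θ (dl t w) ∈ gV O L := by rw [h1]; exact toL_mem_gV _
  intro h
  have h2 := (mem_nonunits_iff_gR (hθ := D.hgK) hV).mp h
  have e : (⟨_, hV⟩ : gV O L) = ⟨toL O L (qExpand O (q ^ 2) T - T), toL_mem_gV _⟩ :=
    Subtype.ext h1
  have h3 := gR_toL (L := L) (qExpand O (q ^ 2) T - T)
  rw [e, h3, map_sub] at h2
  have h4 : toK O (qExpand O (q ^ 2) T) = toK O T ^ (q ^ 2) := by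
    rw [toK, coeffMap_qExpand']; exact D.Tq
  rw [h4] at h2
  have h5 := D.trans (X ^ (q ^ 2) - X) (by simpa using h2)
  have h6 := congrArg (fun p : (ResidueField O)[X] => p.coeff 1) h5
  have h7 : (1 : ℕ) ≠ q ^ 2 := by
    have : 2 ^ 2 ≤ q ^ 2 := Nat.pow_le_pow_left D.prime.two_le 2
    omega
  simp only [coeff_sub, coeff_X_pow, if_neg h7, coeff_X_one, coeff_zero, zero_sub] at h6
  exact one_ne_zero (neg_eq_zero.mp h6)

theorem non1 (hπ : Prime π) (j : Fin 3) : algebraMap O F π ∈ (D.PP j).nonunits := by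
  have h0 : algebraMap O F π ∈ D.P0.nonunits := by
    have hV : θ (algebraMap O F π) ∈ gV O L := by rw [D.θC]; exact C_mem_gV π
    refine (mem_nonunits_iff_gR (hθ := D.hgK) hV).mpr ?_
    have e : (⟨_, hV⟩ : gV O L) = ⟨HahnSeries.C (algebraMap O L π), C_mem_gV π⟩ :=
      Subtype.ext (D.θC π)
    have h3 := gR_C (L := L) π
    rw [e, h3, map_eq_zero_iff _ HahnSeries.C_injective, residue_eq_zero_iff, mem_maximalIdeal]
    exact hπ.not_unit
  match j with
  | 0 => exact h0
  | 1 =>
    change algebraMap O F π ∈ D.P1.nonunits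
    rw [IsScalarTower.algebraMap_apply O M F] at h0 ⊢
    exact (D.nonM _).mpr h0
  | 2 =>
    change algebraMap O F π ∈ D.P2.nonunits
    rw [notMem_inv (V := D.P2) (D.O_mem 2 π)]
    rw [notMem_inv (V := D.P0) (D.O_mem 0 π)] at h0
    refine h0.imp id fun h1 h2 => h1 ?_
    have : w (algebraMap O F π)⁻¹ ∈ D.P0 := h2
    rwa [map_inv₀, D.wC] at this

theorem inj (hπ : Prime π) : Function.Injective D.PP := by
  have h1 : dl t w ∈ D.P1.nonunits := D.del_mem
  have h0 := D.dl_not0
  have hw : w (dl t w) = -dl t w := by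
    change w (w _ - _) = _
    rw [map_sub, D.ww]; simp [dl]
  have h2 : dl t w ∉ D.P2.nonunits := by
    intro h
    apply h0
    have hm : dl t w ∈ D.P2 := mem_of_nonunits h
    have hm0 : dl t w ∈ D.P0 := by
      have : w (dl t w) ∈ D.P0 := hm
      rw [hw] at this
      have := D.P0.neg_mem _ this
      rwa [neg_neg] at this
    rw [notMem_inv hm0]
    rw [notMem_inv hm] at h
    refine h.imp id fun h1 h2 => h1 ?_
    change w (dl t w)⁻¹ ∈ D.P0
    rw [map_inv₀, hw, inv_neg]
    exact D.P0.neg_mem _ h2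
  have h01 : D.P0 ≠ D.P1 := fun h => h0 (h ▸ h1)
  have h12 : D.P1 ≠ D.P2 := fun h => h2 (h ▸ h1)
  -- `P0 ≠ P2`: compare `w t - t ^ (q ^ 2)`
  have h02 : D.P0 ≠ D.P2 := by
    intro h
    have hx : w (algebraMap K F t) - algebraMap K F t ^ (q ^ 2) ∈ D.P0.nonunits := by
      have e1 : θ (w (algebraMap K F t) - algebraMap K F t ^ (q ^ 2)) =
          toL O L (qExpand O (q ^ 2) T - T ^ (q ^ 2)) := by
        rw [map_sub, map_pow, tM (M := M), D.θw, ← tM (M := M), D.θt, map_sub, toL_qExpand,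
          map_pow]
      have hV : θ (w (algebraMap K F t) - algebraMap K F t ^ (q ^ 2)) ∈ gV O L := by
        rw [e1]; exact toL_mem_gV _
      refine (mem_nonunits_iff_gR (hθ := D.hgK) hV).mpr ?_
      have e : (⟨_, hV⟩ : gV O L) = ⟨toL O L (qExpand O (q ^ 2) T - T ^ (q ^ 2)),
        toL_mem_gV _⟩ := Subtype.ext e1
      have h3 := gR_toL (L := L) (qExpand O (q ^ 2) T - T ^ (q ^ 2))
      rw [e, h3, map_sub, map_pow]
      have h4 : toK O (qExpand O (q ^ 2) T) = toK O T ^ (q ^ 2) := by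
        rw [toK, coeffMap_qExpand']; exact D.Tq
      rw [h4, sub_self]
    -- apply `w`
    have hx2 : algebraMap K F t - w (algebraMap K F t) ^ (q ^ 2) ∈ D.P0.nonunits := by
      have hx' : w (algebraMap K F t) - algebraMap K F t ^ (q ^ 2) ∈ D.P2.nonunits := h ▸ hx
      have hm := mem_of_nonunits hx'
      have hm' : w (w (algebraMap K F t) - algebraMap K F t ^ (q ^ 2)) ∈ D.P0 := hm
      rw [notMem_inv hm] at hx'
      have e2 : w (w (algebraMap K F t) - algebraMap K F t ^ (q ^ 2)) =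
        algebraMap K F t - w (algebraMap K F t) ^ (q ^ 2) := by rw [map_sub, map_pow, D.ww]
      rw [← e2, notMem_inv hm']
      rcases hx' with h3 | h3
      · left; rw [h3, map_zero]
      · right
        rw [← map_inv₀]
        exact h3
    have hwt : w (algebraMap K F t) ∈ D.P0 := by
      have := D.P0.add_mem _ _ (mem_of_nonunits hx) (pow_mem D.t_mem0 (q ^ 2))
      rwa [sub_add_cancel] at this
    have h3 := nonunits_pow_sub (q ^ 2) hwt (pow_mem D.t_mem0 (q ^ 2)) hx
    have h4 := nonunits_add hx2 h3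
    rw [sub_add_sub_cancel, ← pow_mul, ← pow_two, ← pow_mul] at h4
    -- `t - t ^ (q ^ 4)` is not in the maximal ideal
    have e1 : θ (algebraMap K F t - algebraMap K F t ^ (q ^ (2 * 2))) =
        toL O L (T - T ^ (q ^ (2 * 2))) := by
      rw [map_sub, map_pow, D.θt, map_sub, map_pow]
    have hV : θ (algebraMap K F t - algebraMap K F t ^ (q ^ (2 * 2))) ∈ gV O L := by
      rw [e1]; exact toL_mem_gV _
    have h5 := (mem_nonunits_iff_gR (hθ := D.hgK) hV).mp h4
    have e : (⟨_, hV⟩ : gV O L) = ⟨toL O L (T - T ^ (q ^ (2 * 2))),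
      toL_mem_gV _⟩ := Subtype.ext e1
    have h6 := gR_toL (L := L) (T - T ^ (q ^ (2 * 2)))
    rw [e, h6, map_sub, map_pow] at h5
    have h7 := D.trans (X - X ^ (q ^ (2 * 2))) (by simpa using h5)
    have h8 := congrArg (fun p : (ResidueField O)[X] => p.coeff 1) h7
    have h9 : (1 : ℕ) ≠ q ^ (2 * 2) := by
      have : 2 ^ (2 * 2) ≤ q ^ (2 * 2) := Nat.pow_le_pow_left D.prime.two_le _
      omega
    simp only [coeff_sub, coeff_X_pow, if_neg h9, coeff_X_one, coeff_zero, sub_zero] at h8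
    exact one_ne_zero h8
  intro i j hij
  match i, j with
  | 0, 0 => rfl
  | 0, 1 => exact (h01 hij).elim
  | 0, 2 => exact (h02 hij).elim
  | 1, 0 => exact (h01 hij.symm).elim
  | 1, 1 => rfl
  | 1, 2 => exact (h12 hij).elim
  | 2, 0 => exact (h02 hij.symm).elim
  | 2, 1 => exact (h12 hij.symm).elim
  | 2, 2 => rfl

/-- the list of components -/
theorem rlist (ht : IsParam O t) (hπ : Prime π) (hπ' : (q : O) = π) {ϖ : gaussVal ht hπ}
    (hϖ : (ϖ : K) = algebraMap O K π) : RList (gaussVal ht hπ) ϖ D.PP (uu π t w) (q - 1) where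
  inj := D.inj hπ
  le j := by
    match j with
    | 0 => exact (D.over0 ht hπ).1
    | 1 => exact (D.over1 ht hπ).1
    | 2 => exact (D.over2 ht hπ).1
  non j := by
    rw [hϖ, ← IsScalarTower.algebraMap_apply]
    exact D.non1 hπ j
  une j := by
    match j with
    | 0 => exact D.p_ne hπ
    | 1 => exact D.dl_ne
    | 2 => exact D.p_ne hπ
  dvd j x hx := by
    match j with
    | 0 => exact D.unif0 hπ hx
    | 1 => exact D.unif1 hx
    | 2 => exact D.unif2 hπ hx
  pow j := by
    rw [hϖ, ← IsScalarTower.algebraMap_apply]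
    have hq := D.prime.two_le
    obtain ⟨n, hn⟩ : ∃ n, q - 1 = n + 1 := ⟨q - 2, by omega⟩
    have h1 : ∀ j, algebraMap O F π ^ (q - 1) / algebraMap O F π ∈ D.PP j := by
      intro j
      rw [hn, pow_succ, mul_div_cancel_right₀ _ (D.p_ne hπ)]
      exact pow_mem (D.O_mem j π) n
    match j with
    | 0 => exact h1 0
    | 1 => exact (D.delq hπ').1
    | 2 => exact h1 2

/-- the families of the list -/
def fam (D : L2 M q t T θ θ₁ i i' ζ w) (j : Fin 3) (a : Fin (Module.finrank K M * rr q j)) : F :=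
  D.β j (finProdFinEquiv.symm a).1 (finProdFinEquiv.symm a).2

theorem indepM (ht : IsParam O t) (hπ : Prime π)
    (c : Fin (Module.finrank K M) → K) (hc : ∀ j, c j ∈ gaussVal ht hπ)
    (hsum : ∑ j, c j • algebraMap M F (D.ee j) ∈ D.P0.nonunits) (j : Fin (Module.finrank K M)) :
    c j ∈ (gaussVal ht hπ).nonunits :=
  D.isEmb0.indep (hθ := D.hgK) ht hπ (fun j => algebraMap M F (D.ee j))
    (fun j => D.ee_mem _) (fun P hP => D.ee_indep P hP) c hc hsum j

theorem indep1 (ht : IsParam O t) (hπ : Prime π) (hπ' : (q : O) = π)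
    (c : Fin (Module.finrank K M * (q - 1)) → K) (hc : ∀ j, c j ∈ gaussVal ht hπ)
    (hsum : (∑ j, c j • D.β 1 (finProdFinEquiv.symm j).1 (finProdFinEquiv.symm j).2) /
      algebraMap O F π ∈ D.P1) (j : Fin (Module.finrank K M * (q - 1))) :
    c j ∈ (gaussVal ht hπ).nonunits := by
  classical
  set S : ℕ → M := fun l => if hl : l < q - 1 then
    ∑ k, c (finProdFinEquiv (k, ⟨l, hl⟩)) • D.ee k else 0 with hS
  have hSm : ∀ l, algebraMap M F (S l) ∈ D.P1 := by
    intro l
    rw [hS]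
    by_cases hl : l < q - 1
    · simp only [dif_pos hl, map_sum, Algebra.smul_def, map_mul]
      refine sum_mem fun k _ => mul_mem ?_ ((D.memM _).mpr (D.mem_k k))
      rw [← IsScalarTower.algebraMap_apply]
      exact (D.over1 ht hπ).1 _ (hc _)
    · simp only [dif_neg hl, map_zero]
      exact zero_mem _
  have hsum' : ∑ j, c j • D.β 1 (finProdFinEquiv.symm j).1 (finProdFinEquiv.symm j).2 =
      ∑ l ∈ Finset.range (q - 1), algebraMap M F (S l) * dl t w ^ l := by
    rw [← Equiv.sum_comp finProdFinEquiv, Fintype.sum_prod_type, Finset.sum_comm,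
      Finset.sum_range]
    refine Finset.sum_congr rfl fun l _ => ?_
    rw [hS]
    simp only [dif_pos l.2, map_sum, Finset.sum_mul, Equiv.symm_apply_apply, Fin.eta]
    refine Finset.sum_congr rfl fun k _ => ?_
    rw [Algebra.smul_def, Algebra.smul_def, map_mul, ← IsScalarTower.algebraMap_apply]
    change _ * (algebraMap M F (D.ee k) * dl t w ^ (l : ℕ)) = _
    ring
  rw [hsum'] at hsum
  have h1 := D.ram_indep hπ hπ' D.dl_ne le_rfl S (fun l _ => hSm l) hsum
    (finProdFinEquiv.symm j).2 (finProdFinEquiv.symm j).2.2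
  rw [D.nonM] at h1
  have h2 : algebraMap M F (S (finProdFinEquiv.symm j).2) =
      ∑ k, c (finProdFinEquiv (k, (finProdFinEquiv.symm j).2)) • algebraMap M F (D.ee k) := by
    rw [hS]
    simp only [dif_pos (finProdFinEquiv.symm j).2.2, map_sum, Fin.eta]
    refine Finset.sum_congr rfl fun k _ => ?_
    rw [Algebra.smul_def, Algebra.smul_def, map_mul, ← IsScalarTower.algebraMap_apply]
  rw [h2] at h1
  have h3 := D.indepM ht hπ _ (fun k => hc _) h1 (finProdFinEquiv.symm j).1
  rwa [Prod.mk.eta, Equiv.apply_symm_apply] at h3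

theorem fam_ind (ht : IsParam O t) (hπ : Prime π) (hπ' : (q : O) = π) (j : Fin 3)
    (c : Fin (Module.finrank K M * rr q j) → K) (hc : ∀ a, c a ∈ gaussVal ht hπ)
    (hsum : (∑ a, c a • D.fam j a) / algebraMap O F π ∈ D.PP j) (a) :
    c a ∈ (gaussVal ht hπ).nonunits := by
  have hp := D.p_ne hπ
  have key : ∀ (V : ValuationSubring F) (x : F), algebraMap O F π ∈ V.nonunits →
      x / algebraMap O F π ∈ V → x ∈ V.nonunits := by
    intro V x h1 h2
    have := mul_mem_nonunits h2 h1
    rwa [div_mul_cancel₀ _ hp] at this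
  match j with
  | 0 => exact D.indep0 ht hπ c hc (key _ _ (D.non1 hπ 0) hsum) a
  | 1 => exact D.indep1 ht hπ hπ' c hc hsum a
  | 2 => exact D.indep2 ht hπ c hc (key _ _ (D.non1 hπ 2) hsum) a

theorem fam_mem' (j : Fin 3) (a : Fin (Module.finrank K M * rr q j)) : D.fam j a ∈ D.PP j :=
  D.β_mem j _ _

theorem sum_rr : Module.finrank K F ≤ ∑ j : Fin 3, Module.finrank K M * rr q j := by
  refine D.deg.trans (le_of_eq ?_)
  rw [← Finset.mul_sum, Fin.sum_univ_three]
  congr 1
  change q ^ 2 + q = 1 + (q - 1) + q ^ 2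
  have := D.prime.two_le
  omega

variable [FiniteDimensional K F] [Algebra.IsSeparable K F]

/-- completeness -/
theorem complete (ht : IsParam O t) (hπ : Prime π) (hπ' : (q : O) = π) (W : ValuationSubring F)
    (hW : Over (gaussVal ht hπ) (algebraMap O K π) W) : ∃ j, W = D.PP j := by
  haveI : IsDiscreteValuationRing (gaussVal ht hπ) := isDiscreteValuationRing_gaussVal ht hπ
  obtain ⟨ϖ, hϖ, hϖπ⟩ := exists_gauss_unif ht hπ
  have hp : algebraMap K F ϖ = algebraMap O F π := by
    rw [hϖπ, ← IsScalarTower.algebraMap_apply]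
  refine (D.rlist ht hπ hπ' hϖπ).complete hϖ (n := fun j => Module.finrank K M * rr q j)
    (b := D.fam) D.fam_mem' (fun j c hc hs a => ?_) D.sum_rr W hW.1 ?_
  · rw [hp] at hs
    exact D.fam_ind ht hπ hπ' j c hc hs a
  · rw [hϖπ]; exact hW.2

theorem span (ht : IsParam O t) (hπ : Prime π) (hπ' : (q : O) = π) (j : Fin 3) {x : F}
    (hx : x ∈ D.PP j) : ∃ c : Fin (Module.finrank K M * rr q j) → K,
      (∀ a, c a ∈ gaussVal ht hπ) ∧ x - ∑ a, c a • D.fam j a ∈ (D.PP j).nonunits := by
  haveI : IsDiscreteValuationRing (gaussVal ht hπ) := isDiscreteValuationRing_gaussVal ht hπ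
  obtain ⟨ϖ, hϖ, hϖπ⟩ := exists_gauss_unif ht hπ
  have hp : algebraMap K F ϖ = algebraMap O F π := by
    rw [hϖπ, ← IsScalarTower.algebraMap_apply]
  obtain ⟨c, hc, h⟩ := (D.rlist ht hπ hπ' hϖπ).spanning hϖ
    (n := fun j => Module.finrank K M * rr q j)
    (b := D.fam) D.fam_mem' (fun j c hc hs a => by
      rw [hp] at hs
      exact D.fam_ind ht hπ hπ' j c hc hs a) D.sum_rr j hx
  exact ⟨c, hc, (D.rlist ht hπ hπ' hϖπ).non_of_div hϖ j h⟩

theorem res0 (ht : IsParam O t) (hπ : Prime π) (hπ' : (q : O) = π) {x : F} (hx : x ∈ D.P0) :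
    ∃ f : M, algebraMap M F f ∈ D.P0 ∧ x - algebraMap M F f ∈ D.P0.nonunits := by
  obtain ⟨c, hc, h⟩ := D.span ht hπ hπ' 0 hx
  have e : algebraMap M F (∑ a, c a • D.ee (finProdFinEquiv.symm a).1) =
      ∑ a, c a • D.fam 0 a := by
    rw [map_sum]
    refine Finset.sum_congr rfl fun a _ => ?_
    have h2 : ((finProdFinEquiv.symm a).2 : ℕ) = 0 := by
      have := (finProdFinEquiv.symm a).2.2
      change _ < 1 at this
      omega
    change _ = c a • (algebraMap M F (D.ee (finProdFinEquiv.symm a).1) *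
      algebraMap K F t ^ ((finProdFinEquiv.symm a).2 : ℕ))
    rw [h2, pow_zero, mul_one, Algebra.smul_def, Algebra.smul_def, map_mul,
      ← IsScalarTower.algebraMap_apply]
  have h' : x - ∑ a, c a • D.fam 0 a ∈ D.P0.nonunits := h
  refine ⟨∑ a, c a • D.ee (finProdFinEquiv.symm a).1, ?_, ?_⟩
  · rw [e]
    have := D.P0.sub_mem hx (mem_of_nonunits h')
    rwa [sub_sub_cancel] at this
  · rw [e]; exact h'

theorem res1 (ht : IsParam O t) (hπ : Prime π) (hπ' : (q : O) = π) {x : F} (hx : x ∈ D.P1) :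
    ∃ f : M, algebraMap M F f ∈ D.P0 ∧ x - algebraMap M F f ∈ D.P1.nonunits := by
  classical
  obtain ⟨c, hc, h⟩ := D.span ht hπ hπ' 1 hx
  have h' : x - ∑ a, c a • D.fam 1 a ∈ D.P1.nonunits := h
  have hcm : ∀ a, algebraMap K F (c a) ∈ D.P1 := fun a => (D.over1 ht hπ).1 _ (hc a)
  set f : M := ∑ a, if ((finProdFinEquiv.symm a).2 : ℕ) = 0 then
    c a • D.ee (finProdFinEquiv.symm a).1 else 0 with hf
  have h2 : ∑ a, c a • D.fam 1 a - algebraMap M F f ∈ D.P1.nonunits := by
    rw [hf, map_sum, ← Finset.sum_sub_distrib]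
    refine sum_mem fun a _ => ?_
    have e1 : c a • D.fam 1 a = algebraMap K F (c a) *
        (algebraMap M F (D.ee (finProdFinEquiv.symm a).1) *
          dl t w ^ ((finProdFinEquiv.symm a).2 : ℕ)) := by
      rw [Algebra.smul_def]; rfl
    rw [e1]
    split_ifs with h0
    · rw [h0, pow_zero, mul_one, Algebra.smul_def, map_mul, ← IsScalarTower.algebraMap_apply,
        sub_self]
      exact zero_mem_nonunits _
    · rw [map_zero, sub_zero, ← mul_assoc]
      obtain ⟨n, hn⟩ : ∃ n, ((finProdFinEquiv.symm a).2 : ℕ) = n + 1 :=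
        ⟨_, (Nat.succ_pred_eq_of_ne_zero h0).symm⟩
      rw [hn, pow_succ, ← mul_assoc]
      exact mul_mem_nonunits (mul_mem (mul_mem (hcm a) ((D.memM _).mpr (D.mem_k _)))
        (pow_mem D.del_P1 n)) D.del_mem
  have h3 := nonunits_add h' h2
  rw [sub_add_sub_cancel] at h3
  refine ⟨f, ?_, h3⟩
  rw [← D.memM]
  have := D.P1.sub_mem hx (mem_of_nonunits h3)
  rwa [sub_sub_cancel] at this

end L2

end Fermat.Agent.CA
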