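import Mathlib
import Fermat.Agent.CA.L2d

/-!
The three components of level `q² M` form a `Tri`.
-/

set_option autoImplicit false
set_option linter.unusedSectionVars false
set_option linter.unusedVariables false

open IsLocalRing Polynomial ModularCurve

noncomputable section

universe u

namespace Fermat.Agent.CA

open Fermat.Agent.Geo Fermat.Agent.LG Fermat.Agent.ModFun

namespace L2

variable {O L O' L' K M F : Type u} [CommRing O] [IsDomain O] [IsDiscreteValuationRing O]
    [Field L] [Algebra O L] [IsFractionRing O L] [CommRing O'] [IsDomain O']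
    [IsDiscreteValuationRing O'] [Field L'] [Algebra O' L'] [IsFractionRing O' L']
    [Field K] [Field M] [Field F] [Algebra O K] [Algebra O M] [Algebra O F] [Algebra K M]
    [Algebra K F] [Algebra M F] [IsScalarTower O K M] [IsScalarTower O K F]
    [IsScalarTower K M F] [IsScalarTower O M F] {q : ℕ} [NeZero q] {t : K} {T : LaurentSeries O}
    {θ : F →+* LaurentSeries L} {θ₁ : F →+* LaurentSeries L'} {i : L →+* L'} {i' : O →+* O'}
    {ζ : O'ˣ} {w : F ≃+* F} {π : O}

variable (D : L2 M q t T θ θ₁ i i' ζ w)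

include D

/-- `w f ≡ f` on the middle component, `f` of level `M` -/
theorem wM {f : M} (hf : algebraMap M F f ∈ D.P0) :
    w (algebraMap M F f) - algebraMap M F f ∈ D.P1.nonunits := by
  haveI := D.loc
  obtain ⟨h1, h2⟩ := coeffMap_gV (i := i) (i' := i') D.comp (y := θ (algebraMap M F f)) hf
  obtain ⟨h3, h4⟩ := twist_gV (L := L') D.resζ h1
  have hV : θ₁ (w (algebraMap M F f) - algebraMap M F f) ∈ gV O' L' := by
    rw [map_sub, D.θ₁w, D.θ₁M]
    exact sub_mem h3 h1
  refine (mem_nonunits_iff_gR (hθ := D.hgK') hV).mpr ?_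
  have e : (⟨_, hV⟩ : gV O' L') = ⟨_, h3⟩ - ⟨_, h1⟩ := by
    apply Subtype.ext
    change θ₁ (w (algebraMap M F f) - algebraMap M F f) = _ - _
    rw [map_sub, D.θ₁w, D.θ₁M]
  rw [e, map_sub, h4, sub_self]

/-- the transform of the middle component -/
def Q1 (D : L2 M q t T θ θ₁ i i' ζ w) : ValuationSubring F := D.P1.comap (w : F →+* F)

theorem memQ1 {x : F} : x ∈ D.Q1 ↔ w x ∈ D.P1 := Iff.rfl

theorem nonQ1 {x : F} : x ∈ D.Q1.nonunits ↔ w x ∈ D.P1.nonunits :=
  comap_mem_nonunits D.P1 (w : F →+* F) x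

theorem overQ1 (ht : IsParam O t) (hπ : Prime π) :
    Over (gaussVal ht hπ) (algebraMap O K π) D.Q1 := by
  refine ⟨fun x hx => ?_, ?_⟩
  · rw [D.memQ1, IsScalarTower.algebraMap_apply K M F]
    have h0 : algebraMap M F (algebraMap K M x) ∈ D.P0 := by
      rw [← IsScalarTower.algebraMap_apply K M F]
      exact (D.over0 ht hπ).1 x hx
    have h1 := mem_of_nonunits (D.wM h0)
    have h2 := (D.memM (algebraMap K M x)).mpr h0
    have := D.P1.add_mem _ _ h1 h2
    rwa [sub_add_cancel] at this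
  · rw [D.nonQ1, ← IsScalarTower.algebraMap_apply O K F, D.wC]
    have := D.non1 hπ 1
    exact this

theorem w_dl : w (dl t w) = -dl t w := by
  rw [dl, map_sub, D.ww]; ring

variable [FiniteDimensional K F] [Algebra.IsSeparable K F]

theorem Q1_eq (ht : IsParam O t) (hπ : Prime π) (hπ' : (q : O) = π) : D.Q1 = D.P1 := by
  have hδ : dl t w ∈ D.Q1.nonunits := by
    rw [D.nonQ1, D.w_dl]
    exact nonunits_neg D.del_mem
  obtain ⟨j, hj⟩ := D.complete ht hπ hπ' D.Q1 (D.overQ1 ht hπ)
  match j with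
  | 0 =>
    rw [hj] at hδ
    exact absurd hδ D.dl_not0
  | 1 => exact hj
  | 2 =>
    rw [hj] at hδ
    have h2 : w (dl t w) ∈ D.P0.nonunits := by
      have : D.P2 = D.P0.comap (w : F →+* F) := rfl
      have hδ' : dl t w ∈ (D.P0.comap (w : F →+* F)).nonunits := hδ
      exact (comap_mem_nonunits D.P0 (w : F →+* F) _).mp hδ'
    rw [D.w_dl] at h2
    have h3 := nonunits_neg h2
    rw [neg_neg] at h3
    exact absurd h3 D.dl_not0

theorem compSys (ht : IsParam O t) (hπ : Prime π) (hπ' : (q : O) = π) :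
    CompSys ht hπ D.PP where
  ov j := by
    match j with
    | 0 => exact D.over0 ht hπ
    | 1 => exact D.over1 ht hπ
    | 2 => exact D.over2 ht hπ
  all W hW := D.complete ht hπ hπ' W hW
  rank j c hc := by
    match j with
    | 0 => exact ⟨1, by rw [pow_one]; exact D.unif0 hπ hc⟩
    | 1 =>
      refine ⟨q - 1, ?_⟩
      have h1 := D.P1.mul_mem _ _ (pow_mem (D.unif1 hc) (q - 1)) (D.delq hπ').1
      have hδ : dl t w ≠ 0 := D.dl_ne
      have e : (c / (w (algebraMap K F t) - algebraMap K F t)) ^ (q - 1) *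
          ((w (algebraMap K F t) - algebraMap K F t) ^ (q - 1) / algebraMap O F π) =
          c ^ (q - 1) / algebraMap O F π := by
        rw [div_pow, div_mul_div_comm, mul_comm, mul_div_mul_left _ _ (pow_ne_zero _ hδ)]
      rw [e] at h1
      exact h1
    | 2 => exact ⟨1, by rw [pow_one]; exact D.unif2 hπ hc⟩

theorem tri (ht : IsParam O t) (hπ : Prime π) (hπ' : (q : O) = π) {c : ℕ → ℤ[X]} {C₀ : ℤ}
    {X₁ : F} (X1w : w X₁ = X₁) (X1θ : θ X₁ = qExpand L q (θ (algebraMap K F t)))
    (X1θ₁ : θ₁ X₁ = coeffMap i (θ X₁)) (Tq1 : qExpand _ q (toK O T) = (toK O T) ^ q)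
    (shape : KShape q c)
    (rel : MRel q c X₁ (algebraMap K F t)) (rel' : MRel q c (algebraMap K F t) X₁)
    (C0 : IsUnit ((C₀ : ℤ) : O))
    (relu : MRel q c ((C₀ : F) / X₁) ((C₀ : F) / algebraMap K F t))
    (relu' : MRel q c ((C₀ : F) / algebraMap K F t) ((C₀ : F) / X₁))
    (gm : GModel ht hπ (D.P0.comap (algebraMap M F))) :
    Tri (M := M) ht hπ q c C₀ D.PP w X₁ where
  sys := D.compSys ht hπ hπ'
  inj := D.inj hπ
  prime := D.prime
  hq := hπ'
  wO := D.wC
  ww := D.ww
  wP0 x := Iff.rfl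
  wP1 x := by
    have := D.Q1_eq ht hπ hπ'
    change w x ∈ D.P1 ↔ x ∈ D.P1
    rw [← D.memQ1, this]
  res0 x hx := D.res0 ht hπ hπ' hx
  res1 x hx := D.res1 ht hπ hπ' hx
  memM f := D.memM f
  wM f hf := D.wM hf
  unif0 x hx := D.unif0 hπ hx
  unif1 x hx := D.unif1 hx
  del := D.del_mem
  delq := (D.delq hπ').1
  delq' := by
    have := (D.delq hπ').2
    rwa [inv_div] at this
  X1w := X1w
  X1_0 := by
    have h : θ (X₁ - algebraMap K F t ^ q) = toL O L (qExpand O q T - T ^ q) := by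
      rw [map_sub, map_pow, X1θ, D.θt, map_sub, map_pow, toL_qExpand]
    refine (mem_nonunits_iff_toL (hθ := D.hgK) h).mpr ?_
    rw [map_sub, map_pow]
    have h1 : toK O (qExpand O q T) = toK O T ^ q := by
      rw [toK, coeffMap_qExpand']; exact Tq1
    rw [h1, sub_self]
  X1_1 := by
    haveI := D.loc
    have h : θ₁ (X₁ - algebraMap K F t ^ q) = toL O' L' (coeffMap i' (qExpand O q T - T ^ q)) := by
      rw [← coeffMap_toL D.comp, map_sub, map_pow, X1θ₁, X1θ, D.θt, map_sub, map_pow,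
        toL_qExpand, D.θ₁t, map_sub, map_pow, coeffMap_toL D.comp]
    have hV : θ₁ (X₁ - algebraMap K F t ^ q) ∈ gV O' L' := by rw [h]; exact toL_mem_gV _
    refine (mem_nonunits_iff_gR (hθ := D.hgK') hV).mpr ?_
    have e : (⟨_, hV⟩ : gV O' L') = ⟨toL O' L' (coeffMap i' (qExpand O q T - T ^ q)),
      toL_mem_gV _⟩ := Subtype.ext h
    have h2 := gR_toL (L := L') (coeffMap i' (qExpand O q T - T ^ q))
    rw [e, h2, toK_coeffMap, map_sub (toK O), map_pow]
    have h1 : toK O (qExpand O q T) = toK O T ^ q := by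
      rw [toK, coeffMap_qExpand']; exact Tq1
    rw [h1, sub_self, map_zero]
  X2_0 := by
    have h : θ (w (algebraMap K F t) - algebraMap K F t ^ (q ^ 2)) =
        toL O L (qExpand O (q ^ 2) T - T ^ (q ^ 2)) := by
      rw [map_sub, map_pow, tM (M := M), D.θw, ← tM (M := M), D.θt, map_sub, map_pow, toL_qExpand]
    refine (mem_nonunits_iff_toL (hθ := D.hgK) h).mpr ?_
    rw [map_sub, map_pow]
    have h1 : toK O (qExpand O (q ^ 2) T) = toK O T ^ (q ^ 2) := by
      rw [toK, coeffMap_qExpand']; exact D.Tq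
    rw [h1, sub_self]
  shape := shape
  rel := rel
  rel' := rel'
  C0 := C0
  relu := relu
  relu' := relu'
  gm := gm

end L2

end Fermat.Agent.CA
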