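import Mathlib
import Fermat.Agent.CA.L2e

/-!
Evaluation at the cusp `∞`.
-/

set_option autoImplicit false
set_option linter.unusedSectionVars false
set_option linter.unusedVariables false

open IsLocalRing Polynomial ModularCurve

noncomputable section

universe u

namespace Fermat.Agent.CA

open Fermat.Agent.Geo Fermat.Agent.LG Fermat.Agent.ModFun

section Un

variable {O L : Type u} [CommRing O] [IsDomain O] [IsDiscreteValuationRing O] [Field L]
  [Algebra O L] [IsFractionRing O L]

/-- order zero, with leading coefficient a unit of `O` -/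
def Un (O : Type u) {L : Type u} [CommRing O] [Field L] [Algebra O L] (x : LaurentSeries L) :
    Prop :=
  x.order = 0 ∧ ∃ u : Oˣ, x.leadingCoeff = algebraMap O L u

theorem Un.ne {x : LaurentSeries L} (h : Un O x) : x ≠ 0 := by
  obtain ⟨-, u, hu⟩ := h
  rw [← HahnSeries.leadingCoeff_ne_zero, hu, Ne, map_eq_zero_iff _ (IsFractionRing.injective O L)]
  exact u.ne_zero

theorem Un.mul {x y : LaurentSeries L} (hx : Un O x) (hy : Un O y) : Un O (x * y) := by
  refine ⟨?_, ?_⟩
  · rw [HahnSeries.order_mul hx.ne hy.ne, hx.1, hy.1, add_zero]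
  · obtain ⟨-, u, hu⟩ := hx
    obtain ⟨-, v, hv⟩ := hy
    exact ⟨u * v, by rw [HahnSeries.leadingCoeff_mul, hu, hv, Units.val_mul, map_mul]⟩

theorem Un.of_mul {x y : LaurentSeries L} (hx : Un O x) (hxy : Un O (x * y)) : Un O y := by
  have hy : y ≠ 0 := right_ne_zero_of_mul hxy.ne
  refine ⟨?_, ?_⟩
  · have := hxy.1
    rwa [HahnSeries.order_mul hx.ne hy, hx.1, zero_add] at this
  · obtain ⟨-, u, hu⟩ := id hx
    obtain ⟨-, v, hv⟩ := hxy
    rw [HahnSeries.leadingCoeff_mul, hu] at hv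
    refine ⟨u⁻¹ * v, ?_⟩
    have h1 : algebraMap O L (u⁻¹ : Oˣ) * algebraMap O L u = 1 := by
      rw [← map_mul, Units.inv_mul, map_one]
    rw [Units.val_mul, map_mul, ← hv, ← mul_assoc, h1, one_mul]

end Un

section Ev

variable {O L F : Type u} [CommRing O] [IsDomain O] [IsDiscreteValuationRing O]
    [Field L] [Algebra O L] [IsFractionRing O L] [Field F] [Algebra O F]
    {θ : F →+* LaurentSeries L} {s : F}

theorem ev_aux (θC : ∀ a : O, θ (algebraMap O F a) = HahnSeries.C (algebraMap O L a))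
    {Z : PowerSeries L} (hs : θ s = HahnSeries.ofPowerSeries ℤ L Z)
    (hZ : PowerSeries.constantCoeff Z = 0) {c : F} (hc : c ∈ chart O s) :
    ∃ (P : PowerSeries L) (o : O), θ c = HahnSeries.ofPowerSeries ℤ L P ∧
      PowerSeries.constantCoeff P = algebraMap O L o := by
  obtain ⟨p, hp, hpc⟩ := hc
  let φ : O[X] →+* PowerSeries L := eval₂RingHom ((PowerSeries.C).comp (algebraMap O L)) Z
  have hφ : (HahnSeries.ofPowerSeries ℤ L).comp φ =
      θ.comp ((aeval s : O[X] →ₐ[O] F) : O[X] →+* F) := by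
    apply Polynomial.ringHom_ext
    · intro a
      simp [φ, θC, HahnSeries.ofPowerSeries_C]
    · simp [φ, hs]
  have h1 : (p.map φ).eval₂ (HahnSeries.ofPowerSeries ℤ L) (θ c) = 0 := by
    rw [eval₂_map, hφ, ← hom_eval₂, hpc, map_zero]
  have h2 : IsIntegral (PowerSeries L) (θ c) := by
    refine ⟨p.map φ, hp.map _, ?_⟩
    exact h1
  obtain ⟨P, hP⟩ := IsIntegrallyClosed.isIntegral_iff.mp h2
  have hP' : θ c = HahnSeries.ofPowerSeries ℤ L P := hP.symm
  rw [hP', eval₂_at_apply, map_eq_zero_iff _ HahnSeries.ofPowerSeries_injective] at h1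
  have h3 := congrArg (PowerSeries.constantCoeff (R := L)) h1
  rw [map_zero, ← eval₂_at_apply, eval₂_map] at h3
  have h4 : (PowerSeries.constantCoeff (R := L)).comp φ =
      (algebraMap O L).comp (evalRingHom (0 : O)) := by
    apply Polynomial.ringHom_ext
    · intro a
      simp [φ]
    · simp [φ, hZ]
  rw [h4] at h3
  have h5 : IsIntegral O (PowerSeries.constantCoeff P) := by
    refine ⟨p.map (evalRingHom (0 : O)), hp.map _, ?_⟩
    rw [eval₂_map]
    exact h3
  obtain ⟨o, ho⟩ := IsIntegrallyClosed.isIntegral_iff.mp h5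
  exact ⟨P, o, hP', ho.symm⟩

variable (θC : ∀ a : O, θ (algebraMap O F a) = HahnSeries.C (algebraMap O L a))
    {Z : PowerSeries L} (hs : θ s = HahnSeries.ofPowerSeries ℤ L Z)
    (hZ : PowerSeries.constantCoeff Z = 0)

/-- the value at the cusp -/
def evO (θC : ∀ a : O, θ (algebraMap O F a) = HahnSeries.C (algebraMap O L a))
    {Z : PowerSeries L} (hs : θ s = HahnSeries.ofPowerSeries ℤ L Z)
    (hZ : PowerSeries.constantCoeff Z = 0) (c : chart O s) : O :=
  (ev_aux θC hs hZ c.2).choose_spec.choose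

theorem evO_spec (c : chart O s) : ∃ P : PowerSeries L,
    θ c = HahnSeries.ofPowerSeries ℤ L P ∧
      PowerSeries.constantCoeff P = algebraMap O L (evO θC hs hZ c) :=
  ⟨_, (ev_aux θC hs hZ c.2).choose_spec.choose_spec⟩

theorem evO_eq {c : chart O s} {P : PowerSeries L} (h : θ c = HahnSeries.ofPowerSeries ℤ L P)
    {o : O} (ho : PowerSeries.constantCoeff P = algebraMap O L o) : evO θC hs hZ c = o := by
  obtain ⟨P', h1, h2⟩ := evO_spec θC hs hZ c
  rw [h] at h1
  have h3 := HahnSeries.ofPowerSeries_injective h1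
  apply IsFractionRing.injective O L
  rw [← h2, ← h3, ho]

/-- evaluation at the cusp -/
def ev : chart O s →+* O where
  toFun := evO θC hs hZ
  map_one' := evO_eq θC hs hZ (P := 1) (by simp) (by simp)
  map_zero' := evO_eq θC hs hZ (P := 0) (by simp) (by simp)
  map_add' a b := by
    obtain ⟨P, h1, h2⟩ := evO_spec θC hs hZ a
    obtain ⟨P', h1', h2'⟩ := evO_spec θC hs hZ b
    refine evO_eq θC hs hZ (P := P + P') ?_ ?_
    · rw [Subalgebra.coe_add, map_add, map_add, h1, h1']
    · rw [map_add, map_add, h2, h2']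
  map_mul' a b := by
    obtain ⟨P, h1, h2⟩ := evO_spec θC hs hZ a
    obtain ⟨P', h1', h2'⟩ := evO_spec θC hs hZ b
    refine evO_eq θC hs hZ (P := P * P') ?_ ?_
    · rw [Subalgebra.coe_mul, map_mul, map_mul, h1, h1']
    · rw [map_mul, map_mul, h2, h2']

theorem ev_C (a : O) : ev θC hs hZ (algebraMap O _ a) = a := by
  refine evO_eq θC hs hZ (P := PowerSeries.C (algebraMap O L a)) ?_ ?_
  · rw [HahnSeries.ofPowerSeries_C]
    exact θC a
  · simp

/-- the point of the special fibre -/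
def yI : Ideal (chart O s) := (maximalIdeal O).comap (ev θC hs hZ)

theorem yI_max : (yI θC hs hZ).IsMaximal := by
  rw [yI]
  exact Ideal.comap_isMaximal_of_surjective _ fun a => ⟨_, ev_C θC hs hZ a⟩

theorem s_mem : (⟨s, self_mem_chart _⟩ : chart O s) ∈ yI θC hs hZ := by
  rw [yI, Ideal.mem_comap]
  have : ev θC hs hZ ⟨s, self_mem_chart _⟩ = 0 :=
    evO_eq θC hs hZ (P := Z) hs (by rw [hZ, map_zero])
  rw [this]
  exact zero_mem _

theorem C_mem {a : O} (ha : a ∈ maximalIdeal O) : algebraMap O (chart O s) a ∈ yI θC hs hZ := by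
  rw [yI, Ideal.mem_comap, ev_C]
  exact ha

theorem notMem_iff (c : chart O s) : c ∉ yI θC hs hZ ↔ Un O (θ c) := by
  obtain ⟨P, h1, h2⟩ := evO_spec θC hs hZ c
  rw [yI, Ideal.mem_comap, mem_maximalIdeal, mem_nonunits_iff, not_not]
  change IsUnit (evO θC hs hZ c) ↔ _
  have hco : (θ c).coeff 0 = algebraMap O L (evO θC hs hZ c) := by
    rw [h1, ← h2]
    have := HahnSeries.ofPowerSeries_apply_coeff (Γ := ℤ) P 0
    simpa using this
  have hneg : ∀ n < 0, (θ c).coeff n = 0 := by
    intro n hn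
    rw [h1, HahnSeries.ofPowerSeries_apply]
    apply HahnSeries.embDomain_notin_range
    rintro ⟨m, hm⟩
    simp at hm
    omega
  constructor
  · rintro ⟨u, hu⟩
    have hne : (θ c).coeff 0 ≠ 0 := by
      rw [hco, ← hu, Ne, map_eq_zero_iff _ (IsFractionRing.injective O L)]
      exact u.ne_zero
    have hord : (θ c).order = 0 := by
      refine le_antisymm (HahnSeries.order_le_of_coeff_ne_zero hne) ?_
      by_contra hcon
      push Not at hcon
      have h0 : θ c ≠ 0 := fun h => hne (by rw [h]; rfl)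
      have h1 := HahnSeries.leadingCoeff_ne_zero.mpr h0
      rw [HahnSeries.leadingCoeff_eq] at h1
      exact h1 (hneg _ hcon)
    exact ⟨hord, u, by rw [HahnSeries.leadingCoeff_eq, hord, hco, hu]⟩
  · rintro ⟨hord, u, hu⟩
    rw [HahnSeries.leadingCoeff_eq, hord, hco] at hu
    rw [IsFractionRing.injective O L hu]
    exact u.isUnit

theorem locS_un [hy : (yI θC hs hZ).IsPrime] {v : F} (hv : v ∈ locS (yI θC hs hZ)) :
    ¬ locM (yI θC hs hZ) v ↔ Un O (θ v) := by
  obtain ⟨d, hd, hdv⟩ := hv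
  have hd' := (notMem_iff θC hs hZ d).mp hd
  have e : θ ((⟨_, hdv⟩ : chart O s) : F) = θ d * θ v := by rw [← map_mul]
  rw [locM_iff hd (c := ⟨_, hdv⟩) rfl, notMem_iff, e]
  exact ⟨fun h => hd'.of_mul h, fun h => hd'.mul h⟩

end Ev

end Fermat.Agent.CA
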