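import Mathlib
import Fermat.Agent.CA.Ev
import Fermat.Agent.LG.Conc3
import Fermat.Agent.LG.KX7

/-!
Leading coefficients of the Hauptmodul.
-/

set_option autoImplicit false
set_option linter.unusedSectionVars false
set_option linter.unusedVariables false

open IsLocalRing Polynomial ModularCurve

noncomputable section

universe u

namespace Fermat.Agent.CA

open Fermat.Agent.Geo Fermat.Agent.LG Fermat.Agent.ModFun

variable {O L : Type u} [CommRing O] [IsDomain O] [IsDiscreteValuationRing O]
    [Field L] [Algebra O L] [IsFractionRing O L] {q p : ℕ} [NeZero q] [Fact p.Prime] {κ : ℤ}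

theorem leadingCoeff_qExpand (d : ℕ) [NeZero d] (x : LaurentSeries L) :
    (qExpand L d x).leadingCoeff = x.leadingCoeff := by
  by_cases hx : x = 0
  · rw [hx, map_zero]
  · rw [HahnSeries.leadingCoeff_eq, order_qExpand' d hx, qExpand_coeff_mul,
      HahnSeries.leadingCoeff_eq]

theorem order_tS : (tS L p κ).order = -1 := by
  have h1 : (tS L p κ).coeff (-1) ≠ 0 := by rw [coeff_tS_neg_one]; exact one_ne_zero
  refine le_antisymm (HahnSeries.order_le_of_coeff_ne_zero h1) ?_
  by_contra hcon
  push Not at hcon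
  have h2 := HahnSeries.leadingCoeff_ne_zero.mpr (tS_ne_zero (L := L) (p := p) (κ := κ))
  rw [HahnSeries.leadingCoeff_eq, coeff_tS_of_lt hcon] at h2
  exact h2 rfl

theorem lc_tS : (tS L p κ).leadingCoeff = 1 := by
  rw [HahnSeries.leadingCoeff_eq, order_tS, coeff_tS_neg_one]

theorem order_pow' (x : LaurentSeries L) (hx : x ≠ 0) (n : ℕ) : (x ^ n).order = n * x.order := by
  rw [HahnSeries.order_pow, nsmul_eq_mul]

theorem leadingCoeff_pow' (x : LaurentSeries L) (k : ℕ) :
    (x ^ k).leadingCoeff = x.leadingCoeff ^ k := by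
  induction k with
  | zero => rw [pow_zero, pow_zero, HahnSeries.leadingCoeff_one]
  | succ k ih => rw [pow_succ, HahnSeries.leadingCoeff_mul, ih, pow_succ]

theorem un_quot : Un O (qExpand L (q ^ 2) (tS L p κ) / (qExpand L q (tS L p κ)) ^ q) := by
  have ht := tS_ne_zero (L := L) (p := p) (κ := κ)
  have h1 : qExpand L q (tS L p κ) ≠ 0 := by
    rw [Ne, _root_.map_eq_zero]; exact ht
  have h2 : qExpand L (q ^ 2) (tS L p κ) ≠ 0 := by
    rw [Ne, _root_.map_eq_zero]; exact ht
  have h3 := pow_ne_zero q h1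
  have e := div_mul_cancel₀ (qExpand L (q ^ 2) (tS L p κ)) h3
  have h4 : qExpand L (q ^ 2) (tS L p κ) / (qExpand L q (tS L p κ)) ^ q ≠ 0 := div_ne_zero h2 h3
  refine ⟨?_, 1, ?_⟩
  · have := congrArg HahnSeries.order e
    rw [HahnSeries.order_mul h4 h3, order_pow' _ h1, order_qExpand' _ ht, order_qExpand' _ ht,
      order_tS] at this
    push_cast at this
    linarith
  · have := congrArg HahnSeries.leadingCoeff e
    rw [HahnSeries.leadingCoeff_mul, leadingCoeff_pow', leadingCoeff_qExpand,
      leadingCoeff_qExpand, lc_tS, one_pow, mul_one] at this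
    rw [this, Units.val_one, map_one]

theorem exists_ps {z : LaurentSeries L} (hz : 0 < z.order ∨ z = 0) :
    ∃ Z : PowerSeries L, PowerSeries.constantCoeff Z = 0 ∧
      z = HahnSeries.ofPowerSeries ℤ L Z := by
  rcases hz with hz | rfl
  swap
  · exact ⟨0, by simp, by simp⟩
  have h0 : ∀ n ≤ 0, z.coeff n = 0 := fun n hn =>
    HahnSeries.coeff_eq_zero_of_lt_order (lt_of_le_of_lt hn hz)
  refine ⟨PowerSeries.mk fun n => z.coeff n, ?_, ?_⟩
  · rw [← PowerSeries.coeff_zero_eq_constantCoeff_apply, PowerSeries.coeff_mk]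
    exact h0 0 le_rfl
  · ext n
    rcases lt_or_ge n 0 with hn | hn
    · rw [h0 n hn.le, HahnSeries.ofPowerSeries_apply]
      symm
      apply HahnSeries.embDomain_notin_range
      rintro ⟨k, hk⟩
      simp at hk
      omega
    · obtain ⟨k, rfl⟩ := Int.eq_ofNat_of_zero_le hn
      have := HahnSeries.ofPowerSeries_apply_coeff (Γ := ℤ) (PowerSeries.mk fun n => z.coeff n) k
      rw [PowerSeries.coeff_mk] at this
      exact this.symm

theorem exists_ps_inv : ∃ Z : PowerSeries L, PowerSeries.constantCoeff Z = 0 ∧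
    (tS L p κ)⁻¹ = HahnSeries.ofPowerSeries ℤ L Z := by
  have ht := tS_ne_zero (L := L) (p := p) (κ := κ)
  apply exists_ps
  left
  have e := mul_inv_cancel₀ ht
  have := congrArg HahnSeries.order e
  rw [HahnSeries.order_mul ht (inv_ne_zero ht), order_tS, HahnSeries.order_one] at this
  linarith

end Fermat.Agent.CA
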