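import Mathlib
import Fermat.Agent.CA.L2d
import Fermat.Agent.LG.Conc3
import Fermat.Agent.LG.Th3
import Fermat.Agent.LG.Pow4

/-!
The concrete setting.
-/

set_option autoImplicit false
set_option linter.unusedSectionVars false
set_option linter.unusedVariables false

open IsLocalRing Polynomial ModularCurve IntermediateField

noncomputable section

universe u

namespace Fermat.Agent.CA

open Fermat.Agent.Geo Fermat.Agent.LG Fermat.Agent.ModFun
open Fermat.Agent.ESCore (HauptFn haupt2 haupt3)

/-- the algebra structures between fields of Laurent series are the inclusions -/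
structure Cpt (O : Type u) {L : Type u} [CommRing O] [Field L] [Algebra O L]
    (K M F : IntermediateField L (LaurentSeries L)) [Algebra O K] [Algebra O M] [Algebra O F]
    [Algebra K M] [Algebra K F] [Algebra M F] : Prop where
  OK : ∀ a : O, ((algebraMap O K a : K) : LaurentSeries L) = HahnSeries.C (algebraMap O L a)
  OM : ∀ a : O, ((algebraMap O M a : M) : LaurentSeries L) = HahnSeries.C (algebraMap O L a)
  OF : ∀ a : O, ((algebraMap O F a : F) : LaurentSeries L) = HahnSeries.C (algebraMap O L a)
  KM : ∀ x : K, ((algebraMap K M x : M) : LaurentSeries L) = x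
  KF : ∀ x : K, ((algebraMap K F x : F) : LaurentSeries L) = x
  MF : ∀ x : M, ((algebraMap M F x : F) : LaurentSeries L) = x

section

variable {L : Type u} [Field L] {q M N : ℕ} [NeZero q] [NeZero M] [NeZero N]

/-- the inclusion of the level `q M` in the level `N = q² M` -/
def inc1 (L : Type u) [Field L] (hN : N = q ^ 2 * M) : F0 L (q * M) →+* F0 L N :=
  (inclusion (F0_mono (K := L) (dvd_sq₂ hN))).toRingHom

theorem coe_inc1 (hN : N = q ^ 2 * M) (x : F0 L (q * M)) :
    ((inc1 L hN x : F0 L N) : LaurentSeries L) = x := by
  have := coe_inclusion (F0_mono (K := L) (dvd_sq₂ hN)) x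
  exact this

/-- the norm to the level `q M`, in the function field of level `N = q² M` -/
def nmF (L : Type u) [Field L] (hN : N = q ^ 2 * M) : F0 L N →* F0 L N :=
  (inc1 L hN : F0 L (q * M) →* F0 L N).comp (nrm hN)

/-- the subfield of level `q M` -/
def sub1 (L : Type u) [Field L] (hN : N = q ^ 2 * M) : Subfield (F0 L N) :=
  (inc1 L hN).fieldRange

end

end Fermat.Agent.CA
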