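import Mathlib
import Fermat.Agent.CA.L2e

/-!
The model of level `M`, and the values at the cusp `∞`.
-/

set_option autoImplicit false
set_option linter.unusedSectionVars false
set_option linter.unusedVariables false

open IsLocalRing Polynomial ModularCurve

noncomputable section

universe u

namespace Fermat.Agent.CA

open Fermat.Agent.Geo Fermat.Agent.LG Fermat.Agent.ModFun

namespace L2

variable {O L O' L' K M F : Type u} [CommRing O] [IsDomain O] [IsDiscreteValuationRing O]
    [Field L] [Algebra O L] [IsFractionRing O L] [CommRing O'] [IsDomain O']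
    [IsDiscreteValuationRing O'] [Field L'] [Algebra O' L'] [IsFractionRing O' L']
    [Field K] [Field M] [Field F] [Algebra O K] [Algebra O M] [Algebra O F] [Algebra K M]
    [Algebra K F] [Algebra M F] [IsScalarTower O K M] [IsScalarTower O K F]
    [IsScalarTower K M F] [IsScalarTower O M F] {q : ℕ} [NeZero q] {t : K} {T : LaurentSeries O}
    {θ : F →+* LaurentSeries L} {θ₁ : F →+* LaurentSeries L'} {i : L →+* L'} {i' : O →+* O'}
    {ζ : O'ˣ} {w : F ≃+* F} {π : O}

variable (D : L2 M q t T θ θ₁ i i' ζ w)

include D

theorem gmodel {ht : IsParam O t} {hπ : Prime π} (good : ∃ S : Set O, GoodRed ht hπ S M)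
    (huniq : ∀ W : ValuationSubring M, Over (gaussVal ht hπ) (algebraMap O K π) W →
      ∀ x : M, x ∈ W ↔ θ (algebraMap M F x) ∈ gV O L) :
    GModel ht hπ (D.P0.comap (algebraMap M F)) where
  good := good
  ov := by
    have h := D.over0 ht hπ
    refine ⟨fun x hx => ?_, ?_⟩
    · change algebraMap M F (algebraMap K M x) ∈ D.P0
      rw [← IsScalarTower.algebraMap_apply K M F]
      exact h.1 x hx
    · rw [comap_mem_nonunits, ← IsScalarTower.algebraMap_apply K M F]
      exact h.2
  uniq W hW := by
    ext x
    rw [huniq W hW x]
    rfl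
  unif x hx := by
    rw [comap_mem_nonunits] at hx
    have := D.unif0 hπ hx
    change algebraMap M F (x / algebraMap O M π) ∈ D.P0
    rw [map_div₀, ← IsScalarTower.algebraMap_apply O M F]
    exact this

end L2

end Fermat.Agent.CA
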