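import Mathlib
import Fermat.Agent.CA.Ev
import Fermat.Agent.CA.Final3

/-!
The valuation of an `m`-th power along the component of the cusp `∞`.
-/

set_option autoImplicit false
set_option linter.unusedSectionVars false
set_option linter.style.haveILetI false
set_option linter.unusedVariables false

open IsLocalRing Polynomial ModularCurve

noncomputable section

universe u

namespace Fermat.Agent.CA

open Fermat.Agent.Geo Fermat.Agent.LG Fermat.Agent.ModFun

section Pow

variable {O K F : Type u} [CommRing O] [IsDomain O] [IsDiscreteValuationRing O]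
  [Field K] [Field F] [Algebra O K] [Algebra O F] [Algebra K F] [IsScalarTower O K F]
  {t : K} {π : O} [FiniteDimensional K F] [Algebra.IsSeparable K F]
  {ht : IsParam O t} {hπ : Prime π} {P : ValuationSubring F}
  {y : Ideal (chart O (algebraMap K F t))} [hy : y.IsPrime] {a : F}

/-- Existence of local `m`-th roots up to units; only the components through the point matter. -/
theorem exists_local_pow' [hym : y.IsMaximal] (hLE : LocEq y P a) (hmeet : Meets y P)
    (hP : Over (gaussVal ht hπ) (algebraMap O K π) P) (hval : ValAt y P) {m : ℕ} (hm : 0 < m)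
    {h : F} (h0 : h ≠ 0)
    (H3 : ∀ V : ValuationSubring F, V ≠ ⊤ → (∀ o : O, algebraMap O F o ∈ V) →
      (algebraMap O F π)⁻¹ ∈ V → ∃ g : F, g ≠ 0 ∧ g ^ m * h ∈ V ∧ (g ^ m * h)⁻¹ ∈ V)
    (HP : ∀ W : ValuationSubring F, Over (gaussVal ht hπ) (algebraMap O K π) W →
      (∀ x ∈ locS y, x ∈ W) → ∃ g : F, g ≠ 0 ∧ g ^ m * h ∈ W ∧ (g ^ m * h)⁻¹ ∈ W) :
    ∃ g : F, g ≠ 0 ∧ h / g ^ m ∈ locS y ∧ ¬ locM y (h / g ^ m) := by
  haveI : IsLocalRing (locS y) := isLocalRing_locS
  haveI : UniqueFactorizationMonoid (locS y) := hLE.ufd hmeet hP hval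
  haveI : IsFractionRing (locS y) F := isFractionRing_locS ht
  have hOF : ∀ o : O, algebraMap O F o ∈ locS y := fun o =>
    mem_locS_of_mem ((chart O (algebraMap K F t)).algebraMap_mem o)
  obtain ⟨u, g, hg0, hu⟩ := exists_unit_mul_pow (R := locS y) hm h h0 (by
    intro p hp
    by_cases hpπ : p ∣ (⟨algebraMap O F π, hOF π⟩ : locS y)
    · obtain ⟨c, hc⟩ := hpπ
      exact HP _ (over_primeVal hLE hmeet hP hp ⟨c, c.2, congrArg Subtype.val hc⟩)
        fun x hx => algebraMap_mem_primeVal hp (⟨x, hx⟩ : locS y)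
    · refine H3 _ ?_ (fun o => algebraMap_mem_primeVal hp (⟨_, hOF o⟩ : locS y))
        (inv_mem_primeVal hp hpπ)
      intro htop
      have h1 : (p : F)⁻¹ ∈ primeVal F hp := by rw [htop]; trivial
      obtain ⟨s, b, hs, hsb⟩ := (mem_primeVal_iff hp).mp h1
      apply hs
      refine ⟨b, Subtype.ext ?_⟩
      have hp0 : (p : F) ≠ 0 := fun h0 => hp.ne_zero (Subtype.ext h0)
      change (s : F) = p * b
      have h2 : (s : F) * (p : F)⁻¹ = b := hsb
      rw [← h2]
      field_simp)
  refine ⟨g, hg0, ?_, ?_⟩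
  · rw [hu, mul_div_assoc, div_self (pow_ne_zero _ hg0), mul_one]
    exact (u : locS y).2
  · rw [hu, mul_div_assoc, div_self (pow_ne_zero _ hg0), mul_one]
    intro h1
    have h2 := (mem_maximalIdeal_locS (x := (u : locS y))).mpr h1
    rw [mem_maximalIdeal, mem_nonunits_iff] at h2
    exact h2 u.isUnit

theorem CompSys.exists_meets {ι : Type} [Fintype ι] {P : ι → ValuationSubring F}
    (hS : CompSys ht hπ P) (hM : locM y (algebraMap O F π)) : ∃ i, Meets y (P i) := by
  by_contra hcon
  push Not at hcon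
  have hp0 : algebraMap O F π ≠ 0 := pi_ne_zero ht hπ
  have h1 := hS.inv_mem (y := y) (a := algebraMap O F π) (n := 1)
    (fun j hj => absurd hj (hcon j)) (by
      rw [pow_one, div_self hp0]
      exact one_mem _)
  have h2 := hM.mul_right h1
  rw [mul_inv_cancel₀ hp0] at h2
  exact not_locM_one h2

end Pow

section DVR

variable {O L : Type u} [CommRing O] [IsDomain O] [IsDiscreteValuationRing O] [Field L]
  [Algebra O L] [IsFractionRing O L]

/-- valuations of `m`-th powers -/
theorem dvd_of_pow_eq {π : O} (hπ : Prime π) {m : ℕ} {n : ℤ} {u : Oˣ} {z : L}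
    (h : z ^ m = algebraMap O L π ^ n * algebraMap O L u) : (m : ℤ) ∣ n := by
  have hπ0 : algebraMap O L π ≠ 0 := by
    rw [Ne, map_eq_zero_iff _ (IsFractionRing.injective O L)]
    exact hπ.ne_zero
  have hu0 : algebraMap O L u ≠ 0 := by
    rw [Ne, map_eq_zero_iff _ (IsFractionRing.injective O L)]
    exact u.ne_zero
  rcases Nat.eq_zero_or_pos m with rfl | hm
  · rw [pow_zero] at h
    have : n = 0 := by
      rcases lt_trichotomy n 0 with hn | hn | hn
      · exfalso
        obtain ⟨k, hk⟩ : ∃ k : ℕ, n = -((k : ℤ) + 1) := ⟨(-n - 1).toNat, by omega⟩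
        rw [hk, zpow_neg] at h
        have h1 : algebraMap O L (π ^ (k + 1)) = algebraMap O L u := by
          rw [map_pow]
          have e : algebraMap O L π ^ ((k : ℤ) + 1) = algebraMap O L π ^ (k + 1) := by
            norm_cast
          rw [e] at h
          field_simp at h
          exact h
        have h2 := IsFractionRing.injective O L h1
        exact hπ.not_unit (isUnit_of_dvd_unit (dvd_pow_self _ (by omega)) (h2 ▸ u.isUnit))
      · exact hn
      · exfalso
        obtain ⟨k, hk⟩ : ∃ k : ℕ, n = ((k : ℤ) + 1) := ⟨(n - 1).toNat, by omega⟩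
        rw [hk] at h
        have h1 : algebraMap O L 1 = algebraMap O L (π ^ (k + 1) * u) := by
          rw [map_mul, map_pow, map_one, h]
          norm_cast
        have h2 := IsFractionRing.injective O L h1
        exact hπ.not_unit (isUnit_of_dvd_one (h2 ▸ (dvd_pow_self _ (by omega)).mul_right _))
    rw [this]
    simp
  · -- write `z = π ^ k v`
    have hz0 : z ≠ 0 := by
      rintro rfl
      rw [zero_pow hm.ne'] at h
      exact (mul_ne_zero (zpow_ne_zero _ hπ0) hu0) h.symm
    obtain ⟨k, v, hv⟩ : ∃ (k : ℤ) (v : Oˣ), z = algebraMap O L π ^ k * algebraMap O L v := by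
      obtain ⟨a, b, hb, rfl⟩ := IsFractionRing.div_surjective (A := O) z
      have hb0 : b ≠ 0 := nonZeroDivisors.ne_zero hb
      have ha0 : a ≠ 0 := by
        rintro rfl
        rw [map_zero, zero_div] at hz0
        exact hz0 rfl
      obtain ⟨i, ua, hua⟩ := IsDiscreteValuationRing.eq_unit_mul_pow_irreducible ha0 hπ.irreducible
      obtain ⟨j, ub, hub⟩ := IsDiscreteValuationRing.eq_unit_mul_pow_irreducible hb0 hπ.irreducible
      refine ⟨i - j, ua * ub⁻¹, ?_⟩
      have h1 : algebraMap O L (ub⁻¹ : Oˣ) * algebraMap O L ub = 1 := by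
        rw [← map_mul, Units.inv_mul, map_one]
      have h2 : algebraMap O L ub ≠ 0 := right_ne_zero_of_mul_eq_one h1
      have h3 : algebraMap O L (ub⁻¹ : Oˣ) = (algebraMap O L ub)⁻¹ := eq_inv_of_mul_eq_one_left h1
      rw [hua, hub, zpow_sub₀ hπ0, zpow_natCast, zpow_natCast, map_mul, map_mul, map_pow, map_pow,
        Units.val_mul, map_mul, h3]
      field_simp
    rw [hv, mul_pow, ← zpow_natCast, ← zpow_mul] at h
    have key : ∀ (r : ℤ) (x y : Oˣ), algebraMap O L π ^ r * algebraMap O L x = algebraMap O L y →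
        0 ≤ r → r = 0 := by
      intro r x y hxy hr
      obtain ⟨k, rfl⟩ := Int.eq_ofNat_of_zero_le hr
      rw [zpow_natCast, ← map_pow, ← map_mul] at hxy
      have h2 := IsFractionRing.injective O L hxy
      by_contra hne
      exact hπ.not_unit (isUnit_of_dvd_unit ((dvd_pow_self _ (by
        intro h0; rw [h0] at hne; exact hne rfl)).mul_right _) (h2 ▸ y.isUnit))
    have h5 : k * m = n := by
      have e : algebraMap O L v ^ m = algebraMap O L (v ^ m : Oˣ) := by
        rw [Units.val_pow_eq_pow_val, map_pow]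
      rw [e] at h
      rcases le_total n (k * m) with hle | hle
      · have := key (k * m - n) (v ^ m) u (by
          rw [zpow_sub₀ hπ0, div_mul_eq_mul_div, h]
          field_simp) (by omega)
        omega
      · have := key (n - k * m) u (v ^ m) (by
          rw [zpow_sub₀ hπ0, div_mul_eq_mul_div, ← h]
          field_simp) (by omega)
        omega
    exact ⟨k, by rw [← h5, mul_comm]⟩

end DVR

section

variable {O K M F : Type u} [CommRing O] [IsDomain O] [IsDiscreteValuationRing O] [CharZero O]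
  [Field K] [Field M] [Field F] [Algebra O K] [Algebra O M] [Algebra O F] [Algebra K M]
  [Algebra K F] [Algebra M F] [IsScalarTower O K M] [IsScalarTower O K F] [IsScalarTower K M F]
  [IsScalarTower O M F]
  {t : K} {π : O} [FiniteDimensional K M] [Algebra.IsSeparable K M]
  [FiniteDimensional K F] [Algebra.IsSeparable K F]
  {ht : IsParam O t} {hπ : Prime π} {q : ℕ} {c : ℕ → ℤ[X]} {C₀ : ℤ}
  {P : Fin 3 → ValuationSubring F} {w : F ≃+* F} {X₁ : F}
  {L : Type u} [Field L] [Algebra O L] [IsFractionRing O L] {θ : F →+* LaurentSeries L}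

theorem Tri.dvd_val (T : Tri (M := M) ht hπ q c C₀ P w X₁)
    (θC : ∀ a : O, θ (algebraMap O F a) = HahnSeries.C (algebraMap O L a))
    {Z : PowerSeries L} (hs : θ (algebraMap K F t⁻¹) = HahnSeries.ofPowerSeries ℤ L Z)
    (hZ : PowerSeries.constantCoeff Z = 0) (u2 : Un O (θ (w (algebraMap K F t) / X₁ ^ q)))
    {m : ℕ} (hm : 0 < m) {h₀ : F} (hor : Hor π m h₀) {n : ℤ}
    (hn : Vl (P 0) (algebraMap O F π) h₀ n) {y : LaurentSeries L} (hy : y ^ m = θ h₀) :
    (m : ℤ) ∣ n := by
  have hti : algebraMap K F t⁻¹ = (algebraMap K F t)⁻¹ := map_inv₀ _ _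
  have hp0 : algebraMap O F π ≠ 0 := T.π_ne
  set I := yI θC hs hZ with hI
  haveI hIm : I.IsMaximal := yI_max θC hs hZ
  haveI hIp : I.IsPrime := hIm.isPrime'
  have hty : locM I (algebraMap K F t)⁻¹ := by
    rw [← hti]
    exact locM_of_mem (s_mem θC hs hZ)
  have hπm : π ∈ maximalIdeal O := by
    rw [mem_maximalIdeal]; exact hπ.not_unit
  have hpM : locM I (algebraMap O F π) := locM_of_mem (C_mem θC hs hZ hπm)
  have hqM : locM I ((q : ℕ) : F) := by rw [T.q_cast]; exact hpM
  obtain ⟨h1, h2, l1, l2, l3, l4⟩ := T.ctrip.locs T.shape hqM hty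
  have b3 : ¬ locM I (w (algebraMap K F t) / X₁ ^ q) :=
    (locS_un θC hs hZ (hy := hIp) l3).mpr u2
  have h := T.ctrip
  have k1 : ¬ locM I (X₁ / w (algebraMap K F t) ^ q) → False := fun b =>
    cusp_contra T.shape.two_le h.n2 h.n1 h.n0 h1 l3 b3 l4 b
  -- the component
  have hm0 : Meets I (P 0) := by
    obtain ⟨i, hi⟩ := T.sys'.exists_meets hpM
    match i with
    | 0 => exact hi
    | 1 =>
      exact (k1 (unit_of_cong (T.sys'.ov 1) hi (pow_ne_zero _ h.n2) (by
        rw [← inv_pow]; exact pow_mem (h.m2 1) _) h.c21 l4)).elim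
    | 2 =>
      exact (k1 (unit_of_cong (T.sys'.ov 2) hi (pow_ne_zero _ h.n2) (by
        rw [← inv_pow]; exact pow_mem (h.m2 2) _) h.c22 l4)).elim
  have hdisj := T.ctrip.disj T.shape T.sys' T.q_cast hqM hty
  obtain ⟨a, hLE⟩ := T.ctrip.exists_locEq T.shape T.sys' T.prime T.q_cast hqM hty T.unif0 T.unif2
    0 hm0
  have h' : UC (P 0) (h₀ / algebraMap O F π ^ n) (h₀ / algebraMap O F π ^ n) := hn
  obtain ⟨g, hg0, hg1, hg2⟩ := exists_local_pow' hLE hm0 (T.sys'.ov 0) (T.valAt' hty 0 hm0) hm
    h'.ne (fun V hV hOV hπV => by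
      obtain ⟨g, hg0, hg1, hg2⟩ := hor V hV hOV hπV
      have hz : ∀ k : ℤ, algebraMap O F π ^ k ∈ V := fun k => by
        cases k with
        | ofNat k => rw [Int.ofNat_eq_natCast, zpow_natCast]; exact pow_mem (hOV π) _
        | negSucc k =>
          rw [zpow_negSucc, ← inv_pow]
          exact pow_mem hπV _
      refine ⟨g, hg0, ?_, ?_⟩
      · have := V.mul_mem _ _ hg1 (hz (-n))
        rwa [zpow_neg, mul_assoc, ← div_eq_mul_inv] at this
      · have := V.mul_mem _ _ hg2 (hz n)
        have e : (g ^ m * (h₀ / algebraMap O F π ^ n))⁻¹ = (g ^ m * h₀)⁻¹ * algebraMap O F π ^ n := by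
          rw [← mul_div_assoc, inv_div, div_eq_mul_inv, mul_comm]
        rwa [e]) (fun W hW hWI => by
      obtain ⟨i, rfl⟩ := T.sys'.all W hW
      have hi : Meets I (P i) := by
        intro c hc
        by_contra hcI
        have h3 := hWI _ (inv_mem_locS hcI)
        exact notMem_nonunits_of_inv h3 (ne_zero_of_notMem hcI) hc
      obtain rfl := hdisj 0 i hm0 hi
      exact ⟨1, one_ne_zero, by rw [one_pow, one_mul]; exact h'.mem,
        by rw [one_pow, one_mul]; exact h'.inv⟩)
  have hun := (locS_un θC hs hZ (hy := hIp) hg1).mp hg2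
  obtain ⟨-, u, hu⟩ := id hun
  -- leading coefficients
  have e1 : θ h₀ = HahnSeries.C (algebraMap O L π ^ n) *
      (θ (h₀ / algebraMap O F π ^ n / g ^ m) * θ g ^ m) := by
    rw [← map_pow, ← map_mul, div_mul_cancel₀ _ (pow_ne_zero _ hg0), map_zpow₀, ← θC, ← map_zpow₀,
      ← map_mul, mul_div_cancel₀ _ (zpow_ne_zero _ hp0)]
  have hlp : ∀ (x : LaurentSeries L) (k : ℕ), (x ^ k).leadingCoeff = x.leadingCoeff ^ k := by
    intro x k
    induction k with
    | zero => rw [pow_zero, pow_zero, HahnSeries.leadingCoeff_one]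
    | succ k ih => rw [pow_succ, HahnSeries.leadingCoeff_mul, ih, pow_succ]
  have e2 := congrArg HahnSeries.leadingCoeff e1
  have hC : (HahnSeries.C (algebraMap O L π ^ n) : LaurentSeries L).leadingCoeff =
      algebraMap O L π ^ n := by
    rw [HahnSeries.C_apply, HahnSeries.leadingCoeff_of_single]
  rw [← hy, HahnSeries.leadingCoeff_mul, HahnSeries.leadingCoeff_mul, hlp, hlp, hu, hC] at e2
  have hgl : (θ g).leadingCoeff ≠ 0 := by
    rw [HahnSeries.leadingCoeff_ne_zero, Ne, _root_.map_eq_zero]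
    exact hg0
  refine dvd_of_pow_eq hπ (z := y.leadingCoeff / (θ g).leadingCoeff) (u := u) ?_
  rw [div_pow, e2]
  field_simp

end

end Fermat.Agent.CA
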