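import Mathlib
import Fermat.Agent.CA.CuspV

/-!
The final abstract theorem, without normalisation.
-/

set_option autoImplicit false
set_option linter.unusedSectionVars false
set_option linter.style.haveILetI false
set_option linter.unusedVariables false

open IsLocalRing Polynomial ModularCurve

noncomputable section

universe u

namespace Fermat.Agent.CA

open Fermat.Agent.Geo Fermat.Agent.LG Fermat.Agent.ModFun

section

variable {O K M F : Type u} [CommRing O] [IsDomain O] [IsDiscreteValuationRing O] [CharZero O]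
  [Field K] [Field M] [Field F] [Algebra O K] [Algebra O M] [Algebra O F] [Algebra K M]
  [Algebra K F] [Algebra M F] [IsScalarTower O K M] [IsScalarTower O K F] [IsScalarTower K M F]
  [IsScalarTower O M F]
  {t : K} {π : O} [FiniteDimensional K M] [Algebra.IsSeparable K M]
  [FiniteDimensional K F] [Algebra.IsSeparable K F]
  {ht : IsParam O t} {hπ : Prime π} {q : ℕ} {c : ℕ → ℤ[X]} {C₀ : ℤ}
  {P : Fin 3 → ValuationSubring F} {w : F ≃+* F} {X₁ : F} {a1 a2 cc d : F}
  {S1 : Subfield F} {Nm : F →* F}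
  {L : Type u} [Field L] [Algebra O L] [IsFractionRing O L] {θ : F →+* LaurentSeries L}

theorem main_abs' (T : Tri (M := M) ht hπ q c C₀ P w X₁)
    (D : NC (algebraMap K F t) π q P w a1 a2 cc d)
    (B : NormD (O := O) (M := M) (algebraMap K F t) q P a1 S1 Nm)
    (nd : Vl (P 0) (algebraMap O F π) (Nm (w (algebraMap K F t) - algebraMap K F t)) 1)
    (θC : ∀ a : O, θ (algebraMap O F a) = HahnSeries.C (algebraMap O L a))
    {Z : PowerSeries L} (hs : θ (algebraMap K F t⁻¹) = HahnSeries.ofPowerSeries ℤ L Z)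
    (hZ : PowerSeries.constantCoeff Z = 0) (u2 : Un O (θ (w (algebraMap K F t) / X₁ ^ q)))
    {E : Type u} [Field E] [Algebra O E] [Algebra K E] [Algebra F E]
    [IsScalarTower O K E] [IsScalarTower K F E] [IsScalarTower O F E]
    [FiniteDimensional K E] [Algebra.IsSeparable K E] [FiniteDimensional F E] [IsGalois F E]
    (hinj : Function.Injective (algebraMap O E))
    (hO : ∀ x : E, IsIntegral O x → ∃ o : O, algebraMap O E o = x)
    {m : ℕ} (hmu : IsUnit (m : O)) (hm : 0 < m) (hqm : Nat.Coprime q m)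
    {ζ : O} (hζ : IsPrimitiveRoot ζ m) (hroot : ∀ u : O, IsUnit u → ∃ v : O, v ^ m = u)
    {y : E} {h₀ : F} (hy : y ^ m = algebraMap F E h₀) (h₀ne : h₀ ≠ 0)
    (hN : NmP π Nm m h₀) (hN' : NmP π Nm m (w h₀)) (hor : Hor π m h₀)
    {y' : LaurentSeries L} (hy' : y' ^ m = θ h₀) :
    ∃ a : F, y ^ ((q ^ 2 - 1) ^ 2) = algebraMap F E a := by
  have hp0 : algebraMap O F π ≠ 0 := T.π_ne
  obtain ⟨n, hn⟩ := T.uni0.exists_vl h₀ne
  obtain ⟨k, hk⟩ := T.dvd_val θC hs hZ u2 hm hor hn hy'
  set G : F := algebraMap O F π ^ k with hG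
  have hG0 : G ≠ 0 := zpow_ne_zero _ hp0
  have hGE : algebraMap F E G ≠ 0 := (_root_.map_ne_zero _).mpr hG0
  have hGm : G ^ m = algebraMap O F π ^ n := by
    rw [hG, hk, mul_comm, zpow_mul, zpow_natCast]
  have hwG : w G = G := by rw [hG, map_zpow₀, T.wO]
  obtain ⟨a, ha⟩ := main_abs T D B nd hinj hO hmu hm hqm hζ hroot (y := y / algebraMap F E G)
    (h₀ := h₀ / G ^ m) (by rw [div_pow, hy, map_div₀, map_pow]) (by rw [hGm]; exact hn)
    (hN.div hG0) (by rw [map_div₀, map_pow, hwG]; exact hN'.div hG0) (hor.div hG0)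
  refine ⟨a * G ^ ((q ^ 2 - 1) ^ 2), ?_⟩
  rw [map_mul, map_pow, ← ha, div_pow, div_mul_cancel₀ _ (pow_ne_zero _ hGE)]

end

end Fermat.Agent.CA
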