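import Mathlib
import Fermat.Agent.CA.L2e
import Fermat.Agent.CA.Conc0
import Fermat.Agent.CB5.Kron

/-!
The concrete `Tri`.
-/

set_option autoImplicit false
set_option linter.unusedSectionVars false
set_option linter.unusedVariables false

open IsLocalRing Polynomial ModularCurve IntermediateField

noncomputable section

universe u

namespace Fermat.Agent.CA

open Fermat.Agent.Geo Fermat.Agent.LG Fermat.Agent.ModFun
open Fermat.Agent.ESCore (HauptFn haupt2 haupt3)

theorem MRel_of_inj {l : ℕ} {c : ℕ → ℤ[X]} {E E' : Type*} [CommRing E] [CommRing E']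
    (f : E →+* E') (hf : Function.Injective f) {x y : E} (h : MRel l c (f x) (f y)) :
    MRel l c x y := by
  rw [MRel] at h ⊢
  apply hf
  rw [map_zero, ← h, map_sum]
  refine Finset.sum_congr rfl fun i _ => ?_
  have h2 : f (aeval y (c i)) = aeval (f y) (c i) :=
    (Polynomial.aeval_algHom_apply f.toIntAlgHom y (c i)).symm
  rw [map_mul, map_pow, h2]

variable {O L O' L' : Type u} [CommRing O] [IsDomain O] [IsDiscreteValuationRing O]
    [Field L] [Algebra O L] [IsFractionRing O L] [CommRing O'] [IsDomain O']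
    [IsDiscreteValuationRing O'] [Field L'] [Algebra O' L'] [IsFractionRing O' L']
    {q M N p : ℕ} [NeZero q] [NeZero M] [NeZero N] [Fact p.Prime] {κ : ℤ}
    {i : L →+* L'} {i' : O →+* O'} {ζ : O'ˣ} {ι : L →+* ℂ} {ι' : L' →+* ℂ} {π : O}
    [Algebra O (Kt L p κ)] [Algebra O (F0 L M)] [Algebra O (F0 L N)]
    [Algebra (Kt L p κ) (F0 L M)] [Algebra (Kt L p κ) (F0 L N)] [Algebra (F0 L M) (F0 L N)]
    [IsScalarTower O (Kt L p κ) (F0 L M)] [IsScalarTower O (Kt L p κ) (F0 L N)]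
    [IsScalarTower O (F0 L M) (F0 L N)] [IsScalarTower (Kt L p κ) (F0 L M) (F0 L N)]

theorem tri_conc (C : Cpt O (Kt L p κ) (F0 L M) (F0 L N)) (B : Bez (q ^ 2) M)
    (hq : q.Prime) (hqp : ¬ q ∣ p) (hN : N = q ^ 2 * M) (H : HauptFn p κ)
    {θ₁ : F0 L N →+* LaurentSeries L'} (hθ : IsTh i q M N (zL L' ζ) θ₁)
    (hπ : Prime π) (hqπ : (q : O) = π) [ExpChar (ResidueField O) q]
    [FiniteDimensional (Kt L p κ) (F0 L N)] [Algebra.IsSeparable (Kt L p κ) (F0 L N)]
    (D : L2 (O := O) (L := L) (O' := O') (L' := L') (K := Kt L p κ) (F := F0 L N) (F0 L M) q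
      (tK L p κ) (tS O p κ) (algebraMap (F0 L N) (LaurentSeries L)) θ₁ i i' ζ
      (B.wF2 ι hq hN)) (ht : IsParam O (tK L p κ))
    (hC0 : IsUnit (((κ ^ 2 * (p : ℤ) ^ 4 : ℤ)) : O))
    (gm : GModel ht hπ (D.P0.comap (algebraMap (F0 L M) (F0 L N)))) :
    ∃ (c : ℕ → ℤ[X]) (X₁ : F0 L N), (X₁ : LaurentSeries L) = qExpand L q (tS L p κ) ∧
      Tri (M := F0 L M) ht hπ q c (κ ^ 2 * (p : ℤ) ^ 4) D.PP (B.wF2 ι hq hN) X₁ := by
  obtain ⟨c, hc, hrel⟩ := CB5.exists_kshape.{u} H hq hqp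
  obtain ⟨r1, r2, r3, r4⟩ := hrel ι
  -- the element `t` of level `M`
  have htM : tS L p κ ∈ F0 L M := by
    have := C.KM (tK L p κ)
    change _ = tS L p κ at this
    rw [← this]
    exact (algebraMap (Kt L p κ) (F0 L M) (tK L p κ)).2
  have ht1 : qExpand L q (tS L p κ) ∈ F0 L (q * M) :=
    qExpand_mem_F0_of_dvd dvd_rfl htM
  set x1 : F0 L (q * M) := ⟨_, ht1⟩ with hx1
  have hm := Bez.wF2_mid B (ι := ι) hq hN ⟨tS L p κ, htM⟩
  have e1 : inc1 L hN x1 = ⟨qExpand L q (tS L p κ), qExpand_mem_F0_of_dvd (dvd_sq₂ hN) htM⟩ :=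
    Subtype.ext (coe_inc1 hN x1)
  have cE1 : ((inc1 L hN x1 : F0 L N) : LaurentSeries L) = qExpand L q (tS L p κ) :=
    coe_inc1 hN x1
  have cEt : ((algebraMap (Kt L p κ) (F0 L N) (tK L p κ) : F0 L N) : LaurentSeries L) =
      tS L p κ := C.KF (tK L p κ)
  have hinj : Function.Injective (algebraMap (F0 L N) (LaurentSeries L)) :=
    (algebraMap (F0 L N) (LaurentSeries L)).injective
  refine ⟨c, inc1 L hN x1, cE1, D.tri ht hπ hqπ ?_ ?_ ?_ ?_ hc ?_ ?_ hC0 ?_ ?_ gm⟩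
  · rw [e1]; exact hm
  · change ((inc1 L hN x1 : F0 L N) : LaurentSeries L) = qExpand L q
      ((algebraMap (Kt L p κ) (F0 L N) (tK L p κ) : F0 L N) : LaurentSeries L)
    rw [cE1, cEt]
  · change θ₁ _ = coeffMap i ((inc1 L hN x1 : F0 L N) : LaurentSeries L)
    have := hθ.low_eq hN x1
    rw [cE1]
    rw [hx1] at this
    exact this
  · rw [toK_tS]
    exact tS_pow.symm
  · apply MRel_of_inj (algebraMap (F0 L N) (LaurentSeries L)) hinj
    change MRel q c ((inc1 L hN x1 : F0 L N) : LaurentSeries L)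
      ((algebraMap (Kt L p κ) (F0 L N) (tK L p κ) : F0 L N) : LaurentSeries L)
    rw [cE1, cEt]
    exact r1
  · apply MRel_of_inj (algebraMap (F0 L N) (LaurentSeries L)) hinj
    change MRel q c ((algebraMap (Kt L p κ) (F0 L N) (tK L p κ) : F0 L N) : LaurentSeries L)
      ((inc1 L hN x1 : F0 L N) : LaurentSeries L)
    rw [cE1, cEt]
    exact r2
  · apply MRel_of_inj (algebraMap (F0 L N) (LaurentSeries L)) hinj
    rw [map_div₀, map_div₀, map_intCast]
    change MRel q c (_ / ((inc1 L hN x1 : F0 L N) : LaurentSeries L))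
      (_ / ((algebraMap (Kt L p κ) (F0 L N) (tK L p κ) : F0 L N) : LaurentSeries L))
    rw [cE1, cEt]
    exact r3
  · apply MRel_of_inj (algebraMap (F0 L N) (LaurentSeries L)) hinj
    rw [map_div₀, map_div₀, map_intCast]
    change MRel q c (_ / ((algebraMap (Kt L p κ) (F0 L N) (tK L p κ) : F0 L N) :
      LaurentSeries L)) (_ / ((inc1 L hN x1 : F0 L N) : LaurentSeries L))
    rw [cE1, cEt]
    exact r4

end Fermat.Agent.CA
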