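import Mathlib
import Fermat.Agent.CA.Conc0
import Fermat.Agent.CA.L2f
import Fermat.Agent.CA.LC
import Fermat.Agent.CA.TriC
import Fermat.Agent.CA.Main2

/-!
The vanishing theorem, over a field `L` with a discrete valuation: geometric part.
-/

set_option autoImplicit false
set_option linter.unusedSectionVars false
set_option linter.unusedVariables false

open IsLocalRing Polynomial ModularCurve IntermediateField

noncomputable section

universe u

namespace Fermat.Agent.CA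

open Fermat.Agent.Geo Fermat.Agent.LG Fermat.Agent.ModFun
open Fermat.Agent.ESCore (HauptFn haupt2 haupt3)
open CongruenceSubgroup (Gamma0)

variable {O L O' L' : Type u} [CommRing O] [IsDomain O] [IsDiscreteValuationRing O]
    [Field L] [Algebra O L] [IsFractionRing O L] [CommRing O'] [IsDomain O']
    [IsDiscreteValuationRing O'] [Field L'] [Algebra O' L'] [IsFractionRing O' L']
    {q M N p : ℕ} [NeZero q] [NeZero M] [NeZero N] [Fact p.Prime] {κ : ℤ}
    {i : L →+* L'} {i' : O →+* O'} {ζ : O'ˣ} {ι : L →+* ℂ} {ι' : L' →+* ℂ} {π : O}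
    [Algebra O (Kt L p κ)] [Algebra O (F0 L M)] [Algebra O (F0 L N)]
    [Algebra (Kt L p κ) (F0 L M)] [Algebra (Kt L p κ) (F0 L N)] [Algebra (F0 L M) (F0 L N)]
    [IsScalarTower O (Kt L p κ) (F0 L M)] [IsScalarTower O (Kt L p κ) (F0 L N)]
    [IsScalarTower O (F0 L M) (F0 L N)] [IsScalarTower (Kt L p κ) (F0 L M) (F0 L N)]

theorem car_gen [CharZero O] [ExpChar (ResidueField O) q]
    (C : Cpt O (Kt L p κ) (F0 L M) (F0 L N)) (B : Bez (q ^ 2) M)
    (hq : q.Prime) (hN : N = q ^ 2 * M)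
    {θ₁ : F0 L N →+* LaurentSeries L'} (hθ : IsTh i q M N (zL L' ζ) θ₁)
    (hπ : Prime π) (hqπ : (q : O) = π)
    [FiniteDimensional (Kt L p κ) (F0 L M)] [Algebra.IsSeparable (Kt L p κ) (F0 L M)]
    [FiniteDimensional (Kt L p κ) (F0 L N)] [Algebra.IsSeparable (Kt L p κ) (F0 L N)]
    (D : L2 (O := O) (L := L) (O' := O') (L' := L') (K := Kt L p κ) (F := F0 L N) (F0 L M) q
      (tK L p κ) (tS O p κ) (algebraMap (F0 L N) (LaurentSeries L)) θ₁ i i' ζ
      (B.wF2 ι hq hN)) (ht : IsParam O (tK L p κ))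
    {c : ℕ → ℤ[X]} {C₀ : ℤ} {X₁ : F0 L N} (hX₁ : (X₁ : LaurentSeries L) = qExpand L q (tS L p κ))
    (T : Tri (M := F0 L M) ht hπ q c C₀ D.PP (B.wF2 ι hq hN) X₁)
    {a1 : F0 L N} {a2 cc d : F0 L N}
    (hNC : NC (algebraMap (Kt L p κ) (F0 L N) (tK L p κ)) π q D.PP (B.wF2 ι hq hN)
          a1 a2 cc d)
    (hND : NormD (O := O) (M := F0 L M)
        (algebraMap (Kt L p κ) (F0 L N) (tK L p κ)) q D.PP a1 (sub1 L hN) (nmF L hN))
    (hnd : Vl (D.PP 0) (algebraMap O (F0 L N) π)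
        (nmF L hN (B.wF2 ι hq hN (algebraMap (Kt L p κ) (F0 L N) (tK L p κ)) -
          algebraMap (Kt L p κ) (F0 L N) (tK L p κ))) 1)
    {E : Type u} [Field E] [Algebra O E] [Algebra (Kt L p κ) E] [Algebra (F0 L N) E]
    [IsScalarTower O (Kt L p κ) E] [IsScalarTower (Kt L p κ) (F0 L N) E]
    [IsScalarTower O (F0 L N) E]
    [FiniteDimensional (Kt L p κ) E] [Algebra.IsSeparable (Kt L p κ) E]
    [FiniteDimensional (F0 L N) E] [IsGalois (F0 L N) E]
    (hinj : Function.Injective (algebraMap O E))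
    (hO : ∀ x : E, IsIntegral O x → ∃ o : O, algebraMap O E o = x)
    {m : ℕ} (hmu : IsUnit (m : O)) (hm : 0 < m) (hqm : Nat.Coprime q m)
    {ζm : O} (hζ : IsPrimitiveRoot ζm m) (hroot : ∀ u : O, IsUnit u → ∃ v : O, v ^ m = u)
    {y : E} {h₀ : F0 L N} (hy : y ^ m = algebraMap (F0 L N) E h₀) (h₀ne : h₀ ≠ 0)
    (hN1 : NmP π (nmF L hN) m h₀) (hN2 : NmP π (nmF L hN) m (B.wF2 ι hq hN h₀))
    (hor : Hor π m h₀)
    {y' : LaurentSeries L} (hy' : y' ^ m = (h₀ : LaurentSeries L)) :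
    ∃ a : F0 L N, y ^ ((q ^ 2 - 1) ^ 2) = algebraMap (F0 L N) E a := by
  obtain ⟨Z, hZ, hs⟩ := exists_ps_inv (L := L) (p := p) (κ := κ)
  have cEt : ((algebraMap (Kt L p κ) (F0 L N) (tK L p κ) : F0 L N) : LaurentSeries L) =
      tS L p κ := C.KF (tK L p κ)
  refine main_abs' (θ := algebraMap (F0 L N) (LaurentSeries L)) T hNC hND hnd D.θC (Z := Z) ?_ hZ
    ?_ hinj hO hmu hm hqm hζ hroot hy h₀ne hN1 hN2 hor (y' := y') hy'
  · rw [map_inv₀, map_inv₀]
    change ((algebraMap (Kt L p κ) (F0 L N) (tK L p κ) : F0 L N) : LaurentSeries L)⁻¹ = _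
    rw [cEt, hs]
  · rw [map_div₀, map_pow]
    have h1 := D.θw (algebraMap (Kt L p κ) (F0 L M) (tK L p κ))
    rw [← IsScalarTower.algebraMap_apply (Kt L p κ) (F0 L M) (F0 L N)] at h1
    rw [h1]
    change Un O (qExpand L (q ^ 2) ((algebraMap (Kt L p κ) (F0 L N) (tK L p κ) : F0 L N) :
      LaurentSeries L) / (X₁ : LaurentSeries L) ^ q)
    rw [cEt, hX₁]
    exact un_quot

end Fermat.Agent.CA
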