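import Mathlib
import Fermat.Agent.CA.CarG
import Fermat.Agent.LG.Pow4
import Fermat.Agent.LG.KX4

/-!
The hypotheses on the norm and on the horizontal divisor.
-/

set_option autoImplicit false
set_option linter.unusedSectionVars false
set_option linter.unusedVariables false

open IsLocalRing Polynomial ModularCurve IntermediateField

noncomputable section

universe u

namespace Fermat.Agent.CA

open Fermat.Agent.Geo Fermat.Agent.LG Fermat.Agent.ModFun
open CongruenceSubgroup (Gamma0)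

section

variable {O L : Type u} [CommRing O] [IsDomain O] [IsDiscreteValuationRing O] [Field L]
  [Algebra O L] [IsFractionRing O L]

theorem exists_zpow_unit {π : O} (hπ : Prime π) {z : L} (hz0 : z ≠ 0) :
    ∃ (k : ℤ) (v : Oˣ), z = algebraMap O L π ^ k * algebraMap O L v := by
  have hπ0 : algebraMap O L π ≠ 0 := by
    rw [Ne, map_eq_zero_iff _ (IsFractionRing.injective O L)]
    exact hπ.ne_zero
  obtain ⟨a, b, hb, rfl⟩ := IsFractionRing.div_surjective (A := O) z
  have hb0 : b ≠ 0 := nonZeroDivisors.ne_zero hb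
  have ha0 : a ≠ 0 := by
    rintro rfl
    rw [map_zero, zero_div] at hz0
    exact hz0 rfl
  obtain ⟨i, ua, hua⟩ := IsDiscreteValuationRing.eq_unit_mul_pow_irreducible ha0 hπ.irreducible
  obtain ⟨j, ub, hub⟩ := IsDiscreteValuationRing.eq_unit_mul_pow_irreducible hb0 hπ.irreducible
  refine ⟨i - j, ua * ub⁻¹, ?_⟩
  have h1 : algebraMap O L (ub⁻¹ : Oˣ) * algebraMap O L ub = 1 := by
    rw [← map_mul, Units.inv_mul, map_one]
  have h2 : algebraMap O L ub ≠ 0 := right_ne_zero_of_mul_eq_one h1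
  have h3 : algebraMap O L (ub⁻¹ : Oˣ) = (algebraMap O L ub)⁻¹ := eq_inv_of_mul_eq_one_left h1
  rw [hua, hub, zpow_sub₀ hπ0, zpow_natCast, zpow_natCast, map_mul, map_mul, map_pow, map_pow,
    Units.val_mul, map_mul, h3]
  field_simp

end

section

variable {O L : Type u} [CommRing O] [IsDomain O] [IsDiscreteValuationRing O]
    [Field L] [Algebra O L] [IsFractionRing O L] {q M N : ℕ} [NeZero q] [NeZero M] [NeZero N]
    {π : O} [Algebra O (F0 L N)]

theorem L_eq (OF : ∀ a : O, ((algebraMap O (F0 L N) a : F0 L N) : LaurentSeries L) =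
    HahnSeries.C (algebraMap O L a)) (hπ : Prime π) {z : L} (hz0 : z ≠ 0) :
    ∃ (k : ℤ) (v : Oˣ), algebraMap L (F0 L N) z =
      algebraMap O (F0 L N) π ^ k * algebraMap O (F0 L N) v := by
  obtain ⟨k, v, rfl⟩ := exists_zpow_unit hπ hz0
  refine ⟨k, v, ?_⟩
  have h : ∀ a : O, algebraMap O (F0 L N) a = algebraMap L (F0 L N) (algebraMap O L a) :=
    fun a => Subtype.ext ((OF a).trans (coe_algebraMap_L _ _).symm)
  rw [map_mul, map_zpow₀, h, h]

/-- `PowC` in terms of the norm -/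
theorem nmP_of_powC (hN : N = q ^ 2 * M)
    (OF : ∀ a : O, ((algebraMap O (F0 L N) a : F0 L N) : LaurentSeries L) =
      HahnSeries.C (algebraMap O L a)) {m : ℕ} {h : F0 L N} (hπ : Prime π)
    (hP : PowC hN m h) : NmP π (nmF L hN) m h := by
  obtain ⟨H, hH, a, ha, e⟩ := hP
  obtain ⟨k, v, hv⟩ := L_eq OF hπ ha
  refine ⟨k, v, inc1 L hN H, v.isUnit, ?_⟩
  have e1 : nmF L hN h = inc1 L hN (nrm hN h) := rfl
  have e2 : inc1 L hN (algebraMap L (F0 L (q * M)) a) = algebraMap L (F0 L N) a := by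
    apply Subtype.ext
    rw [coe_inc1, coe_algebraMap_L, coe_algebraMap_L]
  rw [e1, e, map_mul, map_pow, e2, hv]

theorem hor_of_isPar (OF : ∀ a : O, ((algebraMap O (F0 L N) a : F0 L N) : LaurentSeries L) =
      HahnSeries.C (algebraMap O L a)) (hπ : Prime π) {ι : L →+* ℂ}
    (hNE : NoEll N) {χ : Gamma0 N →* ℂˣ} (hχ : IsPar χ) {m : ℕ} (hm : 0 < m) (hχm : χ ^ m = 1)
    {y : LaurentSeries L} (hy : XSer ι N χ y) (hy0 : y ≠ 0) :
    Hor π m (⟨y ^ m, hy.pow_mem_F0 hχm⟩ : F0 L N) := by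
  intro V hV h1 h2
  refine exists_unit_of_isPar ι hNE hχ hm hχm hy hy0 V hV fun a => ?_
  by_cases ha : a = 0
  · rw [ha, map_zero]
    exact V.zero_mem
  obtain ⟨k, v, hv⟩ := L_eq OF hπ ha
  rw [hv]
  refine V.mul_mem _ _ ?_ (h1 _)
  cases k with
  | ofNat k => rw [Int.ofNat_eq_natCast, zpow_natCast]; exact pow_mem (h1 π) _
  | negSucc k =>
    rw [zpow_negSucc, ← inv_pow]
    exact pow_mem h2 _

end

end Fermat.Agent.CA
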