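import Mathlib
import Fermat.Agent.LG.KX6

/-!
The Kummer extension attached to a character.
-/

set_option autoImplicit false
set_option linter.unusedSectionVars false
set_option linter.unusedVariables false

noncomputable section

universe u

namespace Fermat.Agent.CA

open IntermediateField
open Fermat.Agent.ModFun Fermat.Agent.ESCore Fermat.Agent.FunField Fermat.Agent.Geo
open Fermat.Agent.LG
open CongruenceSubgroup (Gamma0 Gamma0_mem)

theorem exists_cover {L : Type u} [Field L] [CharZero L] {ι : L →+* ℂ} {N : ℕ} [NeZero N]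
    {χ : Gamma0 N →* ℂˣ} {m : ℕ} (hm : 0 < m) (hχm : χ ^ m = 1)
    {ζ : L} (hζ : IsPrimitiveRoot ζ m) {y : LaurentSeries L} (hy : XSer ι N χ y) (hy0 : y ≠ 0) :
    ∃ (E : IntermediateField L (LaurentSeries L)) (h : F0 L N ≤ E), y ∈ E ∧
      letI := algI h
      FiniteDimensional (F0 L N) E ∧ IsGalois (F0 L N) E := by
  have hfin : IsOfFinOrder χ := isOfFinOrder_iff_pow_eq_one.mpr ⟨m, hm, hχm⟩
  have hX : Finite (Subgroup.zpowers χ) := by
    have := finite_zpowers.mpr hfin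
    exact this.to_subtype
  have hj : ∀ ψ : Subgroup.zpowers χ, ∃ j : ℕ, χ ^ j = ψ.1 ∧ (ψ.1 = χ → j = 1) := by
    intro ψ
    by_cases h : ψ.1 = χ
    · exact ⟨1, (pow_one χ).trans h.symm, fun _ => rfl⟩
    · obtain ⟨j, hj⟩ := Submonoid.mem_powers_iff _ _ |>.mp
        (hfin.mem_powers_iff_mem_zpowers.mpr ψ.2)
      exact ⟨j, hj, fun h' => absurd h' h⟩
  choose j hj1 hj2 using hj
  let yy : Subgroup.zpowers χ → LaurentSeries L := fun ψ => y ^ j ψ
  have h1 : ∀ ψ, yy ψ ≠ 0 := fun ψ => pow_ne_zero _ hy0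
  have h2 : ∀ ψ : Subgroup.zpowers χ, XSer ι N (ψ : Gamma0 N →* ℂˣ) (yy ψ) := by
    intro ψ
    have := hy.pow (j ψ)
    rwa [hj1] at this
  have h3 : ∀ ψ ∈ Subgroup.zpowers χ, ψ ^ m = 1 := by
    rintro ψ ⟨k, rfl⟩
    have e1 : (χ ^ k) ^ m = (χ ^ m) ^ k := by
      have a1 : (χ ^ k) ^ m = χ ^ (k * m) := (zpow_natCast _ m).symm.trans (zpow_mul χ k m).symm
      have a2 : (χ ^ m) ^ k = χ ^ ((m : ℤ) * k) :=
        (congrArg (· ^ k) (zpow_natCast χ m).symm).trans (zpow_mul χ m k).symm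
      rw [a1, a2, mul_comm]
    have e2 : (χ ^ m) ^ k = 1 := by
      rw [hχm]
      exact one_zpow (α := Gamma0 N →* ℂˣ) k
    exact e1.trans e2
  have hk := kumData (ι := ι) (N := N) (y := yy) hm hζ h3 h1 h2
  refine ⟨coverE N yy, F0_le_coverE, ?_, ?_⟩
  · have := mem_coverE (N := N) (y := yy) ⟨χ, Subgroup.mem_zpowers χ⟩
    have e : yy ⟨χ, Subgroup.mem_zpowers χ⟩ = y := by
      change y ^ j _ = y
      rw [hj2 _ rfl, pow_one]
    rwa [e] at this
  · let _ := algI (F0_le_coverE (N := N) (y := yy))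
    haveI : CharZero (F0 L N) := charZero_of_injective_algebraMap (algebraMap L (F0 L N)).injective
    exact ⟨hk.finiteDimensional, hk.isGalois⟩

end Fermat.Agent.CA
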