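import Mathlib
import Fermat.Agent.CA.L2d
import Fermat.Agent.CA.Conc0
import Fermat.Agent.LG.Conc3
import Fermat.Agent.LG.Th3
import Fermat.Agent.LG.Pow4

/-!
The concrete setting: the three components of the function field of level `q² M`.
-/

set_option autoImplicit false
set_option linter.unusedSectionVars false
set_option linter.unusedVariables false

open IsLocalRing Polynomial ModularCurve IntermediateField

noncomputable section

universe u

namespace Fermat.Agent.CA

open Fermat.Agent.Geo Fermat.Agent.LG Fermat.Agent.ModFun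
open Fermat.Agent.ESCore (HauptFn haupt2 haupt3)

section Aux

variable {L O' L' : Type u} [Field L] [CommRing O'] [IsDomain O']
    [IsDiscreteValuationRing O'] [Field L'] [Algebra O' L'] [IsFractionRing O' L']
    {q M N : ℕ} [NeZero q] [NeZero M] [NeZero N] {i : L →+* L'} {ζ : O'ˣ}

theorem C_mem_gK' (a : L') : (HahnSeries.C a : LaurentSeries L') ∈ gK O' L' := by
  have h1 : algebraMap L' (LaurentSeries L') a ∈ gKI O' L' := (gKI O' L').algebraMap_mem a
  rw [ModularCurve.algebraMap_laurentSeries_eq_single] at h1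
  exact h1

theorem jq_mem_gK (d : ℕ) [NeZero d] : qExpand L' d (jqModC L') ∈ gK O' L' := by
  have h2 : qExpand L' d (jqModC L') = toL O' L' (qExpand O' d (jqModC O')) := by
    rw [toL, ModFun.coeffMap_qExpand, coeffMap_jqModC]
  rw [h2]
  exact toL_mem_gK _

theorem th_mem_gK (hq : q.Prime) (hN : N = q ^ 2 * M) {θ₁ : F0 L N →+* LaurentSeries L'}
    (hθ : IsTh i q M N (zL L' ζ) θ₁) (x : F0 L N) : θ₁ x ∈ gK O' L' := by
  obtain ⟨y, hy⟩ := x
  induction hy using IntermediateField.adjoin_induction with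
  | mem x hx =>
    obtain ⟨d, hd0, hd, rfl⟩ := hx
    have hd' : d ∣ q ^ 2 * M := hN ▸ hd
    rcases sq_dvd_cases' hq hd' with h | ⟨e, he, rfl⟩
    · rw [hθ.low d h]
      exact jq_mem_gK d
    · have : NeZero e := ⟨by rintro rfl; exact NeZero.ne (q ^ 2 * 0) (Nat.mul_zero _)⟩
      rw [hθ.out e he]
      exact twist_gK (jq_mem_gK e)
  | algebraMap a =>
    have h1 : (⟨algebraMap L (LaurentSeries L) a, IntermediateField.algebraMap_mem _ a⟩ : F0 L N) =
      algebraMap L (F0 L N) a := rfl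
    rw [h1, hθ.C]
    exact C_mem_gK' _
  | add x y hx hy h1 h2 =>
    have := add_mem h1 h2
    rwa [← map_add] at this
  | inv x hx h1 =>
    have := inv_mem h1
    rwa [← map_inv₀] at this
  | mul x y hx hy h1 h2 =>
    have := mul_mem h1 h2
    rwa [← map_mul] at this

end Aux

section Deg

variable {K : Type u} [Field K] {q M N : ℕ} [NeZero q] [NeZero M] [NeZero N]

theorem psi_sq' (hq : q.Prime) (hqM : ¬ q ∣ M) :
    dedekindPsi (q ^ 2 * M) = dedekindPsi M * (q ^ 2 + q) := by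
  have hco : q.Coprime M := (Nat.Prime.coprime_iff_not_dvd hq).mpr hqM
  rw [Fermat.Agent.Gamma0Comb.dedekindPsi_mul (hco.pow_left 2)]
  have h2 := Fermat.Agent.Gamma0Comb.dedekindPsi_prime_pow hq 1
  rw [show q ^ 2 = q ^ (1 + 1) by norm_num, h2]
  ring

/-- the degree of `X₀(q²M)` over `X₀(M)` -/
theorem finrank_lev (ι : K →+* ℂ) (hq : q.Prime) (hqM : ¬ q ∣ M) (hN : N = q ^ 2 * M) :
    letI := algI (F0_mono (K := K) (dvd_sq₁ hN))
    FiniteDimensional (F0 K M) (F0 K N) ∧ Module.finrank (F0 K M) (F0 K N) = q ^ 2 + q := by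
  obtain ⟨h1, h2⟩ := finrank_LJ ι M
  obtain ⟨h3, h4⟩ := finrank_LJ ι N
  have t := tower_I (LJ_le_F0 (K := K) M) (F0_mono (K := K) (dvd_sq₁ hN))
    (LJ_le_F0 (K := K) N)
  have h5 : dedekindPsi N = dedekindPsi M * (q ^ 2 + q) := by
    rw [hN, psi_sq' hq hqM]
  rw [h5] at h4
  exact @finrank_quot (LJ K) (F0 K M) (F0 K N) _ _ _
    (algI (LJ_le_F0 (K := K) M)) (algI (F0_mono (K := K) (dvd_sq₁ hN)))
    (algI (LJ_le_F0 (K := K) N)) t h1 h3 _ _ h2 h4

end Deg

section Pow

theorem qExpand_sq_tS {k : Type u} [Field k] {q p : ℕ} [NeZero q] [Fact p.Prime] {κ : ℤ}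
    [ExpChar k q] : qExpand k (q ^ 2) (tS k p κ) = tS k p κ ^ (q ^ 2) := by
  have h : ∀ (n : ℕ) [NeZero n], n = q * q → qExpand k n (tS k p κ) =
      qExpand k q (qExpand k q (tS k p κ)) := by
    intro n hn h
    subst h
    rw [qExpand_qExpand]
  rw [h (q ^ 2) (sq q), ← tS_pow, map_pow, ← tS_pow, ← pow_mul, sq]

end Pow

section Main

variable {O L O' L' : Type u} [CommRing O] [IsDomain O] [IsDiscreteValuationRing O]
    [Field L] [Algebra O L] [IsFractionRing O L] [CommRing O'] [IsDomain O']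
    [IsDiscreteValuationRing O'] [Field L'] [Algebra O' L'] [IsFractionRing O' L']
    {q M N p : ℕ} [NeZero q] [NeZero M] [NeZero N] [Fact p.Prime] {κ : ℤ}
    {i : L →+* L'} {i' : O →+* O'} {ζ : O'ˣ} {ι : L →+* ℂ} {ι' : L' →+* ℂ} {π : O}
    {H : HauptFn p κ} {S : Set ℤ} {k : ℕ} {P : Polynomial ℤ}
    [instOK : Algebra O (Kt L p κ)] [instOM : Algebra O (F0 L M)] [instOF : Algebra O (F0 L N)]
    [instKM : Algebra (Kt L p κ) (F0 L M)] [instKF : Algebra (Kt L p κ) (F0 L N)]
    [instMF : Algebra (F0 L M) (F0 L N)]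
    [IsScalarTower O (Kt L p κ) (F0 L M)] [IsScalarTower O (Kt L p κ) (F0 L N)]
    [IsScalarTower O (F0 L M) (F0 L N)] [IsScalarTower (Kt L p κ) (F0 L M) (F0 L N)]

/-- (T1) the concrete `L2` -/
theorem l2_conc (C : Cpt O (Kt L p κ) (F0 L M) (F0 L N)) (B : Bez (q ^ 2) M)
    (hH : HautData H S k P) (hι : ι'.comp i = ι)
    {ζM : Lˣ} (hζM : ι ζM = Complex.exp (2 * Real.pi * Complex.I / M)) (hMu : IsUnit (M : O))
    (hπ : Prime π)
    (hS : ∀ c ∈ S, ∀ c' ∈ S, c ≠ c' → IsUnit ((c - c' : ℤ) : O))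
    [PerfectField (ResidueField O)] [ExpChar (ResidueField O) q]
    (hq0 : (q : ResidueField O) = 0) (hq : q.Prime) (hqp : ¬ q ∣ p)
    (hN : N = q ^ 2 * M) (hqM : ¬ q ∣ M) (hpM : p ∣ M)
    (comp : ∀ a, i (algebraMap O L a) = algebraMap O' L' (i' a)) (loc : IsLocalHom i')
    (inj' : Function.Injective i') (hζ : IsPrimitiveRoot ζ q) (ζirr : Irreducible ((ζ : O') - 1))
    (ζpow : ∃ v : O'ˣ, ((ζ : O') - 1) ^ (q - 1) = v * q)
    {θ₁ : F0 L N →+* LaurentSeries L'} (hθ : IsTh i q M N (zL L' ζ) θ₁) :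
    L2 (O := O) (L := L) (O' := O') (L' := L') (K := Kt L p κ) (F := F0 L N) (F0 L M) q
      (tK L p κ) (tS O p κ) (algebraMap (F0 L N) (LaurentSeries L)) θ₁ i i' ζ
      (B.wF2 ι hq hN) := by
  have hle1 : Kt L p κ ≤ F0 L M := Kt_le_F0 H ι hpM
  have hle2 : F0 L M ≤ F0 L N := F0_mono (dvd_sq₁ hN)
  have hle3 : Kt L p κ ≤ F0 L N := hle1.trans hle2
  -- the algebra structures are the standard ones
  have eOK : instOK = algO O (Kt L p κ) := Algebra.algebra_ext _ _ fun a =>
    Subtype.ext ((C.OK a).trans (coe_algO O (Kt L p κ) a).symm)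
  have eOM : instOM = algO O (F0 L M) := Algebra.algebra_ext _ _ fun a =>
    Subtype.ext ((C.OM a).trans (coe_algO O (F0 L M) a).symm)
  have eOF : instOF = algO O (F0 L N) := Algebra.algebra_ext _ _ fun a =>
    Subtype.ext ((C.OF a).trans (coe_algO O (F0 L N) a).symm)
  have eKM : instKM = algI hle1 := Algebra.algebra_ext _ _ fun a =>
    Subtype.ext ((C.KM a).trans (coe_algI hle1 a).symm)
  have eKF : instKF = algI hle3 := Algebra.algebra_ext _ _ fun a =>
    Subtype.ext ((C.KF a).trans (coe_algI hle3 a).symm)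
  have eMF : instMF = algI hle2 := Algebra.algebra_ext _ _ fun a =>
    Subtype.ext ((C.MF a).trans (coe_algI hle2 a).symm)
  subst eOK eOM eOF eKM eKF eMF
  let _ := algO O (Kt L p κ)
  let _ := algO O (F0 L M)
  let _ := algO O (F0 L N)
  let _ := algI hle1
  let _ := algI hle2
  let _ := algI hle3
  obtain ⟨ht, -, hfin, -, e, he, hind⟩ := goodRed_F0 ι hζM hMu hπ hpM hH hS hle1
  have hfrM := finrank_lev (K := L) ι hq hqM hN
  exact
    { prime := hq
      q0 := hq0
      hgK := fun x => F0_le_gK x.2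
      hgK' := fun x => th_mem_gK hq hN hθ x
      θC := fun a => coe_algO O (F0 L N) a
      θt := toL_tS.symm
      trans := fun P hP => eval₂_tS_eq_zero (p := p) (κ := κ) (by rw [← toK_tS (O := O)]; exact hP)
      lead := by
        rw [toK_tS]
        exact coeff_tS_neg_one
      lead' := fun n hn => coeff_tS_of_lt hn
      wC := fun a => B.wF2_C hq hN _
      ww := fun x => B.wF2_wF2 hq hN x
      θw := fun x => B.wF2_level hq hN x
      Tq := by
        rw [toK_tS]
        exact qExpand_sq_tS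
      comp := comp
      loc := loc
      inj' := inj'
      θ₁M := fun x => by
        have h1 : inclusion (F0_mono (K := L) (dvd_sq₂ hN))
            (inclusion (F0_mono (K := L) (dvd_mul_left M q)) x) = algebraMap (F0 L M) (F0 L N) x :=
          Subtype.ext rfl
        rw [← h1]
        exact hθ.low_eq hN _
      θ₁w := fun x => by
        have hm : qExpand L (q ^ 2) (x : LaurentSeries L) ∈ F0 L N :=
          qExpand_mem_F0_of_dvd (hN ▸ dvd_rfl) x.2
        have h1 : B.wF2 ι hq hN (algebraMap (F0 L M) (F0 L N) x) = ⟨_, hm⟩ :=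
          Subtype.ext (B.wF2_level hq hN x)
        rw [h1]
        exact hθ.out_eq hN x hm
      ζirr := ζirr
      ζpow := ζpow
      deg := by
        rw [← Module.finrank_mul_finrank (Kt L p κ) (F0 L M) (F0 L N), hfrM.2]
      bas := ⟨e, he, fun P hP i => hind P (by rw [toK_tS] at hP; exact hP) i⟩ }

end Main

end Fermat.Agent.CA
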