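import Mathlib
import Fermat.Agent.CA.L2d
import Fermat.Agent.CA.Conc0
import Fermat.Agent.CA.NormPt
import Fermat.Agent.CA.ValZ
import Fermat.Agent.LG.Conc3
import Fermat.Agent.LG.Th3
import Fermat.Agent.LG.Pow4

/-!
The norm from the level `q²M` to the level `qM` and the three components.
-/

set_option autoImplicit false
set_option linter.unusedSectionVars false
set_option linter.unusedVariables false

open IsLocalRing Polynomial ModularCurve IntermediateField

noncomputable section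

universe u

namespace Fermat.Agent.CA

open Fermat.Agent.Geo Fermat.Agent.LG Fermat.Agent.ModFun
open Fermat.Agent.ESCore (HauptFn haupt2 haupt3)

section RC

variable {O L : Type u} [CommRing O] [IsDomain O] [IsDiscreteValuationRing O] [Field L]
  [Algebra O L] [IsFractionRing O L]

variable (O) in
/-- units of `gV` with the same reduction -/
def RC (a b : LaurentSeries L) : Prop :=
  ∃ (ha : a ∈ gV O L) (hb : b ∈ gV O L), gR (⟨a, ha⟩ : gV O L) = gR ⟨b, hb⟩ ∧
    gR (⟨b, hb⟩ : gV O L) ≠ 0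

theorem RC.mul {a b a' b' : LaurentSeries L} (h : RC O a b) (h' : RC O a' b') :
    RC O (a * a') (b * b') := by
  obtain ⟨ha, hb, h1, h2⟩ := h
  obtain ⟨ha', hb', h1', h2'⟩ := h'
  have e : gR (⟨a * a', mul_mem ha ha'⟩ : gV O L) = gR ⟨a, ha⟩ * gR ⟨a', ha'⟩ := by
    rw [← map_mul]; rfl
  have e' : gR (⟨b * b', mul_mem hb hb'⟩ : gV O L) = gR ⟨b, hb⟩ * gR ⟨b', hb'⟩ := by
    rw [← map_mul]; rfl
  refine ⟨mul_mem ha ha', mul_mem hb hb', ?_, ?_⟩
  · rw [e, e', h1, h1']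
  · rw [e']
    exact mul_ne_zero h2 h2'

theorem RC.one : RC O (1 : LaurentSeries L) 1 := by
  have e : (⟨1, one_mem _⟩ : gV O L) = 1 := rfl
  refine ⟨one_mem _, one_mem _, rfl, ?_⟩
  rw [e, map_one]
  exact one_ne_zero

theorem RC.prod {ι : Type*} (s : Finset ι) {f g : ι → LaurentSeries L}
    (h : ∀ k ∈ s, RC O (f k) (g k)) : RC O (∏ k ∈ s, f k) (∏ k ∈ s, g k) := by
  classical
  induction s using Finset.induction_on with
  | empty => simpa using RC.one
  | insert a s ha ih =>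
    rw [Finset.prod_insert ha, Finset.prod_insert ha]
    exact (h a (Finset.mem_insert_self _ _)).mul
      (ih fun k hk => h k (Finset.mem_insert_of_mem hk))

theorem uc_iff_rc {E : Type u} [Field E] {θ : E →+* LaurentSeries L} {hθ : ∀ x, θ x ∈ gK O L}
    {a b : E} : UC (gW θ hθ) a b ↔ RC O (θ a) (θ b) := by
  constructor
  · intro h
    have ha : θ a ∈ gV O L := h.mem
    have hb : θ b ∈ gV O L := h.mem'
    have hs : θ (a - b) ∈ gV O L := by rw [map_sub]; exact sub_mem ha hb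
    have h1 := (mem_nonunits_iff_gR (hθ := hθ) hs).mp h.sub
    have h2 : (⟨θ (a - b), hs⟩ : gV O L) = ⟨θ a, ha⟩ - ⟨θ b, hb⟩ := Subtype.ext (map_sub _ _ _)
    rw [h2, map_sub, sub_eq_zero] at h1
    exact ⟨ha, hb, h1, fun h0 => h.notMem' ((mem_nonunits_iff_gR (hθ := hθ) hb).mpr h0)⟩
  · rintro ⟨ha, hb, h1, h2⟩
    have ha0 : a ≠ 0 := by
      rintro rfl
      apply h2
      rw [← h1]
      have : (⟨θ 0, ha⟩ : gV O L) = 0 := Subtype.ext (map_zero _)
      rw [this, map_zero]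
    refine ⟨ha0, ha, ?_, ?_⟩
    · change θ a⁻¹ ∈ gV O L
      rw [map_inv₀]
      exact isUnit_of_gR_ne_zero (x := ⟨θ a, ha⟩) (by rw [h1]; exact h2)
    · have hs : θ (a - b) ∈ gV O L := by rw [map_sub]; exact sub_mem ha hb
      refine (mem_nonunits_iff_gR (hθ := hθ) hs).mpr ?_
      have h3 : (⟨θ (a - b), hs⟩ : gV O L) = ⟨θ a, ha⟩ - ⟨θ b, hb⟩ := Subtype.ext (map_sub _ _ _)
      rw [h3, map_sub, h1, sub_self]

end RC

section Map

variable {O L O' L' : Type u} [CommRing O] [IsDomain O] [IsDiscreteValuationRing O] [Field L]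
  [Algebra O L] [IsFractionRing O L] [CommRing O'] [IsDomain O'] [IsDiscreteValuationRing O']
  [Field L'] [Algebra O' L'] [IsFractionRing O' L'] {i : L →+* L'} {i' : O →+* O'}
  [IsLocalHom i']

theorem rc_coeffMap (comp : ∀ a, i (algebraMap O L a) = algebraMap O' L' (i' a))
    {a b : LaurentSeries L} (ha : a ∈ gK O L) (hb : b ∈ gK O L) :
    RC O' (coeffMap i a) (coeffMap i b) ↔ RC O a b := by
  constructor
  · rintro ⟨ha', hb', h1, h2⟩
    have hav := (coeffMap_gV_iff comp ha).mp ha'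
    have hbv := (coeffMap_gV_iff comp hb).mp hb'
    obtain ⟨ha2, ha3⟩ := coeffMap_gV comp hav
    obtain ⟨hb2, hb3⟩ := coeffMap_gV comp hbv
    rw [ha3, hb3] at h1
    refine ⟨hav, hbv, coeffMap_inj' (ResidueField.map i').injective h1, fun h0 => h2 ?_⟩
    rw [hb3, h0, map_zero]
  · rintro ⟨ha', hb', h1, h2⟩
    obtain ⟨ha2, ha3⟩ := coeffMap_gV comp ha'
    obtain ⟨hb2, hb3⟩ := coeffMap_gV comp hb'
    refine ⟨ha2, hb2, by rw [ha3, hb3, h1], fun h0 => h2 ?_⟩
    rw [hb3] at h0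
    exact coeffMap_inj' (ResidueField.map i').injective (h0.trans (map_zero _).symm)

theorem rc_twist {ζ : O'ˣ} (hζ : residue O' ζ = 1) {y : LaurentSeries L'}
    (hy : RC O' y y) : RC O' (twist (zL L' ζ) y) y := by
  obtain ⟨h1, h2, -, h3⟩ := hy
  obtain ⟨h4, h5⟩ := twist_gV (L := L') hζ h1
  exact ⟨h4, h1, h5, h3⟩

end Map

section

variable {L : Type u} {O' L' : Type u} [Field L] [CommRing O'] [IsDomain O']
    [IsDiscreteValuationRing O'] [Field L'] [Algebra O' L'] [IsFractionRing O' L']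
    {q M N : ℕ} [NeZero q] [NeZero M] [NeZero N] {i : L →+* L'} {ζ : O'ˣ}

theorem isTh_gK (hq : q.Prime) (hN : N = q ^ 2 * M) {θ : F0 L N →+* LaurentSeries L'}
    (h : IsTh i q M N (zL L' ζ) θ) (x : F0 L N) : θ x ∈ gK O' L' := by
  let S : Subfield (LaurentSeries L') := (gKI O' L').toSubfield
  let J : IntermediateField L (LaurentSeries L) :=
    ((S.comap θ).map (F0 L N).val.toRingHom).toIntermediateField (by
      intro a
      refine ⟨algebraMap L (F0 L N) a, ?_, rfl⟩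
      change θ _ ∈ gK O' L'
      rw [h.C]
      exact C_mem_gK _)
  have key : F0 L N ≤ J := by
    rw [IntermediateField.adjoin_le_iff]
    rintro y ⟨d, hd0, hd, rfl⟩
    have hm : ModularCurve.qExpand L d (ModularCurve.jqModC L) ∈ F0 L N :=
      subset_adjoin _ _ (gens_dvd hd)
    refine ⟨⟨_, hm⟩, ?_, rfl⟩
    change θ ⟨_, hm⟩ ∈ gK O' L'
    have hjq : ∀ (e : ℕ) [NeZero e], ModularCurve.qExpand L' e (ModularCurve.jqModC L') =
        toL O' L' (ModularCurve.qExpand O' e (ModularCurve.jqModC O')) := by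
      intro e he
      rw [toL, ModularCurve.coeffMap_qExpand, coeffMap_jqModC]
    have hd' : d ∣ q ^ 2 * M := hN ▸ hd
    rcases sq_dvd_cases hq hd' with h1 | ⟨e, he, rfl⟩ | ⟨e, he, rfl⟩
    · rw [h.low d (h1.trans (dvd_mul_left _ _)) hm, hjq]
      exact toL_mem_gK _
    · rw [h.low (q * e) (mul_dvd_mul_left _ he) hm, hjq]
      exact toL_mem_gK _
    · have : NeZero e := ⟨by rintro rfl; exact NeZero.ne (q ^ 2 * 0) (Nat.mul_zero _)⟩
      rw [h.out e he hm, hjq, twist_toL]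
      exact toL_mem_gK _
  obtain ⟨y, hy, hyx⟩ := key x.2
  have : y = x := Subtype.ext hyx
  rw [← this]
  exact hy

end

theorem L2.wt_mem0 {O L O' L' K M F : Type u} [CommRing O] [IsDomain O]
    [IsDiscreteValuationRing O]
    [Field L] [Algebra O L] [IsFractionRing O L] [CommRing O'] [IsDomain O']
    [IsDiscreteValuationRing O'] [Field L'] [Algebra O' L'] [IsFractionRing O' L']
    [Field K] [Field M] [Field F] [Algebra O K] [Algebra O M] [Algebra O F] [Algebra K M]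
    [Algebra K F] [Algebra M F] [IsScalarTower O K M] [IsScalarTower O K F]
    [IsScalarTower K M F] [IsScalarTower O M F] {q : ℕ} [NeZero q] {t : K} {T : LaurentSeries O}
    {θ : F →+* LaurentSeries L} {θ₁ : F →+* LaurentSeries L'} {i : L →+* L'} {i' : O →+* O'}
    {ζ : O'ˣ} {w : F ≃+* F} (D : L2 M q t T θ θ₁ i i' ζ w) : w (algebraMap K F t) ∈ D.P0 := by
  change θ (w _) ∈ gV O L
  rw [L2.tM (M := M), D.θw, ← L2.tM (M := M), D.θt, ← L2.toL_qExpand]
  exact toL_mem_gV _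

theorem finrank_sub_pow {L : Type u} [Field L] {q M N : ℕ} [NeZero q] [NeZero M] [NeZero N]
    (ι : L →+* ℂ) (hq : q.Prime) (hN : N = q ^ 2 * M) (hqM : ¬ q ∣ M)
    (x : F0 L (q * M)) : nrm hN (inc1 L hN x) = x ^ q := by
  letI : Algebra (F0 L (q * M)) (F0 L N) := algI (F0_le_sq (K := L) (q := q) (M := M) hN)
  obtain ⟨hfd, hfr⟩ := finrank_sq (K := L) ι hq hqM hN
  haveI : Module.Free (F0 L (q * M)) (F0 L N) := Module.Free.of_divisionRing _ _
  have h : Algebra.norm (F0 L (q * M)) (algebraMap (F0 L (q * M)) (F0 L N) x) = x ^ q := by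
    rw [Algebra.norm_algebraMap, hfr]
  exact h

section Main

variable {O L O' L' : Type u} [CommRing O] [IsDomain O] [IsDiscreteValuationRing O]
    [Field L] [Algebra O L] [IsFractionRing O L] [CommRing O'] [IsDomain O']
    [IsDiscreteValuationRing O'] [Field L'] [Algebra O' L'] [IsFractionRing O' L']
    {q M N p : ℕ} [NeZero q] [NeZero M] [NeZero N] [Fact p.Prime] {κ : ℤ}
    {i : L →+* L'} {i' : O →+* O'} {ζ : O'ˣ} {ι : L →+* ℂ} {ι' : L' →+* ℂ} {π : O}
    [Algebra O (Kt L p κ)] [Algebra O (F0 L M)] [Algebra O (F0 L N)]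
    [Algebra (Kt L p κ) (F0 L M)] [Algebra (Kt L p κ) (F0 L N)] [Algebra (F0 L M) (F0 L N)]
    [IsScalarTower O (Kt L p κ) (F0 L M)] [IsScalarTower O (Kt L p κ) (F0 L N)]
    [IsScalarTower O (F0 L M) (F0 L N)] [IsScalarTower (Kt L p κ) (F0 L M) (F0 L N)]

theorem zL_isPrimitiveRoot (hζ : IsPrimitiveRoot ζ q) : IsPrimitiveRoot (zL L' ζ) q :=
  hζ.map_of_injective (Units.map_injective (IsFractionRing.injective O' L'))

theorem th_M (C : Cpt O (Kt L p κ) (F0 L M) (F0 L N)) (hN : N = q ^ 2 * M) {ζ' : L'ˣ}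
    {θ : F0 L N →+* LaurentSeries L'} (h : IsTh i q M N ζ' θ) (x : F0 L M) :
    θ (algebraMap (F0 L M) (F0 L N) x) =
      coeffMap i (algebraMap (F0 L N) (LaurentSeries L) (algebraMap (F0 L M) (F0 L N) x)) := by
  obtain ⟨y, hy⟩ : ∃ y : F0 L (q * M), (y : LaurentSeries L) = x :=
    ⟨⟨x, F0_mono (dvd_mul_left M q) x.2⟩, rfl⟩
  have h1 := h.low_eq hN y
  obtain ⟨z, hz⟩ : ∃ z, z = algebraMap (F0 L M) (F0 L N) x := ⟨_, rfl⟩
  have hzx : (z : LaurentSeries L) = x := by rw [hz]; exact C.MF x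
  have h2 : inclusion (F0_mono (K := L) (dvd_sq₂ hN)) y = z := by
    apply Subtype.ext
    rw [hzx, ← hy]
    exact coe_inclusion _ _
  have h3 : algebraMap (F0 L N) (LaurentSeries L) z = (y : LaurentSeries L) := hzx.trans hy.symm
  rw [← hz, h3, ← h2]
  exact h1

theorem th_wM (C : Cpt O (Kt L p κ) (F0 L M) (F0 L N)) (B : Bez (q ^ 2) M) (hq : q.Prime)
    (hN : N = q ^ 2 * M) (hqM : ¬ q ∣ M) (hι : ι'.comp i = ι) {ζ' : L'ˣ}
    (hζ : IsPrimitiveRoot ζ' q)
    {θ : F0 L N →+* LaurentSeries L'} (h : IsTh i q M N ζ' θ) (x : F0 L M) :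
    θ (B.wF2 ι hq hN (algebraMap (F0 L M) (F0 L N) x)) =
      twist ζ' (coeffMap i (algebraMap (F0 L N) (LaurentSeries L)
        (algebraMap (F0 L M) (F0 L N) x))) := by
  obtain ⟨θ', h'⟩ := exists_isTh hι hq hqM hN hζ.inv
  rw [h.wF2 h' B ι hq hN hζ.pow_eq_one, th_M C hN h']

theorem exists_L2j (C : Cpt O (Kt L p κ) (F0 L M) (F0 L N)) (B : Bez (q ^ 2) M)
    (hq : q.Prime) (hN : N = q ^ 2 * M) (hqM : ¬ q ∣ M) (hι : ι'.comp i = ι)
    {θ₁ : F0 L N →+* LaurentSeries L'} (hζ : IsPrimitiveRoot ζ q)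
    (D : L2 (O := O) (L := L) (O' := O') (L' := L') (K := Kt L p κ) (F := F0 L N) (F0 L M) q
      (tK L p κ) (tS O p κ) (algebraMap (F0 L N) (LaurentSeries L)) θ₁ i i' ζ
      (B.wF2 ι hq hN)) {j : ℕ} (hj0 : 0 < j) (hjq : j < q) :
    ∃ θj : F0 L N →+* LaurentSeries L', IsTh i q M N ((zL L' ζ) ^ j) θj ∧
      L2 (O := O) (L := L) (O' := O') (L' := L') (K := Kt L p κ) (F := F0 L N) (F0 L M) q
      (tK L p κ) (tS O p κ) (algebraMap (F0 L N) (LaurentSeries L)) θj i i' (ζ ^ j)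
      (B.wF2 ι hq hN) := by
  have hcop : j.Coprime q := (Nat.Coprime.symm ((Nat.Prime.coprime_iff_not_dvd hq).mpr
    (Nat.not_dvd_of_pos_of_lt hj0 hjq)))
  have hzj : IsPrimitiveRoot (zL L' ζ ^ j) q := (zL_isPrimitiveRoot hζ).pow_of_coprime j hcop
  have hze : zL L' (ζ ^ j) = zL L' ζ ^ j := map_pow _ _ _
  obtain ⟨θj, hj⟩ := exists_isTh (i := i) hι hq hqM hN hzj
  have hζ' : IsPrimitiveRoot (ζ : O') q := IsPrimitiveRoot.coe_units_iff.mpr hζ
  obtain ⟨u, hu⟩ := hζ'.associated_sub_one_pow_sub_one_of_coprime hcop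
  refine ⟨θj, hj, ?_⟩
  exact
  { prime := D.prime
    q0 := D.q0
    hgK := D.hgK
    hgK' := fun x => isTh_gK hq hN (hze ▸ hj) x
    θC := D.θC
    θt := D.θt
    trans := D.trans
    lead := D.lead
    lead' := D.lead'
    wC := D.wC
    ww := D.ww
    θw := D.θw
    Tq := D.Tq
    comp := D.comp
    loc := D.loc
    inj' := D.inj'
    θ₁M := th_M C hN hj
    θ₁w := fun x => by
      rw [th_wM C B hq hN hqM hι hzj hj, hze]
    ζirr := by
      rw [Units.val_pow_eq_pow_val, ← hu]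
      exact (irreducible_mul_units _).mpr D.ζirr
    ζpow := by
      obtain ⟨v, hv⟩ := D.ζpow
      refine ⟨v * u ^ (q - 1), ?_⟩
      rw [Units.val_pow_eq_pow_val, ← hu, mul_pow, hv]
      push_cast
      ring
    deg := D.deg
    bas := D.bas }

/-- the reduction of a product of embeddings -/
theorem RC.of_pow {z : LaurentSeries L'} (hz : z ∈ gK O' L') {n : ℕ} (hn : 0 < n)
    (h : RC O' (z ^ n) (z ^ n)) : RC O' z z := by
  obtain ⟨h1, h1', -, h2⟩ := h
  have h3 : z ∈ gV O' L' := by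
    rcases mem_or_inv_mem hz with h3 | h3
    · exact h3
    · have e : (⟨z⁻¹, h3⟩ : gV O' L') ^ n * ⟨z ^ n, h1⟩ = 1 := by
        apply Subtype.ext
        change z⁻¹ ^ n * z ^ n = 1
        have hz0 : z ≠ 0 := by
          rintro rfl
          apply h2
          have : (⟨(0 : LaurentSeries L') ^ n, h1⟩ : gV O' L') = 0 :=
            Subtype.ext (zero_pow hn.ne')
          rw [this, map_zero]
        rw [inv_pow, inv_mul_cancel₀ (pow_ne_zero _ hz0)]
      have e2 := congrArg gR e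
      rw [map_mul, map_pow, map_one] at e2
      have h4 : gR (⟨z⁻¹, h3⟩ : gV O' L') ≠ 0 := by
        intro h0
        rw [h0, zero_pow hn.ne', zero_mul] at e2
        exact zero_ne_one e2
      have h5 := isUnit_of_gR_ne_zero h4
      change (z⁻¹)⁻¹ ∈ gV O' L' at h5
      rwa [inv_inv] at h5
  refine ⟨h3, h3, rfl, fun h0 => h2 ?_⟩
  have e : (⟨z ^ n, h1⟩ : gV O' L') = ⟨z, h3⟩ ^ n := rfl
  rw [e, map_pow, h0, zero_pow hn.ne']

theorem RC.of_mem {z : LaurentSeries L'} (h1 : z ∈ gV O' L') (h2 : z⁻¹ ∈ gV O' L')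
    (h0 : z ≠ 0) : RC O' z z := by
  refine ⟨h1, h1, rfl, fun h => ?_⟩
  have e : (⟨z, h1⟩ : gV O' L') * ⟨z⁻¹, h2⟩ = 1 := Subtype.ext (mul_inv_cancel₀ h0)
  have e2 := congrArg gR e
  rw [map_mul, map_one, h, zero_mul] at e2
  exact zero_ne_one e2

/-- every `θj` defines the middle component -/
theorem P1_eq (B : Bez (q ^ 2) M) (hq : q.Prime) (hN : N = q ^ 2 * M) (hπ : Prime π)
    {θ₁ θj : F0 L N →+* LaurentSeries L'} {ζ' : O'ˣ}
    (D : L2 (O := O) (L := L) (O' := O') (L' := L') (K := Kt L p κ) (F := F0 L N) (F0 L M) q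
      (tK L p κ) (tS O p κ) (algebraMap (F0 L N) (LaurentSeries L)) θ₁ i i' ζ
      (B.wF2 ι hq hN)) (ht : IsParam O (tK L p κ))
    (hD : ∀ W : ValuationSubring (F0 L N), Over (gaussVal ht hπ) (algebraMap O (Kt L p κ) π) W →
      ∃ j, W = D.PP j)
    (Dj : L2 (O := O) (L := L) (O' := O') (L' := L') (K := Kt L p κ) (F := F0 L N) (F0 L M) q
      (tK L p κ) (tS O p κ) (algebraMap (F0 L N) (LaurentSeries L)) θj i i' ζ'
      (B.wF2 ι hq hN)) : Dj.P1 = D.P1 := by
  obtain ⟨k, hk⟩ := hD Dj.P1 (Dj.over1 ht hπ)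
  have hdel := Dj.del_mem
  have h0 := D.dl_not0
  rw [hk] at hdel ⊢
  fin_cases k
  · exact absurd hdel h0
  · rfl
  · exfalso
    apply h0
    change _ ∈ D.P2.nonunits at hdel
    have hm : B.wF2 ι hq hN (B.wF2 ι hq hN (algebraMap (Kt L p κ) (F0 L N) (tK L p κ)) -
        algebraMap (Kt L p κ) (F0 L N) (tK L p κ)) =
        - (B.wF2 ι hq hN (algebraMap (Kt L p κ) (F0 L N) (tK L p κ)) -
        algebraMap (Kt L p κ) (F0 L N) (tK L p κ)) := by
      rw [map_sub, D.ww]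
      ring
    have h1 := D.mem2.mp (L2.mem_of_nonunits hdel)
    rw [hm] at h1
    have h2 : B.wF2 ι hq hN (algebraMap (Kt L p κ) (F0 L N) (tK L p κ)) -
        algebraMap (Kt L p κ) (F0 L N) (tK L p κ) ∈ D.P0 := by
      have := neg_mem h1
      rwa [neg_neg] at this
    refine (L2.notMem_inv h2).mpr (Or.inr fun h3 => ?_)
    rcases (L2.notMem_inv (L2.mem_of_nonunits hdel)).mp hdel with h4 | h4
    · exact D.dl_ne h4
    · apply h4
      rw [D.mem2, map_inv₀, hm, inv_neg]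
      exact neg_mem h3

omit [Algebra O (Kt L p κ)] [Algebra O (F0 L M)]
    [Algebra (Kt L p κ) (F0 L M)] [Algebra (Kt L p κ) (F0 L N)] [Algebra (F0 L M) (F0 L N)]
    [IsScalarTower O (Kt L p κ) (F0 L M)] [IsScalarTower O (Kt L p κ) (F0 L N)]
    [IsScalarTower O (F0 L M) (F0 L N)] [IsScalarTower (Kt L p κ) (F0 L M) (F0 L N)]
    [Fact p.Prime] in
theorem nmF_chart (hOF : ∀ a : O, ((algebraMap O (F0 L N) a : F0 L N) : LaurentSeries L) =
      HahnSeries.C (algebraMap O L a)) (hN : N = q ^ 2 * M) {t : F0 L N} {t₁ : F0 L (q * M)}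
    (ht₁ : inc1 L hN t₁ = t) {x : F0 L N} (hx : x ∈ chart O t) : nmF L hN x ∈ chart O t := by
  letI : Algebra (F0 L (q * M)) (F0 L N) := algI (F0_le_sq (K := L) (q := q) (M := M) hN)
  let g : O[X] →+* F0 L (q * M) :=
    eval₂RingHom ((algebraMap L (F0 L (q * M))).comp (algebraMap O L)) t₁
  letI a1 : Algebra O[X] (F0 L (q * M)) := g.toAlgebra
  letI a2 : Algebra O[X] (F0 L N) :=
    ((aeval t : O[X] →ₐ[O] F0 L N) : O[X] →+* F0 L N).toAlgebra
  haveI : IsScalarTower O[X] (F0 L (q * M)) (F0 L N) := by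
    refine IsScalarTower.of_algebraMap_eq' ?_
    change ((aeval t : O[X] →ₐ[O] F0 L N) : O[X] →+* F0 L N) = (inc1 L hN).comp g
    apply Polynomial.ringHom_ext
    · intro a
      change aeval t (C a) = inc1 L hN (eval₂ _ t₁ (C a))
      rw [aeval_C, eval₂_C]
      apply Subtype.ext
      rw [hOF, coe_inc1]
      exact (coe_algebraMap_L (F0 L (q * M)) (algebraMap O L a)).symm
    · change aeval t X = inc1 L hN (eval₂ _ t₁ X)
      rw [aeval_X, eval₂_X, ht₁]
  have h := Algebra.isIntegral_norm (F0 L (q * M)) (x := x) (R := O[X]) hx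
  exact h.algebraMap (B := F0 L N)

/-- (T2) the norm data -/
theorem normD_conc (C : Cpt O (Kt L p κ) (F0 L M) (F0 L N)) (B : Bez (q ^ 2) M)
    (hq : q.Prime) (hN : N = q ^ 2 * M) (hqM : ¬ q ∣ M) (hι : ι'.comp i = ι)
    {θ₁ : F0 L N →+* LaurentSeries L'} (hθ : IsTh i q M N (zL L' ζ) θ₁)
    (hζ : IsPrimitiveRoot ζ q) (hπ : Prime π) (hqπ : (q : O) = π)
    [ExpChar (ResidueField O) q]
    (D : L2 (O := O) (L := L) (O' := O') (L' := L') (K := Kt L p κ) (F := F0 L N) (F0 L M) q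
      (tK L p κ) (tS O p κ) (algebraMap (F0 L N) (LaurentSeries L)) θ₁ i i' ζ
      (B.wF2 ι hq hN)) (ht : IsParam O (tK L p κ))
    (hD : ∀ W : ValuationSubring (F0 L N), Over (gaussVal ht hπ) (algebraMap O (Kt L p κ) π) W →
      ∃ j, W = D.PP j) :
    (∀ a1 : F0 L (q * M), NormD (O := O) (M := F0 L M)
        (algebraMap (Kt L p κ) (F0 L N) (tK L p κ)) q D.PP (inc1 L hN a1) (sub1 L hN) (nmF L hN)) ∧
      Vl (D.PP 0) (algebraMap O (F0 L N) π)
        (nmF L hN (B.wF2 ι hq hN (algebraMap (Kt L p κ) (F0 L N) (tK L p κ)) -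
          algebraMap (Kt L p κ) (F0 L N) (tK L p κ))) 1 := by
  classical
  have := D.loc
  -- the embeddings
  have hex : ∀ j : ℕ, ∃ θj : F0 L N →+* LaurentSeries L', 0 < j ∧ j < q →
      IsTh i q M N ((zL L' ζ) ^ j) θj ∧
      L2 (O := O) (L := L) (O' := O') (L' := L') (K := Kt L p κ) (F := F0 L N) (F0 L M) q
      (tK L p κ) (tS O p κ) (algebraMap (F0 L N) (LaurentSeries L)) θj i i' (ζ ^ j)
      (B.wF2 ι hq hN) := by
    intro j
    by_cases hj : 0 < j ∧ j < q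
    · obtain ⟨θj, h1, h2⟩ := exists_L2j C B hq hN hqM hι hζ D hj.1 hj.2
      exact ⟨θj, fun _ => ⟨h1, h2⟩⟩
    · exact ⟨θ₁, fun h => absurd h hj⟩
  choose θj hθD using hex
  have hθj := fun j (hj : 0 < j ∧ j < q) => (hθD j hj).1
  have Dj := fun j (hj : 0 < j ∧ j < q) => (hθD j hj).2
  obtain ⟨c, hc⟩ : ∃ c : F0 L N →+* LaurentSeries L',
    c = (coeffMap i).comp (algebraMap (F0 L N) (LaurentSeries L)) := ⟨_, rfl⟩
  have hcx : ∀ x, c x = coeffMap i (algebraMap (F0 L N) (LaurentSeries L) x) := fun x => by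
    rw [hc]; rfl
  have uc0 : ∀ {a b : F0 L N}, UC (D.PP 0) a b ↔ RC O' (c a) (c b) := by
    intro a b
    rw [hcx, hcx, rc_coeffMap D.comp (D.hgK a) (D.hgK b)]
    exact uc_iff_rc (hθ := D.hgK)
  have uc1 : ∀ {a b : F0 L N} {j : ℕ} (hj : 0 < j ∧ j < q), UC (D.PP 1) a b ↔
      RC O' (θj j a) (θj j b) := by
    intro a b j hj
    have h1 : D.PP 1 = (Dj j hj).P1 := (P1_eq B hq hN hπ D ht hD (Dj j hj)).symm
    rw [h1]
    exact uc_iff_rc (hθ := (Dj j hj).hgK')
  have uc2 : ∀ {a b : F0 L N}, UC (D.PP 2) a b ↔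
      RC O' (c (B.wF2 ι hq hN a)) (c (B.wF2 ι hq hN b)) := by
    intro a b
    rw [hcx, hcx, rc_coeffMap D.comp (D.hgK _) (D.hgK _)]
    exact uc_iff_rc (hθ := D.gK2)
  have hnm : ∀ x, c (nmF L hN x) = c x * ∏ j ∈ Finset.Ioo 0 q, θj j x := by
    intro x
    have h1 := coeffMap_nrm (i := i) ι hq hqM hN (zL_isPrimitiveRoot (L' := L') hζ) θj
      (fun j h0 h1 => hθj j ⟨h0, h1⟩) x
    rw [hcx, hcx]
    refine Eq.trans ?_ h1
    congr 1
  have hM : ∀ (f : F0 L M) {j : ℕ} (hj : 0 < j ∧ j < q),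
      θj j (algebraMap (F0 L M) (F0 L N) f) = c (algebraMap (F0 L M) (F0 L N) f) := by
    intro f j hj
    rw [hcx, th_M C hN (hθj j hj)]
  have hcard : (Finset.Ioo 0 q).card = q - 1 := by rw [Nat.card_Ioo]; omega
  refine ⟨fun a1 => ?_, ?_⟩
  · refine ⟨?_, ?_, ?_, ?_, ?_, ?_, ?_⟩
    · intro x
      exact ⟨nrm hN x, rfl⟩
    · rintro _ ⟨x, rfl⟩
      change inc1 L hN (nrm hN (inc1 L hN x)) = _
      rw [finrank_sub_pow ι hq hN hqM, map_pow]
    · intro x hx
      have hmem : ((algebraMap (Kt L p κ) (F0 L N) (tK L p κ) : F0 L N) : LaurentSeries L) ∈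
          F0 L (q * M) := by
        rw [IsScalarTower.algebraMap_apply (Kt L p κ) (F0 L M) (F0 L N), C.MF]
        exact F0_mono (dvd_mul_left M q) (SetLike.coe_mem _)
      exact nmF_chart C.OF hN (t₁ := ⟨_, hmem⟩) (Subtype.ext (coe_inc1 hN _)) hx
    · intro f
      refine ⟨⟨(f : LaurentSeries L), F0_mono (dvd_mul_left M q) f.2⟩, ?_⟩
      apply Subtype.ext
      rw [coe_inc1, C.MF]
    · exact ⟨a1, rfl⟩
    · intro x f0 f1 h0 h1
      rw [uc0, hnm, map_mul, map_pow]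
      refine (uc0.mp h0).mul ?_
      have h2 : c (algebraMap (F0 L M) (F0 L N) f1) ^ (q - 1) =
          ∏ j ∈ Finset.Ioo 0 q, c (algebraMap (F0 L M) (F0 L N) f1) := by
        rw [Finset.prod_const, hcard]
      rw [h2]
      refine RC.prod _ fun j hj => ?_
      have hj' := Finset.mem_Ioo.mp hj
      have h3 := (uc1 hj').mp h1
      rwa [hM f1 hj'] at h3
    · intro x hx
      rw [uc2]
      have h1 := coeffMap_wF2_nrm (i := i) B ι hq hqM hN (zL_isPrimitiveRoot (L' := L') hζ) x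
      have h2 : c (B.wF2 ι hq hN (nmF L hN x)) = twN q (zL L' ζ) (c (B.wF2 ι hq hN x)) := by
        rw [hcx, hcx]
        exact h1
      rw [h2, map_pow, map_pow, twN]
      have h3 : c (B.wF2 ι hq hN x) ^ q = ∏ j : Fin q, c (B.wF2 ι hq hN x) := by
        rw [Finset.prod_const, Finset.card_univ, Fintype.card_fin]
      rw [h3]
      refine RC.prod _ fun j _ => ?_
      have h4 : zL L' ζ ^ (j : ℕ) = zL L' (ζ ^ (j : ℕ)) := (map_pow _ _ _).symm
      rw [h4]
      refine rc_twist ?_ (uc2.mp hx)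
      rw [Units.val_pow_eq_pow_val, map_pow, D.resζ, one_pow]
  · obtain ⟨δ, hδ⟩ : ∃ δ, δ = B.wF2 ι hq hN (algebraMap (Kt L p κ) (F0 L N) (tK L p κ)) -
        algebraMap (Kt L p κ) (F0 L N) (tK L p κ) := ⟨_, rfl⟩
    rw [← hδ]
    have hδ0 : δ ≠ 0 := by rw [hδ]; exact D.dl_ne
    have hπ0 : algebraMap O (F0 L N) π ≠ 0 := D.p_ne hπ
    have hq2 := hq.two_le
    rw [Vl, zpow_one, uc0]
    have hcK : ∀ x, c x ∈ gK O' L' := fun x => by
      rw [hcx]
      exact coeffMap_gK D.comp D.inj' (D.hgK x)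
    refine RC.of_pow (hcK _) (n := q - 1) (by omega) ?_
    have hδu : RC O' (c δ) (c δ) := by
      rw [← uc0]
      have hm : δ ∈ D.P0 := by
        rw [hδ]
        exact sub_mem D.wt_mem0 D.t_mem0
      have hn : δ ∉ D.P0.nonunits := by
        have := D.dl_not0
        rw [hδ]
        exact this
      exact UC.refl hδ0 hm (inv_mem_of_notMem_nonunits hn)
    have hcπ : ∀ {j : ℕ} (hj : 0 < j ∧ j < q), θj j (algebraMap O (F0 L N) π) =
        c (algebraMap O (F0 L N) π) := by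
      intro j hj
      rw [IsScalarTower.algebraMap_apply O (F0 L M) (F0 L N)]
      exact hM _ hj
    have hju : ∀ {j : ℕ} (hj : 0 < j ∧ j < q),
        RC O' (θj j (δ ^ (q - 1) / algebraMap O (F0 L N) π))
          (θj j (δ ^ (q - 1) / algebraMap O (F0 L N) π)) := by
      intro j hj
      obtain ⟨h1, h2⟩ := (Dj j hj).delq hqπ
      rw [← hδ] at h1 h2
      refine RC.of_mem h1 ?_ ?_
      · rw [← map_inv₀]
        exact h2
      · rw [_root_.map_ne_zero]
        exact div_ne_zero (pow_ne_zero _ hδ0) hπ0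
    have hmain : c (nmF L hN δ / algebraMap O (F0 L N) π) ^ (q - 1) = c δ ^ (q - 1) *
        ∏ j ∈ Finset.Ioo 0 q, θj j (δ ^ (q - 1) / algebraMap O (F0 L N) π) := by
      have h1 : ∏ j ∈ Finset.Ioo 0 q, θj j (δ ^ (q - 1) / algebraMap O (F0 L N) π) =
          (∏ j ∈ Finset.Ioo 0 q, θj j δ) ^ (q - 1) / c (algebraMap O (F0 L N) π) ^ (q - 1) := by
        have h2 : c (algebraMap O (F0 L N) π) ^ (q - 1) =
            ∏ j ∈ Finset.Ioo 0 q, c (algebraMap O (F0 L N) π) := by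
          rw [Finset.prod_const, hcard]
        rw [h2, ← Finset.prod_pow, ← Finset.prod_div_distrib]
        refine Finset.prod_congr rfl fun j hj => ?_
        rw [map_div₀, map_pow, hcπ (Finset.mem_Ioo.mp hj)]
      rw [h1, map_div₀, div_pow, hnm, mul_pow]
      ring
    rw [hmain]
    have hpow : ∀ (y : LaurentSeries L') (n : ℕ), RC O' y y → RC O' (y ^ n) (y ^ n) := by
      intro y n hy
      induction n with
      | zero => rw [pow_zero]; exact RC.one
      | succ n ih => rw [pow_succ]; exact ih.mul hy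
    exact (hpow _ _ hδu).mul (RC.prod _ fun j hj => hju (Finset.mem_Ioo.mp hj))

end Main

end Fermat.Agent.CA
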