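import Mathlib
import Fermat.Agent.CA.NormC
import Fermat.Agent.CA.L2C
import Fermat.Agent.CA.CarH
import Fermat.Agent.CA.Cover

/-!
The vanishing theorem, over a field `L` with a discrete valuation.
-/

set_option autoImplicit false
set_option linter.unusedSectionVars false
set_option linter.unusedVariables false

open IsLocalRing Polynomial ModularCurve IntermediateField

noncomputable section

universe u

namespace Fermat.Agent.CA

open Fermat.Agent.Geo Fermat.Agent.LG Fermat.Agent.ModFun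
open Fermat.Agent.ESCore (HauptFn haupt2 haupt3)
open CongruenceSubgroup (Gamma0)

variable {O L O' L' : Type u} [CommRing O] [IsDomain O] [IsDiscreteValuationRing O]
    [Field L] [Algebra O L] [IsFractionRing O L] [CommRing O'] [IsDomain O']
    [IsDiscreteValuationRing O'] [Field L'] [Algebra O' L'] [IsFractionRing O' L']
    {q M N p : ℕ} [NeZero q] [NeZero M] [NeZero N] [Fact p.Prime] {κ : ℤ}
    {i : L →+* L'} {i' : O →+* O'} {ζ : O'ˣ} {ι : L →+* ℂ} {ι' : L' →+* ℂ} {π : O}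
    {H : HauptFn p κ} {S : Set ℤ} {k : ℕ} {P : Polynomial ℤ}

section

variable [Algebra O (Kt L p κ)] [Algebra O (F0 L M)] [Algebra O (F0 L N)]
    [Algebra (Kt L p κ) (F0 L M)] [Algebra (Kt L p κ) (F0 L N)] [Algebra (F0 L M) (F0 L N)]
    [IsScalarTower O (Kt L p κ) (F0 L M)] [IsScalarTower O (Kt L p κ) (F0 L N)]
    [IsScalarTower O (F0 L M) (F0 L N)] [IsScalarTower (Kt L p κ) (F0 L M) (F0 L N)]

theorem car_core_gen [CharZero O] [PerfectField (ResidueField O)] [ExpChar (ResidueField O) q]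
    (C : Cpt O (Kt L p κ) (F0 L M) (F0 L N)) (B : Bez (q ^ 2) M)
    (hH : HautData H S k P) (hι : ι'.comp i = ι)
    {ζM : Lˣ} (hζM : ι ζM = Complex.exp (2 * Real.pi * Complex.I / M)) (hMu : IsUnit (M : O))
    (hS : ∀ c ∈ S, ∀ c' ∈ S, c ≠ c' → IsUnit ((c - c' : ℤ) : O))
    (hq0 : (q : ResidueField O) = 0) (hq : q.Prime) (hqp : ¬ q ∣ p)
    (hN : N = q ^ 2 * M) (hqM : ¬ q ∣ M) (hpM : p ∣ M) (hπ : Prime π) (hqπ : (q : O) = π)
    (comp : ∀ a, i (algebraMap O L a) = algebraMap O' L' (i' a)) (loc : IsLocalHom i')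
    (inj' : Function.Injective i') (hζ : IsPrimitiveRoot ζ q) (ζirr : Irreducible ((ζ : O') - 1))
    (ζpow : ∃ v : O'ˣ, ((ζ : O') - 1) ^ (q - 1) = v * q)
    (hC0 : IsUnit (((κ ^ 2 * (p : ℤ) ^ 4 : ℤ)) : O))
    [FiniteDimensional (Kt L p κ) (F0 L M)] [Algebra.IsSeparable (Kt L p κ) (F0 L M)]
    [FiniteDimensional (Kt L p κ) (F0 L N)] [Algebra.IsSeparable (Kt L p κ) (F0 L N)]
    (ht : IsParam O (tK L p κ)) (good : ∃ S : Set O, GoodRed ht hπ S (F0 L M))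
    (huniq : ∀ W : ValuationSubring (F0 L M),
      Over (gaussVal ht hπ) (algebraMap O (Kt L p κ) π) W →
      ∀ x : F0 L M, x ∈ W ↔ (x : LaurentSeries L) ∈ gV O L)
    (hNC : ∀ θ₁ : F0 L N →+* LaurentSeries L', IsTh i q M N (zL L' ζ) θ₁ →
      ∀ (D : L2 (O := O) (L := L) (O' := O') (L' := L') (K := Kt L p κ) (F := F0 L N) (F0 L M) q
      (tK L p κ) (tS O p κ) (algebraMap (F0 L N) (LaurentSeries L)) θ₁ i i' ζ
      (B.wF2 ι hq hN)) (c : ℕ → ℤ[X]) (C₀ : ℤ) (X₁ : F0 L N),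
      Tri (M := F0 L M) ht hπ q c C₀ D.PP (B.wF2 ι hq hN) X₁ →
      ∃ (a1 : F0 L (q * M)) (a2 cc d : F0 L N),
        NC (algebraMap (Kt L p κ) (F0 L N) (tK L p κ)) π q D.PP (B.wF2 ι hq hN)
          (inc1 L hN a1) a2 cc d)
    {E : Type u} [Field E] [Algebra O E] [Algebra (Kt L p κ) E] [Algebra (F0 L N) E]
    [IsScalarTower O (Kt L p κ) E] [IsScalarTower (Kt L p κ) (F0 L N) E]
    [IsScalarTower O (F0 L N) E]
    [FiniteDimensional (Kt L p κ) E] [Algebra.IsSeparable (Kt L p κ) E]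
    [FiniteDimensional (F0 L N) E] [IsGalois (F0 L N) E]
    (hinj : Function.Injective (algebraMap O E))
    (hO : ∀ x : E, IsIntegral O x → ∃ o : O, algebraMap O E o = x)
    (hNE : NoEll N) {m : ℕ} (hm : 0 < m) (hqm : ¬ q ∣ m) (hmu : IsUnit (m : O))
    {ζm : O} (hζm : IsPrimitiveRoot ζm m) (hroot : ∀ u : O, IsUnit u → ∃ v : O, v ^ m = u)
    {χ : Gamma0 N →* ℂˣ} (hχ : IsPar χ) (hχm : χ ^ m = 1) {y : LaurentSeries L}
    (hy : XSer ι N χ y) (hy0 : y ≠ 0) (hP1 : PowC hN m ⟨y ^ m, hy.pow_mem_F0 hχm⟩)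
    (hP2 : PowC hN m (B.wF2 ι hq hN ⟨y ^ m, hy.pow_mem_F0 hχm⟩)) {yE : E}
    (hyE : yE ^ m = algebraMap (F0 L N) E ⟨y ^ m, hy.pow_mem_F0 hχm⟩) :
    ∃ a : F0 L N, yE ^ ((q ^ 2 - 1) ^ 2) = algebraMap (F0 L N) E a := by
  obtain ⟨θ₁, hθ⟩ := exists_isTh hι hq hqM hN
    (hζ.map_of_injective (f := Units.map (algebraMap O' L' : O' →* L'))
      (Units.map_injective (IsFractionRing.injective O' L')))
  have D := l2_conc C B hH hι hζM hMu hπ hS hq0 hq hqp hN hqM hpM comp loc inj' hζ ζirr ζpow hθ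
  have hD := D.complete ht hπ hqπ
  have huniq' : ∀ W : ValuationSubring (F0 L M),
      Over (gaussVal ht hπ) (algebraMap O (Kt L p κ) π) W → ∀ x : F0 L M,
      x ∈ W ↔ (algebraMap (F0 L N) (LaurentSeries L)) (algebraMap (F0 L M) (F0 L N) x) ∈
        gV O L := by
    intro W hW x
    have e : (algebraMap (F0 L N) (LaurentSeries L)) (algebraMap (F0 L M) (F0 L N) x) =
        (x : LaurentSeries L) := C.MF x
    rw [e]
    exact huniq W hW x
  obtain ⟨hND, hnd⟩ := normD_conc C B hq hN hqM hι hθ hζ hπ hqπ D ht hD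
  obtain ⟨c, X₁, hX₁, T⟩ := tri_conc C B hq hqp hN H hθ hπ hqπ D ht hC0 (D.gmodel good huniq')
  obtain ⟨a1, a2, cc, d, hNC⟩ := hNC θ₁ hθ D c _ X₁ T
  refine car_gen C B hq hN hθ hπ hqπ D ht hX₁ T hNC (hND a1) hnd hinj hO
    hmu hm ((Nat.Prime.coprime_iff_not_dvd hq).mpr hqm) hζm hroot hyE ?_
    (nmP_of_powC hN C.OF hπ hP1) (nmP_of_powC hN C.OF hπ hP2)
    (hor_of_isPar C.OF hπ hNE hχ hm hχm hy hy0) rfl
  intro h0
  exact pow_ne_zero m hy0 (congrArg Subtype.val h0)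

end

end Fermat.Agent.CA
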