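import Mathlib
import Fermat.Agent.CA.TriC
import Fermat.Agent.CB.Main

/-!
Modular units and the cuspidal data: integrality and reductions.
-/

set_option autoImplicit false
set_option linter.unusedSectionVars false
set_option linter.unusedVariables false

open IsLocalRing Polynomial ModularCurve IntermediateField

noncomputable section

universe u

namespace Fermat.Agent.CA

open Fermat.Agent.Geo Fermat.Agent.LG Fermat.Agent.ModFun

section Clear

variable {O L F : Type u} [CommRing O] [IsDomain O] [IsDiscreteValuationRing O] [Field L]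
  [Algebra O L] [IsFractionRing O L] [Field F] [Algebra O F] [Algebra L F] {π : O} {t : F}

theorem mul_pow_mem_chart {a b m n : ℕ} (ha : m ≤ a) (hb : n ≤ b) {x : F}
    (hx : algebraMap O F π ^ m * (t ^ n * x) ∈ chart O t) :
    algebraMap O F π ^ a * (t ^ b * x) ∈ chart O t := by
  obtain ⟨c, rfl⟩ := Nat.exists_eq_add_of_le ha
  obtain ⟨d, rfl⟩ := Nat.exists_eq_add_of_le hb
  have e : algebraMap O F π ^ (m + c) * (t ^ (n + d) * x) =
      (algebraMap O F π ^ c * t ^ d) * (algebraMap O F π ^ m * (t ^ n * x)) := by ring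
  rw [e]
  exact mul_mem (mul_mem (pow_mem ((chart O t).algebraMap_mem π) _)
    (pow_mem (self_mem_chart t) _)) hx

/-- the overlap, up to powers of `π` -/
def ovL (π : O) (t : F) : Subring F where
  carrier := {x | ∃ m n : ℕ, algebraMap O F π ^ m * (t ^ n * x) ∈ chart O t}
  mul_mem' := by
    rintro x y ⟨m, n, hx⟩ ⟨m', n', hy⟩
    refine ⟨m + m', n + n', ?_⟩
    have e : algebraMap O F π ^ (m + m') * (t ^ (n + n') * (x * y)) =
        (algebraMap O F π ^ m * (t ^ n * x)) * (algebraMap O F π ^ m' * (t ^ n' * y)) := by ring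
    rw [e]
    exact mul_mem hx hy
  one_mem' := ⟨0, 0, by simp⟩
  add_mem' := by
    rintro x y ⟨m, n, hx⟩ ⟨m', n', hy⟩
    refine ⟨m + m', n + n', ?_⟩
    rw [mul_add, mul_add]
    exact add_mem (mul_pow_mem_chart (by omega) (by omega) hx)
      (mul_pow_mem_chart (by omega) (by omega) hy)
  zero_mem' := ⟨0, 0, by simp⟩
  neg_mem' := by
    rintro x ⟨m, n, hx⟩
    refine ⟨m, n, ?_⟩
    rw [mul_neg, mul_neg]
    exact neg_mem hx

theorem mem_ovL {x : F} : x ∈ ovL π t ↔
    ∃ m n : ℕ, algebraMap O F π ^ m * (t ^ n * x) ∈ chart O t := Iff.rfl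

theorem algebraMap_mem_ovL (hOF : ∀ a, algebraMap O F a = algebraMap L F (algebraMap O L a))
    (hπ : Prime π) (c : L) : algebraMap L F c ∈ ovL π t := by
  obtain ⟨a, b, hb, rfl⟩ := IsFractionRing.div_surjective (A := O) c
  have hb0 : b ≠ 0 := nonZeroDivisors.ne_zero hb
  obtain ⟨n, v, hv⟩ := IsDiscreteValuationRing.eq_unit_mul_pow_irreducible hb0 hπ.irreducible
  refine ⟨n, 0, ?_⟩
  have hb1 : algebraMap O L b ≠ 0 := by
    rw [Ne, map_eq_zero_iff _ (IsFractionRing.injective O L)]
    exact hb0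
  have e : algebraMap O F π ^ n * (t ^ 0 * algebraMap L F (algebraMap O L a / algebraMap O L b)) =
      algebraMap O F (↑v⁻¹ * a) := by
    rw [pow_zero, one_mul, hOF, hOF, ← map_pow, ← map_mul, ← map_pow (algebraMap O L)]
    congr 1
    rw [mul_div_assoc', div_eq_iff hb1, ← map_mul, ← map_mul, hv]
    congr 1
    have h1 : (↑v⁻¹ : O) * v = 1 := by rw [Units.inv_mul]
    linear_combination (-(a * π ^ n)) * h1
  rw [e]
  exact (chart O t).algebraMap_mem _

/-- clearing denominators -/
theorem mem_ovL_of_isIntegral (hOF : ∀ a, algebraMap O F a = algebraMap L F (algebraMap O L a))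
    (hπ : Prime π) (ht : t ≠ 0) {x : F} (hx : IsIntegral (Algebra.adjoin L {t, t⁻¹}) x) :
    x ∈ ovL π t := by
  classical
  have hle : ∀ c ∈ Algebra.adjoin L {t, t⁻¹}, c ∈ ovL π t := by
    intro c hc
    refine Algebra.adjoin_induction (fun y hy => ?_) (fun r => algebraMap_mem_ovL hOF hπ r)
      (fun y z _ _ hy hz => add_mem hy hz) (fun y z _ _ hy hz => mul_mem hy hz) hc
    rcases hy with rfl | rfl
    · exact ⟨0, 0, by simpa using self_mem_chart (O := O) y⟩
    · refine ⟨0, 1, ?_⟩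
      rw [pow_zero, one_mul, pow_one, mul_inv_cancel₀ ht]
      exact one_mem _
  obtain ⟨P, hP, hPx⟩ := hx
  have hc : ∀ i : ℕ, ∃ m n : ℕ, algebraMap O F π ^ m * (t ^ n * ((P.coeff i :
      Algebra.adjoin L {t, t⁻¹}) : F)) ∈ chart O t := fun i => hle _ (P.coeff i).2
  choose m n hmn using hc
  set d := P.natDegree with hd
  set a := ∑ i ∈ Finset.range d, m i with ha
  set b := ∑ i ∈ Finset.range d, n i with hb
  refine ⟨a, b, ?_⟩
  set s : F := algebraMap O F π ^ a * t ^ b with hs
  have hs1 : s ∈ chart O t := mul_mem (pow_mem ((chart O t).algebraMap_mem π) _)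
    (pow_mem (self_mem_chart t) _)
  have hsc : ∀ i < d, s * ((P.coeff i : Algebra.adjoin L {t, t⁻¹}) : F) ∈ chart O t := by
    intro i hi
    rw [hs, mul_assoc]
    exact mul_pow_mem_chart (Finset.single_le_sum (f := m) (fun _ _ => Nat.zero_le _)
      (Finset.mem_range.mpr hi)) (Finset.single_le_sum (f := n) (fun _ _ => Nat.zero_le _)
      (Finset.mem_range.mpr hi)) (hmn i)
  rw [← mul_assoc, ← hs]
  refine chart_intClosed (n := d) (c := fun i => s ^ (d - i) *
    ((P.coeff i : Algebra.adjoin L {t, t⁻¹}) : F)) (fun i hi => ?_) ?_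
  · obtain ⟨k, hk⟩ : ∃ k, d - i = k + 1 := ⟨d - i - 1, by omega⟩
    rw [hk, pow_succ, mul_assoc]
    exact mul_mem (pow_mem hs1 _) (hsc i hi)
  · have h1 : x ^ d + ∑ i ∈ Finset.range d,
        ((P.coeff i : Algebra.adjoin L {t, t⁻¹}) : F) * x ^ i = 0 := by
      have h2 := hPx
      rw [eval₂_eq_sum_range, Finset.sum_range_succ, ← hd, hP.coeff_natDegree, map_one, one_mul,
        add_comm] at h2
      exact h2
    have h3 : (s * x) ^ d + ∑ i ∈ Finset.range d, s ^ (d - i) *
        ((P.coeff i : Algebra.adjoin L {t, t⁻¹}) : F) * (s * x) ^ i =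
        s ^ d * (x ^ d + ∑ i ∈ Finset.range d,
        ((P.coeff i : Algebra.adjoin L {t, t⁻¹}) : F) * x ^ i) := by
      rw [mul_add, mul_pow, Finset.mul_sum]
      congr 1
      refine Finset.sum_congr rfl fun i hi => ?_
      have h4 : s ^ d = s ^ (d - i) * s ^ i := by
        rw [← pow_add, Nat.sub_add_cancel (Finset.mem_range.mp hi).le]
      rw [h4, mul_pow]
      ring
    rw [h3, h1, mul_zero]

end Clear

section Ser

open Fermat.Agent.CB

variable {R R' : Type*} [CommRing R] [CommRing R'] (f : R →+* R') (p b : ℕ) [NeZero p]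

theorem coeffMap_PhiS : coeffMap f (PhiS p b R) = PhiS p b R' := by
  ext n
  rw [PhiS, PhiS, coeffMap_coeff, coeffMap_coeff, coeffMap_coeff]
  exact map_intCast f _

theorem coeffMap_PhiSi : coeffMap f (PhiSi p b R) = PhiSi p b R' := by
  ext n
  rw [PhiSi, PhiSi, coeffMap_coeff, coeffMap_coeff, coeffMap_coeff]
  exact map_intCast f _

variable (R) in
/-- the series `ψ` over a ring -/
def PsR (q : ℕ) [NeZero q] : LaurentSeries R := PhiS p b R * qExpand R q (PhiSi p b R)

variable (q : ℕ) [NeZero q]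

theorem coeffMap_PsR : coeffMap f (PsR R p b q) = PsR R' p b q := by
  rw [PsR, PsR, map_mul, coeffMap_qExpand', coeffMap_PhiS, coeffMap_PhiSi]

theorem PsR_eq {k : Type*} [Field k] : PsR k p b q = PsiS p b q k := rfl

theorem PsR_ne_zero {k : Type*} [Field k] : PsR k p b q ≠ 0 :=
  left_ne_zero_of_mul_eq_one (PsiS_mul_PsiSi (p := p) (b := b) (q := q) (K := k))

theorem PhiS_pow {k : Type*} [Field k] [ExpChar k q] :
    PhiS p b k ^ q = qExpand k q (PhiS p b k) := by
  rw [pow_eq_qExpand, coeffMap_PhiS]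

theorem PsR_pow {k : Type*} [Field k] [ExpChar k q] :
    PsR k p b q ^ q = qExpand k q (PsR k p b q) := by
  rw [pow_eq_qExpand, coeffMap_PsR]

/-- `ψ Φ ^ (q - 1) = 1` in characteristic `q` -/
theorem PsR_mul_PhiS_pow {k : Type*} [Field k] [ExpChar k q] :
    PsR k p b q * PhiS p b k ^ (q - 1) = 1 := by
  have h1 : PsR k p b q * qExpand k q (PhiS p b k) = PhiS p b k := PsiS_mul
  have h0 : PhiS p b k ≠ 0 := left_ne_zero_of_mul_eq_one (PhiS_mul_PhiSi p b k)
  rw [← PhiS_pow] at h1
  have hq : 0 < q := Nat.pos_of_ne_zero (NeZero.ne q)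
  have h2 : PhiS p b k ^ q = PhiS p b k ^ (q - 1) * PhiS p b k := by
    rw [← pow_succ, Nat.sub_add_cancel hq]
  rw [h2, ← mul_assoc] at h1
  exact mul_right_cancel₀ h0 (h1.trans (one_mul _).symm)

end Ser

end Fermat.Agent.CA
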