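import Mathlib
import Fermat.Agent.CA.NC2

/-!
Modular units and the cuspidal data.
-/

set_option autoImplicit false
set_option linter.unusedSectionVars false
set_option linter.unusedVariables false

open IsLocalRing Polynomial ModularCurve IntermediateField

noncomputable section

universe u

namespace Fermat.Agent.CA

open Fermat.Agent.Geo Fermat.Agent.LG Fermat.Agent.ModFun
open Fermat.Agent.ESCore (HauptFn haupt2 haupt3)

section Abs

variable {O K M F : Type u} [CommRing O] [IsDomain O] [IsDiscreteValuationRing O] [CharZero O]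
  [Field K] [Field M] [Field F] [Algebra O K] [Algebra O M] [Algebra O F] [Algebra K M]
  [Algebra K F] [Algebra M F] [IsScalarTower O K M] [IsScalarTower O K F] [IsScalarTower K M F]
  [IsScalarTower O M F]
  {t : K} {π : O} [FiniteDimensional K M] [Algebra.IsSeparable K M]
  [FiniteDimensional K F] [Algebra.IsSeparable K F]
  {ht : IsParam O t} {hπ : Prime π} {q : ℕ} {c : ℕ → ℤ[X]} {C₀ : ℤ}
  {P : Fin 3 → ValuationSubring F} {w : F ≃+* F} {X₁ : F}

namespace Tri

variable (T : Tri (M := M) ht hπ q c C₀ P w X₁)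

include T

theorem ov_of {x : F} (hx : x ∈ ovL π (algebraMap K F t)) (hP : ∀ i, x ∈ P i) :
    ∃ n : ℕ, algebraMap K F t ^ n * x ∈ chart O (algebraMap K F t) := by
  obtain ⟨m, n, h⟩ := hx
  refine ⟨n, mem_chart_of_forall ht hπ (n := m) (fun W hW => ?_) h⟩
  obtain ⟨i, rfl⟩ := T.sys.all W hW
  exact (P i).mul_mem _ _ (pow_mem (chart_mem_over (T.sys.ov i) (self_mem_chart _)) n) (hP i)

omit T in
theorem ovL_of_pow {t' x : F} {m : ℕ} (h : algebraMap O F π ^ m * x ∈ ovL π t') :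
    x ∈ ovL π t' := by
  obtain ⟨a, b, h⟩ := h
  refine ⟨a + m, b, ?_⟩
  have e : algebraMap O F π ^ (a + m) * (t' ^ b * x) =
      algebraMap O F π ^ a * (t' ^ b * (algebraMap O F π ^ m * x)) := by ring
  rw [e]
  exact h

omit T in
theorem chart_le_ovL {t' x : F} (h : x ∈ chart O t') : x ∈ ovL π t' :=
  ⟨0, 0, by simpa using h⟩

omit T in
theorem overlap_le_ovL {t' x : F} (h : x ∈ overlap O t') : x ∈ ovL π t' := by
  obtain ⟨m, h⟩ := h
  exact ⟨0, m, by simpa using h⟩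

theorem w_ovL {x : F} (hx : x ∈ ovL π (algebraMap K F t)) : w x ∈ ovL π (algebraMap K F t) := by
  obtain ⟨m, n, h⟩ := hx
  have h1 := T.w_chart h
  rw [map_mul, map_mul, map_pow, map_pow, T.wO] at h1
  have h2 : (w (algebraMap K F t))⁻¹ ∈ ovL π (algebraMap K F t) := by
    have h3 := T.X2_inv_chart
    rw [map_inv₀] at h3
    exact overlap_le_ovL (chart_inv_le_overlap T.tF_ne h3)
  have h3 : algebraMap O F π ^ m * w x ∈ ovL π (algebraMap K F t) := by
    have e : algebraMap O F π ^ m * w x = (w (algebraMap K F t))⁻¹ ^ n *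
        (algebraMap O F π ^ m * (w (algebraMap K F t) ^ n * w x)) := by
      have h0 : w (algebraMap K F t) ≠ 0 := by
        rw [Ne, map_eq_zero_iff _ w.injective]
        exact T.tF_ne
      rw [inv_pow]
      field_simp
    rw [e]
    exact mul_mem (pow_mem h2 n) (chart_le_ovL h1)
  exact ovL_of_pow h3

end Tri

end Abs

section Abs2

variable {O L O' L' K M F : Type u} [CommRing O] [IsDomain O] [IsDiscreteValuationRing O]
    [CharZero O]
    [Field L] [Algebra O L] [IsFractionRing O L] [CommRing O'] [IsDomain O']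
    [IsDiscreteValuationRing O'] [Field L'] [Algebra O' L'] [IsFractionRing O' L']
    [Field K] [Field M] [Field F] [Algebra O K] [Algebra O M] [Algebra O F] [Algebra K M]
    [Algebra K F] [Algebra M F] [IsScalarTower O K M] [IsScalarTower O K F]
    [IsScalarTower K M F] [IsScalarTower O M F] {q : ℕ} [NeZero q] {t : K} {T₀ : LaurentSeries O}
    {θ : F →+* LaurentSeries L} {θ₁ : F →+* LaurentSeries L'} {i : L →+* L'} {i' : O →+* O'}
    {ζ : O'ˣ} {w : F ≃+* F} {π : O}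
    [FiniteDimensional K M] [Algebra.IsSeparable K M]
    [FiniteDimensional K F] [Algebra.IsSeparable K F]
    {ht : IsParam O t} {hπ : Prime π} {c : ℕ → ℤ[X]} {C₀ : ℤ} {X₁ : F}

theorem nc_abs (D : L2 M q t T₀ θ θ₁ i i' ζ w) (T : Tri (M := M) ht hπ q c C₀ D.PP w X₁)
    {a1 ψ' d : F} {U U' : LaurentSeries O} {U'' : LaurentSeries O'} {ε : O}
    (f1 : θ a1 = toL O L U) (f2 : θ ψ' = toL O L U') (f3 : θ₁ a1 = toL O' L' U'')
    (k1 : toK O U ≠ 0) (k1' : toK O' U'' ≠ 0) (k2 : toK O U' = toK O U ^ q)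
    (hw : w a1 * ψ' = algebraMap O F (ε * π)) (hε : ε * ε = 1)
    (o1 : a1 ∈ ovL π (algebraMap K F t)) (o1' : a1⁻¹ ∈ ovL π (algebraMap K F t))
    (chd : ∃ n : ℕ, algebraMap K F t ^ n * d ∈ chart O (algebraMap K F t))
    (d_non : d ∈ (D.PP 1).nonunits) (d_ne : d ≠ 0)
    (d_unif : ∀ x ∈ (D.PP 1).nonunits, x / d ∈ D.PP 1)
    (om : ∃ l n : ℕ, ∃ u : O, IsUnit u ∧
      d ^ (q - 1) / algebraMap O F π * a1 ^ l * algebraMap K F t ^ n - algebraMap O F u ∈
          (D.PP 1).nonunits) :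
    NC (algebraMap K F t) π q D.PP w a1 (algebraMap O F π / ψ') (ψ' / a1) d := by
  have k2' : toK O U' ≠ 0 := by rw [k2]; exact pow_ne_zero _ k1
  have a1_ne : a1 ≠ 0 := by
    intro h0
    rw [h0, map_zero] at f1
    apply k1
    have h1 := toL_injective (O := O) (L := L) (f1.symm.trans (map_zero _).symm)
    rw [h1, map_zero]
  have ψ'_ne : ψ' ≠ 0 := by
    intro h0
    rw [h0, map_zero] at f2
    apply k2'
    have h1 := toL_injective (O := O) (L := L) (f2.symm.trans (map_zero _).symm)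
    rw [h1, map_zero]
  have hεu : IsUnit ε := IsUnit.of_mul_eq_one _ hε
  have hεF : algebraMap O F ε * algebraMap O F ε = 1 := by rw [← map_mul, hε, map_one]
  have hp0 := D.p_ne hπ
  set a2 : F := algebraMap O F π / ψ' with ha2
  have hwa : w a1 = algebraMap O F ε * a2 := by
    rw [ha2, mul_div_assoc', eq_div_iff ψ'_ne, hw, map_mul]
  -- memberships
  have m0 : a1 ∈ D.P0 ∧ a1⁻¹ ∈ D.P0 := by
    rw [D.mem0, D.mem0, map_inv₀, f1]
    exact toL_unit k1
  have m0' : ψ' ∈ D.P0 ∧ ψ'⁻¹ ∈ D.P0 := by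
    rw [D.mem0, D.mem0, map_inv₀, f2]
    exact toL_unit k2'
  have m1 : a1 ∈ D.P1 ∧ a1⁻¹ ∈ D.P1 := by
    rw [D.mem1, D.mem1, map_inv₀, f3]
    exact toL_unit k1'
  have a2_0 : a2 ∈ D.P0 := by
    rw [ha2, div_eq_mul_inv]
    exact D.P0.mul_mem _ _ (D.O_mem 0 π) m0'.2
  have m2 : a1 ∈ D.P2 := by
    rw [D.mem2, hwa]
    exact D.P0.mul_mem _ _ (D.O_mem 0 _) a2_0
  have a1m : ∀ j, a1 ∈ D.PP j := by
    intro j
    match j with
    | 0 => exact m0.1
    | 1 => exact m1.1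
    | 2 => exact m2
  -- `a2 = ε w a1`
  have ha2w : a2 = algebraMap O F ε * w a1 := by
    rw [hwa, ← mul_assoc, hεF, one_mul]
  have hwa1 : ∀ j, w a1 ∈ D.PP j := by
    intro j
    match j with
    | 0 => exact m2
    | 1 => exact (T.wP1 _).mpr m1.1
    | 2 =>
      change w a1 ∈ D.P2
      rw [D.mem2w]
      exact m0.1
  have a2m : ∀ j, a2 ∈ D.PP j := by
    intro j
    rw [ha2w]
    exact (D.PP j).mul_mem _ _ (D.O_mem j _) (hwa1 j)
  have cc_m0 : ψ' / a1 ∈ D.P0 := by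
    rw [div_eq_mul_inv]
    exact D.P0.mul_mem _ _ m0'.1 m0.2
  have a2_ne : a2 ≠ 0 := div_ne_zero hp0 ψ'_ne
  have hcc : ψ' / a1 = algebraMap O F π * (a1⁻¹ * a2⁻¹) := by
    rw [ha2]
    field_simp
  have a2inv : a2⁻¹ = algebraMap O F ε * w a1⁻¹ := by
    rw [ha2w, mul_inv, ← map_inv₀ w]
    congr 1
    exact inv_eq_of_mul_eq_one_right hεF
  have wcc : w (ψ' / a1) = ψ' / a1 := by
    have e1 : w a2 = algebraMap O F ε * a1 := by
      rw [ha2w, map_mul, D.wC, D.ww]
    rw [hcc, map_mul, D.wC, map_mul, map_inv₀ w, map_inv₀ w, e1, hwa]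
    have e3 : (algebraMap O F ε * a2)⁻¹ * (algebraMap O F ε * a1)⁻¹ = a1⁻¹ * a2⁻¹ := by
      rw [← mul_inv, ← mul_inv]
      congr 1
      linear_combination a1 * a2 * hεF
    rw [e3]
  have ccm : ∀ j, ψ' / a1 ∈ D.PP j := by
    intro j
    match j with
    | 0 => exact cc_m0
    | 1 =>
      rw [hcc, a2inv]
      refine (D.PP 1).mul_mem _ _ (D.O_mem 1 _) ((D.PP 1).mul_mem _ _ m1.2
        ((D.PP 1).mul_mem _ _ (D.O_mem 1 _) ((T.wP1 _).mpr m1.2)))
    | 2 =>
      change ψ' / a1 ∈ D.P2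
      rw [D.mem2, wcc]
      exact cc_m0
  have oO : ∀ a : O, algebraMap O F a ∈ ovL π (algebraMap K F t) := fun a =>
    Tri.chart_le_ovL ((chart O (algebraMap K F t)).algebraMap_mem a)
  have o2 : a2 ∈ ovL π (algebraMap K F t) := by
    rw [ha2w]
    exact mul_mem (oO _) (T.w_ovL o1)
  have occ : ψ' / a1 ∈ ovL π (algebraMap K F t) := by
    rw [hcc, a2inv]
    exact mul_mem (oO _) (mul_mem o1' (mul_mem (oO _) (T.w_ovL o1')))
  exact
  { prod := by
      rw [ha2]
      field_simp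
    ch1 := T.ov_of o1 a1m
    ch2 := T.ov_of o2 a2m
    chc := T.ov_of occ ccm
    chd := chd
    wa := ⟨_, hεu, hwa⟩
    a1_0 := m0.2
    a1_1 := m1.2
    a1_m := a1m
    cc_m := cc_m0
    cc_0 := by
      rw [inv_div, div_eq_mul_inv]
      exact D.P0.mul_mem _ _ m0.1 m0'.2
    cong := by
      have e : ψ' / a1 - a1 ^ (q - 1) = a1⁻¹ * (ψ' - a1 ^ q) := by
        have h1 : a1 ^ q = a1 * a1 ^ (q - 1) := by
          rw [← pow_succ', Nat.sub_add_cancel D.prime.one_lt.le]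
        rw [h1]
        field_simp
      rw [e]
      refine mul_mem_nonunits m0.2 ?_
      have h1 : θ (ψ' - a1 ^ q) = toL O L (U' - U ^ q) := by
        rw [map_sub, map_pow, f1, f2, map_sub, map_pow]
      refine (mem_nonunits_iff_toL (hθ := D.hgK) h1).mpr ?_
      rw [map_sub, map_pow, k2, sub_self]
    d_non := d_non
    d_ne := d_ne
    d_unif := d_unif
    om := om }

end Abs2


section Conc

open Fermat.Agent.CB

variable {O L O' L' : Type u} [CommRing O] [IsDomain O] [IsDiscreteValuationRing O] [CharZero O]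
    [Field L] [Algebra O L] [IsFractionRing O L] [CommRing O'] [IsDomain O']
    [IsDiscreteValuationRing O'] [Field L'] [Algebra O' L'] [IsFractionRing O' L']
    {q M N p : ℕ} [NeZero q] [NeZero M] [NeZero N] [Fact p.Prime] {κ : ℤ}
    {i : L →+* L'} {i' : O →+* O'} {ζ : O'ˣ} {ι : L →+* ℂ} {π : O}
    {H : HauptFn p κ} {S : Set ℤ} {k : ℕ} {P : Polynomial ℤ}
    [Algebra O (Kt L p κ)] [Algebra O (F0 L M)] [Algebra O (F0 L N)]
    [Algebra (Kt L p κ) (F0 L M)] [Algebra (Kt L p κ) (F0 L N)] [Algebra (F0 L M) (F0 L N)]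
    [IsScalarTower O (Kt L p κ) (F0 L M)] [IsScalarTower O (Kt L p κ) (F0 L N)]
    [IsScalarTower O (F0 L M) (F0 L N)] [IsScalarTower (Kt L p κ) (F0 L M) (F0 L N)]
    {b : ℕ} {mu : ℤ → ℤ → ℂ} {ε : ℤ}

theorem sq_dvd (hN : N = q ^ 2 * M) : q * (q * M) ∣ N := by
  rw [hN, sq, mul_assoc]

/-- the function `ψ(x ^ q)` -/
def psq (hN : N = q ^ 2 * M) (ψ : F0 L (q * M)) : F0 L N :=
  ⟨qExpand L q (ψ : LaurentSeries L), qExpand_mem_F0_of_dvd (sq_dvd hN) ψ.2⟩

theorem Cpt.OL (C : Cpt O (Kt L p κ) (F0 L M) (F0 L N)) (a : O) :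
    algebraMap O (F0 L N) a = algebraMap L (F0 L N) (algebraMap O L a) := by
  apply Subtype.ext
  rw [C.OF]
  change _ = algebraMap L (LaurentSeries L) _
  rw [ModularCurve.algebraMap_laurentSeries_eq_single]
  rfl

theorem w_low (C : Cpt O (Kt L p κ) (F0 L M) (F0 L N)) (B : Bez (q ^ 2) M) (hq : q.Prime)
    (hN : N = q ^ 2 * M) (h : PhiData p b q M mu ε) :
    B.wF2 ι hq hN (inc1 L hN (h.el rfl ι)) * psq hN (h.el rfl ι) =
      algebraMap O (F0 L N) ((ε : O) * (q : O)) := by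
  have h1 := h.wF_el hq rfl ι B.low
  have h2 := B.wF2_low ι hq hN (h.el rfl ι)
  apply Subtype.ext
  have h3 : ((B.wF2 ι hq hN (inc1 L hN (h.el rfl ι)) : F0 L N) : LaurentSeries L) =
      qExpand L q (B.low.wF ι hq rfl (h.el rfl ι) : LaurentSeries L) := h2
  have h4 := congrArg (fun x : F0 L (q * M) => qExpand L q (x : LaurentSeries L)) h1
  have h5 : qExpand L q ((B.low.wF ι hq rfl (h.el rfl ι) * h.el rfl ι : F0 L (q * M)) :
      LaurentSeries L) = qExpand L q (B.low.wF ι hq rfl (h.el rfl ι) : LaurentSeries L) *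
      qExpand L q ((h.el rfl ι : F0 L (q * M)) : LaurentSeries L) := map_mul _ _ _
  have h6 : ((B.wF2 ι hq hN (inc1 L hN (h.el rfl ι)) * psq hN (h.el rfl ι) : F0 L N) :
      LaurentSeries L) = ((B.wF2 ι hq hN (inc1 L hN (h.el rfl ι)) : F0 L N) : LaurentSeries L) *
      qExpand L q ((h.el rfl ι : F0 L (q * M)) : LaurentSeries L) := rfl
  rw [h6, h3, ← h5]
  refine h4.trans ?_
  rw [C.OF]
  change qExpand L q (algebraMap L (LaurentSeries L) _) = _
  rw [ModularCurve.algebraMap_laurentSeries_eq_single, ModularCurve.qExpand_single, mul_zero,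
    HahnSeries.C_apply]
  congr 1
  rw [map_mul, map_intCast, map_natCast]

/-- the cuspidal data, given the function `d` -/
theorem nc_of_d (C : Cpt O (Kt L p κ) (F0 L M) (F0 L N)) (B : Bez (q ^ 2) M)
    (hq : q.Prime) (hN : N = q ^ 2 * M) (h : PhiData p b q M mu ε) (hH : HautData H S k P)
    {θ₁ : F0 L N →+* LaurentSeries L'} (hθ : IsTh i q M N (zL L' ζ) θ₁)
    (hπ : Prime π) (hqπ : (q : O) = π) [ExpChar (ResidueField O) q]
    [FiniteDimensional (Kt L p κ) (F0 L M)] [Algebra.IsSeparable (Kt L p κ) (F0 L M)]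
    [FiniteDimensional (Kt L p κ) (F0 L N)] [Algebra.IsSeparable (Kt L p κ) (F0 L N)]
    (D : L2 (O := O) (L := L) (O' := O') (L' := L') (K := Kt L p κ) (F := F0 L N) (F0 L M) q
      (tK L p κ) (tS O p κ) (algebraMap (F0 L N) (LaurentSeries L)) θ₁ i i' ζ
      (B.wF2 ι hq hN)) (ht : IsParam O (tK L p κ))
    {c : ℕ → ℤ[X]} {C₀ : ℤ} {X₁ : F0 L N}
    (T : Tri (M := F0 L M) ht hπ q c C₀ D.PP (B.wF2 ι hq hN) X₁) {d : F0 L N}
    (chd : ∃ n : ℕ, algebraMap (Kt L p κ) (F0 L N) (tK L p κ) ^ n * d ∈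
      chart O (algebraMap (Kt L p κ) (F0 L N) (tK L p κ)))
    (d_non : d ∈ (D.PP 1).nonunits) (d_ne : d ≠ 0)
    (d_unif : ∀ x ∈ (D.PP 1).nonunits, x / d ∈ D.PP 1)
    (om : ∃ l n : ℕ, ∃ u : O, IsUnit u ∧
      d ^ (q - 1) / algebraMap O (F0 L N) π * (inc1 L hN (h.el rfl ι)) ^ l *
        algebraMap (Kt L p κ) (F0 L N) (tK L p κ) ^ n - algebraMap O (F0 L N) u ∈
          (D.PP 1).nonunits) :
    NC (algebraMap (Kt L p κ) (F0 L N) (tK L p κ)) π q D.PP (B.wF2 ι hq hN)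
      (inc1 L hN (h.el rfl ι)) (algebraMap O (F0 L N) π / psq hN (h.el rfl ι))
      (psq hN (h.el rfl ι) / inc1 L hN (h.el rfl ι)) d := by
  haveI := D.loc
  have cψ : ((h.el (rfl : q * M = q * M) ι : F0 L (q * M)) : LaurentSeries L) = PsR L p b q := rfl
  have ca : ((inc1 L hN (h.el rfl ι) : F0 L N) : LaurentSeries L) = PsR L p b q := by
    rw [coe_inc1]; exact cψ
  -- expansions
  have f1 : algebraMap (F0 L N) (LaurentSeries L) (inc1 L hN (h.el rfl ι)) =
      toL O L (PsR O p b q) := by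
    change ((inc1 L hN (h.el rfl ι) : F0 L N) : LaurentSeries L) = _
    rw [ca, toL, coeffMap_PsR]
  have f2 : algebraMap (F0 L N) (LaurentSeries L) (psq hN (h.el rfl ι)) =
      toL O L (qExpand O q (PsR O p b q)) := by
    change qExpand L q ((h.el rfl ι : F0 L (q * M)) : LaurentSeries L) = _
    rw [cψ, toL, coeffMap_qExpand', coeffMap_PsR]
  have f3 : θ₁ (inc1 L hN (h.el rfl ι)) = toL O' L' (PsR O' p b q) := by
    have h1 := hθ.low_eq hN (h.el rfl ι)
    have h2 : θ₁ (inc1 L hN (h.el rfl ι)) =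
      coeffMap i ((h.el rfl ι : F0 L (q * M)) : LaurentSeries L) := h1
    rw [h2, cψ, coeffMap_PsR, toL, coeffMap_PsR]
  have k1 : toK O (PsR O p b q) ≠ 0 := by
    rw [toK, coeffMap_PsR]
    exact PsR_ne_zero p b q
  have k1' : toK O' (PsR O' p b q) ≠ 0 := by
    rw [toK, coeffMap_PsR]
    exact PsR_ne_zero p b q
  have k2 : toK O (qExpand O q (PsR O p b q)) = toK O (PsR O p b q) ^ q := by
    rw [toK, coeffMap_qExpand', coeffMap_PsR, PsR_pow]
  have hε : ((ε : O)) * ((ε : O)) = 1 := by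
    have := h.sq
    rw [sq] at this
    exact_mod_cast this
  have hw := w_low (ι := ι) C B hq hN h
  rw [hqπ] at hw
  -- integrality
  have hint := h.isIntegral rfl ι hH (F0 L N).val
    (t := algebraMap (Kt L p κ) (F0 L N) (tK L p κ)) (x := inc1 L hN (h.el rfl ι))
    (C.KF (tK L p κ)) ca
  exact nc_abs D T f1 f2 f3 k1 k1' k2 hw hε (mem_ovL_of_isIntegral C.OL hπ T.tF_ne hint.1)
    (mem_ovL_of_isIntegral C.OL hπ T.tF_ne hint.2) chd d_non d_ne d_unif om

end Conc

end Fermat.Agent.CA
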