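import Mathlib
import Fermat.Agent.CA.NC3

/-!
The cuspidal data: the uniformiser of the middle component.
-/

set_option autoImplicit false
set_option linter.unusedSectionVars false
set_option linter.unusedVariables false
set_option linter.style.haveILetI false

open IsLocalRing Polynomial ModularCurve IntermediateField

noncomputable section

universe u

namespace Fermat.Agent.CA

open Fermat.Agent.Geo Fermat.Agent.LG Fermat.Agent.ModFun
open Fermat.Agent.ESCore (HauptFn haupt2 haupt3)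

section Wilson

variable {O' : Type u} [CommRing O'] [IsDomain O'] [IsDiscreteValuationRing O'] {q : ℕ}
  {ζ : O'ˣ}

theorem res_geom (hζ : residue O' (ζ : O') = 1) (n : ℕ) :
    residue O' (∑ j ∈ Finset.range n, (ζ : O') ^ j) = n := by
  rw [map_sum]
  simp [hζ]

/-- Wilson's theorem -/
theorem residue_v (hq : q.Prime) (hq0 : (q : ResidueField O') = 0) (hζ : IsPrimitiveRoot ζ q)
    (hres : residue O' (ζ : O') = 1) (hne : (ζ : O') - 1 ≠ 0) {v : O'}
    (hv : ((ζ : O') - 1) ^ (q - 1) = v * q) : residue O' v = -1 := by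
  haveI : Fact q.Prime := ⟨hq⟩
  obtain ⟨n, rfl⟩ : ∃ n, q = n + 1 := ⟨q - 1, by have := hq.one_lt; omega⟩
  rw [Nat.add_sub_cancel] at hv
  have hζ' : IsPrimitiveRoot (ζ : O') (n + 1) := hζ.map_of_injective (f := Units.coeHom O')
    Units.val_injective
  have h1 := hζ'.prod_one_sub_pow_eq_order
  have h2 : ∀ k : ℕ, (1 : O') - (ζ : O') ^ k = (-1) * ((ζ : O') - 1) *
      ∑ j ∈ Finset.range k, (ζ : O') ^ j := by
    intro k
    have := geom_sum_mul (ζ : O') k
    linear_combination this
  have h3 : ((-1) * ((ζ : O') - 1)) ^ n * ∏ k ∈ Finset.range n,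
      ∑ j ∈ Finset.range (k + 1), (ζ : O') ^ j = (((n + 1 : ℕ)) : O') := by
    have h31 : ((-1) * ((ζ : O') - 1)) ^ n = ∏ _k ∈ Finset.range n, ((-1) * ((ζ : O') - 1)) := by
      rw [Finset.prod_const, Finset.card_range]
    rw [h31, ← Finset.prod_mul_distrib]
    push_cast
    rw [← h1]
    exact Finset.prod_congr rfl fun k _ => (h2 (k + 1)).symm
  have hq' : (((n + 1 : ℕ)) : O') ≠ 0 := by
    intro h0
    rw [h0, mul_zero] at hv
    exact pow_ne_zero _ hne hv
  rw [mul_pow, hv] at h3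
  have h4 : (-1) ^ n * v * ∏ k ∈ Finset.range n,
      ∑ j ∈ Finset.range (k + 1), (ζ : O') ^ j = 1 := by
    apply mul_right_cancel₀ hq'
    linear_combination h3
  have h5 := congrArg (residue O') h4
  haveI : CharP (ResidueField O') (n + 1) := (CharP.charP_iff_prime_eq_zero hq).mpr hq0
  rw [map_mul, map_mul, map_pow, map_neg, map_one, map_prod] at h5
  have h6 : ∏ k ∈ Finset.range n, residue O' (∑ j ∈ Finset.range (k + 1), (ζ : O') ^ j) =
      (n.factorial : ResidueField O') := by
    rw [Finset.prod_congr rfl fun k _ => res_geom hres (k + 1), ← Nat.cast_prod,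
      Finset.prod_range_add_one_eq_factorial]
  have h7 : (n.factorial : ResidueField O') = -1 := by
    have h8 := ZMod.wilsons_lemma (n + 1)
    rw [Nat.add_sub_cancel] at h8
    have h9 := congrArg (ZMod.castHom (dvd_refl (n + 1)) (ResidueField O')) h8
    rwa [map_natCast, map_neg, map_one] at h9
  have h10 : ((-1 : ResidueField O')) ^ n = 1 := by
    rcases hq.eq_two_or_odd' with h | h
    · have hn : n = 1 := by omega
      subst hn
      rw [pow_one]
      have h11 : ((2 : ℕ) : ResidueField O') = 0 := hq0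
      push_cast at h11
      linear_combination h11 - h11 - h11
    · have : Even n := by
        rcases h with ⟨k, hk⟩
        exact ⟨k, by omega⟩
      exact this.neg_one_pow
  rw [h6, h7, h10, one_mul, mul_neg_one] at h5
  rw [← neg_eq_iff_eq_neg]
  exact h5

end Wilson

section Abs

variable {O L O' L' K M F : Type u} [CommRing O] [IsDomain O] [IsDiscreteValuationRing O]
    [CharZero O]
    [Field L] [Algebra O L] [IsFractionRing O L] [CommRing O'] [IsDomain O']
    [IsDiscreteValuationRing O'] [Field L'] [Algebra O' L'] [IsFractionRing O' L']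
    [Field K] [Field M] [Field F] [Algebra O K] [Algebra O M] [Algebra O F] [Algebra K M]
    [Algebra K F] [Algebra M F] [IsScalarTower O K M] [IsScalarTower O K F]
    [IsScalarTower K M F] [IsScalarTower O M F] {q : ℕ} [NeZero q] {t : K} {T₀ : LaurentSeries O}
    {θ : F →+* LaurentSeries L} {θ₁ : F →+* LaurentSeries L'} {i : L →+* L'} {i' : O →+* O'}
    {ζ : O'ˣ} {w : F ≃+* F} {π : O}

variable (D : L2 M q t T₀ θ θ₁ i i' ζ w)

include D

/-- the expansion of `w z - z` on the middle component -/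
theorem L2.exists_dU {z : M} {Z : PowerSeries O}
    (hz : θ (algebraMap M F z) = toL O L (HahnSeries.ofPowerSeries ℤ O Z)) :
    ∃ U : LaurentSeries O', toK O' U =
        thD (toK O' (HahnSeries.ofPowerSeries ℤ O' (Z.map i'))) ∧
      θ₁ (w (algebraMap M F z) - algebraMap M F z) =
        toL O' L' (HahnSeries.C ((ζ : O') - 1) * U) := by
  haveI := D.loc
  have hmap : coeffMap i' (HahnSeries.ofPowerSeries ℤ O Z) =
      HahnSeries.ofPowerSeries ℤ O' (Z.map i') := by
    ext n
    rw [coeffMap_coeff]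
    rcases lt_or_ge n 0 with hn | hn
    · rw [ofPowerSeries_coeff_of_neg _ hn, ofPowerSeries_coeff_of_neg _ hn, map_zero]
    · obtain ⟨m, rfl⟩ := Int.eq_ofNat_of_zero_le hn
      rw [HahnSeries.ofPowerSeries_apply_coeff, HahnSeries.ofPowerSeries_apply_coeff,
        PowerSeries.coeff_map]
  set Z' : LaurentSeries O' := HahnSeries.ofPowerSeries ℤ O' (Z.map i') with hZ'
  have h1 : θ₁ (w (algebraMap M F z) - algebraMap M F z) = toL O' L' (twist ζ Z' - Z') := by
    rw [map_sub, D.θ₁w, D.θ₁M, hz, coeffMap_toL D.comp, hmap, twist_toL, map_sub]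
  have h2 : toK O' (twist ζ Z' - Z') = 0 := by
    rw [map_sub, toK_twist D.resζ, sub_self]
  obtain ⟨U, hU⟩ := exists_eq_mul_of_toK_eq_zero D.ζirr h2
  refine ⟨U, ?_, by rw [h1, hU]⟩
  ext n
  rw [thD_coeff, toK_coeff, toK_coeff]
  have h3 := congrArg (fun x : LaurentSeries O' => x.coeff n) hU
  simp only [HahnSeries.coeff_sub, twist_coeff, HahnSeries.C_mul_eq_smul, HahnSeries.coeff_smul,
    smul_eq_mul] at h3
  rcases lt_or_ge n 0 with hn | hn
  · have h4 : Z'.coeff n = 0 := ofPowerSeries_coeff_of_neg _ hn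
    rw [h4, mul_zero, sub_zero] at h3
    rw [h4, map_zero, smul_zero]
    rw [(mul_eq_zero.mp h3.symm).resolve_left D.ζirr.ne_zero, map_zero]
  · obtain ⟨m, rfl⟩ := Int.eq_ofNat_of_zero_le hn
    have h4 : (((ζ ^ ((m : ℕ) : ℤ) : O'ˣ) : O')) - 1 = ((ζ : O') - 1) *
        ∑ j ∈ Finset.range m, (ζ : O') ^ j := by
      rw [zpow_natCast, Units.val_pow_eq_pow_val, mul_geom_sum]
    have h5 : ((ζ : O') - 1) * U.coeff (m : ℤ) = ((ζ : O') - 1) *
        ((∑ j ∈ Finset.range m, (ζ : O') ^ j) * Z'.coeff (m : ℤ)) := by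
      rw [← h3]
      linear_combination (Z'.coeff (m : ℤ)) * h4
    rw [mul_left_cancel₀ D.ζirr.ne_zero h5, map_mul, res_geom D.resζ]
    simp

variable {U : LaurentSeries O'} {d : F}

theorem L2.d_non (hd : θ₁ d = toL O' L' (HahnSeries.C ((ζ : O') - 1) * U)) :
    d ∈ D.P1.nonunits := by
  have hV : θ₁ d ∈ gV O' L' := by rw [hd]; exact toL_mem_gV _
  refine (mem_nonunits_iff_gR (hθ := D.hgK') hV).mpr ?_
  have e : (⟨_, hV⟩ : gV O' L') = ⟨toL O' L' (HahnSeries.C ((ζ : O') - 1) * U),
    toL_mem_gV _⟩ := Subtype.ext hd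
  have h2 := gR_toL (L := L') (HahnSeries.C ((ζ : O') - 1) * U)
  rw [e, h2, map_mul, toK_C_of_irreducible D.ζirr, zero_mul]

theorem L2.d_ne (hd : θ₁ d = toL O' L' (HahnSeries.C ((ζ : O') - 1) * U))
    (hU : toK O' U ≠ 0) : d ≠ 0 := by
  rintro rfl
  rw [map_zero] at hd
  have h1 := toL_injective (O := O') (L := L') (hd.symm.trans (map_zero _).symm)
  rcases mul_eq_zero.mp h1 with h2 | h2
  · rw [map_eq_zero_iff _ HahnSeries.C_injective] at h2
    exact D.ζirr.ne_zero h2
  · rw [h2, map_zero] at hU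
    exact hU rfl

theorem L2.d_unif (hd : θ₁ d = toL O' L' (HahnSeries.C ((ζ : O') - 1) * U))
    (hU : toK O' U ≠ 0) {x : F} (hx : x ∈ D.P1.nonunits) : x / d ∈ D.P1 := by
  have hxV : θ₁ x ∈ gV O' L' := L2.mem_of_nonunits hx
  have h1 := (mem_nonunits_iff_gR (hθ := D.hgK') hxV).mp hx
  obtain ⟨y, hy, hxy⟩ := (gR_eq_zero_iff D.ζirr _).mp h1
  change θ₁ x = _ at hxy
  rw [D.mem1, map_div₀, hd, hxy, map_mul, toL_C]
  have h0 : HahnSeries.C (algebraMap O' L' ((ζ : O') - 1)) ≠ (0 : LaurentSeries L') := by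
    rw [Ne, map_eq_zero_iff _ HahnSeries.C_injective, map_eq_zero_iff _
      (IsFractionRing.injective O' L')]
    exact D.ζirr.ne_zero
  rw [mul_div_mul_left _ _ h0, div_eq_mul_inv]
  exact mul_mem hy (toL_unit hU).2

/-- the leading coefficient relation -/
theorem L2.om (hπ' : (q : O) = π) (hζ : IsPrimitiveRoot ζ q)
    (hd : θ₁ d = toL O' L' (HahnSeries.C ((ζ : O') - 1) * U)) {a1 : F} {A : LaurentSeries O'}
    (ha : θ₁ a1 = toL O' L' A) {l : ℕ}
    (hrel : toK O' U ^ (q - 1) * toK O' A ^ l * toK O' (coeffMap i' T₀) ^ (q - 1) = 1) :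
    d ^ (q - 1) / algebraMap O F π * a1 ^ l * algebraMap K F t ^ (q - 1) -
      algebraMap O F (-1) ∈ D.P1.nonunits := by
  obtain ⟨v, hv⟩ := D.ζpow
  have hq0 : HahnSeries.C (algebraMap O' L' (q : O')) ≠ (0 : LaurentSeries L') := by
    rw [Ne, map_eq_zero_iff _ HahnSeries.C_injective, map_eq_zero_iff _
      (IsFractionRing.injective O' L')]
    intro h0
    rw [h0, mul_zero] at hv
    exact pow_ne_zero _ D.ζirr.ne_zero hv
  have h1 : θ₁ (d ^ (q - 1) / algebraMap O F π) =
      toL O' L' (HahnSeries.C (v : O') * U ^ (q - 1)) := by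
    rw [map_div₀, map_pow, hd, D.θ₁C, ← hπ', map_natCast, map_mul, mul_pow, toL_C,
      ← map_pow HahnSeries.C, ← map_pow (algebraMap O' L'), hv, map_mul, map_mul, map_mul, toL_C,
      map_pow]
    field_simp
  have h2 : θ₁ (d ^ (q - 1) / algebraMap O F π * a1 ^ l * algebraMap K F t ^ (q - 1) -
      algebraMap O F (-1)) = toL O' L' (HahnSeries.C (v : O') * U ^ (q - 1) * A ^ l *
        coeffMap i' T₀ ^ (q - 1) - HahnSeries.C (-1)) := by
    have e1 : toL O' L' (HahnSeries.C (v : O') * U ^ (q - 1) * A ^ l *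
        coeffMap i' T₀ ^ (q - 1) - HahnSeries.C (-1)) =
        toL O' L' (HahnSeries.C (v : O') * U ^ (q - 1)) * toL O' L' A ^ l *
        toL O' L' (coeffMap i' T₀) ^ (q - 1) - HahnSeries.C (algebraMap O' L' (-1)) := by
      rw [← toL_C, map_sub, map_mul, map_mul, map_pow, map_pow]
    rw [e1, map_sub, map_mul, map_mul, h1, map_pow, map_pow, ha, D.θ₁t, D.θ₁C, map_neg i',
      map_one i']
  have hres : toK O' (HahnSeries.C (v : O') * U ^ (q - 1) * A ^ l *
        coeffMap i' T₀ ^ (q - 1) - HahnSeries.C (-1)) = 0 := by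
    have e : ∀ a : O', toK O' (HahnSeries.C a) = HahnSeries.C (residue O' a) := by
      intro a
      have h := gR_toL (L := L') (HahnSeries.C a)
      have h' := gR_C (L := L') a
      rw [← h, ← h']
      congr 1
      exact Subtype.ext (toL_C _)
    have hq0' : (q : ResidueField O') = 0 := by
      haveI := D.loc
      have := congrArg (ResidueField.map i') D.q0
      rwa [map_natCast, map_zero] at this
    have hv' := residue_v D.prime hq0' hζ D.resζ D.ζirr.ne_zero hv
    have e1 : toK O' (HahnSeries.C (v : O')) = -1 := by rw [e, hv', map_neg, map_one]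
    have e2 : toK O' (HahnSeries.C (-1 : O')) = -1 := by
      rw [e, map_neg, map_one, map_neg, map_one]
    rw [map_sub, map_mul, map_mul, map_mul, map_pow, map_pow, map_pow, e1, e2]
    linear_combination (-1 : LaurentSeries (ResidueField O')) * hrel
  have hV : θ₁ (d ^ (q - 1) / algebraMap O F π * a1 ^ l * algebraMap K F t ^ (q - 1) -
      algebraMap O F (-1)) ∈ gV O' L' := by rw [h2]; exact toL_mem_gV _
  refine (mem_nonunits_iff_gR (hθ := D.hgK') hV).mpr ?_
  have e : (⟨_, hV⟩ : gV O' L') = ⟨toL O' L' (HahnSeries.C (v : O') * U ^ (q - 1) * A ^ l *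
        coeffMap i' T₀ ^ (q - 1) - HahnSeries.C (-1)), toL_mem_gV _⟩ := Subtype.ext h2
  have h3 := gR_toL (L := L') (HahnSeries.C (v : O') * U ^ (q - 1) * A ^ l *
        coeffMap i' T₀ ^ (q - 1) - HahnSeries.C (-1))
  rw [e, h3, hres]

end Abs

end Fermat.Agent.CA
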