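import Mathlib
import Fermat.Agent.CA.NC4
import Fermat.Agent.LG.GRHaupt

/-!
The cuspidal data: the two cases.
-/

set_option autoImplicit false
set_option linter.unusedSectionVars false
set_option linter.unusedVariables false
set_option linter.style.haveILetI false

open IsLocalRing Polynomial ModularCurve IntermediateField

noncomputable section

universe u

namespace Fermat.Agent.CA

open Fermat.Agent.Geo Fermat.Agent.LG Fermat.Agent.ModFun Fermat.Agent.CB
open Fermat.Agent.ESCore (HauptFn haupt2 haupt3)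

variable {O L O' L' : Type u} [CommRing O] [IsDomain O] [IsDiscreteValuationRing O] [CharZero O]
    [Field L] [Algebra O L] [IsFractionRing O L] [CommRing O'] [IsDomain O']
    [IsDiscreteValuationRing O'] [Field L'] [Algebra O' L'] [IsFractionRing O' L']
    {q M N : ℕ} [NeZero q] [NeZero M] [NeZero N]
    {i : L →+* L'} {i' : O →+* O'} {ζ : O'ˣ} {ι : L →+* ℂ} {π : O}

section Two

variable [Algebra O (Kt L 2 16)] [Algebra O (F0 L M)] [Algebra O (F0 L N)]
    [Algebra (Kt L 2 16) (F0 L M)] [Algebra (Kt L 2 16) (F0 L N)] [Algebra (F0 L M) (F0 L N)]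
    [IsScalarTower O (Kt L 2 16) (F0 L M)] [IsScalarTower O (Kt L 2 16) (F0 L N)]
    [IsScalarTower O (F0 L M) (F0 L N)] [IsScalarTower (Kt L 2 16) (F0 L M) (F0 L N)]

/-- (T3) the cuspidal data, `q` odd -/
theorem nc_conc_two (C : Cpt O (Kt L 2 16) (F0 L M) (F0 L N)) (B : Bez (q ^ 2) M)
    (hq : q.Prime) (hN : N = q ^ 2 * M) (hq2 : q ≠ 2) (h4 : 4 ∣ M)
    {θ₁ : F0 L N →+* LaurentSeries L'} (hθ : IsTh i q M N (zL L' ζ) θ₁)
    (hζ : IsPrimitiveRoot ζ q) (hπ : Prime π) (hqπ : (q : O) = π)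
    [ExpChar (ResidueField O) q]
    [FiniteDimensional (Kt L 2 16) (F0 L M)] [Algebra.IsSeparable (Kt L 2 16) (F0 L M)]
    [FiniteDimensional (Kt L 2 16) (F0 L N)] [Algebra.IsSeparable (Kt L 2 16) (F0 L N)]
    (D : L2 (O := O) (L := L) (O' := O') (L' := L') (K := Kt L 2 16) (F := F0 L N) (F0 L M) q
      (tK L 2 16) (tS O 2 16) (algebraMap (F0 L N) (LaurentSeries L)) θ₁ i i' ζ
      (B.wF2 ι hq hN)) (ht : IsParam O (tK L 2 16))
    {c : ℕ → ℤ[X]} {C₀ : ℤ} {X₁ : F0 L N}
    (T : Tri (M := F0 L M) ht hπ q c C₀ D.PP (B.wF2 ι hq hN) X₁) :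
    ∃ (a1 : F0 L (q * M)) (a2 cc d : F0 L N),
        NC (algebraMap (Kt L 2 16) (F0 L N) (tK L 2 16)) π q D.PP (B.wF2 ι hq hN)
          (inc1 L hN a1) a2 cc d := by
  haveI := D.loc
  have h := phiData_two (hq.odd_of_ne_two hq2) h4
  -- the root of `1 + 64 / t`
  obtain ⟨z, hz, hz2, -⟩ := exists_T4 (M := M) h4 ι
  set zF : F0 L N := algebraMap (F0 L M) (F0 L N) z with hzF
  set Z : PowerSeries O := PowerSeries.map (Int.castRingHom O) TZ4 with hZ
  have hcoe : ((zF : F0 L N) : LaurentSeries L) = (z : LaurentSeries L) := C.MF z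
  have hmapZ : ∀ {R R' : Type u} [CommRing R] [CommRing R'] (f : R →+* R') (A : PowerSeries ℤ),
      coeffMap f (HahnSeries.ofPowerSeries ℤ R (A.map (Int.castRingHom R))) =
        coeffMap (Int.castRingHom R') (HahnSeries.ofPowerSeries ℤ ℤ A) := by
    intro R R' _ _ f A
    ext n
    rw [coeffMap_coeff, coeffMap_coeff]
    rcases lt_or_ge n 0 with hn | hn
    · rw [ofPowerSeries_coeff_of_neg _ hn, ofPowerSeries_coeff_of_neg _ hn, map_zero, map_zero]
    · obtain ⟨m, rfl⟩ := Int.eq_ofNat_of_zero_le hn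
      rw [HahnSeries.ofPowerSeries_apply_coeff, HahnSeries.ofPowerSeries_apply_coeff,
        PowerSeries.coeff_map]
      exact map_intCast f _
  have hzθ : algebraMap (F0 L N) (LaurentSeries L) zF =
      toL O L (HahnSeries.ofPowerSeries ℤ O Z) := by
    change ((zF : F0 L N) : LaurentSeries L) = _
    rw [hcoe, hz, toL, hZ, hmapZ]
  obtain ⟨U, hU, hd⟩ := D.exists_dU (z := z) (Z := Z) hzθ
  have hZ' : toK O' (HahnSeries.ofPowerSeries ℤ O' (Z.map i')) =
      coeffMap (Int.castRingHom (ResidueField O')) (HahnSeries.ofPowerSeries ℤ ℤ TZ4) := by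
    have e : Z.map i' = PowerSeries.map (Int.castRingHom O') TZ4 := by
      ext n
      rw [hZ, PowerSeries.coeff_map, PowerSeries.coeff_map, PowerSeries.coeff_map]
      exact map_intCast i' _
    rw [e, toK, hmapZ]
  rw [hZ'] at hU
  have hrel := thD_T4el (K := ResidueField O')
  rw [← hU] at hrel
  -- characteristic
  have hq0' : (q : ResidueField O') = 0 := by
    have := congrArg (ResidueField.map i') D.q0
    rwa [map_natCast, map_zero] at this
  haveI : Fact q.Prime := ⟨hq⟩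
  haveI : CharP (ResidueField O') q := (CharP.charP_iff_prime_eq_zero hq).mpr hq0'
  haveI : ExpChar (ResidueField O') q := ExpChar.prime hq
  have h2 : (2 : ResidueField O') ≠ 0 := by
    intro h0
    obtain ⟨k, hk⟩ := hq.odd_of_ne_two hq2
    have h3 : ((2 * k + 1 : ℕ) : ResidueField O') = 0 := by rw [← hk]; exact hq0'
    push_cast at h3
    rw [h0, zero_mul, zero_add] at h3
    exact one_ne_zero h3
  have h32 : (32 : ResidueField O') ^ (q - 1) = 1 := by
    have h3 : (32 : ZMod q) ≠ 0 := by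
      intro h0
      have h4 := congrArg (ZMod.castHom (dvd_refl q) (ResidueField O')) h0
      rw [map_zero, map_ofNat] at h4
      have h5 : (2 : ResidueField O') ^ 5 = 0 := by
        rw [← h4]
        norm_num
      exact h2 (pow_eq_zero_iff (by norm_num) |>.mp h5)
    have h4 := ZMod.pow_card_sub_one_eq_one h3
    have h5 := congrArg (ZMod.castHom (dvd_refl q) (ResidueField O')) h4
    rw [map_pow, map_one, map_ofNat] at h5
    exact h5
  have hPhi : PsR (ResidueField O') 2 2 q * PhiS 2 2 (ResidueField O') ^ (q - 1) = 1 :=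
    PsR_mul_PhiS_pow 2 2 q
  have hPhi0 : PhiS 2 2 (ResidueField O') ≠ 0 :=
    left_ne_zero_of_mul_eq_one (PhiS_mul_PhiSi 2 2 (ResidueField O'))
  have h32L : (32 : LaurentSeries (ResidueField O')) ≠ 0 := by
    intro h0
    have h3 := congrArg (fun x : LaurentSeries (ResidueField O') => x.coeff 0) h0
    have h4 : ((32 : ℕ) : LaurentSeries (ResidueField O')) =
        HahnSeries.C ((32 : ℕ) : ResidueField O') := (map_natCast _ 32).symm
    have h5 : (32 : LaurentSeries (ResidueField O')) = HahnSeries.C (32 : ResidueField O') := by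
      exact_mod_cast h4
    rw [h5] at h3
    simp only [HahnSeries.C_apply, HahnSeries.coeff_single_same, HahnSeries.coeff_zero] at h3
    rw [h3, zero_pow (by have := hq.two_le; omega)] at h32
    exact zero_ne_one h32
  have hU0 : toK O' U ≠ 0 := by
    intro h0
    rw [h0, zero_mul] at hrel
    exact mul_ne_zero h32L (pow_ne_zero 2 hPhi0) hrel.symm
  -- memberships of `z`
  have m0 : zF ∈ D.P0 := by
    rw [D.mem0, hzθ]
    exact toL_mem_gV _
  have m1 : zF ∈ D.P1 := (D.memM z).mpr m0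
  have m2 : zF ∈ D.P2 := by
    rw [D.mem2, D.mem0, D.θw z]
    change qExpand L (q ^ 2) ((zF : F0 L N) : LaurentSeries L) ∈ _
    have e : ((zF : F0 L N) : LaurentSeries L) = toL O L (HahnSeries.ofPowerSeries ℤ O Z) := hzθ
    rw [e, ← L2.toL_qExpand]
    exact toL_mem_gV _
  have mz : ∀ j, zF ∈ D.PP j := by
    intro j
    match j with
    | 0 => exact m0
    | 1 => exact m1
    | 2 => exact m2
  have mw : ∀ j, B.wF2 ι hq hN zF ∈ D.PP j := by
    intro j
    match j with
    | 0 => exact m2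
    | 1 => exact (T.wP1 _).mpr m1
    | 2 =>
      change B.wF2 ι hq hN zF ∈ D.P2
      rw [D.mem2w]
      exact m0
  have oz : zF ∈ ovL π (algebraMap (Kt L 2 16) (F0 L N) (tK L 2 16)) := by
    refine ⟨0, 1, ?_⟩
    rw [pow_zero, one_mul, pow_one]
    set tF := algebraMap (Kt L 2 16) (F0 L N) (tK L 2 16) with htF
    have htS : ((tF : F0 L N) : LaurentSeries L) = tS L 2 16 := C.KF (tK L 2 16)
    have e : (tF * zF) ^ 2 = tF ^ 2 + 64 * tF := by
      apply Subtype.ext
      have e1 : (((tF * zF) ^ 2 : F0 L N) : LaurentSeries L) =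
          ((tF : LaurentSeries L) * (zF : LaurentSeries L)) ^ 2 := rfl
      have e2 : ((tF ^ 2 + 64 * tF : F0 L N) : LaurentSeries L) =
          (tF : LaurentSeries L) ^ 2 + 64 * (tF : LaurentSeries L) := rfl
      have htS0 : tS L 2 16 ≠ 0 := left_ne_zero_of_mul_eq_one (tS_mul_TS (K := L))
      rw [e1, e2, htS, hcoe, mul_pow, hz2]
      field_simp
    refine chart_intClosed (n := 2) (c := fun j => if j = 0 then -(tF ^ 2 + 64 * tF) else 0)
      (fun j hj => ?_) ?_
    · split_ifs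
      · refine neg_mem (add_mem (pow_mem (self_mem_chart _) 2) (mul_mem ?_ (self_mem_chart _)))
        exact_mod_cast natCast_mem (chart O tF) 64
      · exact zero_mem _
    · rw [Finset.sum_range_succ, Finset.sum_range_one, e]
      simp
  have chd := T.ov_of (x := B.wF2 ι hq hN zF - zF) (sub_mem (T.w_ovL oz) oz)
    (fun j => (D.PP j).sub_mem (mw j) (mz j))
  have ha1 : θ₁ (inc1 L hN (h.el rfl ι)) = toL O' L' (PsR O' 2 2 q) := by
    have h1 := hθ.low_eq hN (h.el rfl ι)
    have h2 : θ₁ (inc1 L hN (h.el rfl ι)) =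
      coeffMap i ((h.el rfl ι : F0 L (q * M)) : LaurentSeries L) := h1
    have cψ : ((h.el (rfl : q * M = q * M) ι : F0 L (q * M)) : LaurentSeries L) =
      PsR L 2 2 q := rfl
    rw [h2, cψ, coeffMap_PsR, toL, coeffMap_PsR]
  have hom : toK O' U ^ (q - 1) * toK O' (PsR O' 2 2 q) ^ 2 *
      toK O' (coeffMap i' (tS O 2 16)) ^ (q - 1) = 1 := by
    have e1 : toK O' (PsR O' 2 2 q) = PsR (ResidueField O') 2 2 q := by
      rw [toK, coeffMap_PsR]
    have e2 : toK O' (coeffMap i' (tS O 2 16)) = tS (ResidueField O') 2 16 := by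
      rw [coeffMap_tS', toK_tS]
    rw [e1, e2]
    have e3 : toK O' U ^ (q - 1) * tS (ResidueField O') 2 16 ^ (q - 1) =
        (32 * PhiS 2 2 (ResidueField O') ^ 2) ^ (q - 1) := by rw [← mul_pow, hrel]
    have e4 : (32 : LaurentSeries (ResidueField O')) ^ (q - 1) = 1 := by
      have h4 : ((32 : ℕ) : LaurentSeries (ResidueField O')) =
          HahnSeries.C ((32 : ℕ) : ResidueField O') := (map_natCast _ 32).symm
      have h5 : (32 : LaurentSeries (ResidueField O')) = HahnSeries.C (32 : ResidueField O') := by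
        exact_mod_cast h4
      rw [h5, ← map_pow, h32, map_one]
    calc toK O' U ^ (q - 1) * PsR (ResidueField O') 2 2 q ^ 2 *
          tS (ResidueField O') 2 16 ^ (q - 1)
        = (toK O' U ^ (q - 1) * tS (ResidueField O') 2 16 ^ (q - 1)) *
          PsR (ResidueField O') 2 2 q ^ 2 := by ring
      _ = (32 : LaurentSeries (ResidueField O')) ^ (q - 1) *
          (PsR (ResidueField O') 2 2 q * PhiS 2 2 (ResidueField O') ^ (q - 1)) ^ 2 := by
            rw [e3, mul_pow, mul_pow, ← pow_mul, ← pow_mul, mul_comm 2 (q - 1)]; ring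
      _ = 1 := by rw [e4, hPhi]; ring
  have om := D.om hqπ hζ hd ha1 (l := 2) hom
  exact ⟨h.el rfl ι, _, _, _, nc_of_d C B hq hN h haut2 hθ hπ hqπ D ht T chd (D.d_non hd)
    (D.d_ne hd hU0) (fun x hx => D.d_unif hd hU0 hx)
    ⟨2, q - 1, -1, isUnit_one.neg, om⟩⟩

end Two

section Three

variable [Algebra O (Kt L 3 3)] [Algebra O (F0 L M)] [Algebra O (F0 L N)]
    [Algebra (Kt L 3 3) (F0 L M)] [Algebra (Kt L 3 3) (F0 L N)] [Algebra (F0 L M) (F0 L N)]
    [IsScalarTower O (Kt L 3 3) (F0 L M)] [IsScalarTower O (Kt L 3 3) (F0 L N)]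
    [IsScalarTower O (F0 L M) (F0 L N)] [IsScalarTower (Kt L 3 3) (F0 L M) (F0 L N)]

/-- (T3') the cuspidal data, `q = 2` -/
theorem nc_conc_three (C : Cpt O (Kt L 3 3) (F0 L M) (F0 L N)) (B : Bez (q ^ 2) M)
    (hq : q.Prime) (hN : N = q ^ 2 * M) (hq2 : q = 2) (h9 : 9 ∣ M)
    {θ₁ : F0 L N →+* LaurentSeries L'} (hθ : IsTh i q M N (zL L' ζ) θ₁)
    (hπ : Prime π) (hqπ : (q : O) = π)
    [ExpChar (ResidueField O) q]
    [FiniteDimensional (Kt L 3 3) (F0 L M)] [Algebra.IsSeparable (Kt L 3 3) (F0 L M)]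
    [FiniteDimensional (Kt L 3 3) (F0 L N)] [Algebra.IsSeparable (Kt L 3 3) (F0 L N)]
    (D : L2 (O := O) (L := L) (O' := O') (L' := L') (K := Kt L 3 3) (F := F0 L N) (F0 L M) q
      (tK L 3 3) (tS O 3 3) (algebraMap (F0 L N) (LaurentSeries L)) θ₁ i i' ζ
      (B.wF2 ι hq hN)) (ht : IsParam O (tK L 3 3))
    {c : ℕ → ℤ[X]} {C₀ : ℤ} {X₁ : F0 L N}
    (T : Tri (M := F0 L M) ht hπ q c C₀ D.PP (B.wF2 ι hq hN) X₁) :
    ∃ (a1 : F0 L (q * M)) (a2 cc d : F0 L N),
        NC (algebraMap (Kt L 3 3) (F0 L N) (tK L 3 3)) π q D.PP (B.wF2 ι hq hN)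
          (inc1 L hN a1) a2 cc d := by
  have h3 : ¬ 3 ∣ q := by rw [hq2]; norm_num
  have h := phiData_three h3 h9
  have hp0 := D.p_ne hπ
  refine ⟨h.el rfl ι, _, _, algebraMap O (F0 L N) π, nc_of_d C B hq hN h haut3 hθ hπ hqπ D ht T
    ⟨0, ?_⟩ (D.non1 hπ 1) hp0 (fun x hx => ?_) ⟨0, 0, 1, isUnit_one, ?_⟩⟩
  · rw [pow_zero, one_mul]
    exact (chart O _).algebraMap_mem π
  · have h1 := D.unif1 hx
    have h2 := (D.delq hqπ).1
    have hδ := D.dl_ne
    have e : q - 1 = 1 := by omega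
    rw [e, pow_one] at h2
    have h4 := D.P1.mul_mem _ _ h1 h2
    have e2 : x / (B.wF2 ι hq hN (algebraMap (Kt L 3 3) (F0 L N) (tK L 3 3)) -
        algebraMap (Kt L 3 3) (F0 L N) (tK L 3 3)) *
        ((B.wF2 ι hq hN (algebraMap (Kt L 3 3) (F0 L N) (tK L 3 3)) -
        algebraMap (Kt L 3 3) (F0 L N) (tK L 3 3)) / algebraMap O (F0 L N) π) =
        x / algebraMap O (F0 L N) π := div_mul_div_cancel₀ hδ
    rw [e2] at h4
    exact h4
  · have e : q - 1 = 1 := by omega
    rw [e, pow_one, div_self hp0, pow_zero, pow_zero, mul_one, mul_one, map_one, sub_self]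
    exact zero_mem_nonunits _

end Three

end Fermat.Agent.CA
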