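import Mathlib
import Fermat.Agent.CA.CarI
import Fermat.Agent.CA.NC5

/-!
The vanishing theorem, over a field `L` with a discrete valuation.
-/

set_option autoImplicit false
set_option linter.unusedSectionVars false
set_option linter.unusedVariables false

open IsLocalRing Polynomial ModularCurve IntermediateField

noncomputable section

universe u

namespace Fermat.Agent.CA

open Fermat.Agent.Geo Fermat.Agent.LG Fermat.Agent.ModFun
open Fermat.Agent.ESCore (HauptFn haupt2 haupt3)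
open CongruenceSubgroup (Gamma0)

variable {O L O' L' : Type u} [CommRing O] [IsDomain O] [IsDiscreteValuationRing O]
    [Field L] [Algebra O L] [IsFractionRing O L] [CommRing O'] [IsDomain O']
    [IsDiscreteValuationRing O'] [Field L'] [Algebra O' L'] [IsFractionRing O' L']
    {q M N : ℕ} [NeZero q] [NeZero M] [NeZero N]
    {i : L →+* L'} {i' : O →+* O'} {ζ : O'ˣ} {ι : L →+* ℂ} {ι' : L' →+* ℂ} {π : O}

set_option maxHeartbeats 4000000 in
theorem car_two [CharZero O] [PerfectField (ResidueField O)] [ExpChar (ResidueField O) q]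
    (B : Bez (q ^ 2) M) (hι : ι'.comp i = ι)
    {ζM : Lˣ} (hζM : ι ζM = Complex.exp (2 * Real.pi * Complex.I / M)) (hMu : IsUnit (M : O))
    (hq0 : (q : ResidueField O) = 0) (hq : q.Prime) (hq2 : q ≠ 2)
    (hN : N = q ^ 2 * M) (hqM : ¬ q ∣ M) (h4 : 4 ∣ M) (hπ : Prime π) (hqπ : (q : O) = π)
    (comp : ∀ a, i (algebraMap O L a) = algebraMap O' L' (i' a)) (loc : IsLocalHom i')
    (inj' : Function.Injective i') (hζ : IsPrimitiveRoot ζ q) (ζirr : Irreducible ((ζ : O') - 1))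
    (ζpow : ∃ v : O'ˣ, ((ζ : O') - 1) ^ (q - 1) = v * q)
    (hNE : NoEll N) {m : ℕ} (hm : 0 < m) (hqm : ¬ q ∣ m) (hmu : IsUnit (m : O))
    {ζm : O} (hζm : IsPrimitiveRoot ζm m) (hroot : ∀ u : O, IsUnit u → ∃ v : O, v ^ m = u)
    {χ : Gamma0 N →* ℂˣ} (hχ : IsPar χ) (hχm : χ ^ m = 1) {y : LaurentSeries L}
    (hy : XSer ι N χ y) (hy0 : y ≠ 0) (hP1 : PowC hN m ⟨y ^ m, hy.pow_mem_F0 hχm⟩)
    (hP2 : PowC hN m (B.wF2 ι hq hN ⟨y ^ m, hy.pow_mem_F0 hχm⟩)) :
    χ ^ ((q ^ 2 - 1) ^ 2) = 1 := by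
  have h2M : 2 ∣ M := (by norm_num : 2 ∣ 4).trans h4
  have hqp : ¬ q ∣ 2 := fun hd => hq2 ((Nat.prime_dvd_prime_iff_eq hq Nat.prime_two).mp hd)
  have hle1 : Kt L 2 16 ≤ F0 L M := Kt_le_F0 haupt2 ι h2M
  have hle2 : F0 L M ≤ F0 L N := F0_mono (K := L) (dvd_sq₁ hN)
  have hle3 : Kt L 2 16 ≤ F0 L N := hle1.trans hle2
  haveI hcL : CharZero L := charZero_of_injective_algebraMap (IsFractionRing.injective O L)
  have hζmL : IsPrimitiveRoot (algebraMap O L ζm) m :=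
    hζm.map_of_injective (IsFractionRing.injective O L)
  have hu2 : IsUnit ((2 : ℕ) : O) := isUnit_of_dvd_natCast h2M hMu
  obtain ⟨E, hle4, hyE, hEfin, hEgal⟩ := exists_cover hm hχm hζmL hy hy0
  let iOK := algO O (Kt L 2 16)
  let iOM := algO O (F0 L M)
  let iOF := algO O (F0 L N)
  let iOE := algO O E
  let iKM := algI hle1
  let iMF := algI hle2
  let iKF := algI hle3
  let iFE := algI hle4
  let iKE := algI (hle3.trans hle4)
  haveI t1 : IsScalarTower O (Kt L 2 16) (F0 L M) := tower_O O hle1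
  haveI t2 : IsScalarTower O (Kt L 2 16) (F0 L N) := tower_O O hle3
  haveI t3 : IsScalarTower O (F0 L M) (F0 L N) := tower_O O hle2
  haveI t4 : IsScalarTower (Kt L 2 16) (F0 L M) (F0 L N) := tower_I hle1 _ _
  haveI t5 : IsScalarTower O (F0 L N) E := tower_O O hle4
  haveI t6 : IsScalarTower O (Kt L 2 16) E := tower_O O (hle3.trans hle4)
  haveI t7 : IsScalarTower (Kt L 2 16) (F0 L N) E := tower_I hle3 hle4 _
  have C : Cpt O (Kt L 2 16) (F0 L M) (F0 L N) :=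
    { OK := coe_algO O _, OM := coe_algO O _, OF := coe_algO O _, KM := coe_algI _,
      KF := coe_algI _, MF := coe_algI _ }
  obtain ⟨ht, hgood, hfinM, huniq, -⟩ := goodRed_F0_two ι hζM hMu hπ h2M hle1
  haveI := hfinM
  haveI hfinF : FiniteDimensional (F0 L M) (F0 L N) := (finrank_lev ι hq hqM hN).1
  haveI hfin : FiniteDimensional (Kt L 2 16) (F0 L N) :=
    FiniteDimensional.trans (Kt L 2 16) (F0 L M) (F0 L N)
  haveI hEfin' : FiniteDimensional (F0 L N) E := hEfin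
  haveI hfinE : FiniteDimensional (Kt L 2 16) E :=
    FiniteDimensional.trans (Kt L 2 16) (F0 L N) E
  haveI : CharZero (Kt L 2 16) :=
    charZero_of_injective_algebraMap (algebraMap L (Kt L 2 16)).injective
  haveI hG : IsGalois (F0 L N) E := hEgal
  have hinj : Function.Injective (algebraMap O E) :=
    (algebraMap L E).injective.comp (IsFractionRing.injective O L)
  have hC0 : IsUnit ((((16 : ℤ) ^ 2 * ((2 : ℕ) : ℤ) ^ 4 : ℤ)) : O) := by
    have : ((((16 : ℤ) ^ 2 * ((2 : ℕ) : ℤ) ^ 4 : ℤ)) : O) = ((2 : ℕ) : O) ^ 12 := by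
      push_cast; norm_num
    rw [this]
    exact hu2.pow 12
  obtain ⟨a, ha⟩ := car_core_gen C B haut2 hι hζM hMu (sep2 h2M hMu) hq0 hq hqp hN hqM h2M hπ hqπ comp loc
    inj' hζ ζirr ζpow hC0 ht ⟨_, hgood⟩ huniq
    (fun θ₁ hθ D c C₀ X₁ T => nc_conc_two C B hq hN hq2 h4 hθ hζ hπ hqπ D ht T)
    hinj (exists_const E) hNE hm hqm hmu hζm hroot hχ hχm hy hy0 hP1 hP2
    (yE := (⟨y, hyE⟩ : E)) (Subtype.ext rfl)
  have ha' : y ^ ((q ^ 2 - 1) ^ 2) = (a : LaurentSeries L) := congrArg Subtype.val ha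
  refine (hy.pow ((q ^ 2 - 1) ^ 2)).eq_one_of_mem (pow_ne_zero _ hy0) ?_
  rw [ha']
  exact a.2

set_option maxHeartbeats 4000000 in
theorem car_three [CharZero O] [PerfectField (ResidueField O)] [ExpChar (ResidueField O) q]
    (B : Bez (q ^ 2) M) (hι : ι'.comp i = ι)
    {ζM : Lˣ} (hζM : ι ζM = Complex.exp (2 * Real.pi * Complex.I / M)) (hMu : IsUnit (M : O))
    (hq0 : (q : ResidueField O) = 0) (hq : q.Prime) (hq2 : q = 2)
    (hN : N = q ^ 2 * M) (hqM : ¬ q ∣ M) (h9 : 9 ∣ M) (hπ : Prime π) (hqπ : (q : O) = π)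
    (comp : ∀ a, i (algebraMap O L a) = algebraMap O' L' (i' a)) (loc : IsLocalHom i')
    (inj' : Function.Injective i') (hζ : IsPrimitiveRoot ζ q) (ζirr : Irreducible ((ζ : O') - 1))
    (ζpow : ∃ v : O'ˣ, ((ζ : O') - 1) ^ (q - 1) = v * q)
    (hNE : NoEll N) {m : ℕ} (hm : 0 < m) (hqm : ¬ q ∣ m) (hmu : IsUnit (m : O))
    {ζm : O} (hζm : IsPrimitiveRoot ζm m) (hroot : ∀ u : O, IsUnit u → ∃ v : O, v ^ m = u)
    {χ : Gamma0 N →* ℂˣ} (hχ : IsPar χ) (hχm : χ ^ m = 1) {y : LaurentSeries L}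
    (hy : XSer ι N χ y) (hy0 : y ≠ 0) (hP1 : PowC hN m ⟨y ^ m, hy.pow_mem_F0 hχm⟩)
    (hP2 : PowC hN m (B.wF2 ι hq hN ⟨y ^ m, hy.pow_mem_F0 hχm⟩)) :
    χ ^ ((q ^ 2 - 1) ^ 2) = 1 := by
  have h3M : 3 ∣ M := (by norm_num : 3 ∣ 9).trans h9
  have hqp : ¬ q ∣ 3 := by rw [hq2]; decide
  have hle1 : Kt L 3 3 ≤ F0 L M := Kt_le_F0 haupt3 ι h3M
  have hle2 : F0 L M ≤ F0 L N := F0_mono (K := L) (dvd_sq₁ hN)
  have hle3 : Kt L 3 3 ≤ F0 L N := hle1.trans hle2
  haveI hcL : CharZero L := charZero_of_injective_algebraMap (IsFractionRing.injective O L)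
  have hζmL : IsPrimitiveRoot (algebraMap O L ζm) m :=
    hζm.map_of_injective (IsFractionRing.injective O L)
  have hu3 : IsUnit ((3 : ℕ) : O) := isUnit_of_dvd_natCast h3M hMu
  obtain ⟨E, hle4, hyE, hEfin, hEgal⟩ := exists_cover hm hχm hζmL hy hy0
  let iOK := algO O (Kt L 3 3)
  let iOM := algO O (F0 L M)
  let iOF := algO O (F0 L N)
  let iOE := algO O E
  let iKM := algI hle1
  let iMF := algI hle2
  let iKF := algI hle3
  let iFE := algI hle4
  let iKE := algI (hle3.trans hle4)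
  haveI t1 : IsScalarTower O (Kt L 3 3) (F0 L M) := tower_O O hle1
  haveI t2 : IsScalarTower O (Kt L 3 3) (F0 L N) := tower_O O hle3
  haveI t3 : IsScalarTower O (F0 L M) (F0 L N) := tower_O O hle2
  haveI t4 : IsScalarTower (Kt L 3 3) (F0 L M) (F0 L N) := tower_I hle1 _ _
  haveI t5 : IsScalarTower O (F0 L N) E := tower_O O hle4
  haveI t6 : IsScalarTower O (Kt L 3 3) E := tower_O O (hle3.trans hle4)
  haveI t7 : IsScalarTower (Kt L 3 3) (F0 L N) E := tower_I hle3 hle4 _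
  have C : Cpt O (Kt L 3 3) (F0 L M) (F0 L N) :=
    { OK := coe_algO O _, OM := coe_algO O _, OF := coe_algO O _, KM := coe_algI _,
      KF := coe_algI _, MF := coe_algI _ }
  obtain ⟨ht, hgood, hfinM, huniq, -⟩ := goodRed_F0_three ι hζM hMu hπ h3M hle1
  haveI := hfinM
  haveI hfinF : FiniteDimensional (F0 L M) (F0 L N) := (finrank_lev ι hq hqM hN).1
  haveI hfin : FiniteDimensional (Kt L 3 3) (F0 L N) :=
    FiniteDimensional.trans (Kt L 3 3) (F0 L M) (F0 L N)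
  haveI hEfin' : FiniteDimensional (F0 L N) E := hEfin
  haveI hfinE : FiniteDimensional (Kt L 3 3) E :=
    FiniteDimensional.trans (Kt L 3 3) (F0 L N) E
  haveI : CharZero (Kt L 3 3) :=
    charZero_of_injective_algebraMap (algebraMap L (Kt L 3 3)).injective
  haveI hG : IsGalois (F0 L N) E := hEgal
  have hinj : Function.Injective (algebraMap O E) :=
    (algebraMap L E).injective.comp (IsFractionRing.injective O L)
  have hC0 : IsUnit ((((3 : ℤ) ^ 2 * ((3 : ℕ) : ℤ) ^ 4 : ℤ)) : O) := by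
    have : ((((3 : ℤ) ^ 2 * ((3 : ℕ) : ℤ) ^ 4 : ℤ)) : O) = ((3 : ℕ) : O) ^ 6 := by
      push_cast; norm_num
    rw [this]
    exact hu3.pow 6
  obtain ⟨a, ha⟩ := car_core_gen C B haut3 hι hζM hMu (sep3 h3M hMu) hq0 hq hqp hN hqM h3M hπ hqπ comp loc
    inj' hζ ζirr ζpow hC0 ht ⟨_, hgood⟩ huniq
    (fun θ₁ hθ D c C₀ X₁ T => nc_conc_three C B hq hN hq2 h9 hθ hπ hqπ D ht T)
    hinj (exists_const E) hNE hm hqm hmu hζm hroot hχ hχm hy hy0 hP1 hP2
    (yE := (⟨y, hyE⟩ : E)) (Subtype.ext rfl)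
  have ha' : y ^ ((q ^ 2 - 1) ^ 2) = (a : LaurentSeries L) := congrArg Subtype.val ha
  refine (hy.pow ((q ^ 2 - 1) ^ 2)).eq_one_of_mem (pow_ne_zero _ hy0) ?_
  rw [ha']
  exact a.2

end Fermat.Agent.CA
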