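import Mathlib
import Fermat.Agent.CA.CarJ
import Fermat.Agent.CD.Dvr
import Fermat.Agent.CD.Desc
import Fermat.Agent.LG.R36c

/-!
The vanishing theorem for the characters fixed by inertia.
-/

set_option autoImplicit false
set_option linter.unusedSectionVars false
set_option linter.unusedVariables false

open IsLocalRing Polynomial ModularCurve IntermediateField

noncomputable section

namespace Fermat.Agent.CA

open Fermat.Agent.Geo Fermat.Agent.LG Fermat.Agent.ModFun Fermat.Agent.ESCore
open CongruenceSubgroup (Gamma0)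

theorem car_prop : CARProp := by
  intro q M N m _ _ _ hq hqM hG hN hm hqm A hA B χ hpar hI T1 T2
  haveI i0 := CD.dvr_KI hq hA
  have h := CD.ar_KI hq hA
  haveI i1 := h.isAlgClosed
  haveI i2 := h.expChar_residue
  haveI i3 := Ar.charZero A (KI A)
  obtain ⟨ζM, hζM⟩ := h.exists_zeta hqM
  have hMu : IsUnit (M : OL A (KI A)) := h.isUnit_natCast hqM
  have hq0 := h.natCast_residue
  obtain ⟨L', hle, dvr', ζ, hprim, hirr, hv⟩ := CD.exists_ram hq hA
  haveI := dvr'
  have hζ : IsPrimitiveRoot ζ q := by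
    have h1 : IsPrimitiveRoot ((Units.map (algebraMap (OL A L') L' : OL A L' →* L')) ζ : L'ˣ) q :=
      IsPrimitiveRoot.coe_units_iff.mp hprim
    exact IsPrimitiveRoot.of_map_of_injective h1
      (Units.map_injective (IsFractionRing.injective (OL A L') L'))
  obtain ⟨y, hy0, hy⟩ := CD.exists_xSer_KI hm χ hI
  have hχm : χ.1 ^ m = 1 := χ.2.1
  obtain ⟨ζm, hζm⟩ := CD.exists_root hq hA hm hqm
  have hι : (ιL L').comp (IntermediateField.inclusion hle : KI A →+* L') = ιL (KI A) := by
    apply RingHom.ext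
    intro x
    rfl
  have hNE := noEll_sq hG hN
  have hP1 := hy.powC hq hqM hN hy0 hm hχm T1
  have hP2 := XSer.powC_w B hq hqM hN hy hy0 hm hχm T2
  have key : χ.1 ^ ((q ^ 2 - 1) ^ 2) = 1 := by
    rcases hG with ⟨hq2, h4⟩ | ⟨hq2, h9⟩
    · exact car_two (O := OL A (KI A)) (L := KI A) (O' := OL A L') (L' := L') B hι hζM hMu hq0 hq
        hq2 hN hqM h4 (CD.prime_q hq hA) rfl (fun a => (CD.algebraMap_incO hle a).symm)
        inferInstance (CD.incO_injective hle) hζ hirr hv hNE hm hqm
        (CD.isUnit_natCast_KI hq hA hqm) hζm (fun u hu => CD.unit_root hq hA hm hqm hu) hpar hχm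
        hy hy0 hP1 hP2
    · exact car_three (O := OL A (KI A)) (L := KI A) (O' := OL A L') (L' := L') B hι hζM hMu hq0 hq
        hq2 hN hqM h9 (CD.prime_q hq hA) rfl (fun a => (CD.algebraMap_incO hle a).symm)
        inferInstance (CD.incO_injective hle) hζ hirr hv hNE hm hqm
        (CD.isUnit_natCast_KI hq hA hqm) hζm (fun u hu => CD.unit_root hq hA hm hqm hu) hpar hχm
        hy hy0 hP1 hP2
  exact Subtype.ext key

end Fermat.Agent.CA
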