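import Mathlib
import Fermat.Agent.Geo.Connected

/-!
Clearing denominators: elements integral over `L[t, 1/t]` and the chart `t`.
-/

set_option autoImplicit false
set_option linter.unusedSectionVars false
set_option linter.unusedVariables false

open Polynomial

universe u

namespace Fermat.Agent.CA

open Fermat.Agent.Geo

section

variable {O L F : Type u} [CommRing O] [IsDomain O] [IsDiscreteValuationRing O] [Field L]
  [Algebra O L] [IsFractionRing O L] [Field F] [Algebra O F] [Algebra L F] [IsScalarTower O L F]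
  {π : O} {t : F}

theorem exists_den (hπ : Prime π) (ht : t ≠ 0) {y : F}
    (hy : y ∈ Algebra.adjoin L ({t, t⁻¹} : Set F)) :
    ∃ (n : ℕ) (P : O[X]), (algebraMap O F π * t) ^ n * y = aeval t P := by
  induction hy using Algebra.adjoin_induction with
  | mem x hx =>
    rcases hx with rfl | hx
    · exact ⟨0, X, by rw [pow_zero, one_mul, aeval_X]⟩
    · rw [Set.mem_singleton_iff] at hx
      subst hx
      refine ⟨1, C π, ?_⟩
      rw [pow_one, mul_assoc, mul_inv_cancel₀ ht, mul_one, aeval_C]
  | algebraMap c =>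
    obtain ⟨a, b, hb, rfl⟩ := IsFractionRing.div_surjective (A := O) c
    have hb0 : b ≠ 0 := nonZeroDivisors.ne_zero hb
    have hirr : Irreducible π := hπ.irreducible
    obtain ⟨k, u, hu⟩ := IsDiscreteValuationRing.eq_unit_mul_pow_irreducible hb0 hirr
    refine ⟨k, C (a * ↑u⁻¹) * X ^ k, ?_⟩
    have hbL : algebraMap O F b ≠ 0 := by
      rw [IsScalarTower.algebraMap_apply O L F]
      exact (map_ne_zero_iff _ (algebraMap L F).injective).mpr
        ((map_ne_zero_iff _ (IsFractionRing.injective O L)).mpr hb0)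
    rw [map_div₀, ← IsScalarTower.algebraMap_apply O L F, ← IsScalarTower.algebraMap_apply O L F,
      map_mul, aeval_C, map_pow, aeval_X, mul_pow, map_mul]
    have h1 : algebraMap O F b * algebraMap O F (↑u⁻¹ : O) = algebraMap O F π ^ k := by
      rw [hu, map_mul, map_pow, mul_right_comm, ← map_mul, Units.mul_inv, map_one, one_mul]
    rw [← h1]
    field_simp
  | add x y _ _ hx hy =>
    obtain ⟨n, P, h1⟩ := hx
    obtain ⟨m, Q, h2⟩ := hy
    refine ⟨n + m, P * (C π * X) ^ m + Q * (C π * X) ^ n, ?_⟩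
    rw [map_add, map_mul, map_mul, map_pow, map_pow, map_mul, aeval_C, aeval_X, ← h1, ← h2]
    ring
  | mul x y _ _ hx hy =>
    obtain ⟨n, P, h1⟩ := hx
    obtain ⟨m, Q, h2⟩ := hy
    refine ⟨n + m, P * Q, ?_⟩
    rw [map_mul, ← h1, ← h2]
    ring

/-- Clearing denominators. -/
theorem exists_clear (hπ : Prime π) (ht : t ≠ 0) {x : F}
    (hx : IsIntegral (Algebra.adjoin L ({t, t⁻¹} : Set F)) x) :
    ∃ n : ℕ, (algebraMap O F π * t) ^ n * x ∈ chart O t := by
  classical
  obtain ⟨P, hP, hPx⟩ := hx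
  choose n R hR using fun i : ℕ => exists_den (O := O) hπ ht (P.coeff i).2
  set m : ℕ := ∑ i ∈ Finset.range P.natDegree, n i with hm
  set s : F := (algebraMap O F π * t) ^ m with hs
  have hst : s = aeval t ((C π * X : O[X]) ^ m) := by
    rw [map_pow, map_mul, aeval_C, aeval_X]
  have hc : ∀ i < P.natDegree, ∃ Q : O[X], s * (P.coeff i : F) = aeval t Q := by
    intro i hi
    have h1 : n i ≤ m := Finset.single_le_sum (f := n) (fun _ _ => Nat.zero_le _)
      (Finset.mem_range.mpr hi)
    obtain ⟨c, hc⟩ := Nat.exists_eq_add_of_le h1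
    refine ⟨(C π * X) ^ c * R i, ?_⟩
    rw [hs, hc, pow_add, map_mul, map_pow, map_mul, aeval_C, aeval_X, ← hR]
    ring
  refine ⟨m, ?_⟩
  set Q : F[X] := (P.map (algebraMap _ F)).scaleRoots s with hQ
  have hQm : Q.Monic := (Polynomial.monic_scaleRoots_iff s).mpr (hP.map _)
  have hQx : Q.eval (s * x) = 0 := by
    have h1 : (P.map (algebraMap _ F)).eval₂ (RingHom.id F) x = 0 := by
      rw [Polynomial.eval₂_map, RingHom.id_comp]
      exact hPx
    have h2 := Polynomial.scaleRoots_eval₂_mul (p := P.map (algebraMap _ F)) (RingHom.id F)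
      (r := x) (s := s)
    rw [h1, mul_zero] at h2
    exact h2
  let f : O[X] →+* F := ((aeval t : O[X] →ₐ[O] F) : O[X] →+* F)
  have hlift : Q ∈ Polynomial.lifts f := by
    rw [Polynomial.lifts_iff_coeff_lifts]
    intro i
    rw [hQ, Polynomial.coeff_scaleRoots, Polynomial.coeff_map]
    have hdeg : (P.map (algebraMap (Algebra.adjoin L ({t, t⁻¹} : Set F)) F)).natDegree =
      P.natDegree := hP.natDegree_map _
    rw [hdeg]
    rcases lt_trichotomy i P.natDegree with hi | hi | hi
    · obtain ⟨c, hc'⟩ := hc i hi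
      obtain ⟨k, hk⟩ : ∃ k, P.natDegree - i = k + 1 := ⟨P.natDegree - i - 1, by omega⟩
      refine ⟨c * ((C π * X) ^ m) ^ k, ?_⟩
      change aeval t (c * ((C π * X) ^ m) ^ k) = _
      rw [map_mul, map_pow, ← hst, ← hc', hk, pow_succ]
      change s * (P.coeff i : F) * s ^ k = (P.coeff i : F) * (s ^ k * s)
      ring
    · subst hi
      refine ⟨1, ?_⟩
      rw [hP.coeff_natDegree, Nat.sub_self, pow_zero, mul_one, map_one, map_one]
    · refine ⟨0, ?_⟩
      rw [Polynomial.coeff_eq_zero_of_natDegree_lt hi, map_zero, map_zero, zero_mul]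
  obtain ⟨Q', hQ', -, hQ'm⟩ := Polynomial.lifts_and_degree_eq_and_monic hlift hQm
  refine ⟨Q', hQ'm, ?_⟩
  rw [← Polynomial.eval_map]
  rw [hQ']
  exact hQx

end

section Trans

variable {L E F : Type*} [Field L] [Field E] [Field F] [Algebra L E] [Algebra L F]

theorem isIntegral_of_adjoin {A : Subalgebra L F} {S : Set F} (hS : ∀ s ∈ S, IsIntegral A s)
    {y : F} (hy : IsIntegral (Algebra.adjoin L S) y) : IsIntegral A y := by
  set B : Subalgebra A F := integralClosure A F with hB
  have hle : ∀ z ∈ Algebra.adjoin L S, z ∈ B := by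
    intro z hz
    induction hz using Algebra.adjoin_induction with
    | mem x hx => exact hS x hx
    | algebraMap c => exact B.algebraMap_mem ⟨algebraMap L F c, A.algebraMap_mem c⟩
    | add x y _ _ hx hy => exact B.add_mem hx hy
    | mul x y _ _ hx hy => exact B.mul_mem hx hy
  let f : Algebra.adjoin L S →+* B :=
    { toFun := fun z => ⟨z.1, hle z.1 z.2⟩
      map_one' := rfl
      map_mul' := fun _ _ => rfl
      map_zero' := rfl
      map_add' := fun _ _ => rfl }
  obtain ⟨P, hP, hPy⟩ := hy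
  have h1 : IsIntegral B y := by
    refine ⟨P.map f, hP.map f, ?_⟩
    rw [Polynomial.eval₂_map]
    exact hPy
  exact isIntegral_trans (R := A) (A := B) y h1

theorem isIntegral_adjoin_map (g : E →ₐ[L] F) {S : Set E} {x : E}
    (hx : IsIntegral (Algebra.adjoin L S) x) : IsIntegral (Algebra.adjoin L (g '' S)) (g x) := by
  have hle : ∀ z ∈ Algebra.adjoin L S, g z ∈ Algebra.adjoin L (g '' S) := by
    intro z hz
    rw [← AlgHom.map_adjoin]
    exact ⟨z, hz, rfl⟩
  let f : Algebra.adjoin L S →+* Algebra.adjoin L (g '' S) :=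
    { toFun := fun z => ⟨g z.1, hle z.1 z.2⟩
      map_one' := Subtype.ext (map_one g)
      map_mul' := fun _ _ => Subtype.ext (map_mul g _ _)
      map_zero' := Subtype.ext (map_zero g)
      map_add' := fun _ _ => Subtype.ext (map_add g _ _) }
  obtain ⟨P, hP, hPx⟩ := hx
  refine ⟨P.map f, hP.map f, ?_⟩
  rw [Polynomial.eval₂_map]
  have h1 := congrArg g hPx
  rw [map_zero] at h1
  rw [← h1]
  change _ = (g : E →+* F) _
  rw [Polynomial.hom_eval₂]
  rfl

theorem isIntegral_adjoin_mono {S S' : Set F} (h : S ⊆ S') {x : F}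
    (hx : IsIntegral (Algebra.adjoin L S) x) : IsIntegral (Algebra.adjoin L S') x :=
  isIntegral_of_adjoin (fun s hs => by
    have h1 : s ∈ Algebra.adjoin L S' := Algebra.subset_adjoin (h hs)
    exact isIntegral_algebraMap (R := Algebra.adjoin L S') (x := ⟨s, h1⟩)) hx

end Trans

end Fermat.Agent.CA
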