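import Mathlib
import Fermat.Agent.CA.Clear
import Fermat.Agent.CA.Cross
import Fermat.Agent.CA.L2e
import Fermat.Agent.CA.Conc0
import Fermat.Agent.CA.TriC
import Fermat.Agent.CB.Main
import Fermat.Agent.CB5.Kron

/-!
The modular units: common part.
-/

set_option autoImplicit false
set_option linter.unusedSectionVars false
set_option linter.unusedVariables false

open IsLocalRing Polynomial ModularCurve IntermediateField

noncomputable section

universe u

namespace Fermat.Agent.CA

open Fermat.Agent.Geo Fermat.Agent.LG Fermat.Agent.ModFun Fermat.Agent.CB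
open Fermat.Agent.ESCore (HauptFn haupt2 haupt3)

section ZS

/-- the series over `R` attached to an integral series -/
def zS (R : Type*) [CommRing R] (A : LaurentSeries ℤ) : LaurentSeries R :=
  coeffMap (Int.castRingHom R) A

theorem coeffMap_zS {R R' : Type*} [CommRing R] [CommRing R'] (f : R →+* R')
    (A : LaurentSeries ℤ) : coeffMap f (zS R A) = zS R' A := by
  ext n
  simp only [zS, coeffMap_coeff]
  simp

theorem zS_mul {R : Type*} [CommRing R] (A B : LaurentSeries ℤ) : zS R (A * B) = zS R A * zS R B :=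
  map_mul _ _ _

theorem zS_one {R : Type*} [CommRing R] : zS R 1 = 1 := map_one _

theorem zS_pow {R : Type*} [CommRing R] (A : LaurentSeries ℤ) (n : ℕ) :
    zS R (A ^ n) = zS R A ^ n := map_pow _ _ _

theorem zS_sub {R : Type*} [CommRing R] (A B : LaurentSeries ℤ) : zS R (A - B) = zS R A - zS R B :=
  map_sub _ _ _

theorem zS_natCast {R : Type*} [CommRing R] (n : ℕ) : zS R (n : LaurentSeries ℤ) = n :=
  map_natCast _ _

theorem zS_intCast {R : Type*} [CommRing R] (n : ℤ) : zS R (n : LaurentSeries ℤ) = n :=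
  map_intCast _ _

theorem zS_qExpand {R : Type*} [CommRing R] (n : ℕ) [NeZero n] (A : LaurentSeries ℤ) :
    zS R (qExpand ℤ n A) = qExpand R n (zS R A) := coeffMap_qExpand' _ _ _

theorem zS_frob {k : Type*} [Field k] {q : ℕ} [NeZero q] [ExpChar k q] (A : LaurentSeries ℤ) :
    zS k A ^ q = qExpand k q (zS k A) := by
  rw [pow_eq_qExpand, coeffMap_zS]

variable {O L : Type*} [CommRing O] [IsDomain O] [IsDiscreteValuationRing O] [Field L] [Algebra O L]
  [IsFractionRing O L]

theorem toK_zS (A : LaurentSeries ℤ) : toK O (zS O A) = zS (ResidueField O) A :=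
  coeffMap_zS _ _

theorem toL_zS (A : LaurentSeries ℤ) : toL O L (zS O A) = zS L A := coeffMap_zS _ _

end ZS

section Integral

variable {L F : Type*} [Field L] [Field F] [Algebra L F]

theorem isIntegral_of_MRel {l : ℕ} {c : ℕ → ℤ[X]} (h : ModShape l c) {A : Subalgebra L F}
    {x y : F} (hy : y ∈ A) (hrel : MRel l c x y) : IsIntegral A x := by
  have ha : ∀ i, aeval y (c i) ∈ A := by
    intro i
    rw [Polynomial.aeval_eq_sum_range]
    exact sum_mem fun j _ => zsmul_mem (pow_mem hy j) _
  set P : A[X] := X ^ (l + 1) + ∑ i ∈ Finset.range (l + 1), C (⟨_, ha i⟩ : A) * X ^ i with hP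
  have hdeg : (∑ i ∈ Finset.range (l + 1), C (⟨_, ha i⟩ : A) * X ^ i : A[X]) ∈
      Polynomial.degreeLT A (l + 1) := by
    refine sum_mem fun i hi => ?_
    rw [Polynomial.mem_degreeLT]
    refine lt_of_le_of_lt (Polynomial.degree_C_mul_X_pow_le i _) ?_
    exact_mod_cast Finset.mem_range.mp hi
  rw [Polynomial.mem_degreeLT] at hdeg
  refine ⟨P, Polynomial.monic_X_pow_add hdeg, ?_⟩
  rw [MRel, Finset.sum_range_succ, h.top] at hrel
  rw [hP, Polynomial.eval₂_add, Polynomial.eval₂_pow, Polynomial.eval₂_X,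
    Polynomial.eval₂_finset_sum]
  rw [← hrel, map_one, one_mul, add_comm]
  congr 1
  refine Finset.sum_congr rfl fun i _ => ?_
  rw [Polynomial.eval₂_mul, Polynomial.eval₂_C, Polynomial.eval₂_pow, Polynomial.eval₂_X]
  rfl

end Integral

end Fermat.Agent.CA
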