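import Mathlib
import Fermat.Agent.CA.Main
import Fermat.Agent.CA.CuspV

/-!
Orders of the reduction along `P 0` of a function whose divisor is a multiple of `m`.
-/

set_option autoImplicit false
set_option linter.unusedSectionVars false
set_option linter.unusedVariables false

open IsLocalRing Polynomial

universe u

namespace Fermat.Agent.CA

open Fermat.Agent.Geo Fermat.Agent.LG

section

variable {O K M F : Type u} [CommRing O] [IsDomain O] [IsDiscreteValuationRing O] [CharZero O]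
  [Field K] [Field M] [Field F] [Algebra O K] [Algebra O M] [Algebra O F] [Algebra K M]
  [Algebra K F] [Algebra M F] [IsScalarTower O K M] [IsScalarTower O K F] [IsScalarTower K M F]
  [IsScalarTower O M F]
  {t : K} {π : O} [FiniteDimensional K M] [Algebra.IsSeparable K M]
  [FiniteDimensional K F] [Algebra.IsSeparable K F]
  {ht : IsParam O t} {hπ : Prime π} {q : ℕ} {c : ℕ → ℤ[X]} {C₀ : ℤ}
  {P : Fin 3 → ValuationSubring F} {w : F ≃+* F} {X₁ : F} {a1 a2 cc d : F}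

/-- the vertical part of the divisor of `h` is an `m`-th multiple -/
def Ver (P : Fin 3 → ValuationSubring F) (m : ℕ) (h : F) : Prop :=
  ∀ i, ∃ g : F, g ≠ 0 ∧ g ^ m * h ∈ P i ∧ (g ^ m * h)⁻¹ ∈ P i

theorem exists_pow_fin (T : Tri (M := M) ht hπ q c C₀ P w X₁)
    (D : NC (algebraMap K F t) π q P w a1 a2 cc d)
    {y : Ideal (chart O (algebraMap K F t))} [hym : y.IsMaximal] [hy : y.IsPrime]
    (h0 : Meets y (P 0)) {m : ℕ} (hm : 0 < m) {h : F} (hne : h ≠ 0) (hor : Hor π m h)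
    (hver : Ver P m h) : ∃ g : F, g ≠ 0 ∧ h / g ^ m ∈ locS y ∧ ¬ locM y (h / g ^ m) := by
  have hPW : ∀ W : ValuationSubring F, Over (gaussVal ht hπ) (algebraMap O K π) W →
      ∃ g : F, g ≠ 0 ∧ g ^ m * h ∈ W ∧ (g ^ m * h)⁻¹ ∈ W := fun W hW => by
    obtain ⟨i, rfl⟩ := T.sys.all W hW
    exact hver i
  by_cases hty : locM y (algebraMap K F t)
  · have hqM : locM y ((q : ℕ) : F) := locM_of_nonunits (T.sys.ov 0) h0
      (natCast_mem _ _) (T.q_nonunit 0)
    have hty' : locM y ((C₀ : F) / algebraMap K F t)⁻¹ := by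
      rw [inv_div, div_eq_mul_inv]
      exact hty.mul_right (mem_locS_of_mem (T.C0_inv_mem_chart _))
    obtain ⟨a, hLE⟩ := T.ctrip'.exists_locEq T.shape T.sys T.prime T.q_cast hqM hty' T.unif0
      T.unif2 0 h0
    exact exists_local_pow hLE h0 (T.sys.ov 0) (T.valAt 0 h0) hm hne hor hPW
  · exact exists_local_pow (NC.locEq0 T D hty h0) h0 (T.sys.ov 0) (T.valAt 0 h0) hm hne hor hPW

theorem exists_pow_inf (T : Tri (M := M) ht hπ q c C₀ P w X₁)
    {y : Ideal (chart O (algebraMap K F t⁻¹))} [hym : y.IsMaximal] [hy : y.IsPrime]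
    (hty : locM y (algebraMap K F t)⁻¹)
    (h0 : Meets y (P 0)) {m : ℕ} (hm : 0 < m) {h : F} (hne : h ≠ 0) (hor : Hor π m h)
    (hver : Ver P m h) : ∃ g : F, g ≠ 0 ∧ h / g ^ m ∈ locS y ∧ ¬ locM y (h / g ^ m) := by
  have hPW : ∀ W : ValuationSubring F, Over (gaussVal ht.inv hπ) (algebraMap O K π) W →
      ∃ g : F, g ≠ 0 ∧ g ^ m * h ∈ W ∧ (g ^ m * h)⁻¹ ∈ W := fun W hW => by
    obtain ⟨i, rfl⟩ := T.sys'.all W hW
    exact hver i
  have hqM : locM y ((q : ℕ) : F) := locM_of_nonunits (T.sys'.ov 0) h0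
    (natCast_mem _ _) (T.q_nonunit 0)
  obtain ⟨a, hLE⟩ := T.ctrip.exists_locEq T.shape T.sys' T.prime T.q_cast hqM hty T.unif0
    T.unif2 0 h0
  exact exists_local_pow hLE h0 (T.sys'.ov 0) (T.valAt' hty 0 h0) hm hne hor hPW

/-! ### valuation rings of the residue field -/

variable {k' : Type*} [Field k']

/-- the point of a chart on `P₀` attached to a valuation ring of the residue field of `P₀` -/
noncomputable def redPt {P₀ : ValuationSubring F} (ρ : P₀ →+* k') (V : ValuationSubring k') {u : F}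
    (hu : ∀ x ∈ chart O u, x ∈ P₀) (hV : ∀ x (hx : x ∈ chart O u), ρ ⟨x, hu x hx⟩ ∈ V) :
    Ideal (chart O u) :=
  (maximalIdeal V).comap ((ρ.comp
    ((chart O u).val.toRingHom.codRestrict P₀.toSubring fun x => hu x x.2)).codRestrict
      V.toSubring fun x => hV x x.2)

section Red

variable {P₀ : ValuationSubring F} {ρ : P₀ →+* k'} {V : ValuationSubring k'} {u : F}
  {hu : ∀ x ∈ chart O u, x ∈ P₀} {hV : ∀ x (hx : x ∈ chart O u), ρ ⟨x, hu x hx⟩ ∈ V}

theorem mem_redPt {x : chart O u} :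
    x ∈ redPt ρ V hu hV ↔ ρ ⟨x, hu x x.2⟩ ∈ V.nonunits := by
  rw [redPt, Ideal.mem_comap, ValuationSubring.mem_nonunits_iff_exists_mem_maximalIdeal]
  exact ⟨fun h => ⟨hV x x.2, h⟩, fun ⟨_, h⟩ => h⟩

theorem redPt_isPrime : (redPt ρ V hu hV).IsPrime := Ideal.IsPrime.comap _

theorem redPt_isMaximal {c : O} (hπ : Prime π) (hρπ : ∀ a ∈ maximalIdeal O,
      ρ ⟨algebraMap O F a, hu _ ((chart O u).algebraMap_mem a)⟩ = 0)
    (hc : ρ ⟨u - algebraMap O F c, hu _ (sub_mem (self_mem_chart u)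
      ((chart O u).algebraMap_mem c))⟩ ∈ V.nonunits) : (redPt ρ V hu hV).IsMaximal := by
  have h1 : (redPt ρ V hu hV).IsPrime := redPt_isPrime
  refine Ideal.isMaximal_of_isIntegral_of_isMaximal_comap' (chartHom u) (chartHom_isIntegral u)
    _ ?_
  let φ : O[X] →+* ResidueField O := (residue O).comp (evalRingHom c)
  have hφ : Function.Surjective φ := by
    intro a
    obtain ⟨b, rfl⟩ := residue_surjective a
    exact ⟨Polynomial.C b, by simp [φ]⟩
  have hker : (RingHom.ker φ).IsMaximal := RingHom.ker_isMaximal_of_surjective φ hφ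
  have hle : RingHom.ker φ ≤ (redPt ρ V hu hV).comap (chartHom u) := by
    intro p hp
    have hpc : p.eval c ∈ maximalIdeal O := by
      have : residue O (p.eval c) = 0 := hp
      rwa [residue_eq_zero_iff] at this
    obtain ⟨r, hr⟩ : (X - C c) ∣ p - C (p.eval c) := by
      rw [dvd_iff_isRoot, IsRoot.def, eval_sub, eval_C, sub_self]
    have hp' : p = C (p.eval c) + (X - C c) * r := by rw [← hr]; ring
    have h2 : chartHom (O := O) u p = chartHom u (C (p.eval c)) + chartHom u (X - C c) *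
        chartHom u r := by
      conv_lhs => rw [hp']
      rw [map_add, map_mul]
    rw [Ideal.mem_comap, h2]
    refine Ideal.add_mem _ ?_ (Ideal.mul_mem_right _ _ ?_)
    · rw [mem_redPt]
      have h3 : (⟨((chartHom (O := O) u (C (p.eval c)) : chart O u) : F), hu _ (Subtype.prop _)⟩ :
          P₀) = ⟨algebraMap O F (p.eval c), hu _ ((chart O u).algebraMap_mem _)⟩ :=
        Subtype.ext (aeval_C u _)
      rw [h3, hρπ _ hpc]
      exact zero_mem_nonunits V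
    · rw [mem_redPt]
      have h3 : (⟨((chartHom (O := O) u (X - C c) : chart O u) : F), hu _ (Subtype.prop _)⟩ :
          P₀) = ⟨u - algebraMap O F c, hu _ (sub_mem (self_mem_chart u)
      ((chart O u).algebraMap_mem c))⟩ := Subtype.ext (by
        change aeval u (X - C c) = _
        rw [map_sub, aeval_X, aeval_C])
      rw [h3]
      exact hc
  rw [← hker.eq_of_le (Ideal.comap_ne_top _ h1.ne_top) hle]
  exact hker

theorem redPt_meets (hρ : ∀ x : P₀, (x : F) ∈ P₀.nonunits → ρ x = 0) :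
    Meets (redPt ρ V hu hV) P₀ := by
  intro x hx
  rw [mem_redPt, hρ _ hx]
  exact zero_mem_nonunits V

/-- local units at the point reduce to units -/
theorem redPt_unit [hy : (redPt ρ V hu hV).IsPrime] {v : F} (hv : v ∈ locS (redPt ρ V hu hV))
    (hvM : ¬ locM (redPt ρ V hu hV) v) (hvP : v ∈ P₀) : ρ ⟨v, hvP⟩ ∈ V ∧ (ρ ⟨v, hvP⟩)⁻¹ ∈ V := by
  obtain ⟨d, hd, hc⟩ := hv
  have hd1 : ρ ⟨d, hu _ d.2⟩ ∉ V.nonunits := fun h => hd (mem_redPt.mpr h)
  have hdV : ρ ⟨d, hu _ d.2⟩ ∈ V := hV _ d.2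
  have hc1 : ρ ⟨(d : F) * v, hu _ hc⟩ ∉ V.nonunits := by
    intro h
    exact hvM ⟨d, hd, ⟨_, hc⟩, mem_redPt.mpr h, rfl⟩
  have hcV : ρ ⟨(d : F) * v, hu _ hc⟩ ∈ V := hV _ hc
  have e : ρ ⟨(d : F) * v, hu _ hc⟩ = ρ ⟨d, hu _ d.2⟩ * ρ ⟨v, hvP⟩ := by
    rw [← map_mul]; rfl
  have hdi := inv_mem_of_notMem_nonunits hd1
  have hci := inv_mem_of_notMem_nonunits hc1
  have hd0 : ρ ⟨d, hu _ d.2⟩ ≠ 0 := fun h => hd1 (h ▸ zero_mem_nonunits V)
  have hv' : ρ ⟨v, hvP⟩ = (ρ ⟨d, hu _ d.2⟩)⁻¹ * ρ ⟨(d : F) * v, hu _ hc⟩ := by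
    rw [e, inv_mul_cancel_left₀ hd0]
  rw [hv']
  refine ⟨V.mul_mem _ _ hdi hcV, ?_⟩
  rw [mul_inv, inv_inv]
  exact V.mul_mem _ _ hdV hci

end Red

/-- elements of a chart along an overring reduce into a valuation ring which contains the
reductions of the constants and of the parameter -/
theorem red_mem_of_chart {P₀ : ValuationSubring F} {ρ : P₀ →+* k'} {V : ValuationSubring k'}
    {u : F} (hu : ∀ x ∈ chart O u, x ∈ P₀)
    (hO : ∀ a : O, ρ ⟨algebraMap O F a, hu _ ((chart O u).algebraMap_mem a)⟩ ∈ V)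
    (huV : ρ ⟨u, hu _ (self_mem_chart u)⟩ ∈ V) (x : F) (hx : x ∈ chart O u) :
    ρ ⟨x, hu x hx⟩ ∈ V := by
  let j : chart O u →+* k' := ρ.comp
    ((chart O u).val.toRingHom.codRestrict P₀.toSubring fun x => hu x x.2)
  have hj : ∀ p : O[X], j (chartHom u p) ∈ V := by
    intro p
    induction p using Polynomial.induction_on' with
    | add p q hp hq => rw [map_add, map_add]; exact V.add_mem _ _ hp hq
    | monomial n a =>
      rw [← C_mul_X_pow_eq_monomial, map_mul, map_mul, map_pow, map_pow]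
      refine V.mul_mem _ _ ?_ (pow_mem ?_ _)
      · have e : j (chartHom u (C a)) =
          ρ ⟨algebraMap O F a, hu _ ((chart O u).algebraMap_mem a)⟩ := by
          change ρ _ = ρ _
          congr 1
          exact Subtype.ext (aeval_C u a)
        rw [e]
        exact hO a
      · have e : j (chartHom u (X : O[X])) = ρ ⟨u, hu _ (self_mem_chart u)⟩ := by
          change ρ _ = ρ _
          congr 1
          exact Subtype.ext (aeval_X u)
        rw [e]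
        exact huV
  have h1 : RingHom.IsIntegralElem (j.comp (chartHom u)) (j ⟨x, hx⟩) := by
    obtain ⟨p, hp, hpx⟩ := chartHom_isIntegral u ⟨x, hx⟩
    refine ⟨p, hp, ?_⟩
    rw [← hom_eval₂, hpx, map_zero]
  exact mem_valuationSubring_of_isIntegralElem V (j.comp (chartHom u)) hj h1

/-- **Orders.** -/
theorem ord_dvd_fin (T : Tri (M := M) ht hπ q c C₀ P w X₁)
    (D : NC (algebraMap K F t) π q P w a1 a2 cc d) {ρ : P 0 →+* k'}
    (hρ : ∀ x : P 0, (x : F) ∈ (P 0).nonunits → ρ x = 0) {V : ValuationSubring k'}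
    (hO : ∀ (a : O) (h : algebraMap O F a ∈ P 0), ρ ⟨_, h⟩ ∈ V) {b : O}
    (hb : ∀ h : algebraMap K F t - algebraMap O F b ∈ P 0, ρ ⟨_, h⟩ ∈ V.nonunits)
    {m : ℕ} (hm : 0 < m) {h : F} (h0 : h ∈ P 0) (h0' : h⁻¹ ∈ P 0) (hne : h ≠ 0)
    (hor : Hor π m h) (hver : Ver P m h) :
    ∃ g : P 0, (g : F) ≠ 0 ∧ (g : F)⁻¹ ∈ P 0 ∧
      ρ ⟨h, h0⟩ / ρ g ^ m ∈ V ∧ (ρ ⟨h, h0⟩ / ρ g ^ m)⁻¹ ∈ V := by
  have hu : ∀ x ∈ chart O (algebraMap K F t), x ∈ P 0 := fun x hx =>
    chart_mem_over (T.sys.ov 0) hx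
  have hbV : ρ ⟨algebraMap K F t, hu _ (self_mem_chart _)⟩ ∈ V := by
    have h1 := V.nonunits_le (hb (sub_mem (hu _ (self_mem_chart _))
      (hu _ ((chart O _).algebraMap_mem b))))
    have h2 := V.add_mem _ _ h1 (hO b (hu _ ((chart O _).algebraMap_mem b)))
    rw [← map_add] at h2
    have e : (⟨algebraMap K F t - algebraMap O F b, sub_mem (hu _ (self_mem_chart _))
      (hu _ ((chart O _).algebraMap_mem b))⟩ : P 0) + ⟨algebraMap O F b,
        hu _ ((chart O _).algebraMap_mem b)⟩ = ⟨algebraMap K F t, hu _ (self_mem_chart _)⟩ :=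
      Subtype.ext (sub_add_cancel _ _)
    rwa [e] at h2
  have hV : ∀ x (hx : x ∈ chart O (algebraMap K F t)), ρ ⟨x, hu x hx⟩ ∈ V :=
    red_mem_of_chart hu (fun a => hO a _) hbV
  have hπP : ∀ a ∈ maximalIdeal O, algebraMap O F a ∈ (P 0).nonunits := by
    intro a ha
    obtain ⟨c, rfl⟩ : π ∣ a := by
      rw [hπ.irreducible.maximalIdeal_eq, Ideal.mem_span_singleton] at ha
      exact ha
    rw [map_mul, mul_comm]
    exact mul_mem_nonunits (T.O_mem 0 c) (T.π_nonunit 0)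
  set y := redPt ρ V hu hV with hy
  haveI : y.IsPrime := redPt_isPrime
  haveI : y.IsMaximal := redPt_isMaximal (c := b) hπ (fun a ha => hρ _ (hπP a ha)) (hb _)
  have hmeet : Meets y (P 0) := redPt_meets hρ
  obtain ⟨g, hg0, hg1, hg2⟩ := exists_pow_fin T D hmeet hm hne hor hver
  obtain ⟨-, v2, v3⟩ := meets_notMem (T.sys.ov 0) hmeet hg1 hg2
  have v1 := locS_le_over (T.sys.ov 0) hmeet hg1
  have hgm : g ^ m ∈ P 0 := by
    have e : g ^ m = h * (h / g ^ m)⁻¹ := by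
      rw [inv_div, mul_div_cancel₀ _ hne]
    rw [e]
    exact (P 0).mul_mem _ _ h0 v2
  have hgm' : (g⁻¹) ^ m ∈ P 0 := by
    have e : (g⁻¹) ^ m = (h / g ^ m) * h⁻¹ := by
      rw [inv_pow]; field_simp
    rw [e]
    exact (P 0).mul_mem _ _ v1 h0'
  have hgP := mem_of_pow_mem' hm hgm
  have hgP' := mem_of_pow_mem' hm hgm'
  refine ⟨⟨g, hgP⟩, hg0, hgP', ?_⟩
  have h1 := redPt_unit hg1 hg2 v1
  have e : ρ ⟨h, h0⟩ / ρ ⟨g, hgP⟩ ^ m = ρ ⟨h / g ^ m, v1⟩ := by
    have hρg : ρ ⟨g, hgP⟩ ≠ 0 := by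
      intro h2
      have h3 : (⟨g, hgP⟩ : P 0) * ⟨g⁻¹, hgP'⟩ = 1 := Subtype.ext (mul_inv_cancel₀ hg0)
      have h4 := congrArg ρ h3
      rw [map_mul, h2, zero_mul, map_one] at h4
      exact zero_ne_one h4
    rw [div_eq_iff (pow_ne_zero _ hρg), ← map_pow, ← map_mul]
    congr 1
    exact Subtype.ext (div_mul_cancel₀ _ (pow_ne_zero _ hg0)).symm
  rw [e]
  exact h1

theorem ord_dvd_inf (T : Tri (M := M) ht hπ q c C₀ P w X₁) {ρ : P 0 →+* k'}
    (hρ : ∀ x : P 0, (x : F) ∈ (P 0).nonunits → ρ x = 0) {V : ValuationSubring k'}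
    (hO : ∀ (a : O) (h : algebraMap O F a ∈ P 0), ρ ⟨_, h⟩ ∈ V)
    (hb : ∀ h : algebraMap K F t⁻¹ ∈ P 0, ρ ⟨_, h⟩ ∈ V.nonunits)
    {m : ℕ} (hm : 0 < m) {h : F} (h0 : h ∈ P 0) (h0' : h⁻¹ ∈ P 0) (hne : h ≠ 0)
    (hor : Hor π m h) (hver : Ver P m h) :
    ∃ g : P 0, (g : F) ≠ 0 ∧ (g : F)⁻¹ ∈ P 0 ∧
      ρ ⟨h, h0⟩ / ρ g ^ m ∈ V ∧ (ρ ⟨h, h0⟩ / ρ g ^ m)⁻¹ ∈ V := by
  have hu : ∀ x ∈ chart O (algebraMap K F t⁻¹), x ∈ P 0 := fun x hx =>
    chart_mem_over (T.sys'.ov 0) hx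
  have hV : ∀ x (hx : x ∈ chart O (algebraMap K F t⁻¹)), ρ ⟨x, hu x hx⟩ ∈ V :=
    red_mem_of_chart hu (fun a => hO a _) (V.nonunits_le (hb _))
  have hπP : ∀ a ∈ maximalIdeal O, algebraMap O F a ∈ (P 0).nonunits := by
    intro a ha
    obtain ⟨c, rfl⟩ : π ∣ a := by
      rw [hπ.irreducible.maximalIdeal_eq, Ideal.mem_span_singleton] at ha
      exact ha
    rw [map_mul, mul_comm]
    exact mul_mem_nonunits (T.O_mem 0 c) (T.π_nonunit 0)
  set y := redPt ρ V hu hV with hy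
  haveI : y.IsPrime := redPt_isPrime
  haveI : y.IsMaximal := redPt_isMaximal (c := 0) hπ (fun a ha => hρ _ (hπP a ha)) (by
    have e : (⟨algebraMap K F t⁻¹ - algebraMap O F 0, hu _ (sub_mem (self_mem_chart _)
      ((chart O _).algebraMap_mem 0))⟩ : P 0) = ⟨algebraMap K F t⁻¹, hu _ (self_mem_chart _)⟩ :=
      Subtype.ext (by simp)
    rw [e]
    exact hb _)
  have hmeet : Meets y (P 0) := redPt_meets hρ
  have hty : locM y (algebraMap K F t)⁻¹ := by
    have h1 : (⟨_, self_mem_chart _⟩ : chart O (algebraMap K F t⁻¹)) ∈ y :=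
      mem_redPt.mpr (hb _)
    have := locM_of_mem h1
    rwa [← map_inv₀]
  obtain ⟨g, hg0, hg1, hg2⟩ := exists_pow_inf T hty hmeet hm hne hor hver
  obtain ⟨-, v2, v3⟩ := meets_notMem (T.sys'.ov 0) hmeet hg1 hg2
  have v1 := locS_le_over (T.sys'.ov 0) hmeet hg1
  have hgm : g ^ m ∈ P 0 := by
    have e : g ^ m = h * (h / g ^ m)⁻¹ := by
      rw [inv_div, mul_div_cancel₀ _ hne]
    rw [e]
    exact (P 0).mul_mem _ _ h0 v2
  have hgm' : (g⁻¹) ^ m ∈ P 0 := by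
    have e : (g⁻¹) ^ m = (h / g ^ m) * h⁻¹ := by
      rw [inv_pow]; field_simp
    rw [e]
    exact (P 0).mul_mem _ _ v1 h0'
  have hgP := mem_of_pow_mem' hm hgm
  have hgP' := mem_of_pow_mem' hm hgm'
  refine ⟨⟨g, hgP⟩, hg0, hgP', ?_⟩
  have h1 := redPt_unit hg1 hg2 v1
  have e : ρ ⟨h, h0⟩ / ρ ⟨g, hgP⟩ ^ m = ρ ⟨h / g ^ m, v1⟩ := by
    have hρg : ρ ⟨g, hgP⟩ ≠ 0 := by
      intro h2
      have h3 : (⟨g, hgP⟩ : P 0) * ⟨g⁻¹, hgP'⟩ = 1 := Subtype.ext (mul_inv_cancel₀ hg0)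
      have h4 := congrArg ρ h3
      rw [map_mul, h2, zero_mul, map_one] at h4
      exact zero_ne_one h4
    rw [div_eq_iff (pow_ne_zero _ hρg), ← map_pow, ← map_mul]
    congr 1
    exact Subtype.ext (div_mul_cancel₀ _ (pow_ne_zero _ hg0)).symm
  rw [e]
  exact h1

end

end Fermat.Agent.CA
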